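import Mathlib

/-!
# P4 / Layer D, D-BR1 : the bridge `groupCohomology A n ≃+ Ext^n_{Rep k G}(k, A)`

A cocycle `c : Gⁿ → A` gives a morphism out of the `n`-th term of the bar resolution
(`Rep.freeLiftLEquiv`), hence a class in `Ext` via `ProjectiveResolution.extMk`.
-/

set_option autoImplicit false

open CategoryTheory Abelian groupCohomology Rep

namespace Fermat.Agent.CFT.Duality

noncomputable section

/-- `Rep k G` (everything in `Type`) has `Ext` groups in `Type`. -/
instance hasExtRep (k G : Type) [CommRing k] [Group G] : HasExt.{0} (Rep.{0} k G) :=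
  hasExt_of_enoughProjectives.{0} (Rep.{0} k G)

/-! ### Elementwise homology in `ModuleCat` -/

section Homology

universe u

variable {k : Type u} [CommRing k] {ι : Type*} {c : ComplexShape ι}
  (K : HomologicalComplex (ModuleCat.{u} k) c) (n : ι)

theorem homologyπ_surjective : Function.Surjective (K.homologyπ n) :=
  (ModuleCat.epi_iff_surjective (K.homologyπ n)).1 inferInstance

theorem homologyπ_eq_zero_iff (x : K.cycles n) :
    K.homologyπ n x = 0 ↔ ∃ y : K.X (c.prev n), K.toCycles (c.prev n) n y = x := by
  have hT : (ShortComplex.mk (K.toCycles (c.prev n) n) (K.homologyπ n) (by simp)).Exact :=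
    ShortComplex.exact_of_g_is_cokernel _ (K.homologyIsCokernel (c.prev n) n rfl)
  constructor
  · intro h
    exact (ShortComplex.moduleCat_exact_iff _).1 hT x h
  · rintro ⟨y, rfl⟩
    rw [← ModuleCat.comp_apply, K.toCycles_comp_homologyπ]
    rfl

end Homology

/-! ### `extMk` in degree `0` -/

section ExtMkZero

universe w v u

variable {C : Type u} [Category.{v} C] [Abelian C] [HasExt.{w} C]
  {X Y : C} (R : ProjectiveResolution X)

open CochainComplex HomComplex in
theorem extMk_zero_deg_eq_zero_iff (f : R.complex.X 0 ⟶ Y) (hf : R.complex.d 1 0 ≫ f = 0) :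
    R.extMk f 1 rfl hf = 0 ↔ f = 0 := by
  constructor
  · intro h
    rw [← R.extEquivCohomologyClass.apply_eq_iff_eq,
      ProjectiveResolution.extEquivCohomologyClass_extMk,
      ProjectiveResolution.extEquivCohomologyClass_zero, CohomologyClass.mk_eq_zero_iff,
      Cocycle.toSingleMk_mem_coboundaries_iff _ _ _ _ _ 1 (by lia)] at h
    obtain ⟨g, hg⟩ := h
    have hz : Limits.IsZero (R.cochainComplex.X 1) :=
      CochainComplex.isZero_of_isStrictlyLE _ 0 _ (by lia)
    rw [hz.eq_of_src g 0, Limits.comp_zero] at hg
    rw [← cancel_epi (R.cochainComplexXIso (-(0 : ℕ)) 0 rfl).hom, ← hg, Limits.comp_zero]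
  · rintro rfl
    exact R.extMk_zero 1 rfl

end ExtMkZero

variable {k G : Type} [CommRing k] [Group G]

/-! ### Cochains as morphisms out of the bar resolution -/

/-- the morphism out of the `n`-th term of the bar resolution attached to a cochain -/
def cochainLift (A : Rep k G) (n : ℕ) :
    ((Fin n → G) → A) ≃ₗ[k] ((barResolution k G).complex.X n ⟶ A) :=
  (freeLiftLEquiv k G (Fin n → G) A).symm

theorem d_comp_cochainLift (A : Rep k G) (n : ℕ) (c : (Fin n → G) → A) :
    (barResolution k G).complex.d (n + 1) n ≫ cochainLift A n c =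
      cochainLift A (n + 1) (inhomogeneousCochains.d A n c) := by
  have h : inhomogeneousCochains.d A n c =
      (freeLiftLEquiv k G (Fin (n + 1) → G) A)
        ((barComplex k G).d (n + 1) n ≫ (freeLiftLEquiv k G (Fin n → G) A).symm c) := by
    rw [inhomogeneousCochains.d_eq]
    rfl
  rw [h]
  exact ((freeLiftLEquiv k G (Fin (n + 1) → G) A).symm_apply_apply _).symm

theorem cochainLift_apply_single (A : Rep k G) (n : ℕ) (c : (Fin n → G) → A) (g : Fin n → G) :
    (cochainLift A n c).hom (Finsupp.single g (MonoidAlgebra.single (1 : G) (1 : k))) = c g := by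
  have h := (freeLiftLEquiv k G (Fin n → G) A).apply_symm_apply c
  exact congrFun h g

theorem cochainLift_symm_apply (A : Rep k G) (n : ℕ)
    (ψ : (barResolution k G).complex.X n ⟶ A)
    (g : Fin n → G) :
    (cochainLift A n).symm ψ g = ψ.hom (Finsupp.single g (MonoidAlgebra.single (1 : G) (1 : k))) := rfl

theorem cochainLift_comp {A B : Rep k G} (φ : A ⟶ B) (n : ℕ) (c : (Fin n → G) → A) :
    cochainLift A n c ≫ φ = cochainLift B n (fun g => φ.hom (c g)) := by
  apply (cochainLift B n).symm.injective
  rw [LinearEquiv.symm_apply_apply]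
  funext g
  rw [cochainLift_symm_apply]
  show φ.hom ((cochainLift A n c).hom _) = φ.hom (c g)
  rw [cochainLift_apply_single]

/-! ### From cocycles to `Ext` -/

theorem d_iCocycles (A : Rep k G) (n : ℕ) (x : cocycles A n) :
    inhomogeneousCochains.d A n (iCocycles A n x) = 0 := by
  have h := (inhomogeneousCochains A).iCycles_d n (n + 1)
  rw [inhomogeneousCochains.d_def] at h
  have := congrArg (fun f => f.hom x) h
  simpa using this

theorem barResolution_d_comp_cochainLift (A : Rep k G) (n : ℕ) (x : cocycles A n) :
    (barResolution k G).complex.d (n + 1) n ≫ cochainLift A n (iCocycles A n x) = 0 := by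
  rw [d_comp_cochainLift, d_iCocycles, map_zero]

/-- the class in `Ext` of a cocycle -/
def cocycleToExt (A : Rep k G) (n : ℕ) : cocycles A n →+ Ext (Rep.trivial k G k) A n where
  toFun x := (barResolution k G).extMk (cochainLift A n (iCocycles A n x)) (n + 1) rfl
    (barResolution_d_comp_cochainLift A n x)
  map_zero' := by
    have : cochainLift A n (iCocycles A n (0 : cocycles A n)) = 0 := by
      rw [map_zero, map_zero]
    simp only [this]
    exact (barResolution k G).extMk_zero (n + 1) rfl
  map_add' x y := by
    rw [ProjectiveResolution.add_extMk]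
    congr 1
    rw [map_add, map_add]

theorem cocycleToExt_apply (A : Rep k G) (n : ℕ) (x : cocycles A n) :
    cocycleToExt A n x = (barResolution k G).extMk (cochainLift A n (iCocycles A n x)) (n + 1) rfl
      (barResolution_d_comp_cochainLift A n x) := rfl

theorem iCocycles_injective (A : Rep k G) (n : ℕ) : Function.Injective (iCocycles A n) :=
  (ModuleCat.mono_iff_injective (iCocycles A n)).1 inferInstance

theorem iCocycles_toCocycles (A : Rep k G) (i j : ℕ) (y : (inhomogeneousCochains A).X i) :
    iCocycles A j (toCocycles A i j y) = (inhomogeneousCochains A).d i j y := by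
  rw [← ModuleCat.comp_apply, HomologicalComplex.toCycles_i]

theorem cocycleToExt_eq_zero_iff (A : Rep k G) (n : ℕ) (x : cocycles A n) :
    cocycleToExt A n x = 0 ↔
      ∃ y : (inhomogeneousCochains A).X ((ComplexShape.up ℕ).prev n),
        toCocycles A ((ComplexShape.up ℕ).prev n) n y = x := by
  rw [cocycleToExt_apply]
  rcases n with _ | p
  · rw [extMk_zero_deg_eq_zero_iff]
    constructor
    · intro h
      have h0 : iCocycles A 0 x = 0 := by
        have := (cochainLift A 0).injective (h.trans (map_zero _).symm)
        exact this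
      refine ⟨0, ?_⟩
      apply iCocycles_injective
      rw [map_zero, map_zero, h0]
    · rintro ⟨y, rfl⟩
      rw [iCocycles_toCocycles]
      have : (inhomogeneousCochains A).d ((ComplexShape.up ℕ).prev 0) 0 = 0 :=
        (inhomogeneousCochains A).shape _ _ (by simp)
      rw [this]
      simp
  · rw [(barResolution k G).extMk_eq_zero_iff _ _ _ _ p rfl]
    have hprev : (ComplexShape.up ℕ).prev (p + 1) = p := by simp
    generalize (ComplexShape.up ℕ).prev (p + 1) = i at hprev
    have hprev' : p = i := hprev.symm
    subst hprev'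
    constructor
    · rintro ⟨g, hg⟩
      refine ⟨(cochainLift A p).symm g, ?_⟩
      apply iCocycles_injective
      rw [iCocycles_toCocycles, inhomogeneousCochains.d_def]
      apply (cochainLift A (p + 1)).injective
      rw [← d_comp_cochainLift, LinearEquiv.apply_symm_apply, hg]
    · rintro ⟨y, rfl⟩
      refine ⟨cochainLift A p y, ?_⟩
      rw [d_comp_cochainLift, iCocycles_toCocycles, inhomogeneousCochains.d_def]

/-! ### Descent to cohomology -/

theorem π_surjective (A : Rep k G) (n : ℕ) : Function.Surjective (groupCohomology.π A n) :=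
  homologyπ_surjective (inhomogeneousCochains A) n

theorem π_eq_zero_iff (A : Rep k G) (n : ℕ) (x : cocycles A n) :
    groupCohomology.π A n x = 0 ↔
      ∃ y : (inhomogeneousCochains A).X ((ComplexShape.up ℕ).prev n),
        toCocycles A ((ComplexShape.up ℕ).prev n) n y = x :=
  homologyπ_eq_zero_iff (inhomogeneousCochains A) n x

theorem cocycleToExt_eq_zero_iff_π (A : Rep k G) (n : ℕ) (x : cocycles A n) :
    cocycleToExt A n x = 0 ↔ groupCohomology.π A n x = 0 := by
  rw [cocycleToExt_eq_zero_iff, π_eq_zero_iff]

/-- the projection onto cohomology as an additive map -/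
def πAdd (A : Rep k G) (n : ℕ) : cocycles A n →+ groupCohomology A n :=
  (groupCohomology.π A n).hom.toAddMonoidHom

theorem πAdd_apply (A : Rep k G) (n : ℕ) (x : cocycles A n) :
    πAdd A n x = groupCohomology.π A n x := rfl

theorem πAdd_surjective (A : Rep k G) (n : ℕ) : Function.Surjective (πAdd A n) :=
  π_surjective A n

theorem ker_πAdd_le (A : Rep k G) (n : ℕ) : (πAdd A n).ker ≤ (cocycleToExt A n).ker := by
  intro x hx
  rw [AddMonoidHom.mem_ker] at hx ⊢
  exact (cocycleToExt_eq_zero_iff_π A n x).2 hx

/-- the comparison map `H^n(G, A) → Ext^n(k, A)` -/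
def cohToExtHom (A : Rep k G) (n : ℕ) : groupCohomology A n →+ Ext (Rep.trivial k G k) A n :=
  (πAdd A n).liftOfRightInverse (Function.surjInv (πAdd_surjective A n))
    (Function.rightInverse_surjInv (πAdd_surjective A n)) ⟨cocycleToExt A n, ker_πAdd_le A n⟩

theorem cohToExtHom_π (A : Rep k G) (n : ℕ) (x : cocycles A n) :
    cohToExtHom A n (groupCohomology.π A n x) = cocycleToExt A n x :=
  AddMonoidHom.liftOfRightInverse_comp_apply (πAdd A n) _ _ ⟨cocycleToExt A n, ker_πAdd_le A n⟩ x

theorem cohToExtHom_injective (A : Rep k G) (n : ℕ) : Function.Injective (cohToExtHom A n) := by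
  rw [injective_iff_map_eq_zero]
  intro x hx
  obtain ⟨z, rfl⟩ := π_surjective A n x
  rw [cohToExtHom_π] at hx
  exact (cocycleToExt_eq_zero_iff_π A n z).1 hx

theorem cohToExtHom_surjective (A : Rep k G) (n : ℕ) : Function.Surjective (cohToExtHom A n) := by
  intro α
  obtain ⟨f, hf, rfl⟩ := (barResolution k G).extMk_surjective α (n + 1) rfl
  have hc : inhomogeneousCochains.d A n ((cochainLift A n).symm f) = 0 := by
    apply (cochainLift A (n + 1)).injective
    rw [← d_comp_cochainLift, LinearEquiv.apply_symm_apply, hf, map_zero]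
  refine ⟨groupCohomology.π A n (cocyclesMk ((cochainLift A n).symm f) hc), ?_⟩
  rw [cohToExtHom_π, cocycleToExt_apply]
  congr 1
  rw [iCocycles_mk, LinearEquiv.apply_symm_apply]

/-- **D-BR1**: `H^n(G, A) ≃ Ext^n_{Rep k G}(k, A)`. -/
def cohToExt (A : Rep k G) (n : ℕ) : groupCohomology A n ≃+ Ext (Rep.trivial k G k) A n :=
  AddEquiv.ofBijective (cohToExtHom A n) ⟨cohToExtHom_injective A n, cohToExtHom_surjective A n⟩

theorem cohToExt_π (A : Rep k G) (n : ℕ) (x : cocycles A n) :
    cohToExt A n (groupCohomology.π A n x) =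
      (barResolution k G).extMk (cochainLift A n (iCocycles A n x)) (n + 1) rfl
        (barResolution_d_comp_cochainLift A n x) :=
  cohToExtHom_π A n x

/-! ### Naturality in the coefficients -/

theorem iCocycles_cocyclesMap {H : Type} [Group H] (f : H →* G) {A : Rep k G} {B : Rep k H}
    (φ : Rep.res f A ⟶ B) (n : ℕ) (x : cocycles A n) :
    iCocycles B n (cocyclesMap f φ n x) = fun g : Fin n → H => φ.hom (iCocycles A n x (f ∘ g)) := by
  have h := HomologicalComplex.cyclesMap_i (cochainsMap f φ) n
  have h2 := congrArg (fun t => t.hom x) h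
  exact h2

theorem cohToExt_naturality {A B : Rep k G} (φ : A ⟶ B) (n : ℕ) (x : groupCohomology A n) :
    cohToExt B n (groupCohomology.map (MonoidHom.id G) φ n x) =
      (cohToExt A n x).comp (Ext.mk₀ φ) (add_zero n) := by
  obtain ⟨z, rfl⟩ := π_surjective A n x
  rw [groupCohomology.π_map_apply, cohToExt_π, cohToExt_π,
    ProjectiveResolution.extMk_comp_mk₀]
  congr 1
  rw [cochainLift_comp, iCocycles_cocyclesMap]
  rfl

end

end Fermat.Agent.CFT.Duality
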