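import Fermat.Agent.Lib.CFT.Duality.ExtAdj
import Fermat.Agent.Lib.CFT.Duality.Bridge1

/-!
# P4 / Layer D : change of group on `Ext` of representations

For a group homomorphism `f : H →* G`, `a : A' ⟶ res f A` and `b : res f B ⟶ B'` we define
`extPull f a b : Ext^r_G(A, B) →+ Ext^r_H(A', B')`, `ξ ↦ b ∘ res_f(ξ) ∘ a`, and prove functoriality.
-/

set_option autoImplicit false
set_option linter.unusedSectionVars false

open CategoryTheory Abelian Limits

namespace Fermat.Agent.CFT.Duality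

noncomputable section

/- The instance `hasExtRep` (`Rep k G` has `Ext` groups in `Type`) is declared in `Bridge1.lean`. -/

variable {k : Type} [CommRing k] {G H K : Type} [Group G] [Group H] [Group K]

/-- Change of group on `Ext`. -/
def extPull (f : H →* G) {A B : Rep k G} {A' B' : Rep k H} (a : A' ⟶ Rep.res f A)
    (b : Rep.res f B ⟶ B') (r : ℕ) : Ext A B r →+ Ext A' B' r where
  toFun ξ := (Ext.mk₀ a).comp
    ((ξ.mapExactFunctor (Rep.resFunctor f)).comp (Ext.mk₀ b) (add_zero r)) (zero_add r)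
  map_zero' := by simp
  map_add' x y := by simp [Ext.mapExactFunctor_add]

theorem extPull_apply (f : H →* G) {A B : Rep k G} {A' B' : Rep k H} (a : A' ⟶ Rep.res f A)
    (b : Rep.res f B ⟶ B') (r : ℕ) (ξ : Ext A B r) :
    extPull f a b r ξ = (Ext.mk₀ a).comp
      ((ξ.mapExactFunctor (Rep.resFunctor f)).comp (Ext.mk₀ b) (add_zero r)) (zero_add r) := rfl

/-- `mapExactFunctor` along `resFunctor (MonoidHom.id G)` is the identity. -/
theorem mapExactFunctor_res_id {X Y : Rep k G} {n : ℕ} (ξ : Ext X Y n) :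
    ξ.mapExactFunctor (Rep.resFunctor (MonoidHom.id G)) = ξ := by
  induction n generalizing X with
  | zero =>
    obtain ⟨f, rfl⟩ := (Ext.mk₀_bijective X Y).2 ξ
    rw [Ext.mapExactFunctor_mk₀]
    rfl
  | succ n hn =>
    let P : ProjectivePresentation X := Classical.arbitrary _
    let S := ShortComplex.mk _ _ (kernel.condition P.f)
    have hS : S.ShortExact := { exact := ShortComplex.exact_kernel P.f }
    have : Projective S.X₂ := P.projective
    obtain ⟨ζ, rfl⟩ := Ext.contravariant_sequence_exact₃ hS Y ξ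
      (Ext.eq_zero_of_projective _) (add_comm 1 n)
    rw [Ext.mapExactFunctor_comp, Ext.mapExactFunctor_extClass, hn ζ]
    rfl

/-- `mapExactFunctor` along a composite of restrictions. -/
theorem mapExactFunctor_res_comp (f : H →* G) (g : K →* H) {X Y : Rep k G} {n : ℕ}
    (ξ : Ext X Y n) :
    ξ.mapExactFunctor (Rep.resFunctor (f.comp g)) =
      (ξ.mapExactFunctor (Rep.resFunctor f)).mapExactFunctor (Rep.resFunctor g) :=
  mapExactFunctor_comp_functor (Rep.resFunctor f) (Rep.resFunctor g) ξ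

theorem extPull_id {A B : Rep k G} (r : ℕ) (ξ : Ext A B r) :
    extPull (MonoidHom.id G) (𝟙 A) (𝟙 B) r ξ = ξ := by
  rw [extPull_apply, mapExactFunctor_res_id]
  exact (Ext.mk₀_id_comp _).trans (Ext.comp_mk₀_id _)

theorem extPull_comp (f : H →* G) (g : K →* H) {A B : Rep k G} {A' B' : Rep k H}
    {A'' B'' : Rep k K} (a : A' ⟶ Rep.res f A) (b : Rep.res f B ⟶ B')
    (a' : A'' ⟶ Rep.res g A') (b' : Rep.res g B' ⟶ B'') (r : ℕ) (ξ : Ext A B r) :
    extPull g a' b' r (extPull f a b r ξ) =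
      extPull (f.comp g) (a' ≫ (Rep.resFunctor g).map a) ((Rep.resFunctor g).map b ≫ b') r ξ := by
  simp only [extPull_apply, Ext.mapExactFunctor_comp, Ext.mapExactFunctor_mk₀,
    mapExactFunctor_res_comp, ← Ext.mk₀_comp_mk₀]
  simp only [Ext.comp_assoc_of_third_deg_zero, Ext.comp_assoc_of_second_deg_zero]

/-- Compatibility of `extPull` with the Yoneda product. -/
theorem extPull_comp_ext (f : H →* G) {A B C : Rep k G} {A' B' C' : Rep k H}
    (a : A' ⟶ Rep.res f A) (b : Rep.res f B ⟶ B') (b₁ : B' ⟶ Rep.res f B) (hb : b ≫ b₁ = 𝟙 _)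
    (c : Rep.res f C ⟶ C') {r s t : ℕ} (ξ : Ext A B r) (η : Ext B C s) (h : r + s = t) :
    (extPull f a b r ξ).comp (extPull f b₁ c s η) h = extPull f a c t (ξ.comp η h) := by
  simp only [extPull_apply, Ext.mapExactFunctor_comp]
  rw [Ext.comp_assoc _ _ _ (zero_add r) h (by omega),
    Ext.comp_assoc _ _ _ (add_zero r) (zero_add s) (by omega),
    ← Ext.comp_assoc (Ext.mk₀ b) (Ext.mk₀ b₁) _ (zero_add 0) (zero_add s) (by omega),
    Ext.mk₀_comp_mk₀, hb, Ext.mk₀_id_comp]
  congr 1
  exact (Ext.comp_assoc _ _ _ _ _ (by omega)).symm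

theorem extPull_congr {f f' : H →* G} (hf : f = f') {A B : Rep k G} {A' B' : Rep k H}
    (a : A' ⟶ Rep.res f A) (b : Rep.res f B ⟶ B') (a' : A' ⟶ Rep.res f' A)
    (b' : Rep.res f' B ⟶ B') (ha : ∀ x, a.hom x = a'.hom x) (hb : ∀ x, b.hom x = b'.hom x)
    (r : ℕ) (ξ : Ext A B r) : extPull f a b r ξ = extPull f' a' b' r ξ := by
  subst hf
  have h1 : a = a' := by ext x; exact ha x
  have h2 : b = b' := by ext x; exact hb x
  rw [h1, h2]

end

end Fermat.Agent.CFT.Duality
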