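import Fermat.Agent.Lib.CFT.Duality.Tower
import Fermat.Agent.Lib.CFT.Duality.ExtPull

/-!
# P4 / Layer D : `Ext` groups of a tower

For tower modules `A` (cartesian) and `B`:  `ExtLim A B r := colim_j Ext^r(A_j, B_j)`.
-/

set_option autoImplicit false
set_option linter.unusedSectionVars false

open CategoryTheory Abelian

namespace Fermat.Agent.CFT.Duality

noncomputable section

namespace TowerModule

variable {k : Type} [CommRing k] {T : Tower}

/-- All transition maps are isomorphisms: the module is inflated from any of its levels. -/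
class IsCartesian (A : TowerModule k T) : Prop where
  isIso : ∀ {i j : T.ι} (h : i ≤ j), IsIso (A.φ h)

attribute [instance] IsCartesian.isIso

variable (k) in
/-- The constant tower module `k`. -/
def triv (T : Tower) : TowerModule k T where
  C i := Rep.trivial k (T.G i) k
  φ _ := 𝟙 (Rep.trivial k _ k)
  φ_refl _ _ := rfl
  φ_comp _ _ _ := rfl

instance (T : Tower) : (triv k T).IsCartesian :=
  ⟨fun {_ j} _ => show IsIso (𝟙 (Rep.trivial k (T.G j) k)) from inferInstance⟩

/-- A morphism of tower modules. -/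
structure Hom (A B : TowerModule k T) where
  /-- the morphism at each level -/
  f : ∀ i, A.C i ⟶ B.C i
  comm : ∀ {i j : T.ι} (h : i ≤ j),
    A.φ h ≫ f j = (Rep.resFunctor (T.π h)).map (f i) ≫ B.φ h

section

variable (A : TowerModule k T) [A.IsCartesian]

lemma inv_φ_φ {i j : T.ι} (h : i ≤ j) (x : A.C i) : (inv (A.φ h)).hom ((A.φ h).hom x) = x := by
  have := IsIso.hom_inv_id (A.φ h)
  exact congrArg (fun f => f.hom x) this

lemma φ_inv_φ {i j : T.ι} (h : i ≤ j) (y : A.C j) : (A.φ h).hom ((inv (A.φ h)).hom y) = y := by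
  have := IsIso.inv_hom_id (A.φ h)
  exact congrArg (fun f => f.hom y) this

lemma φ_injective {i j : T.ι} (h : i ≤ j) : Function.Injective (A.φ h).hom := by
  intro x y hxy
  rw [← A.inv_φ_φ h x, ← A.inv_φ_φ h y, hxy]

end

variable (A B : TowerModule k T) [A.IsCartesian]

/-- Transition maps of the system `j ↦ Ext^r(A_j, B_j)`. -/
def extTrans (r : ℕ) {i j : T.ι} (h : i ≤ j) :
    Ext (A.C i) (B.C i) r →+ Ext (A.C j) (B.C j) r :=
  extPull (T.π h) (inv (A.φ h)) (B.φ h) r

lemma π_refl' (i : T.ι) : T.π (le_refl i) = MonoidHom.id (T.G i) := by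
  ext g; exact T.π_refl i g

lemma π_comp' {i j l : T.ι} (h : i ≤ j) (h' : j ≤ l) :
    (T.π h).comp (T.π h') = T.π (h.trans h') := by
  ext g; exact T.π_comp h h' g

lemma extTrans_refl (r : ℕ) (i : T.ι) (ξ : Ext (A.C i) (B.C i) r) :
    extTrans A B r (le_refl i) ξ = ξ := by
  unfold extTrans
  rw [extPull_congr (π_refl' i) (inv (A.φ (le_refl i))) (B.φ (le_refl i)) (𝟙 (A.C i))
    (𝟙 (B.C i)) ?_ ?_ r ξ, extPull_id]
  · intro x
    apply A.φ_injective (le_refl i)
    rw [A.φ_inv_φ, A.φ_refl]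
    rfl
  · intro x
    rw [B.φ_refl]
    rfl

lemma extTrans_trans (r : ℕ) {i j l : T.ι} (h : i ≤ j) (h' : j ≤ l) (ξ : Ext (A.C i) (B.C i) r) :
    extTrans A B r h' (extTrans A B r h ξ) = extTrans A B r (h.trans h') ξ := by
  unfold extTrans
  rw [extPull_comp]
  refine extPull_congr (π_comp' h h') _ _ _ _ ?_ ?_ r ξ
  · intro x
    apply A.φ_injective (h.trans h')
    rw [A.φ_inv_φ, ← A.φ_comp h h']
    change (A.φ h').hom ((A.φ h).hom ((inv (A.φ h)).hom ((inv (A.φ h')).hom x))) = x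
    rw [A.φ_inv_φ, A.φ_inv_φ]
  · intro x
    exact B.φ_comp h h' x

instance (r : ℕ) : DirectedSystem (fun j : T.ι => Ext (A.C j) (B.C j) r)
    (fun _ _ h => (extTrans A B r h)) where
  map_self i x := extTrans_refl A B r i x
  map_map _ _ _ h h' x := extTrans_trans A B r h h' x

/-- `colim_j Ext^r(A_j, B_j)`. -/
def ExtLim (r : ℕ) : Type :=
  DirectLimit (fun j : T.ι => Ext (A.C j) (B.C j) r) (fun _ _ h => extTrans A B r h)

instance (r : ℕ) : AddCommGroup (ExtLim A B r) := by unfold ExtLim; infer_instance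

/-- The canonical map of a level into the colimit. -/
def ExtLim.of (r : ℕ) (j : T.ι) : Ext (A.C j) (B.C j) r →+ ExtLim A B r where
  toFun ξ := (⟦⟨j, ξ⟩⟧ : DirectLimit (fun j : T.ι => Ext (A.C j) (B.C j) r)
    (fun _ _ h => extTrans A B r h))
  map_zero' := (DirectLimit.zero_def (G := fun j : T.ι => Ext (A.C j) (B.C j) r)
    (f := fun _ _ h => extTrans A B r h) j).symm
  map_add' x y := (DirectLimit.add_def (G := fun j : T.ι => Ext (A.C j) (B.C j) r)
    (f := fun _ _ h => extTrans A B r h) j x y).symm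

lemma ExtLim.of_def (r : ℕ) (j : T.ι) (ξ : Ext (A.C j) (B.C j) r) :
    ExtLim.of A B r j ξ = (⟦⟨j, ξ⟩⟧ : DirectLimit (fun j : T.ι => Ext (A.C j) (B.C j) r)
      (fun _ _ h => extTrans A B r h)) := rfl

lemma ExtLim.of_trans (r : ℕ) {i j : T.ι} (h : i ≤ j) (ξ : Ext (A.C i) (B.C i) r) :
    ExtLim.of A B r j (extTrans A B r h ξ) = ExtLim.of A B r i ξ :=
  (DirectLimit.eq_of_le (F := fun j : T.ι => Ext (A.C j) (B.C j) r)
    (f := fun _ _ h => extTrans A B r h) ⟨i, ξ⟩ j h).symm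

lemma ExtLim.exists_of (r : ℕ) (x : ExtLim A B r) : ∃ j ξ, ExtLim.of A B r j ξ = x := by
  obtain ⟨j, ξ, h⟩ := DirectLimit.exists_eq_mk (F := fun j : T.ι => Ext (A.C j) (B.C j) r)
    (f := fun _ _ h => extTrans A B r h) x
  exact ⟨j, ξ, h.symm⟩

lemma ExtLim.of_eq_zero (r : ℕ) {i : T.ι} {ξ : Ext (A.C i) (B.C i) r}
    (h : ExtLim.of A B r i ξ = 0) : ∃ j, ∃ hij : i ≤ j, extTrans A B r hij ξ = 0 :=
  (DirectLimit.exists_eq_zero (G := fun j : T.ι => Ext (A.C j) (B.C j) r)
    (f := fun _ _ h => extTrans A B r h) ⟨i, ξ⟩).1 h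

lemma ExtLim.of_eq_of (r : ℕ) {i j : T.ι} {ξ : Ext (A.C i) (B.C i) r}
    {η : Ext (A.C j) (B.C j) r} (h : ExtLim.of A B r i ξ = ExtLim.of A B r j η) :
    ∃ l, ∃ (hil : i ≤ l) (hjl : j ≤ l), extTrans A B r hil ξ = extTrans A B r hjl η :=
  Quotient.exact h

end TowerModule

end

end Fermat.Agent.CFT.Duality
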