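import Fermat.Agent.Lib.CFT.Duality.CohLim
import Fermat.Agent.Lib.CFT.Duality.ExtLim

/-!
# P4 / Layer D : functoriality of `CohLim`, `cohLoc`, `ShaCoh` in the tower module

A morphism of tower modules `F : B.Hom B'` induces `CohLim B n → CohLim B' n`, compatible with the
localisation maps; if `F` is a levelwise isomorphism, it induces `ShaCoh B ≃ ShaCoh B'`.
-/

set_option autoImplicit false

open CategoryTheory groupCohomology

namespace Fermat.Agent.CFT.Duality

noncomputable section

variable {k : Type} [CommRing k] {T : Tower}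

namespace TowerModule

variable {B B' : TowerModule k T} (F : B.Hom B') (n : ℕ)

/-- The map induced on the cohomology of a level. -/
def Hom.cohMap (i : T.ι) : B.cohSys n i →ₗ[k] B'.cohSys n i :=
  (groupCohomology.map (MonoidHom.id (T.G i)) (F.f i) n).hom

lemma Hom.cohMap_comm {i j : T.ι} (h : i ≤ j) :
    (B'.cohSysMap n i j h).comp (F.cohMap n i) = (F.cohMap n j).comp (B.cohSysMap n i j h) := by
  have h1 := groupCohomology.map_comp (MonoidHom.id (T.G i)) (T.π h) (F.f i) (B'.φ h) n
  have h2 := groupCohomology.map_comp (T.π h) (MonoidHom.id (T.G j)) (B.φ h) (F.f j) n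
  have hφ : ((Rep.resFunctor (T.π h)).map (F.f i) ≫ B'.φ h).hom.toLinearMap
      = ((Rep.resFunctor (MonoidHom.id (T.G j))).map (B.φ h) ≫ F.f j).hom.toLinearMap := by
    have := congrArg (fun f => f.hom.toLinearMap) (F.comm h)
    exact this.symm
  have h3 : groupCohomology.map ((MonoidHom.id (T.G i)).comp (T.π h))
      ((Rep.resFunctor (T.π h)).map (F.f i) ≫ B'.φ h) n
      = groupCohomology.map ((T.π h).comp (MonoidHom.id (T.G j)))
        ((Rep.resFunctor (MonoidHom.id (T.G j))).map (B.φ h) ≫ F.f j) n :=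
    groupCohomology.map_congr rfl hφ n
  unfold Hom.cohMap cohSysMap
  refine Eq.trans (congrArg ModuleCat.Hom.hom h1).symm ?_
  refine Eq.trans ?_ (congrArg ModuleCat.Hom.hom h2)
  exact congrArg ModuleCat.Hom.hom h3

open Classical in
/-- The map induced on the colimits. -/
def Hom.cohLimMap : B.CohLim n →ₗ[k] B'.CohLim n :=
  Module.DirectLimit.map (fun i => F.cohMap n i) (fun i j h => (F.cohMap_comm n h).symm)

open Classical in
@[simp] lemma Hom.cohLimMap_of (i : T.ι) (x : B.cohSys n i) :
    F.cohLimMap n (CohLim.of B n i x) = CohLim.of B' n i (F.cohMap n i x) :=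
  Module.DirectLimit.map_apply_of _ _ _

/-- Restriction of a morphism to a set of levels. -/
def Hom.filter (P : T.ι → Prop) (hne : ∃ i, P i)
    (hdir : ∀ i j, P i → P j → ∃ l, P l ∧ i ≤ l ∧ j ≤ l) :
    (B.filter P hne hdir).Hom (B'.filter P hne hdir) where
  f i := F.f i.1
  comm h := F.comm (i := _) (j := _) h

/-- Restriction of a morphism to a compatible family of subgroups. -/
def Hom.resSub (D : T.SubgroupFamily) : (B.resSub D).Hom (B'.resSub D) where
  f i := (Rep.resFunctor (D.D i).subtype).map (F.f i)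
  comm {i j} h := by
    have := congrArg (fun f => (Rep.resFunctor (D.D j).subtype).map f) (F.comm h)
    exact this

/-! ## Compatibility with localisation -/

section Loc

variable (P : T.ι → Prop) (hne : ∃ i, P i)
  (hdir : ∀ i j, P i → P j → ∃ l, P l ∧ i ≤ l ∧ j ≤ l) (D : T.SubgroupFamily)

lemma Hom.resSubMap_cohMap (j : T.ι) (y : B.cohSys n j) :
    resSubMap D B' n j (F.cohMap n j y) = (F.resSub D).cohMap n j (resSubMap D B n j y) := by
  have h1 := groupCohomology.map_comp (MonoidHom.id (T.G j)) (D.D j).subtype (F.f j)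
    (𝟙 (Rep.res (D.D j).subtype (B'.C j))) n
  have h2 := groupCohomology.map_comp (D.D j).subtype (MonoidHom.id (D.D j))
    (𝟙 (Rep.res (D.D j).subtype (B.C j))) ((F.resSub D).f j) n
  have h3 : groupCohomology.map ((MonoidHom.id (T.G j)).comp (D.D j).subtype)
      ((Rep.resFunctor (D.D j).subtype).map (F.f j) ≫ 𝟙 (Rep.res (D.D j).subtype (B'.C j))) n
      = groupCohomology.map ((D.D j).subtype.comp (MonoidHom.id (D.D j)))
        ((Rep.resFunctor (MonoidHom.id (D.D j))).map (𝟙 (Rep.res (D.D j).subtype (B.C j)))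
          ≫ (F.resSub D).f j) n :=
    groupCohomology.map_congr rfl rfl n
  have h4 : (resSubMap D B' n j).comp (F.cohMap n j)
      = ((F.resSub D).cohMap n j).comp (resSubMap D B n j) := by
    unfold Hom.cohMap resSubMap
    refine Eq.trans (congrArg ModuleCat.Hom.hom h1).symm ?_
    refine Eq.trans ?_ (congrArg ModuleCat.Hom.hom h2)
    exact congrArg ModuleCat.Hom.hom h3
  exact LinearMap.congr_fun h4 y

/-- The induced maps commute with the localisation maps. -/
theorem Hom.cohLoc_cohLimMap (x : (B.filter P hne hdir).CohLim n) :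
    cohLoc P hne hdir D B' n ((F.filter P hne hdir).cohLimMap n x)
      = (F.resSub D).cohLimMap n (cohLoc P hne hdir D B n x) := by
  obtain ⟨j, y, rfl⟩ := CohLim.exists_of _ _ x
  rw [Hom.cohLimMap_of, cohLoc_of, cohLoc_of, Hom.cohLimMap_of]
  exact congrArg _ (F.resSubMap_cohMap n D j.1 y)

end Loc

/-! ## Levelwise isomorphisms -/

section Iso

variable [hF : ∀ i, IsIso (F.f i)]

/-- The isomorphism induced on the cohomology of a level. -/
def Hom.cohEquiv (i : T.ι) : B.cohSys n i ≃ₗ[k] B'.cohSys n i :=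
  ((groupCohomology.functor k (T.G i) n).mapIso (asIso (F.f i))).toLinearEquiv

lemma Hom.cohEquiv_apply (i : T.ι) (x : B.cohSys n i) : F.cohEquiv n i x = F.cohMap n i x := rfl

open Classical in
/-- The isomorphism induced on the colimits. -/
def Hom.cohLimEquiv : B.CohLim n ≃ₗ[k] B'.CohLim n :=
  Module.DirectLimit.congr (fun i => F.cohEquiv n i)
    (fun i j h => by
      ext x
      exact (LinearMap.congr_fun (F.cohMap_comm n h) x).symm)

open Classical in
lemma Hom.cohLimEquiv_apply (x : B.CohLim n) : F.cohLimEquiv n x = F.cohLimMap n x := by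
  obtain ⟨j, y, rfl⟩ := CohLim.exists_of _ _ x
  rw [Hom.cohLimMap_of]
  exact Module.DirectLimit.congr_apply_of _ _ _

end Iso

end TowerModule

/-- A levelwise isomorphism of tower modules induces a bijection of Tate–Shafarevich groups. -/
def shaCohCongr {B B' : TowerModule k T} (F : B.Hom B') [hF : ∀ i, IsIso (F.f i)]
    (P : T.ι → Prop) (hne : ∃ i, P i)
    (hdir : ∀ i j, P i → P j → ∃ l, P l ∧ i ≤ l ∧ j ≤ l) {Q : Type} (D : Q → T.SubgroupFamily)
    (n : ℕ) : ShaCoh P hne hdir B n D ≃ ShaCoh P hne hdir B' n D :=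
  haveI : ∀ i, IsIso ((F.filter P hne hdir).f i) := fun i => hF i.1
  haveI : ∀ (q : Q) i, IsIso ((F.resSub (D q)).f i) := fun q i => by
    change IsIso ((Rep.resFunctor ((D q).D i).subtype).map (F.f i))
    haveI := hF i
    exact Functor.map_isIso _ _
  ((F.filter P hne hdir).cohLimEquiv n).toEquiv.subtypeEquiv (fun x => by
    rw [mem_ShaCoh_iff, mem_ShaCoh_iff]
    refine forall_congr' fun q => ?_
    change _ ↔ cohLoc P hne hdir (D q) B' n ((F.filter P hne hdir).cohLimEquiv n x) = 0
    rw [TowerModule.Hom.cohLimEquiv_apply, TowerModule.Hom.cohLoc_cohLimMap,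
      ← TowerModule.Hom.cohLimEquiv_apply]
    exact (map_eq_zero_iff _ ((F.resSub (D q)).cohLimEquiv n).injective).symm)

end

end Fermat.Agent.CFT.Duality
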