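import Fermat.Agent.Lib.CFT.Duality.LevelTower
import Fermat.Agent.Lib.CFT.Duality.ExtLim

/-!
# P4 / Layer D : `PTData` = CONTRACT C (+B) → D

Everything layers C (global, helper6) and B (local, helper7) must provide to run Poitou–Tate over a base
level `L₀` (an `S`-level containing `μ_p`).  Pure definition (nothing is assumed without proof).
-/

set_option autoImplicit false

open CategoryTheory

namespace Fermat.Agent.CFT.Duality

noncomputable section

open TowerModule

/-! ## The data that layers B and C must provide -/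

variable (p : ℕ) [Fact p.Prime] (S : Finset Nat.Primes) (L₀ : Level) (h₀ : L₀.IsS S)

/-- Everything needed from class field theory to run Poitou–Tate over the base level `L₀`
(an `S`-level containing `μ_p`).  Global modules live over `towerS S L₀ h₀` (the `S`-levels),
local modules over `towerLoc q L₀` (ALL levels).
Think: `E L = O_{L,S}^×`, `J q L = (L ⊗ ℚ_q)^×`, `C L = C_S(L)` (helper6's `CS S L`),
`Lq q L = L_w^×` for the place `w | q` singled out by the Prelude embedding, `μ L = μ_p`. -/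
structure PTData where
  /-- the formation module `C_S(L)` -/
  C : TowerModule ℤ (towerS S L₀ h₀)
  /-- global `p`-class formation (weak form) -/
  cf : PClassFormation p (towerS S L₀ h₀) C
  /-- global existence theorem for exponent `p` (norm form; all levels contain `μ_p`) -/
  ex : PExistence p (towerS S L₀ h₀) C
  /-- the `S`-units -/
  E : TowerModule ℤ (towerS S L₀ h₀)
  /-- the semi-local multiplicative groups, one for each `q ∈ S` -/
  J : ↥S → TowerModule ℤ (towerS S L₀ h₀)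
  /-- `E → J_q` -/
  eJ : ∀ q, E.Hom (J q)
  /-- `J_q → C` -/
  jC : ∀ q, (J q).Hom C
  /-- `0 → E → ⊕_q J_q` -/
  eJ_injective : ∀ (L : (towerS S L₀ h₀).ι) (e : E.C L), (∀ q, ((eJ q).f L).hom e = 0) → e = 0
  /-- `E → ⊕_q J_q → C` is exact -/
  exact_EJC : ∀ (L : (towerS S L₀ h₀).ι) (x : ∀ q, (J q).C L),
    (∑ q, ((jC q).f L).hom (x q) = 0) ↔ ∃ e : E.C L, ∀ q, ((eJ q).f L).hom e = x q
  /-- `Cl_S(L) = coker(⊕ J_q → C)` is finite -/
  cl_finite : ∀ L : (towerS S L₀ h₀).ι, ∃ F : Finset (C.C L), ∀ c : C.C L,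
    ∃ f ∈ F, ∃ x : ∀ q, (J q).C L, c = f + ∑ q, ((jC q).f L).hom (x q)
  /-- the `p`-part of `Cl_S(L)` capitulates in a higher `S`-level (ELEMENTARY since `p ∈ S`:
  adjoin `p^k`-th roots, see message of helper9 to lead) -/
  cl_capitulation : ∀ L : (towerS S L₀ h₀).ι, ∃ (L' : (towerS S L₀ h₀).ι) (h : L ≤ L'),
    ∀ c : C.C L, (∃ (n : ℕ) (x : ∀ q, (J q).C L), p ^ n • c = ∑ q, ((jC q).f L).hom (x q)) →
      ∃ x' : ∀ q, (J q).C L', (C.φ h).hom c = ∑ q, ((jC q).f L').hom (x' q)
  /-- the local multiplicative groups, over ALL levels -/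
  Lq : ∀ q : ↥S, TowerModule ℤ (towerLoc q.1 L₀)
  /-- the local `S`-tower at `q` is a (WEAK) `p`-class formation, with invariants INDUCED from `cf`
  (B delivers `PFundamental` on the full local tower `towerLoc q L₀`; restrict it with
  `PFundamental.filter` + `pinf_towerLocS` and apply `PFundamental.toPClassFormation`) -/
  cfLoc : ∀ q : ↥S, PClassFormation p (towerLocS S q.1 L₀ h₀)
    ((Lq q).filter (isSPred S L₀) (isSPred_nonempty h₀) (isSPred_directed S L₀))
  /-- inflation to arbitrary levels is injective on `H²(D_q(L), L_w^×)[p]`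
  (Hilbert 90 + inflation-restriction, Layer A6) -/
  loc_infl_injective : ∀ (q : ↥S) {L L' : (towerLoc q.1 L₀).ι} (h : L ≤ L')
    (x : groupCohomology ((Lq q).atSub L ⊤) 2), p • x = 0 → (Lq q).inflMap h ⊤ 2 x = 0 → x = 0
  /-- the projection onto the `w`-component `(L ⊗ ℚ_q)^× → L_w^×`, equivariant for `D_q(L)`
  (`w` the place of `L` above `q` singled out by the Prelude embedding).
  NOTE: the INCLUSIONS of the `w`-components do not commute with the transition maps (a place may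
  split in a higher level), the projections do. -/
  pr : ∀ (q : ↥S) (L : (towerS S L₀ h₀).ι),
    Rep.res (decomp q.1 L.1.1).subtype ((J q).C L) ⟶ (Lq q).C L.1
  /-- `pr` is compatible with the transition maps -/
  pr_comm : ∀ (q : ↥S) {L L' : (towerS S L₀ h₀).ι} (h : L ≤ L') (x : (J q).C L),
    (pr q L').hom (((J q).φ h).hom x) =
      ((Lq q).φ (i := L.1) (j := L'.1) h).hom ((pr q L).hom x)
  /-- `(L ⊗ ℚ_q)^× = Coind_{D_q(L)}^{G_L} L_w^×`, injectivity of `x ↦ (g ↦ pr (g x))` -/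
  pr_injective : ∀ (q : ↥S) (L : (towerS S L₀ h₀).ι) (x : (J q).C L),
    (∀ g : (towerS S L₀ h₀).G L, (pr q L).hom (((J q).C L).ρ g x) = 0) → x = 0
  /-- `(L ⊗ ℚ_q)^× = Coind_{D_q(L)}^{G_L} L_w^×`, surjectivity of `x ↦ (g ↦ pr (g x))` -/
  pr_surjective : ∀ (q : ↥S) (L : (towerS S L₀ h₀).ι) (f : L.1.1.G → (Lq q).C L.1),
    (∀ (d : decomp q.1 L.1.1) (g : L.1.1.G), f ((d : L.1.1.G) * g) = ((Lq q).C L.1).ρ d (f g)) →
    ∃ x : (J q).C L, ∀ g : L.1.1.G, (pr q L).hom (((J q).C L).ρ g x) = f g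
  /-- the local invariants are induced from the global ones: for `z ∈ H²(G_L, (L ⊗ ℚ_q)^×)[p]`,
  the global invariant of its image in `H²(G_L, C_S(L))` is the local invariant of its Shapiro
  image `pr_* (res_{D_q(L)} z) ∈ H²(D_q(L), L_w^×)` -/
  inv_compat : ∀ (q : ↥S) (L : (towerS S L₀ h₀).ι) (z : groupCohomology ((J q).C L) 2),
    p • z = 0 →
    cf.inv L ⊤ ((groupCohomology.map (⊤ : Subgroup ((towerS S L₀ h₀).G L)).subtype
        (𝟙 (C.atSub L ⊤)) 2).hom
        ((groupCohomology.map (MonoidHom.id ((towerS S L₀ h₀).G L)) ((jC q).f L) 2).hom z)) =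
      (cfLoc q).inv L ⊤ ((groupCohomology.map
        (⊤ : Subgroup ((towerLocS S q.1 L₀ h₀).G L)).subtype
        (𝟙 (((Lq q).filter (isSPred S L₀) (isSPred_nonempty h₀) (isSPred_directed S L₀)).atSub L ⊤))
        2).hom ((groupCohomology.map (decomp q.1 L.1.1).subtype (pr q L) 2).hom z))
  /-- `μ_p`, over all levels -/
  μ : TowerModule ℤ (levelTower L₀)
  μ_cart : μ.IsCartesian
  μ_card : ∀ L, Nat.card (μ.C L) = p
  /-- the Galois group acts on `μ_p` through the mod `p` cyclotomic character -/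
  μ_cyclo : ∀ (L : (levelTower L₀).ι) (σ : GQ) (m : μ.C L),
    (μ.C L).ρ (L.1.proj σ) m = (((ExtCitation.cycloChar p σ : (ZMod p)ˣ) : ZMod p).val : ℤ) • m
  /-- `μ_p → O_{L,S}^×` -/
  κ : (μ.filter (isSPred S L₀) (isSPred_nonempty h₀) (isSPred_directed S L₀)).Hom E
  κ_injective : ∀ L, Function.Injective (κ.f L).hom
  κ_surjective : ∀ L (e : E.C L), p • e = 0 → ∃ m, (κ.f L).hom m = e
  /-- `O_S^×` is `p`-divisible in the limit over the `S`-levels -/
  E_pdiv : ∀ (L : (towerS S L₀ h₀).ι) (e : E.C L),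
    ∃ (L' : (towerS S L₀ h₀).ι) (h : L ≤ L') (e' : E.C L'), p • e' = (E.φ h).hom e
  /-- `μ_p → L_w^×` -/
  κloc : ∀ q : ↥S, (μ.resSub (decompFamily q.1 L₀)).Hom (Lq q)
  κloc_injective : ∀ q L, Function.Injective ((κloc q).f L).hom
  κloc_surjective : ∀ q L (e : (Lq q).C L), p • e = 0 → ∃ m, ((κloc q).f L).hom m = e
  /-- `ℚ̄_q^×` is `p`-divisible (limit over ALL levels) -/
  L_pdiv : ∀ (q : ↥S) (L : (towerLoc q.1 L₀).ι) (e : (Lq q).C L),
    ∃ (L' : (towerLoc q.1 L₀).ι) (h : L ≤ L') (e' : (Lq q).C L'), p • e' = ((Lq q).φ h).hom e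
  /-- compatibility of the two Kummer maps -/
  κ_compat : ∀ (q : ↥S) (L : (towerS S L₀ h₀).ι) (m : μ.C L.1),
    (pr q L).hom (((eJ q).f L).hom ((κ.f L).hom m)) = ((κloc q).f L.1).hom m

attribute [instance] PTData.μ_cart

end

end Fermat.Agent.CFT.Duality
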