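import Fermat.Agent.Lib.CFT.Bridge.Cyclo
import Fermat.Agent.Lib.CFT.Tower.Contract

/-!
# P4 / Layer D (D-PINF-G): `p^∞` divides the order of `G_S`

* `inertia_fixes_root_of_unity_gen` : inertia at `q` fixes the roots of unity of order prime to `q`;
* `Level.natCard_G` : `|Gal(F/ℚ)| = [F : ℚ]` for a level;
* `cycloLevel n` : the level `ℚ(ζ_n)`, of degree `φ(n)`, unramified outside the primes dividing `n`;
* `exists_level_pow_dvd_card_ker` : above every level `L` there is a level `L'` (an `S`-level if
  `L` is one and `p ∈ S`) such that `p ^ n` divides `[L' : L]`.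
-/

set_option autoImplicit false

open ExtCitation

namespace Fermat.Agent.CFT

namespace Pinf

section general

variable {L : Type*} [Field L] {K : Type*} [Field K] [Algebra K L]

/-- Inertia at a prime `q` fixes the roots of unity of order prime to `q`. -/
theorem inertia_fixes_root_of_unity_gen (A : ValuationSubring L) {n q : ℕ} (hn : 0 < n)
    (hnq : Nat.Coprime n q) (hA : A.LiesOverPrime q) (σ : L ≃ₐ[K] L)
    (hσ : σ ∈ A.inertiaSubgroupIn K) {t : L} (ht : t ^ n = 1) : σ t = t := by
  rw [Bridge.mem_inertiaSubgroupIn_iff] at hσ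
  have htA : t ∈ A := Bridge.mem_valuationSubring_of_pow_eq_one A hn ht
  have hst : (σ t) ^ n = 1 := by rw [← map_pow, ht, map_one]
  have hsA : σ t ∈ A := Bridge.mem_valuationSubring_of_pow_eq_one A hn hst
  set t' : A := ⟨t, htA⟩ with ht'
  set s' : A := ⟨σ t, hsA⟩ with hs'
  have ht'p : t' ^ n = 1 := Subtype.ext ht
  have hs'p : s' ^ n = 1 := Subtype.ext hst
  have hres : IsLocalRing.residue A s' = IsLocalRing.residue A t' := by
    have h1 : s' - t' ∈ IsLocalRing.maximalIdeal A :=
      (A.valuation_lt_one_iff _).mpr (hσ.2 t htA)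
    have h2 : IsLocalRing.residue A (s' - t') = 0 := (IsLocalRing.residue_eq_zero_iff _).mpr h1
    rw [map_sub, sub_eq_zero] at h2
    exact h2
  have hqres : IsLocalRing.residue A (q : A) = 0 := by
    obtain ⟨hqA, hqm⟩ := (ValuationSubring.mem_nonunits_iff_exists_mem_maximalIdeal).mp hA
    have : (q : A) = ⟨(q : L), hqA⟩ := Subtype.ext (by simp)
    rw [this]
    exact (IsLocalRing.residue_eq_zero_iff _).mpr hqm
  have htt : t' * t' ^ (n - 1) = 1 := by rw [← pow_succ', Nat.sub_add_cancel hn, ht'p]
  set u : A := s' * t' ^ (n - 1) with hu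
  have hup : u ^ n = 1 := by
    rw [hu, mul_pow, hs'p, one_mul, ← pow_mul, mul_comm, pow_mul, ht'p, one_pow]
  have hures : IsLocalRing.residue A u = 1 := by
    rw [hu, map_mul, hres, ← map_mul, htt, map_one]
  have hu1 : u = 1 := by
    by_contra hne
    have hgeom : (u - 1) * ∑ i ∈ Finset.range n, u ^ i = 0 := by
      rw [mul_geom_sum, hup, sub_self]
    have hsum : ∑ i ∈ Finset.range n, u ^ i = 0 := by
      rcases mul_eq_zero.mp hgeom with h | h
      · exact absurd (sub_eq_zero.mp h) hne
      · exact h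
    have := congrArg (IsLocalRing.residue A) hsum
    rw [map_sum, map_zero] at this
    simp only [map_pow, hures, one_pow, Finset.sum_const, Finset.card_range, nsmul_eq_mul,
      mul_one] at this
    exact Bridge.residue_natCast_ne_zero_of_coprime A hnq hqres (by rw [map_natCast]; exact this)
  have : s' = t' := by
    calc s' = s' * (t' * t' ^ (n - 1)) := by rw [htt, mul_one]
      _ = u * t' := by rw [hu]; ring
      _ = t' := by rw [hu1, one_mul]
  exact congrArg Subtype.val this

end general

section generic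

variable {k K : Type*} [Field k] [Field K] [Algebra k K] [IsGalois k K]

/-- The fixing subgroup of `k(ζ_n)` has index `φ(n)` when the cyclotomic polynomial is
irreducible. -/
theorem index_fixingSubgroup_adjoin_primitiveRoot {n : ℕ} [NeZero n] {ζ : K}
    (hζ : IsPrimitiveRoot ζ n) (hirr : Irreducible (Polynomial.cyclotomic n k)) :
    (IntermediateField.adjoin k {ζ}).fixingSubgroup.index = n.totient := by
  rw [← IntermediateField.finrank_eq_fixingSubgroup_index]
  haveI := hζ.intermediateField_adjoin_isCyclotomicExtension k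
  exact IsCyclotomicExtension.finrank _ hirr

/-- `k(ζ_n) / k` is finite Galois. -/
theorem finiteDimensional_isGalois_adjoin_primitiveRoot {n : ℕ} [NeZero n] {ζ : K}
    (hζ : IsPrimitiveRoot ζ n) :
    FiniteDimensional k (IntermediateField.adjoin k {ζ}) ∧
      IsGalois k (IntermediateField.adjoin k {ζ}) := by
  haveI := hζ.intermediateField_adjoin_isCyclotomicExtension k
  exact ⟨IsCyclotomicExtension.finiteDimensional {n} k _, IsCyclotomicExtension.isGalois {n} k _⟩

end generic

/-- `|Gal(F/ℚ)|` is the index of `Gal(ℚ̄/F)`. -/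
lemma Level.natCard_G (L : Level) : Nat.card L.G = L.N.index := (Subgroup.index_eq_card L.N).symm

/-- A primitive `n`-th root of unity in `ℚ̄`. -/
noncomputable def zetaQbar (n : ℕ) [NeZero n] : Qbar :=
  (HasEnoughRootsOfUnity.exists_primitiveRoot Qbar n).choose

lemma zetaQbar_spec (n : ℕ) [NeZero n] : IsPrimitiveRoot (zetaQbar n) n :=
  (HasEnoughRootsOfUnity.exists_primitiveRoot Qbar n).choose_spec

/-- The level `ℚ(ζ_n)`. -/
noncomputable def cycloLevel (n : ℕ) [NeZero n] : Level :=
  @FiniteGaloisIntermediateField.mk ℚ Qbar _ _ _ (IntermediateField.adjoin ℚ {zetaQbar n})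
    (finiteDimensional_isGalois_adjoin_primitiveRoot (zetaQbar_spec n)).1
    (finiteDimensional_isGalois_adjoin_primitiveRoot (zetaQbar_spec n)).2

lemma cycloLevel_natCard (n : ℕ) [NeZero n] : Nat.card (cycloLevel n).G = n.totient := by
  rw [Level.natCard_G]
  exact index_fixingSubgroup_adjoin_primitiveRoot (zetaQbar_spec n)
    (Polynomial.cyclotomic.irreducible_rat (NeZero.pos n))

/-- An automorphism lies in `Gal(ℚ̄/ℚ(ζ_N))` iff it fixes `ζ_N`. -/
lemma mem_cycloLevel_N_iff (N : ℕ) [NeZero N] (σ : GQ) :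
    σ ∈ (cycloLevel N).N ↔ σ (zetaQbar N) = zetaQbar N := by
  change σ ∈ (IntermediateField.adjoin ℚ {zetaQbar N}).fixingSubgroup ↔ _
  rw [IntermediateField.mem_fixingSubgroup_iff]
  constructor
  · intro h
    exact h _ (IntermediateField.subset_adjoin ℚ _ rfl)
  · intro hfix x hx
    have hle : IntermediateField.adjoin ℚ {zetaQbar N} ≤ IntermediateField.fixedField
        (Subgroup.zpowers σ) := by
      rw [IntermediateField.adjoin_le_iff]
      rintro y rfl
      rw [SetLike.mem_coe, IntermediateField.mem_fixedField_iff]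
      rintro τ hτ
      obtain ⟨m, rfl⟩ := Subgroup.mem_zpowers_iff.mp hτ
      have : ∀ m : ℕ, (σ ^ m) (zetaQbar N) = zetaQbar N := by
        intro m
        induction m with
        | zero => simp
        | succ m ih => rw [pow_succ, AlgEquiv.mul_apply, hfix, ih]
      have hinv : σ⁻¹ (zetaQbar N) = zetaQbar N := by
        calc σ⁻¹ (zetaQbar N) = σ⁻¹ (σ (zetaQbar N)) := by rw [hfix]
          _ = zetaQbar N := by rw [← AlgEquiv.mul_apply, inv_mul_cancel, AlgEquiv.one_apply]
      have hinv' : ∀ m : ℕ, (σ⁻¹ ^ m) (zetaQbar N) = zetaQbar N := by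
        intro m
        induction m with
        | zero => simp
        | succ m ih => rw [pow_succ, AlgEquiv.mul_apply, hinv, ih]
      cases m with
      | ofNat m => rw [Int.ofNat_eq_natCast, zpow_natCast]; exact this m
      | negSucc m => rw [zpow_negSucc, ← inv_pow]; exact hinv' (m + 1)
    have := hle hx
    rw [IntermediateField.mem_fixedField_iff] at this
    exact this σ (Subgroup.mem_zpowers σ)

/-- `ℚ(ζ_n)` is unramified outside the primes dividing `n`. -/
lemma cycloLevel_isS (S : Finset Nat.Primes) (n : ℕ) [NeZero n]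
    (h : ∀ q : Nat.Primes, q ∉ S → Nat.Coprime n q) : (cycloLevel n).IsS S := by
  rw [Bridge.Level.isS_iff]
  intro q hq A hA σ hσ
  rw [mem_cycloLevel_N_iff]
  exact inertia_fixes_root_of_unity_gen A (NeZero.pos n) (h q hq) hA σ hσ
    (zetaQbar_spec n).pow_eq_one

/-- `|Gal(F'/ℚ)| = [F' : F] · |Gal(F/ℚ)|`. -/
lemma Level.natCard_G_eq_mul {L L' : Level} (h : L ≤ L') :
    Nat.card L'.G = Nat.card (Level.map h).ker * Nat.card L.G := by
  have e := QuotientGroup.quotientKerEquivOfSurjective (Level.map h) (Level.map_surjective h)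
  rw [← Nat.card_congr e.toEquiv, mul_comm]
  exact Subgroup.card_eq_card_quotient_mul_card_subgroup _

lemma Level.natCard_G_dvd {L L' : Level} (h : L ≤ L') : Nat.card L.G ∣ Nat.card L'.G :=
  ⟨_, (Level.natCard_G_eq_mul h).trans (mul_comm _ _)⟩

lemma Level.finite_G_aux (L : Level) : Finite L.G :=
  Subgroup.quotient_finite_of_isOpen L.N (Bridge.Level.N_isOpen L)

lemma Level.natCard_G_pos (L : Level) : 0 < Nat.card L.G := by
  haveI := Level.finite_G_aux L
  exact Nat.card_pos

/-- **D-PINF-G (core).** Above every level `L` there is a level `L'`, an `S`-level if `L` is one and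
`p ∈ S`, such that `p ^ n` divides `[L' : L]`. -/
theorem exists_level_pow_dvd_card_ker (p : ℕ) [Fact p.Prime] (L : Level) (n : ℕ) :
    ∃ (L' : Level) (h : L ≤ L'),
      (∀ S : Finset Nat.Primes, pPrime p ∈ S → L.IsS S → L'.IsS S) ∧
      p ^ n ∣ Nat.card (Level.map h).ker := by
  have hp : p.Prime := Fact.out
  set v := (Nat.card L.G).factorization p with hv
  set m := n + 1 + v with hm
  haveI : NeZero (p ^ m) := ⟨pow_ne_zero _ hp.ne_zero⟩
  refine ⟨L ⊔ cycloLevel (p ^ m), le_sup_left, ?_, ?_⟩
  · intro S hpS hL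
    refine Level.IsS.sup hL (cycloLevel_isS S (p ^ m) ?_)
    intro q hq
    refine Nat.Coprime.pow_left _ ((Nat.coprime_primes hp q.2).mpr ?_)
    rintro rfl
    exact hq hpS
  · have h1 : Nat.card (cycloLevel (p ^ m)).G ∣ Nat.card (L ⊔ cycloLevel (p ^ m)).G :=
      Level.natCard_G_dvd le_sup_right
    rw [cycloLevel_natCard, Nat.totient_prime_pow hp (by omega),
      Level.natCard_G_eq_mul (le_sup_left : L ≤ L ⊔ cycloLevel (p ^ m))] at h1
    have h2 : p ^ (m - 1) ∣ Nat.card (Level.map (le_sup_left : L ≤ L ⊔ cycloLevel (p ^ m))).ker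
        * Nat.card L.G := (Dvd.intro _ rfl).trans h1
    have hpos : 0 < Nat.card L.G := Level.natCard_G_pos L
    have hkpos : 0 < Nat.card (Level.map (le_sup_left : L ≤ L ⊔ cycloLevel (p ^ m))).ker := by
      haveI := Level.finite_G_aux (L ⊔ cycloLevel (p ^ m))
      exact Nat.card_pos
    rw [hp.pow_dvd_iff_le_factorization (Nat.mul_ne_zero hkpos.ne' hpos.ne'),
      Nat.factorization_mul hkpos.ne' hpos.ne', Finsupp.add_apply] at h2
    rw [hp.pow_dvd_iff_le_factorization hkpos.ne']
    omega

end Pinf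

end Fermat.Agent.CFT
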