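import Fermat.Agent.Lib.CFT.Duality.LevelTower

/-!
# P4 / Layer D : direct limits of the cohomology groups of a tower module

For a tower module `B` over a tower `T`:

* `CohLim B n = colim_j H^n(G_j, B_j)` (transition maps `groupCohomology.map (T.π h) (B.φ h) n`);
* `cohLoc P … D B n : CohLim (B.filter P …) n → CohLim (B.resSub D) n`, the localisation map to a
  compatible family of subgroups `D` (restriction at the levels in `P`, then inclusion of the index
  sets);
* `ShaCoh P … D B n`, the classes that are locally trivial at all `D q`.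
-/

set_option autoImplicit false

open CategoryTheory groupCohomology

namespace Fermat.Agent.CFT.Duality

noncomputable section

variable {k : Type} [CommRing k] {T : Tower}

namespace TowerModule

variable (B : TowerModule k T) (n : ℕ)

/-- The system `j ↦ H^n(G_j, B_j)`. -/
abbrev cohSys (j : T.ι) : Type := groupCohomology (B.C j) n

/-- Transition maps of `cohSys`. -/
def cohSysMap (i j : T.ι) (h : i ≤ j) : B.cohSys n i →ₗ[k] B.cohSys n j :=
  (groupCohomology.map (T.π h) (B.φ h) n).hom

lemma φ_refl_toLinearMap (i : T.ι) : (B.φ (le_refl i)).hom.toLinearMap = LinearMap.id := by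
  ext x
  exact B.φ_refl i x

lemma φ_comp_toLinearMap {i j l : T.ι} (h : i ≤ j) (h' : j ≤ l) :
    ((Rep.resFunctor (T.π h')).map (B.φ h) ≫ B.φ h').hom.toLinearMap
      = (B.φ (h.trans h')).hom.toLinearMap := by
  ext x
  exact B.φ_comp h h' x

lemma cohSysMap_self (i : T.ι) (x : B.cohSys n i) : B.cohSysMap n i i (le_refl i) x = x := by
  have hπ : T.π (le_refl i) = MonoidHom.id (T.G i) := MonoidHom.ext (T.π_refl i)
  have hφ := B.φ_refl_toLinearMap i
  have h2 : groupCohomology.map (T.π (le_refl i)) (B.φ (le_refl i)) n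
      = groupCohomology.map (MonoidHom.id (T.G i)) (𝟙 (B.C i)) n :=
    groupCohomology.map_congr hπ hφ n
  unfold cohSysMap
  rw [h2, groupCohomology.map_id]
  rfl

lemma cohSysMap_comp {i j l : T.ι} (h : i ≤ j) (h' : j ≤ l) (x : B.cohSys n i) :
    B.cohSysMap n j l h' (B.cohSysMap n i j h x) = B.cohSysMap n i l (h.trans h') x := by
  have h1 := groupCohomology.map_comp (T.π h) (T.π h') (B.φ h) (B.φ h') n
  have hπ : (T.π h).comp (T.π h') = T.π (h.trans h') := MonoidHom.ext (T.π_comp h h')
  have hφ := B.φ_comp_toLinearMap h h'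
  have h2 : groupCohomology.map ((T.π h).comp (T.π h'))
      ((Rep.resFunctor (T.π h')).map (B.φ h) ≫ B.φ h') n
      = groupCohomology.map (T.π (h.trans h')) (B.φ (h.trans h')) n :=
    groupCohomology.map_congr hπ hφ n
  unfold cohSysMap
  rw [← h2, h1]
  rfl

instance : DirectedSystem (B.cohSys n) (fun i j h => B.cohSysMap n i j h) where
  map_self i x := B.cohSysMap_self n i x
  map_map _ _ _ h h' x := B.cohSysMap_comp n h h' x

open Classical in
/-- `colim_j H^n(G_j, B_j)`. -/
def CohLim : Type := Module.DirectLimit (B.cohSys n) (B.cohSysMap n)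

open Classical in
instance : AddCommGroup (B.CohLim n) := by unfold CohLim; infer_instance

open Classical in
instance : Module k (B.CohLim n) := by unfold CohLim; infer_instance

open Classical in
/-- The canonical map of a level into the colimit. -/
def CohLim.of (j : T.ι) : B.cohSys n j →ₗ[k] B.CohLim n :=
  Module.DirectLimit.of k T.ι (B.cohSys n) (B.cohSysMap n) j

open Classical in
lemma CohLim.of_f {i j : T.ι} (h : i ≤ j) (x : B.cohSys n i) :
    CohLim.of B n j (B.cohSysMap n i j h x) = CohLim.of B n i x :=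
  Module.DirectLimit.of_f

open Classical in
lemma CohLim.exists_of (z : B.CohLim n) : ∃ j x, CohLim.of B n j x = z :=
  Module.DirectLimit.exists_of z

open Classical in
lemma CohLim.of_eq_zero {j : T.ι} {x : B.cohSys n j} (h : CohLim.of B n j x = 0) :
    ∃ (l : T.ι) (hjl : j ≤ l), B.cohSysMap n j l hjl x = 0 :=
  Module.DirectLimit.of.zero_exact h

end TowerModule

open TowerModule

/-! ## Localisation -/

section Loc

variable (P : T.ι → Prop) (hne : ∃ i, P i)
  (hdir : ∀ i j, P i → P j → ∃ l, P l ∧ i ≤ l ∧ j ≤ l) (D : T.SubgroupFamily)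
  (B : TowerModule k T) (n : ℕ)

/-- Restriction `H^n(G_j, B_j) → H^n(D_j, B_j)`. -/
def resSubMap (j : T.ι) : B.cohSys n j →ₗ[k] (B.resSub D).cohSys n j :=
  (groupCohomology.map (D.D j).subtype (𝟙 (Rep.res (D.D j).subtype (B.C j))) n).hom

lemma resSubMap_comm' {i j : T.ι} (h : i ≤ j) :
    ((B.resSub D).cohSysMap n i j h).comp (resSubMap D B n i)
      = (resSubMap D B n j).comp (B.cohSysMap n i j h) := by
  have h1 := groupCohomology.map_comp (D.D i).subtype ((T.subTower D).π h)
    (𝟙 (Rep.res (D.D i).subtype (B.C i))) ((B.resSub D).φ h) n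
  have h2 := groupCohomology.map_comp (T.π h) (D.D j).subtype
    (B.φ h) (𝟙 (Rep.res (D.D j).subtype (B.C j))) n
  unfold resSubMap cohSysMap
  refine Eq.trans (congrArg ModuleCat.Hom.hom h1).symm ?_
  refine Eq.trans ?_ (congrArg ModuleCat.Hom.hom h2)
  exact congrArg ModuleCat.Hom.hom (groupCohomology.map_congr rfl rfl n)

lemma resSubMap_comm {i j : T.ι} (h : i ≤ j) (x : B.cohSys n i) :
    (B.resSub D).cohSysMap n i j h (resSubMap D B n i x)
      = resSubMap D B n j (B.cohSysMap n i j h x) :=
  LinearMap.congr_fun (resSubMap_comm' D B n h) x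

open Classical in
/-- The localisation map `colim_{j ∈ P} H^n(G_j, B_j) → colim_j H^n(D_j, B_j)`. -/
def cohLoc : (B.filter P hne hdir).CohLim n →ₗ[k] (B.resSub D).CohLim n :=
  Module.DirectLimit.lift k _ _ _
    (fun j => (CohLim.of (B.resSub D) n j.1).comp (resSubMap D B n j.1))
    (fun i j h x => by
      change CohLim.of (B.resSub D) n j.1 (resSubMap D B n j.1 (B.cohSysMap n i.1 j.1 h x))
        = CohLim.of (B.resSub D) n i.1 (resSubMap D B n i.1 x)
      rw [← resSubMap_comm D B n h x]
      exact CohLim.of_f (B.resSub D) n h _)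

open Classical in
@[simp] lemma cohLoc_of (j : (T.filter P hne hdir).ι) (x : B.cohSys n j.1) :
    cohLoc P hne hdir D B n (CohLim.of (B.filter P hne hdir) n j x)
      = CohLim.of (B.resSub D) n j.1 (resSubMap D B n j.1 x) :=
  Module.DirectLimit.lift_of _ _ _

/-- Classes of `colim_{j ∈ P} H^n(G_j, B_j)` that are locally trivial at all `D q`. -/
def ShaCoh {Q : Type} (D : Q → T.SubgroupFamily) : Submodule k ((B.filter P hne hdir).CohLim n) :=
  ⨅ q : Q, LinearMap.ker (cohLoc P hne hdir (D q) B n)

lemma mem_ShaCoh_iff {Q : Type} (D : Q → T.SubgroupFamily)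
    (x : (B.filter P hne hdir).CohLim n) :
    x ∈ ShaCoh P hne hdir B n D ↔ ∀ q, cohLoc P hne hdir (D q) B n x = 0 := by
  unfold ShaCoh
  rw [Submodule.mem_iInf]
  simp only [LinearMap.mem_ker]

end Loc

end

end Fermat.Agent.CFT.Duality
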