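/-
P4 / Layer C5-f (abstract part): fundamental `p`-classes from "cyclotomic" classes.

`CycClasses p T C` : a family of classes `cyc k e ∈ H²(G_k, C_k)` of order `p^e` (defined at the
levels `k` with `Has k e`, a cofinal condition), compatible with inflation, with
`p • cyc k (e+1) = cyc k e`, and such that for every level `j` with `m = v_p |G_j|` there is a level
`k ≥ j` where `cyc k m` dies on `ker (G_k → G_j)`.

Given Galois descent and Hilbert 90 for `p`-subgroups, there are then classes `u j ∈ H²(G_j, C_j)`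
of order `p^(v_p |G_j|)` with `infl (u i) = |ker| • u j`: `u j` is the unique `p`-power torsion
class whose inflation to a high level `k` is `(1/|G_j|)_p`, when `cyc k e` is read as `1/p^e`.
-/
import Fermat.Agent.Lib.CFT.Duality.CohLim
import Fermat.Agent.Lib.CFT.Coh.InfResDescent

set_option autoImplicit false
set_option linter.unusedSectionVars false
set_option linter.style.haveILetI false

namespace Fermat.Agent.CFT.Duality

open CategoryTheory Fermat.Agent.CFT.Coh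

noncomputable section

/-! ### Fractions with `p`-power denominators in `ℚ/ℤ` -/

section PFrac

variable (p : ℕ) [hp : Fact p.Prime]

/-- `c / p^e` in `ℚ/ℤ` -/
def pFrac (c : ℤ) (e : ℕ) : AddCircle (1 : ℚ) :=
  (((c : ℚ) / ((p ^ e : ℕ) : ℚ) : ℚ) : AddCircle (1 : ℚ))

theorem pow_cast_ne_zero (e : ℕ) : ((p ^ e : ℕ) : ℚ) ≠ 0 := by
  exact_mod_cast (pow_pos hp.out.pos e).ne'

theorem pFrac_mul_pow (c : ℤ) (e d : ℕ) : pFrac p (c * ((p ^ d : ℕ) : ℤ)) (e + d) = pFrac p c e := by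
  unfold pFrac
  congr 1
  have h1 := pow_cast_ne_zero p e
  have h2 := pow_cast_ne_zero p d
  rw [pow_add]
  push_cast at h1 h2 ⊢
  field_simp

theorem zsmul_pFrac (n c : ℤ) (e : ℕ) : n • pFrac p c e = pFrac p (n * c) e := by
  unfold pFrac
  rw [← AddCircle.coe_zsmul]
  congr 1
  rw [zsmul_eq_mul]
  push_cast
  ring

theorem nsmul_pFrac (n : ℕ) (c : ℤ) (e : ℕ) : n • pFrac p c e = pFrac p (n * c) e := by
  rw [← natCast_zsmul, zsmul_pFrac]

theorem pFrac_sub (c c' : ℤ) (e : ℕ) : pFrac p c e - pFrac p c' e = pFrac p (c - c') e := by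
  unfold pFrac
  rw [← AddCircle.coe_sub]
  congr 1
  push_cast
  ring

theorem pFrac_eq_zero_iff (c : ℤ) (e : ℕ) : pFrac p c e = 0 ↔ ((p ^ e : ℕ) : ℤ) ∣ c := by
  unfold pFrac
  rw [AddCircle.coe_eq_zero_iff]
  have h1 := pow_cast_ne_zero p e
  constructor
  · rintro ⟨n, hn⟩
    refine ⟨n, ?_⟩
    rw [zsmul_eq_mul, mul_one] at hn
    have : (c : ℚ) = ((p ^ e : ℕ) : ℚ) * n := by
      field_simp at hn
      linarith
    exact_mod_cast this
  · rintro ⟨n, rfl⟩
    refine ⟨n, ?_⟩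
    rw [zsmul_eq_mul, mul_one]
    push_cast
    push_cast at h1
    field_simp

theorem pPart_eq_pFrac (N : ℕ) :
    pPart p N = pFrac p (Nat.gcdA (N / p ^ N.factorization p) (p ^ N.factorization p))
      (N.factorization p) := rfl

/-- the order of `(1/N)_p` is `p ^ v_p(N)` -/
theorem addOrderOf_pPart_eq {N : ℕ} (hN : N ≠ 0) :
    addOrderOf (pPart p N) = p ^ N.factorization p := by
  apply Nat.dvd_antisymm
  · exact addOrderOf_dvd_of_nsmul_eq_zero (pow_factorization_nsmul_pPart p N)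
  · have h1 : (addOrderOf (pPart p N) : ℤ) • pPart p N = 0 := by
      rw [natCast_zsmul]
      exact addOrderOf_nsmul_eq_zero _
    exact Int.natCast_dvd_natCast.1 (dvd_of_zsmul_pPart_eq_zero p hN _ h1)

end PFrac

/-! ### Cyclotomic classes -/

/-- a compatible family of "cyclotomic" classes on a tower module -/
structure CycClasses (p : ℕ) [Fact p.Prime] (T : Tower) (C : TowerModule ℤ T) where
  /-- the level `k` sees the `e`-th layer of the cyclotomic `ℤ_p`-extension -/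
  Has : T.ι → ℕ → Prop
  has_mono : ∀ {k k' : T.ι} {e : ℕ}, k ≤ k' → Has k e → Has k' e
  has_anti : ∀ {k : T.ι} {e : ℕ}, Has k (e + 1) → Has k e
  cofinal : ∀ (j : T.ι) (e : ℕ), ∃ k : T.ι, j ≤ k ∧ Has k e
  /-- the class inflated from the `e`-th cyclotomic layer -/
  cyc : ∀ (_ : T.ι) (_ : ℕ), groupCohomology (C.C ‹_›) 2
  order : ∀ {k : T.ι} {e : ℕ}, Has k e → addOrderOf (cyc k e) = p ^ e
  infl : ∀ {k k' : T.ι} (h : k ≤ k') {e : ℕ}, Has k e →
    C.cohSysMap 2 k k' h (cyc k e) = cyc k' e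
  succ : ∀ {k : T.ι} {e : ℕ}, Has k (e + 1) → p • cyc k (e + 1) = cyc k e
  res : ∀ j : T.ι, ∃ (k : T.ι) (h : j ≤ k), Has k ((Nat.card (T.G j)).factorization p) ∧
    (groupCohomology.map (T.π h).ker.subtype (𝟙 (Rep.res (T.π h).ker.subtype (C.C k))) 2).hom
      (cyc k ((Nat.card (T.G j)).factorization p)) = 0

namespace CycClasses

variable {p : ℕ} [hp : Fact p.Prime] {T : Tower} {C : TowerModule ℤ T} (cc : CycClasses p T C)

theorem has_of_le {k : T.ι} {e e' : ℕ} (he : e ≤ e') (h : cc.Has k e') : cc.Has k e := by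
  obtain ⟨d, rfl⟩ := Nat.exists_eq_add_of_le he
  induction d with
  | zero => exact h
  | succ d ih => exact ih (Nat.le_add_right _ _) (cc.has_anti h)

theorem pow_nsmul_cyc {k : T.ι} {e : ℕ} (d : ℕ) (h : cc.Has k (e + d)) :
    p ^ d • cc.cyc k (e + d) = cc.cyc k e := by
  induction d with
  | zero => rw [pow_zero, one_smul]; rfl
  | succ d ih =>
    have h' : cc.Has k (e + d) := cc.has_anti h
    rw [pow_succ, mul_smul, ← ih h']
    congr 1
    exact cc.succ h

theorem cohSysMap_cyc {k k' : T.ι} (h : k ≤ k') {e e' : ℕ} (he : e ≤ e') (hk : cc.Has k e)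
    (hk' : cc.Has k' e') :
    C.cohSysMap 2 k k' h (cc.cyc k e) = p ^ (e' - e) • cc.cyc k' e' := by
  rw [cc.infl h hk]
  obtain ⟨d, rfl⟩ := Nat.exists_eq_add_of_le he
  rw [Nat.add_sub_cancel_left, cc.pow_nsmul_cyc d hk']

variable (hdesc : C.HasDescent)
  (h1P : ∀ (j : T.ι) (P : Subgroup (T.G j)), IsPGroup p P →
    Subsingleton (groupCohomology (C.atSub j P) 1))

include hdesc h1P in
/-- inflation is injective on `p`-power torsion -/
theorem eq_zero_of_cohSysMap_eq_zero {i j : T.ι} (h : i ≤ j) (y : groupCohomology (C.C i) 2)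
    (n : ℕ) (hn : p ^ n • y = 0) (hy : C.cohSysMap 2 i j h y = 0) : y = 0 :=
  eq_zero_of_map_eq_zero_of_pow (T.π h) (T.π_surjective h) (C.φ h) (hdesc.injective h)
    (fun y hy => hdesc.surjective h y (fun g hg => hy g (MonoidHom.mem_ker.2 hg))) p
    (fun P _ hP => h1P j P hP) y n hn hy

include hdesc h1P in
/-- `p`-power torsion classes dying on `ker (G_j → G_i)` are inflated -/
theorem exists_cohSysMap_eq {i j : T.ι} (h : i ≤ j) (x : groupCohomology (C.C j) 2)
    (n : ℕ) (hn : p ^ n • x = 0)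
    (hx : (groupCohomology.map (T.π h).ker.subtype
      (𝟙 (Rep.res (T.π h).ker.subtype (C.C j))) 2).hom x = 0) :
    ∃ y : groupCohomology (C.C i) 2, p ^ n • y = 0 ∧ C.cohSysMap 2 i j h y = x :=
  exists_map_eq_of_pow (T.π h) (T.π_surjective h) (C.φ h) (hdesc.injective h)
    (fun y hy => hdesc.surjective h y (fun g hg => hy g (MonoidHom.mem_ker.2 hg))) p
    (fun P _ hP => h1P j P hP) x n hn hx

/-- `x` (at level `j`) is represented by `c • cyc k e` at level `k`, with invariant `t = c/p^e` -/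
def RepAt (j : T.ι) (x : groupCohomology (C.C j) 2) (t : AddCircle (1 : ℚ)) (k : T.ι) (e : ℕ)
    (c : ℤ) : Prop :=
  cc.Has k e ∧ ∃ h : j ≤ k, C.cohSysMap 2 j k h x = c • cc.cyc k e ∧ t = pFrac p c e

variable {cc}

theorem RepAt.lift {j : T.ι} {x : groupCohomology (C.C j) 2} {t : AddCircle (1 : ℚ)} {k : T.ι}
    {e : ℕ} {c : ℤ} (H : cc.RepAt j x t k e c) {k' : T.ι} (hk : k ≤ k') {e' : ℕ} (he : e ≤ e')
    (hH : cc.Has k' e') : cc.RepAt j x t k' e' (c * ((p ^ (e' - e) : ℕ) : ℤ)) := by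
  obtain ⟨hke, h, hx, ht⟩ := H
  refine ⟨hH, h.trans hk, ?_, ?_⟩
  · rw [← C.cohSysMap_comp 2 h hk, hx, map_zsmul, cc.cohSysMap_cyc hk he hke hH, mul_smul,
      natCast_zsmul]
  · rw [ht]
    obtain ⟨d, rfl⟩ := Nat.exists_eq_add_of_le he
    rw [Nat.add_sub_cancel_left, pFrac_mul_pow]

/-- two represented classes are represented at a common level -/
theorem RepAt.exists_common {j : T.ι} {x x' : groupCohomology (C.C j) 2}
    {t t' : AddCircle (1 : ℚ)} {k k' : T.ι} {e e' : ℕ} {c c' : ℤ} (H : cc.RepAt j x t k e c)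
    (H' : cc.RepAt j x' t' k' e' c') :
    ∃ (k'' : T.ι) (e'' : ℕ) (c₁ c₂ : ℤ), cc.RepAt j x t k'' e'' c₁ ∧ cc.RepAt j x' t' k'' e'' c₂ := by
  obtain ⟨k₁, hk₁, hk₁'⟩ := exists_ge_ge k k'
  obtain ⟨k₂, hk₂, hH⟩ := cc.cofinal k₁ (max e e')
  exact ⟨k₂, max e e', _, _, H.lift (hk₁.trans hk₂) (le_max_left _ _) hH,
    H'.lift (hk₁'.trans hk₂) (le_max_right _ _) hH⟩

variable (cc)

/-- `x` is a "cyclotomic" class of invariant `t` -/
def IsCyc (j : T.ι) (x : groupCohomology (C.C j) 2) (t : AddCircle (1 : ℚ)) : Prop :=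
  (∃ n : ℕ, p ^ n • x = 0) ∧ ∃ (k : T.ι) (e : ℕ) (c : ℤ), cc.RepAt j x t k e c

variable {cc}

include hdesc h1P in
theorem IsCyc.unique {j : T.ι} {x x' : groupCohomology (C.C j) 2} {t : AddCircle (1 : ℚ)}
    (H : cc.IsCyc j x t) (H' : cc.IsCyc j x' t) : x = x' := by
  obtain ⟨⟨n, hn⟩, k, e, c, hR⟩ := H
  obtain ⟨⟨n', hn'⟩, k', e', c', hR'⟩ := H'
  obtain ⟨k'', e'', c₁, c₂, ⟨hH, h, hx, ht⟩, ⟨_, _, hx', ht'⟩⟩ := hR.exists_common hR'
  rw [← sub_eq_zero]
  apply CycClasses.eq_zero_of_cohSysMap_eq_zero hdesc h1P h (x - x') (n + n')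
  · have e1 : p ^ (n + n') • x = 0 := by rw [pow_add, mul_comm, mul_smul, hn, smul_zero]
    have e2 : p ^ (n + n') • x' = 0 := by rw [pow_add, mul_smul, hn', smul_zero]
    rw [smul_sub, e1, e2, sub_zero]
  · have hsub : c₁ • cc.cyc k'' e'' - c₂ • cc.cyc k'' e'' = (c₁ - c₂) • cc.cyc k'' e'' := by
      rw [sub_zsmul, sub_eq_add_neg]
    rw [map_sub, hx, hx', hsub]
    have h0 : pFrac p (c₁ - c₂) e'' = 0 := by rw [← pFrac_sub, ← ht, ← ht', sub_self]
    rw [pFrac_eq_zero_iff, ← cc.order hH] at h0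
    exact (addOrderOf_dvd_iff_zsmul_eq_zero).1 h0

include hdesc h1P in
theorem IsCyc.addOrderOf_eq {j : T.ι} {x : groupCohomology (C.C j) 2} {t : AddCircle (1 : ℚ)}
    (H : cc.IsCyc j x t) : addOrderOf x = addOrderOf t := by
  obtain ⟨⟨n, hn⟩, k, e, c, hH, h, hx, ht⟩ := H
  rw [addOrderOf_eq_addOrderOf_iff]
  intro m
  have key : m • x = 0 ↔ ((p ^ e : ℕ) : ℤ) ∣ m * c := by
    constructor
    · intro h0
      have h1 : C.cohSysMap 2 j k h (m • x) = 0 := by rw [h0, map_zero]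
      rw [map_nsmul, hx, ← natCast_zsmul, ← mul_smul] at h1
      rw [← cc.order hH]
      exact addOrderOf_dvd_iff_zsmul_eq_zero.2 h1
    · intro h0
      apply CycClasses.eq_zero_of_cohSysMap_eq_zero hdesc h1P h (m • x) n
      · rw [smul_comm, hn, smul_zero]
      · rw [map_nsmul, hx, ← natCast_zsmul, ← mul_smul]
        rw [← cc.order hH] at h0
        exact addOrderOf_dvd_iff_zsmul_eq_zero.1 h0
  rw [key, ht, nsmul_pFrac, pFrac_eq_zero_iff]

theorem IsCyc.nsmul {j : T.ι} {x : groupCohomology (C.C j) 2} {t : AddCircle (1 : ℚ)}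
    (H : cc.IsCyc j x t) (m : ℕ) : cc.IsCyc j (m • x) (m • t) := by
  obtain ⟨⟨n, hn⟩, k, e, c, hH, h, hx, ht⟩ := H
  refine ⟨⟨n, by rw [smul_comm, hn, smul_zero]⟩, k, e, m * c, hH, h, ?_, ?_⟩
  · rw [map_nsmul, hx, ← natCast_zsmul, ← mul_smul]
  · rw [ht, nsmul_pFrac]

theorem IsCyc.infl {i j : T.ι} (hij : i ≤ j) {x : groupCohomology (C.C i) 2}
    {t : AddCircle (1 : ℚ)} (H : cc.IsCyc i x t) : cc.IsCyc j (C.cohSysMap 2 i j hij x) t := by
  obtain ⟨⟨n, hn⟩, k, e, c, hR⟩ := H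
  obtain ⟨k₁, hk₁, hk₁'⟩ := exists_ge_ge k j
  obtain ⟨k₂, hk₂, hH⟩ := cc.cofinal k₁ e
  obtain ⟨_, h, hx, ht⟩ := hR.lift (hk₁.trans hk₂) le_rfl hH
  refine ⟨⟨n, by rw [← map_nsmul, hn, map_zero]⟩, k₂, e, _, hH, hk₁'.trans hk₂, ?_, ht⟩
  rw [C.cohSysMap_comp 2 hij (hk₁'.trans hk₂)]
  exact hx

variable (cc)

include hdesc h1P in
/-- existence of the class of invariant `(1/|G_j|)_p` -/
theorem exists_isCyc (j : T.ι) :
    ∃ x : groupCohomology (C.C j) 2, cc.IsCyc j x (pPart p (Nat.card (T.G j))) := by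
  obtain ⟨k, h, hH, hres⟩ := cc.res j
  set m := (Nat.card (T.G j)).factorization p with hm
  set c : ℤ := Nat.gcdA (Nat.card (T.G j) / p ^ m) (p ^ m) with hc
  have h0 : p ^ m • (c • cc.cyc k m) = 0 := by
    rw [smul_comm, ← cc.order hH, addOrderOf_nsmul_eq_zero, zsmul_zero]
  obtain ⟨y, hy, hyx⟩ := CycClasses.exists_cohSysMap_eq hdesc h1P h (c • cc.cyc k m) m h0
    (by rw [map_zsmul, hres, zsmul_zero])
  exact ⟨y, ⟨m, hy⟩, k, m, c, hH, h, hyx, rfl⟩

/-- the fundamental `p`-class at level `j` -/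
def fund (j : T.ι) : groupCohomology (C.C j) 2 :=
  Classical.choose (cc.exists_isCyc hdesc h1P j)

theorem fund_spec (j : T.ι) : cc.IsCyc j (cc.fund hdesc h1P j) (pPart p (Nat.card (T.G j))) :=
  Classical.choose_spec (cc.exists_isCyc hdesc h1P j)

theorem addOrderOf_fund (j : T.ι) :
    addOrderOf (cc.fund hdesc h1P j) = p ^ (Nat.card (T.G j)).factorization p := by
  rw [(cc.fund_spec hdesc h1P j).addOrderOf_eq hdesc h1P]
  exact addOrderOf_pPart_eq p (Nat.card_pos (α := T.G j)).ne'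

theorem fund_infl {i j : T.ι} (h : i ≤ j) :
    (groupCohomology.map (T.π h) (C.φ h) 2).hom (cc.fund hdesc h1P i) =
      Nat.card (T.π h).ker • cc.fund hdesc h1P j := by
  have h1 := (cc.fund_spec hdesc h1P i).infl h
  have h2 := (cc.fund_spec hdesc h1P j).nsmul (Nat.card (T.π h).ker)
  have hcard : Nat.card (T.G j) = Nat.card (T.π h).ker * Nat.card (T.G i) := by
    rw [← (T.π h).ker.card_mul_index, Subgroup.index_ker,
      MonoidHom.range_eq_top.2 (T.π_surjective h)]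
    congr 1
    exact Nat.card_congr (Subgroup.topEquiv).toEquiv
  rw [hcard, nsmul_pPart_mul p (Nat.card_pos (α := (T.π h).ker)).ne'
    (Nat.card_pos (α := T.G i)).ne'] at h2
  exact h1.unique hdesc h1P h2

/-- **fundamental `p`-classes from cyclotomic classes** -/
def pFundamental
    (pinf : ∀ (j : T.ι) (U : Subgroup (T.G j)) (n : ℕ),
      ∃ (k : T.ι) (h : j ≤ k), p ^ n ∣ Nat.card (T.pre h U))
    (h2P : ∀ (j : T.ι) (P : Subgroup (T.G j)), IsPGroup p P →
      Finite (groupCohomology (C.atSub j P) 2) ∧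
        Nat.card (groupCohomology (C.atSub j P) 2) ≤ Nat.card P)
    (finite_mod_p : ∀ (j : T.ι) (U : Subgroup (T.G j)), ∃ F : Finset (C.C j),
      ∀ c : C.C j, (∀ u ∈ U, (C.C j).ρ u c = c) →
        ∃ f ∈ F, ∃ e : C.C j, (∀ u ∈ U, (C.C j).ρ u e = e) ∧ c = f + p • e) :
    PFundamental p T C where
  descent := hdesc
  pinf := pinf
  h1P := h1P
  h2P := h2P
  u := cc.fund hdesc h1P
  u_order := cc.addOrderOf_fund hdesc h1P
  u_infl h := cc.fund_infl hdesc h1P h
  finite_mod_p := finite_mod_p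

end CycClasses

end

end Fermat.Agent.CFT.Duality
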