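/-
P4 / Layer C5-f (formal part): cyclotomic classes from characters.

`ChiData p T C` : a compatible system of characters `χ k e : G_k → Z_e` onto cyclic groups
`Z_e = ⟨γ_e⟩` of order `p ^ e` (defined at the levels `k` with `Has k e`), transition maps
`ρ e : Z_{e+1} → Z_e`, and a compatible family of invariant elements `a k ∈ C_k`.  The classes
`cyc k e := chiClass (C_k) (χ k e) γ_e (a k)` (`Coh/ChiClass.lean`) then satisfy the formal fields
`infl`, `succ` of `CycClasses p T C` (`Duality/CycFund.lean`); the fields `order` and `res` are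
reduced to explicit statements on norms (`ChiData.toCycClasses`).
-/
import Fermat.Agent.Lib.CFT.Duality.CycFund
import Fermat.Agent.Lib.CFT.Coh.ChiClass

set_option autoImplicit false
set_option linter.unusedSectionVars false
set_option linter.style.haveILetI false

namespace Fermat.Agent.CFT.Duality

open CategoryTheory Fermat.Agent.CFT.Coh

noncomputable section

/-- a compatible system of characters onto cyclic `p`-groups and of invariant elements -/
structure ChiData (p : ℕ) [Fact p.Prime] (T : Tower) (C : TowerModule ℤ T) where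
  /-- the level `k` sees the `e`-th layer -/
  Has : T.ι → ℕ → Prop
  has_mono : ∀ {k k' : T.ι} {e : ℕ}, k ≤ k' → Has k e → Has k' e
  has_anti : ∀ {k : T.ι} {e : ℕ}, Has k (e + 1) → Has k e
  cofinal : ∀ (j : T.ι) (e : ℕ), ∃ k : T.ι, j ≤ k ∧ Has k e
  /-- the cyclic group of order `p ^ e` -/
  Z : ℕ → Type
  [instGroup : ∀ e, Group (Z e)]
  [instFinite : ∀ e, Finite (Z e)]
  /-- its generator -/
  γ : ∀ e, Z e
  hγ : ∀ (e : ℕ) (z : Z e), z ∈ Subgroup.zpowers (γ e)
  card_Z : ∀ e, Nat.card (Z e) = p ^ e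
  /-- the transition maps -/
  ρ : ∀ e, Z (e + 1) →* Z e
  ρ_γ : ∀ e, ρ e (γ (e + 1)) = γ e
  /-- the characters -/
  χ : ∀ (k : T.ι) (e : ℕ), Has k e → (T.G k →* Z e)
  χ_π : ∀ {k k' : T.ι} (h : k ≤ k') {e : ℕ} (hk : Has k e),
    (χ k e hk).comp (T.π h) = χ k' e (has_mono h hk)
  ρ_χ : ∀ {k : T.ι} {e : ℕ} (hk : Has k (e + 1)),
    (ρ e).comp (χ k (e + 1) hk) = χ k e (has_anti hk)
  /-- the invariant elements -/
  a : ∀ k : T.ι, C.C k
  a_inv : ∀ (k : T.ι) (g : T.G k), (C.C k).ρ g (a k) = a k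
  φ_a : ∀ {k k' : T.ι} (h : k ≤ k'), (C.φ h).hom (a k) = a k'

namespace ChiData

attribute [instance] ChiData.instGroup ChiData.instFinite

variable {p : ℕ} [hp : Fact p.Prime] {T : Tower} {C : TowerModule ℤ T} (D : ChiData p T C)

/-- the invariant element as an element of the invariants -/
def aInv (k : T.ι) := invOfFixed (C.C k) (D.a k) (D.a_inv k)

open Classical in
/-- the class attached to the character `χ k e` and the invariant `a k` -/
def cyc (k : T.ι) (e : ℕ) : groupCohomology (C.C k) 2 :=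
  if h : D.Has k e then chiClass (C.C k) (D.χ k e h) (D.γ e) (D.hγ e) (D.aInv k) else 0

theorem cyc_of_has {k : T.ι} {e : ℕ} (h : D.Has k e) :
    D.cyc k e = chiClass (C.C k) (D.χ k e h) (D.γ e) (D.hγ e) (D.aInv k) := by
  unfold cyc
  rw [dif_pos h]

/-- compatibility with inflation -/
theorem cyc_infl {k k' : T.ι} (h : k ≤ k') {e : ℕ} (hk : D.Has k e) :
    C.cohSysMap 2 k k' h (D.cyc k e) = D.cyc k' e := by
  rw [D.cyc_of_has hk, D.cyc_of_has (D.has_mono h hk)]
  have h1 := map_chiClass (C.C k) (D.χ k e hk) (D.γ e) (D.hγ e) (T.π h) (C.φ h) (D.aInv k)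
    (D.aInv k') (D.φ_a h)
  rw [D.χ_π h hk] at h1
  exact h1

/-- `p • cyc k (e + 1) = cyc k e` -/
theorem cyc_succ {k : T.ι} {e : ℕ} (hk : D.Has k (e + 1)) :
    p • D.cyc k (e + 1) = D.cyc k e := by
  rw [D.cyc_of_has hk, D.cyc_of_has (D.has_anti hk)]
  have h1 := chiClass_comp (C.C k) (D.γ e) (D.hγ e) (D.γ (e + 1)) (D.hγ (e + 1)) (D.ρ e) (D.ρ_γ e)
    (D.χ k (e + 1) hk) (D.aInv k)
  rw [D.ρ_χ hk, D.card_Z, D.card_Z, pow_succ, Nat.mul_div_cancel_left _ (pow_pos hp.out.pos e)]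
    at h1
  exact h1.symm

/-- the class of level `0` vanishes -/
theorem cyc_zero (k : T.ι) : D.cyc k 0 = 0 := by
  by_cases hk : D.Has k 0
  · rw [D.cyc_of_has hk]
    unfold chiClass
    have h1 : cycClass (Rep.trivial ℤ (D.Z 0) ℤ) (D.γ 0) (D.hγ 0) oneInv = 0 := by
      have h2 := card_nsmul_cycClass (Rep.trivial ℤ (D.Z 0) ℤ) (D.γ 0) (D.hγ 0) oneInv
      rwa [D.card_Z, pow_zero, one_smul] at h2
    rw [h1, map_zero]
  · unfold cyc
    rw [dif_neg hk]

/-- the order of `cyc k e`, from surjectivity of the characters, Hilbert 90 for `p`-subgroups and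
the non-norm condition -/
theorem addOrderOf_cyc
    (hsurj : ∀ (k : T.ι) (e : ℕ) (hk : D.Has k e), Function.Surjective (D.χ k e hk))
    (h1P : ∀ (j : T.ι) (P : Subgroup (T.G j)), IsPGroup p P →
      Subsingleton (groupCohomology (C.atSub j P) 1))
    (hnorm : ∀ (k : T.ι) (e : ℕ) (hk : D.Has k (e + 1)) (b : C.C k),
      (∀ n ∈ (D.χ k (e + 1) hk).ker, (C.C k).ρ n b = b) →
        ∑ᶠ q : T.G k ⧸ (D.χ k (e + 1) hk).ker, (C.C k).ρ q.out b ≠ p ^ e • D.a k)
    {k : T.ι} {e : ℕ} (hk : D.Has k e) : addOrderOf (D.cyc k e) = p ^ e := by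
  rcases Nat.eq_zero_or_pos e with rfl | he
  · rw [D.cyc_zero, pow_zero, addOrderOf_zero]
  · obtain ⟨e, rfl⟩ := Nat.exists_eq_succ_of_ne_zero he.ne'
    rw [D.cyc_of_has hk]
    exact addOrderOf_chiClass (C.C k) (D.χ k (e + 1) hk) (D.γ (e + 1)) (D.hγ (e + 1)) p
      (hsurj k (e + 1) hk) (e + 1) he (D.card_Z (e + 1)) (fun P _ hP => h1P k P hP) (D.aInv k)
      (fun b hb => hnorm k e hk b hb)

/-- the vanishing of the restriction of `cyc k e` to a subgroup on which `a k` is a norm -/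
theorem map_subtype_cyc_eq_zero {k : T.ι} {e : ℕ} (hk : D.Has k e) (N : Subgroup (T.G k))
    (b : C.C k) (hb : ∀ n ∈ N, D.χ k e hk n = 1 → (C.C k).ρ n b = b)
    (hab : ∑ᶠ q : N ⧸ ((D.χ k e hk).ker.subgroupOf N), (C.C k).ρ ((q.out : N) : T.G k) b = D.a k) :
    (groupCohomology.map N.subtype (𝟙 (Rep.res N.subtype (C.C k))) 2).hom (D.cyc k e) = 0 := by
  rw [D.cyc_of_has hk]
  exact map_subtype_chiClass_eq_zero (C.C k) (D.χ k e hk) (D.γ e) (D.hγ e) N (D.aInv k) b hb hab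

/-- **cyclotomic classes from a system of characters** -/
def toCycClasses
    (hsurj : ∀ (k : T.ι) (e : ℕ) (hk : D.Has k e), Function.Surjective (D.χ k e hk))
    (h1P : ∀ (j : T.ι) (P : Subgroup (T.G j)), IsPGroup p P →
      Subsingleton (groupCohomology (C.atSub j P) 1))
    (hnorm : ∀ (k : T.ι) (e : ℕ) (hk : D.Has k (e + 1)) (b : C.C k),
      (∀ n ∈ (D.χ k (e + 1) hk).ker, (C.C k).ρ n b = b) →
        ∑ᶠ q : T.G k ⧸ (D.χ k (e + 1) hk).ker, (C.C k).ρ q.out b ≠ p ^ e • D.a k)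
    (hres : ∀ j : T.ι, ∃ (k : T.ι) (h : j ≤ k)
      (hk : D.Has k ((Nat.card (T.G j)).factorization p)) (b : C.C k),
      (∀ n ∈ (T.π h).ker, D.χ k _ hk n = 1 → (C.C k).ρ n b = b) ∧
        ∑ᶠ q : (T.π h).ker ⧸ ((D.χ k _ hk).ker.subgroupOf (T.π h).ker),
          (C.C k).ρ ((q.out : (T.π h).ker) : T.G k) b = D.a k) :
    CycClasses p T C where
  Has := D.Has
  has_mono := D.has_mono
  has_anti := D.has_anti
  cofinal := D.cofinal
  cyc := D.cyc
  order hk := D.addOrderOf_cyc hsurj h1P hnorm hk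
  infl h _ hk := D.cyc_infl h hk
  succ hk := D.cyc_succ hk
  res j := by
    obtain ⟨k, h, hk, b, hb, hab⟩ := hres j
    exact ⟨k, h, hk, D.map_subtype_cyc_eq_zero hk (T.π h).ker b hb hab⟩

end ChiData

end

end Fermat.Agent.CFT.Duality
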