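import Fermat.Agent.Lib.CFT.Duality.PinfGlobal

/-!
# P4 / Layer D (D-PINF-L): `p^∞` divides the order of the decomposition groups of `G_S`

* `cyclotomic_prime_pow_irreducible_padic` : `Φ_{p^(k+1)}` is irreducible over `ℚ_p` (Eisenstein);
* `natCard_decomp_cycloLevel` : `|D_q(ℚ(ζ_N)/ℚ)| = [ℚ_q(ζ_N) : ℚ_q]` (orbit counting);
* `orderOf_le_natDegree_minpoly_padic` : `[ℚ_q(ζ_N) : ℚ_q] ≥ ord_N(q)` for `q ∤ N`;
* `exists_pow_dvd_natCard_decomp_cycloLevel` : the `p`-part of `|D_q(ℚ(ζ_{p^m})/ℚ)|` is unbounded;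
* `exists_level_pow_dvd_card_ker_decompMap` : above every level `L` there is a level `L'` (an
  `S`-level if `L` is one and `p ∈ S`) such that `p ^ n` divides `|ker (D_q(L') → D_q(L))|`.
-/

set_option autoImplicit false

open Polynomial ExtCitation

namespace Fermat.Agent.CFT

namespace Pinf

/-! ## Eisenstein over `ℤ_p` -/

section eisenstein

variable (p : ℕ) [hp : Fact p.Prime]

lemma padicInt_p_notMem_sq : (p : ℤ_[p]) ∉ (Ideal.span {(p : ℤ_[p])}) ^ 2 := by
  rw [Ideal.span_singleton_pow, Ideal.mem_span_singleton]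
  rintro ⟨c, hc⟩
  have hp0 : (p : ℤ_[p]) ≠ 0 := by exact_mod_cast hp.out.ne_zero
  have h1 : (p : ℤ_[p]) * 1 = (p : ℤ_[p]) * ((p : ℤ_[p]) * c) := by rw [mul_one, ← mul_assoc, ← sq]; exact hc
  have h2 := mul_left_cancel₀ hp0 h1
  have hunit : IsUnit (p : ℤ_[p]) := IsUnit.of_mul_eq_one _ h2.symm
  exact PadicInt.prime_p.not_isUnit hunit

theorem cyclotomic_prime_pow_comp_isEisensteinAt_padicInt (k : ℕ) :
    ((cyclotomic (p ^ (k + 1)) ℤ_[p]).comp (X + 1)).IsEisensteinAt (Ideal.span {(p : ℤ_[p])}) := by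
  have hZ := cyclotomic_prime_pow_comp_X_add_one_isEisensteinAt p k
  have hmap : ((cyclotomic (p ^ (k + 1)) ℤ).comp (X + 1)).map (Int.castRingHom ℤ_[p])
      = (cyclotomic (p ^ (k + 1)) ℤ_[p]).comp (X + 1) := by
    rw [Polynomial.map_comp, map_cyclotomic]
    simp
  have hmonicZ : ((cyclotomic (p ^ (k + 1)) ℤ).comp (X + 1)).Monic := by
    rw [show (X + 1 : ℤ[X]) = X + C 1 by simp]
    exact (cyclotomic.monic _ ℤ).comp_X_add_C 1
  have hmonic : ((cyclotomic (p ^ (k + 1)) ℤ_[p]).comp (X + 1)).Monic := by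
    rw [← hmap]; exact hmonicZ.map _
  have hdeg : ((cyclotomic (p ^ (k + 1)) ℤ_[p]).comp (X + 1)).natDegree
      = ((cyclotomic (p ^ (k + 1)) ℤ).comp (X + 1)).natDegree := by
    rw [← hmap]; exact hmonicZ.natDegree_map _
  refine Monic.isEisensteinAt_of_mem_of_notMem hmonic ?_ ?_ ?_
  · intro htop
    have : (1 : ℤ_[p]) ∈ Ideal.span {(p : ℤ_[p])} := htop ▸ Submodule.mem_top
    rw [Ideal.mem_span_singleton] at this
    exact PadicInt.prime_p.not_isUnit (isUnit_of_dvd_one this)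
  · intro n hn
    rw [hdeg] at hn
    have h1 := hZ.mem hn
    rw [← hmap, coeff_map]
    rw [Submodule.mem_span_singleton] at h1
    obtain ⟨c, hc⟩ := h1
    rw [Ideal.mem_span_singleton, ← hc]
    simp
  · rw [← hmap, coeff_map]
    have h0 : ((cyclotomic (p ^ (k + 1)) ℤ).comp (X + 1)).coeff 0 = p := by
      rw [coeff_zero_eq_eval_zero, eval_comp]
      simp [eval_one_cyclotomic_prime_pow]
    rw [h0]
    simpa using padicInt_p_notMem_sq p

theorem cyclotomic_prime_pow_irreducible_padicInt (k : ℕ) :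
    Irreducible (cyclotomic (p ^ (k + 1)) ℤ_[p]) := by
  have hE := cyclotomic_prime_pow_comp_isEisensteinAt_padicInt p k
  have hmonic : ((cyclotomic (p ^ (k + 1)) ℤ_[p]).comp (X + 1)).Monic := by
    rw [show (X + 1 : ℤ_[p][X]) = X + C 1 by simp]
    exact (cyclotomic.monic _ _).comp_X_add_C 1
  have hprime : (Ideal.span {(p : ℤ_[p])}).IsPrime :=
    (Ideal.span_singleton_prime (by exact_mod_cast hp.out.ne_zero)).2 PadicInt.prime_p
  have hdeg : 0 < ((cyclotomic (p ^ (k + 1)) ℤ_[p]).comp (X + 1)).natDegree := by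
    rw [show (X + 1 : ℤ_[p][X]) = X + C 1 by simp, natDegree_comp, natDegree_X_add_C, mul_one,
      natDegree_cyclotomic]
    exact Nat.totient_pos.mpr (pow_pos hp.out.pos _)
  have hirr := hE.irreducible hprime hmonic.isPrimitive hdeg
  have h2 : (algEquivAevalXAddC (1 : ℤ_[p])) (cyclotomic (p ^ (k + 1)) ℤ_[p])
      = (cyclotomic (p ^ (k + 1)) ℤ_[p]).comp (X + 1) := by
    simp [algEquivAevalXAddC, aeval_def, comp, eval₂_eq_eval_map]
  rw [← h2] at hirr
  exact (MulEquiv.irreducible_iff (algEquivAevalXAddC (1 : ℤ_[p])).toMulEquiv).mp hirr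

theorem cyclotomic_prime_pow_irreducible_padic (k : ℕ) :
    Irreducible (cyclotomic (p ^ (k + 1)) ℚ_[p]) := by
  have h := cyclotomic_prime_pow_irreducible_padicInt p k
  rw [(cyclotomic.monic _ ℤ_[p]).irreducible_iff_irreducible_map_fraction_map (K := ℚ_[p]),
    map_cyclotomic] at h
  exact h

end eisenstein

/-! ## Orbit counting -/

section orbit

variable (q : ℕ) [hq : Fact q.Prime]

/-- The local Galois group acts on `ℚ̄` through `localGaloisToGlobal`; the stabiliser of `x` is the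
stabiliser of its image in `ℚ̄_q`. -/
lemma localGaloisToGlobal_apply_eq_iff (τ : PadicAlgCl q ≃ₐ[ℚ_[q]] PadicAlgCl q) (x : Qbar) :
    localGaloisToGlobal q τ x = x ↔ τ (padicEmbedding q x) = padicEmbedding q x := by
  rw [← padicEmbedding_localGaloisToGlobal]
  exact ⟨fun h => by rw [h], fun h => (padicEmbedding q).toRingHom.injective h⟩

/-- The local Galois group. -/
abbrev Gq : Type := PadicAlgCl q ≃ₐ[ℚ_[q]] PadicAlgCl q

/-- The composite `G_{ℚ_q} → G_ℚ → Gal(ℚ(ζ_N)/ℚ)`. -/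
noncomputable def locToCyclo (N : ℕ) [NeZero N] : Gq q →* (cycloLevel N).G :=
  (cycloLevel N).proj.comp (localGaloisToGlobal q)

lemma locToCyclo_ker (N : ℕ) [NeZero N] :
    (locToCyclo q N).ker = MulAction.stabilizer (Gq q) (padicEmbedding q (zetaQbar N)) := by
  ext τ
  rw [MonoidHom.mem_ker, MulAction.mem_stabilizer_iff]
  change (cycloLevel N).proj (localGaloisToGlobal q τ) = 1 ↔ _
  rw [Level.proj, QuotientGroup.mk'_apply, QuotientGroup.eq_one_iff, mem_cycloLevel_N_iff,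
    localGaloisToGlobal_apply_eq_iff]
  rfl

lemma orbit_eq_rootSet (x : PadicAlgCl q) :
    MulAction.orbit (Gq q) x = (minpoly ℚ_[q] x).rootSet (PadicAlgCl q) := by
  haveI : Normal ℚ_[q] (PadicAlgCl q) := IsAlgClosure.normal ℚ_[q] (PadicAlgCl q)
  ext y
  rw [← isConjRoot_iff_mem_minpoly_rootSet (Algebra.IsIntegral.isIntegral x),
    IsConjRoot.comm, isConjRoot_iff_exists_algEquiv, MulAction.mem_orbit_iff]
  rfl

/-- **Orbit counting**: the image of the local Galois group in `Gal(ℚ(ζ_N)/ℚ)` has order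
`[ℚ_q(ζ_N) : ℚ_q]`. -/
theorem natCard_range_locToCyclo (N : ℕ) [NeZero N] :
    Nat.card (locToCyclo q N).range
      = (minpoly ℚ_[q] (padicEmbedding q (zetaQbar N))).natDegree := by
  classical
  have e1 := QuotientGroup.quotientKerEquivRange (locToCyclo q N)
  rw [← Nat.card_congr e1.toEquiv, locToCyclo_ker]
  have e2 := MulAction.orbitEquivQuotientStabilizer (Gq q) (padicEmbedding q (zetaQbar N))
  rw [← Nat.card_congr e2, orbit_eq_rootSet, Nat.card_eq_fintype_card]
  have hint : IsIntegral ℚ_[q] (padicEmbedding q (zetaQbar N)) := Algebra.IsIntegral.isIntegral _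
  exact card_rootSet_eq_natDegree
    ((minpoly.irreducible hint).separable) (IsAlgClosed.splits _)

end orbit

/-- The decomposition group at `q` in `Gal(ℚ(ζ_N)/ℚ)` has order `[ℚ_q(ζ_N) : ℚ_q]`. -/
theorem natCard_decomp_cycloLevel (q : Nat.Primes) (N : ℕ) [NeZero N] :
    haveI : Fact (q : ℕ).Prime := ⟨q.2⟩
    Nat.card (decomp q (cycloLevel N))
      = (minpoly ℚ_[(q : ℕ)] (padicEmbedding (q : ℕ) (zetaQbar N))).natDegree := by
  haveI : Fact (q : ℕ).Prime := ⟨q.2⟩
  rw [← natCard_range_locToCyclo]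
  have : decomp q (cycloLevel N) = (locToCyclo (q : ℕ) N).range := by
    unfold decomp locToCyclo
    rw [MonoidHom.map_range]
    rfl
  rw [this]


/-! ## Reduction modulo `q` -/

section reduction

variable (q : ℕ) [hq : Fact q.Prime]

/-- Reduction mod `q`: the degree of a primitive `N`-th root of unity over `ℚ_q` (`q ∤ N`) is at
least the order of `q` modulo `N`. -/
theorem orderOf_le_natDegree_minpoly_padic {N : ℕ} (hN : q.Coprime N) {z : PadicAlgCl q}
    (hz : IsPrimitiveRoot z N) :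
    orderOf (ZMod.unitOfCoprime q hN) ≤ (minpoly ℚ_[q] z).natDegree := by
  have hN0 : 0 < N := by
    rcases Nat.eq_zero_or_pos N with h | h
    · subst h
      rw [Nat.coprime_zero_right] at hN
      exact absurd hN hq.out.one_lt.ne'
    · exact h
  haveI : Module.IsTorsionFree ℤ_[q] (PadicAlgCl q) :=
    Module.IsTorsionFree.trans_faithfulSMul ℤ_[q] ℚ_[q] (PadicAlgCl q)
  have hint : IsIntegral ℤ_[q] z := (hz.isIntegral hN0).tower_top
  haveI : NeZero ((N : ℕ) : PadicAlgCl q) := ⟨by exact_mod_cast hN0.ne'⟩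
  have h1 : minpoly ℚ_[q] z = (minpoly ℤ_[q] z).map (algebraMap ℤ_[q] ℚ_[q]) :=
    minpoly.isIntegrallyClosed_eq_field_fractions' ℚ_[q] hint
  have hmonic : (minpoly ℤ_[q] z).Monic := minpoly.monic hint
  have hdeg : (minpoly ℚ_[q] z).natDegree = (minpoly ℤ_[q] z).natDegree := by
    rw [h1, hmonic.natDegree_map]
  have hdvd : minpoly ℤ_[q] z ∣ cyclotomic N ℤ_[q] := by
    apply minpoly.isIntegrallyClosed_dvd hint
    rw [aeval_def, eval₂_eq_eval_map, map_cyclotomic]
    exact (isRoot_cyclotomic_iff.mpr hz)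
  -- reduce modulo `q`
  set g : (ZMod q)[X] := (minpoly ℤ_[q] z).map PadicInt.toZMod with hg
  have hgmonic : g.Monic := hmonic.map _
  have hgdeg : g.natDegree = (minpoly ℤ_[q] z).natDegree := hmonic.natDegree_map _
  have hgdvd : g ∣ cyclotomic N (ZMod q) := by
    have := Polynomial.map_dvd (PadicInt.toZMod (p := q)) hdvd
    rwa [map_cyclotomic] at this
  have hgpos : 0 < g.natDegree := by
    rw [hgdeg, ← hdeg]
    exact minpoly.natDegree_pos (Algebra.IsIntegral.isIntegral z)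
  have hgdeg' : g.degree ≠ 0 := by
    rw [degree_eq_natDegree hgmonic.ne_zero]
    exact_mod_cast hgpos.ne'
  obtain ⟨P, hPirr, hPdvd⟩ := exists_irreducible_of_degree_pos
    (by rw [degree_eq_natDegree hgmonic.ne_zero]; exact_mod_cast hgpos)
  have hK : Fintype.card (ZMod q) = q ^ 1 := by rw [ZMod.card, pow_one]
  have hP := natDegree_of_dvd_cyclotomic_of_irreducible hK hN (hPdvd.trans hgdvd) hPirr
  have hle : P.natDegree ≤ g.natDegree := natDegree_le_of_dvd hPdvd hgmonic.ne_zero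
  rw [hdeg, ← hgdeg]
  refine le_trans (le_of_eq ?_) hle
  rw [hP]
  congr 1
  ext
  simp

end reduction

/-! ## The `p`-part of the decomposition groups -/

lemma pow_dvd_of_dvd_totient_of_lt {p q : ℕ} (hp : p.Prime) (hq : 2 ≤ q) {m n D : ℕ}
    (hD : D ∣ p ^ (m - 1) * (p - 1)) (h1 : p ^ m < q ^ D) (h2 : q ^ (p ^ n) ≤ p ^ m) :
    p ^ n ∣ D := by
  have hpos : 0 < p ^ (m - 1) * (p - 1) :=
    Nat.mul_pos (pow_pos hp.pos _) (Nat.sub_pos_of_lt hp.one_lt)
  have hD0 : D ≠ 0 := by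
    rintro rfl
    exact hpos.ne' (Nat.eq_zero_of_zero_dvd hD)
  rw [hp.pow_dvd_iff_le_factorization hD0]
  by_contra hlt
  rw [not_le] at hlt
  set a := D.factorization p with ha
  set b := D / p ^ a with hb
  have hDab : p ^ a * b = D := Nat.ordProj_mul_ordCompl_eq_self D p
  have hbcop : Nat.Coprime p b := Nat.coprime_ordCompl hp hD0
  have hbdvd : b ∣ p ^ (m - 1) * (p - 1) := (Dvd.intro_left _ hDab).trans hD
  have hb' : b ∣ p - 1 :=
    (Nat.Coprime.pow_right (m - 1) hbcop.symm).dvd_of_dvd_mul_left hbdvd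
  have hble : b ≤ p - 1 := Nat.le_of_dvd (Nat.sub_pos_of_lt hp.one_lt) hb'
  have hDlt : D < p ^ n := by
    calc D = p ^ a * b := hDab.symm
      _ ≤ p ^ a * (p - 1) := Nat.mul_le_mul_left _ hble
      _ < p ^ a * p := Nat.mul_lt_mul_of_pos_left (Nat.sub_lt hp.pos one_pos) (pow_pos hp.pos _)
      _ = p ^ (a + 1) := (pow_succ p a).symm
      _ ≤ p ^ n := Nat.pow_le_pow_right hp.pos hlt
  have h3 : q ^ D < q ^ (p ^ n) := Nat.pow_lt_pow_right hq hDlt
  omega

/-- If `q^f ≡ 1 mod N` with `f > 0` then `N < q^f`. -/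
lemma lt_pow_orderOf_unitOfCoprime {q N : ℕ} (hq : 2 ≤ q) (hN : q.Coprime N) [NeZero N] :
    N < q ^ orderOf (ZMod.unitOfCoprime q hN) := by
  set f := orderOf (ZMod.unitOfCoprime q hN) with hf
  have hfpos : 0 < f := orderOf_pos _
  have h1 : (ZMod.unitOfCoprime q hN) ^ f = 1 := pow_orderOf_eq_one _
  have h2 : ((q ^ f : ℕ) : ZMod N) = ((1 : ℕ) : ZMod N) := by
    have := congrArg (fun u : (ZMod N)ˣ => (u : ZMod N)) h1
    simpa using this
  have h3 : q ^ f ≡ 1 [MOD N] := (ZMod.natCast_eq_natCast_iff _ _ _).mp h2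
  have hge : 2 ≤ q ^ f := by
    calc 2 ≤ q := hq
      _ = q ^ 1 := (pow_one q).symm
      _ ≤ q ^ f := Nat.pow_le_pow_right (by omega) hfpos
  have h4 : N ∣ q ^ f - 1 := (Nat.modEq_iff_dvd' (by omega)).mp h3.symm
  have h5 : N ≤ q ^ f - 1 := Nat.le_of_dvd (by omega) h4
  omega

/-- **D-PINF-L (cyclotomic core).** The `p`-part of `|D_q(ℚ(ζ_{p^m})/ℚ)|` is unbounded. -/
theorem exists_pow_dvd_natCard_decomp_cycloLevel (p : ℕ) [hp : Fact p.Prime] (q : Nat.Primes)
    (n : ℕ) :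
    ∃ m : ℕ, ∃ _ : NeZero (p ^ m), p ^ n ∣ Nat.card (decomp q (cycloLevel (p ^ m))) := by
  haveI : Fact (q : ℕ).Prime := ⟨q.2⟩
  by_cases hqp : (q : ℕ) = p
  · -- `q = p`: totally ramified
    subst hqp
    haveI : NeZero ((q : ℕ) ^ (n + 1)) := ⟨pow_ne_zero _ q.2.ne_zero⟩
    refine ⟨n + 1, inferInstance, ?_⟩
    rw [natCard_decomp_cycloLevel]
    have hz : IsPrimitiveRoot (padicEmbedding (q : ℕ) (zetaQbar ((q : ℕ) ^ (n + 1))))
        ((q : ℕ) ^ (n + 1)) :=
      (zetaQbar_spec _).map_of_injective (padicEmbedding (q : ℕ)).toRingHom.injective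
    haveI : NeZero ((((q : ℕ) ^ (n + 1) : ℕ)) : ℚ_[(q : ℕ)]) :=
      ⟨by exact_mod_cast (pow_ne_zero _ q.2.ne_zero)⟩
    rw [← hz.minpoly_eq_cyclotomic_of_irreducible
      (cyclotomic_prime_pow_irreducible_padic (q : ℕ) n), natDegree_cyclotomic,
      Nat.totient_prime_pow q.2 (Nat.succ_pos n)]
    exact Dvd.intro _ rfl
  · -- `q ≠ p`: unramified, the Frobenius has large order
    have hp' : p.Prime := hp.out
    set m := (q : ℕ) * p ^ n with hm
    have hmpos : 0 < m := Nat.mul_pos q.2.pos (pow_pos hp'.pos _)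
    haveI : NeZero (p ^ m) := ⟨pow_ne_zero _ hp'.ne_zero⟩
    refine ⟨m, inferInstance, ?_⟩
    have hcop : (q : ℕ).Coprime (p ^ m) :=
      Nat.Coprime.pow_right _ ((Nat.coprime_primes q.2 hp').mpr hqp)
    have hz : IsPrimitiveRoot (padicEmbedding (q : ℕ) (zetaQbar (p ^ m))) (p ^ m) :=
      (zetaQbar_spec _).map_of_injective (padicEmbedding (q : ℕ)).toRingHom.injective
    have hD1 := natCard_decomp_cycloLevel q (p ^ m)
    have hD2 := orderOf_le_natDegree_minpoly_padic (q : ℕ) hcop hz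
    have hlt := lt_pow_orderOf_unitOfCoprime q.2.two_le hcop
    have hdvd : Nat.card (decomp q (cycloLevel (p ^ m))) ∣ p ^ (m - 1) * (p - 1) := by
      have := Subgroup.card_subgroup_dvd_card (decomp q (cycloLevel (p ^ m)))
      rwa [cycloLevel_natCard, Nat.totient_prime_pow hp' hmpos] at this
    refine pow_dvd_of_dvd_totient_of_lt hp' q.2.two_le hdvd ?_ ?_
    · rw [hD1]
      exact lt_of_lt_of_le hlt (Nat.pow_le_pow_right q.2.pos hD2)
    · calc (q : ℕ) ^ (p ^ n) ≤ (p ^ (q : ℕ)) ^ (p ^ n) := by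
            apply Nat.pow_le_pow_left
            exact le_trans (Nat.lt_two_pow_self).le (Nat.pow_le_pow_left hp'.two_le _)
        _ = p ^ m := by rw [← pow_mul]

lemma decompMap_surjective (q : Nat.Primes) {L L' : Level} (h : L ≤ L') :
    Function.Surjective (decompMap q h) := by
  rintro ⟨x, g, hg, rfl⟩
  exact ⟨⟨L'.proj g, g, hg, rfl⟩, rfl⟩

lemma natCard_decomp_eq_mul (q : Nat.Primes) {L L' : Level} (h : L ≤ L') :
    Nat.card (decomp q L') = Nat.card (decompMap q h).ker * Nat.card (decomp q L) := by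
  have e := QuotientGroup.quotientKerEquivOfSurjective (decompMap q h) (decompMap_surjective q h)
  rw [← Nat.card_congr e.toEquiv, mul_comm]
  exact Subgroup.card_eq_card_quotient_mul_card_subgroup _

/-- **D-PINF-L (core).** Above every level `L` there is a level `L'`, an `S`-level if `L` is one and
`p ∈ S`, such that `p ^ n` divides `|ker (D_q(L') → D_q(L))|`. -/
theorem exists_level_pow_dvd_card_ker_decompMap (p : ℕ) [hp : Fact p.Prime] (q : Nat.Primes)
    (L : Level) (n : ℕ) :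
    ∃ (L' : Level) (h : L ≤ L'),
      (∀ S : Finset Nat.Primes, pPrime p ∈ S → L.IsS S → L'.IsS S) ∧
      p ^ n ∣ Nat.card (decompMap q h).ker := by
  have hp' : p.Prime := hp.out
  set v := (Nat.card (decomp q L)).factorization p with hv
  obtain ⟨m, hm, hdvd⟩ := exists_pow_dvd_natCard_decomp_cycloLevel p q (n + v)
  refine ⟨L ⊔ cycloLevel (p ^ m), le_sup_left, ?_, ?_⟩
  · intro S hpS hL
    refine Level.IsS.sup hL (cycloLevel_isS S (p ^ m) ?_)
    intro q' hq'
    refine Nat.Coprime.pow_left _ ((Nat.coprime_primes hp' q'.2).mpr ?_)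
    rintro rfl
    exact hq' hpS
  · have h1 : Nat.card (decomp q (cycloLevel (p ^ m))) ∣
        Nat.card (decomp q (L ⊔ cycloLevel (p ^ m))) :=
      ⟨_, (natCard_decomp_eq_mul q (le_sup_right : cycloLevel (p ^ m) ≤ L ⊔ cycloLevel (p ^ m))).trans
        (mul_comm _ _)⟩
    have h2 := hdvd.trans h1
    rw [natCard_decomp_eq_mul q (le_sup_left : L ≤ L ⊔ cycloLevel (p ^ m))] at h2
    haveI := Level.finite_G_aux L
    haveI := Level.finite_G_aux (L ⊔ cycloLevel (p ^ m))
    have hpos : 0 < Nat.card (decomp q L) := Nat.card_pos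
    have hkpos : 0 < Nat.card (decompMap q (le_sup_left : L ≤ L ⊔ cycloLevel (p ^ m))).ker :=
      Nat.card_pos
    rw [hp'.pow_dvd_iff_le_factorization (Nat.mul_ne_zero hkpos.ne' hpos.ne'),
      Nat.factorization_mul hkpos.ne' hpos.ne', Finsupp.add_apply] at h2
    rw [hp'.pow_dvd_iff_le_factorization hkpos.ne']
    omega

end Pinf

end Fermat.Agent.CFT
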