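import Fermat.Agent.Lib.CFT.Duality.LevelTower
import Fermat.Agent.Lib.CFT.Duality.PinfLocal

/-!
# P4 / Layer D (D-PINF): the `pinf` field of the class formations, for the towers of `ℚ̄ / ℚ`
-/

set_option autoImplicit false

open ExtCitation

namespace Fermat.Agent.CFT.Duality

variable (p : ℕ) [Fact p.Prime] (S : Finset Nat.Primes) (L₀ : Level) (h₀ : L₀.IsS S)

/-- `pinf` for the full tower of levels above `L₀`. -/
theorem pinf_levelTower (j : (levelTower L₀).ι) (U : Subgroup ((levelTower L₀).G j)) (n : ℕ) :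
    ∃ (k : (levelTower L₀).ι) (h : j ≤ k), p ^ n ∣ Nat.card ((levelTower L₀).pre h U) := by
  obtain ⟨L, hL⟩ := j
  obtain ⟨L', h, -, hdvd⟩ := Pinf.exists_level_pow_dvd_card_ker p L n
  refine ⟨⟨L', hL.trans h⟩, h, hdvd.trans ?_⟩
  exact Subgroup.card_dvd_of_le (fun x hx => by
    change Level.map h x ∈ U
    rw [MonoidHom.mem_ker.mp hx]; exact U.one_mem)

/-- `pinf` for the tower of `G_S` (`p ∈ S`). -/
theorem pinf_towerS (hpS : pPrime p ∈ S) (j : (towerS S L₀ h₀).ι)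
    (U : Subgroup ((towerS S L₀ h₀).G j)) (n : ℕ) :
    ∃ (k : (towerS S L₀ h₀).ι) (h : j ≤ k), p ^ n ∣ Nat.card ((towerS S L₀ h₀).pre h U) := by
  obtain ⟨⟨L, hL⟩, hLS⟩ := j
  obtain ⟨L', h, hS', hdvd⟩ := Pinf.exists_level_pow_dvd_card_ker p L n
  refine ⟨⟨⟨L', hL.trans h⟩, hS' S hpS hLS⟩, h, hdvd.trans ?_⟩
  exact Subgroup.card_dvd_of_le (fun x hx => by
    change Level.map h x ∈ U
    rw [MonoidHom.mem_ker.mp hx]; exact U.one_mem)

/-- `pinf` for the full local tower at `q`. -/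
theorem pinf_towerLoc (q : Nat.Primes) (j : (towerLoc q L₀).ι)
    (U : Subgroup ((towerLoc q L₀).G j)) (n : ℕ) :
    ∃ (k : (towerLoc q L₀).ι) (h : j ≤ k), p ^ n ∣ Nat.card ((towerLoc q L₀).pre h U) := by
  obtain ⟨L, hL⟩ := j
  obtain ⟨L', h, -, hdvd⟩ := Pinf.exists_level_pow_dvd_card_ker_decompMap p q L n
  refine ⟨⟨L', hL.trans h⟩, h, hdvd.trans ?_⟩
  exact Subgroup.card_dvd_of_le (fun x hx => by
    change decompMap q h x ∈ U
    rw [MonoidHom.mem_ker.mp hx]; exact U.one_mem)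

/-- `pinf` for the local `S`-tower at `q` (`p ∈ S`). -/
theorem pinf_towerLocS (hpS : pPrime p ∈ S) (q : Nat.Primes) (j : (towerLocS S q L₀ h₀).ι)
    (U : Subgroup ((towerLocS S q L₀ h₀).G j)) (n : ℕ) :
    ∃ (k : (towerLocS S q L₀ h₀).ι) (h : j ≤ k),
      p ^ n ∣ Nat.card ((towerLocS S q L₀ h₀).pre h U) := by
  obtain ⟨⟨L, hL⟩, hLS⟩ := j
  obtain ⟨L', h, hS', hdvd⟩ := Pinf.exists_level_pow_dvd_card_ker_decompMap p q L n
  refine ⟨⟨⟨L', hL.trans h⟩, hS' S hpS hLS⟩, h, hdvd.trans ?_⟩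
  exact Subgroup.card_dvd_of_le (fun x hx => by
    change decompMap q h x ∈ U
    rw [MonoidHom.mem_ker.mp hx]; exact U.one_mem)

end Fermat.Agent.CFT.Duality
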