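import Mathlib

/-!
# P4 / Layer D : towers of finite groups, tower modules, `p`-class formations  (CONTRACT B, C → D)

Everything in this file is a DEFINITION (no `sorry`).  It is the language in which layers B (local)
and C (global) hand their class formations to layer D (duality).

* `Tower`          : a directed system of finite groups with surjective transition maps
                     (think `Gal(F_j / K)` for the finite Galois levels `F_j` of an infinite extension).
* `TowerModule k T`: modules `C j : Rep k (T.G j)` with equivariant transition maps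
                     `Rep.res (T.π h) (C i) ⟶ C j`   (think `C j = F_j^×` or `C_S(F_j)`).
* `PClassFormation p T C` : the `p`-primary class formation axioms, in Mathlib `groupCohomology`
                     language, for all levels `j` and all subgroups `U ≤ T.G j`
                     (`U` ↔ the intermediate field `F_j^U`; cohomology of `Rep.res U.subtype (C j)`).
-/

set_option autoImplicit false

open CategoryTheory

namespace Fermat.Agent.CFT.Duality

/-- A tower of finite groups: a directed system with surjective transition maps. -/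
structure Tower where
  /-- the levels -/
  ι : Type
  [instPreorder : Preorder ι]
  [instDirected : IsDirected ι (· ≤ ·)]
  [instNonempty : Nonempty ι]
  /-- the group at each level -/
  G : ι → Type
  [instGroup : ∀ i, Group (G i)]
  [instFinite : ∀ i, Finite (G i)]
  /-- the transition maps -/
  π : ∀ {i j : ι}, i ≤ j → (G j →* G i)
  π_surjective : ∀ {i j : ι} (h : i ≤ j), Function.Surjective (π h)
  π_refl : ∀ (i : ι) (g : G i), π (le_refl i) g = g
  π_comp : ∀ {i j k : ι} (h : i ≤ j) (h' : j ≤ k) (g : G k), π h (π h' g) = π (h.trans h') g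

attribute [instance] Tower.instPreorder Tower.instDirected Tower.instNonempty Tower.instGroup
  Tower.instFinite

/-- A module over a tower (coefficients in a commutative ring `k`; `k = ℤ` for class formations.
Keeping `k` generic in the general theory avoids the `Module ℤ` instance diamond of `Rep ℤ G`). -/
structure TowerModule (k : Type) [CommRing k] (T : Tower) where
  /-- the module at each level -/
  C : ∀ i, Rep k (T.G i)
  /-- the transition maps -/
  φ : ∀ {i j : T.ι} (h : i ≤ j), Rep.res (T.π h) (C i) ⟶ C j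
  φ_refl : ∀ (i : T.ι) (x : C i), (φ (le_refl i)).hom x = x
  φ_comp : ∀ {i j k : T.ι} (h : i ≤ j) (h' : j ≤ k) (x : C i),
    (φ h').hom ((φ h).hom x) = (φ (h.trans h')).hom x

namespace Tower

variable (T : Tower)

/-- The preimage at level `j` of a subgroup at level `i ≤ j`. -/
abbrev pre {i j : T.ι} (h : i ≤ j) (U : Subgroup (T.G i)) : Subgroup (T.G j) := U.comap (T.π h)

/-- The projection `π⁻¹ U → U`. -/
abbrev πU {i j : T.ι} (h : i ≤ j) (U : Subgroup (T.G i)) : T.pre h U →* U :=
  (T.π h).subgroupComap U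

end Tower

namespace TowerModule

variable {k : Type} [CommRing k] {T : Tower} (C : TowerModule k T)

/-- `C j` as a module over the subgroup `U ≤ T.G j`. -/
abbrev atSub (j : T.ι) (U : Subgroup (T.G j)) : Rep k U := Rep.res U.subtype (C.C j)

/-- Restriction `H^n(U, C j) → H^n(V, C j)` for `V ≤ U ≤ T.G j`. -/
noncomputable def resMap (j : T.ι) {V U : Subgroup (T.G j)} (h : V ≤ U) (n : ℕ) :
    groupCohomology (C.atSub j U) n →+ groupCohomology (C.atSub j V) n :=
  (groupCohomology.map (Subgroup.inclusion h) (𝟙 (C.atSub j V)) n).hom.toAddMonoidHom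

/-- The transition map of `C`, as a morphism for the inflation along `π⁻¹ U → U`. -/
def φU {i j : T.ι} (h : i ≤ j) (U : Subgroup (T.G i)) :
    Rep.res (T.πU h U) (C.atSub i U) ⟶ C.atSub j (T.pre h U) :=
  (Rep.resFunctor (T.pre h U).subtype).map (C.φ h)

/-- Inflation `H^n(U, C i) → H^n(π⁻¹ U, C j)` for `i ≤ j`. -/
noncomputable def inflMap {i j : T.ι} (h : i ≤ j) (U : Subgroup (T.G i)) (n : ℕ) :
    groupCohomology (C.atSub i U) n →+ groupCohomology (C.atSub j (T.pre h U)) n :=
  (groupCohomology.map (T.πU h U) (C.φU h U) n).hom.toAddMonoidHom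

/-- Galois descent: `C i ⥲ (C j)^{ker (G j → G i)}`. -/
structure HasDescent : Prop where
  injective : ∀ {i j : T.ι} (h : i ≤ j), Function.Injective (C.φ h).hom
  surjective : ∀ {i j : T.ι} (h : i ≤ j) (y : C.C j),
    (∀ g : T.G j, T.π h g = 1 → (C.C j).ρ g y = y) → ∃ x : C.C i, (C.φ h).hom x = y

end TowerModule

/-- **`p`-class formation** on a tower module (CONTRACT; WEAK form: no existence theorem, see
`PExistence`).  `U ≤ T.G j` plays the role of the
intermediate field `K = F_j^U`, and `Rep.res U.subtype (C j)` of the `Gal(F_j/K)`-module `C(F_j)`. -/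
structure PClassFormation (p : ℕ) [Fact p.Prime] (T : Tower) (C : TowerModule ℤ T) where
  /-- Galois descent for `C`. -/
  descent : C.HasDescent
  /-- `p^∞` divides the order of every open subgroup. -/
  pinf : ∀ (j : T.ι) (U : Subgroup (T.G j)) (n : ℕ),
    ∃ (k : T.ι) (h : j ≤ k), p ^ n ∣ Nat.card (T.pre h U)
  /-- Hilbert 90: `H¹(U, C j)` has no `p`-torsion. -/
  h1 : ∀ (j : T.ι) (U : Subgroup (T.G j)) (x : groupCohomology (C.atSub j U) 1), p • x = 0 → x = 0
  /-- Tate: `H³(U, C j)` has no `p`-torsion.  (Follows from the other axioms by Tate's theorem,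
  Layer A4; kept as a field so that Layer D does not depend on Layer A.) -/
  h3 : ∀ (j : T.ι) (U : Subgroup (T.G j)) (x : groupCohomology (C.atSub j U) 3), p • x = 0 → x = 0
  /-- the invariant maps -/
  inv : ∀ (j : T.ι) (U : Subgroup (T.G j)), groupCohomology (C.atSub j U) 2 →+ AddCircle (1 : ℚ)
  /-- `inv` is injective on `p`-torsion (hence on the `p`-primary part). -/
  inv_injective : ∀ (j : T.ι) (U : Subgroup (T.G j)) (x : groupCohomology (C.atSub j U) 2),
    p • x = 0 → inv j U x = 0 → x = 0
  /-- the `p`-primary part of `H²(U, C j)` contains a class of invariant `1 / |U|_p`. -/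
  inv_surjective : ∀ (j : T.ι) (U : Subgroup (T.G j)),
    ∃ x : groupCohomology (C.atSub j U) 2, p ^ (Nat.card U).factorization p • x = 0 ∧
      inv j U x = ((1 / (p ^ (Nat.card U).factorization p : ℕ) : ℚ) : AddCircle (1 : ℚ))
  /-- compatibility with inflation -/
  inv_infl : ∀ {i j : T.ι} (h : i ≤ j) (U : Subgroup (T.G i))
    (x : groupCohomology (C.atSub i U) 2), inv j (T.pre h U) (C.inflMap h U 2 x) = inv i U x
  /-- compatibility with restriction -/
  inv_res : ∀ (j : T.ι) {V U : Subgroup (T.G j)} (h : V ≤ U) (x : groupCohomology (C.atSub j U) 2),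
    inv j V (C.resMap j h 2 x) = V.relIndex U • inv j U x
  /-- `C(K) / p` is finite. -/
  finite_mod_p : ∀ (j : T.ι) (U : Subgroup (T.G j)), ∃ F : Finset (C.C j),
    ∀ c : C.C j, (∀ u ∈ U, (C.C j).ρ u c = c) →
      ∃ f ∈ F, ∃ e : C.C j, (∀ u ∈ U, (C.C j).ρ u e = e) ∧ c = f + p • e

/-- **Existence theorem for exponent `p`, NORM FORM** (only needed for the injectivity of `α¹`, and
only TRUE for towers all of whose fields contain `μ_p`, e.g. the global tower `towerS S L₀` with
`μ_p ⊆ L₀`; it FAILS for the local `S`-towers): for every level `j₀` (`K = F_{j₀}`, `C(K) = C j₀`)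
there are a level `k ≥ j₀` and `V ≤ N := ker (G k → G j₀)`, normal in `N` with `N / V` abelian of
exponent `p`, such that `N_{N/V} (C k)^V ⊆ p • C j₀`. -/
structure PExistence (p : ℕ) (T : Tower) (C : TowerModule ℤ T) : Prop where
  existence' : ∀ (j₀ : T.ι), ∃ (k : T.ι) (h : j₀ ≤ k) (V : Subgroup (T.G k)),
    V ≤ (T.π h).ker ∧ (V.subgroupOf (T.π h).ker).Normal ∧
    (∀ g ∈ (T.π h).ker, g ^ p ∈ V) ∧ (∀ g ∈ (T.π h).ker, ∀ g' ∈ (T.π h).ker, g * g' * g⁻¹ * g'⁻¹ ∈ V) ∧
    ∀ d : C.C k, (∀ v ∈ V, (C.C k).ρ v d = d) → ∃ e : C.C j₀, (C.φ h).hom (p • e) =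
      ∑ᶠ q : (T.π h).ker ⧸ V.subgroupOf (T.π h).ker, (C.C k).ρ ((q.out : (T.π h).ker) : T.G k) d

/-- **Fundamental `p`-classes** on a tower module (WEAK form: no existence theorem, see `PExistence`):
what layers B (local) and C (global) PRODUCE.
Task D-INV0 (`PFundamental.toPClassFormation`, file `InvOfFundamental.lean`) turns this
(+ Tate's theorem in degree 3, Layer A) into a `PClassFormation`. -/
structure PFundamental (p : ℕ) [Fact p.Prime] (T : Tower) (C : TowerModule ℤ T) where
  /-- Galois descent for `C`. -/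
  descent : C.HasDescent
  /-- `p^∞` divides the order of every open subgroup. -/
  pinf : ∀ (j : T.ι) (U : Subgroup (T.G j)) (n : ℕ),
    ∃ (k : T.ι) (h : j ≤ k), p ^ n ∣ Nat.card (T.pre h U)
  /-- Hilbert 90 for `p`-subgroups. -/
  h1P : ∀ (j : T.ι) (P : Subgroup (T.G j)), IsPGroup p P →
    Subsingleton (groupCohomology (C.atSub j P) 1)
  /-- second inequality for `p`-subgroups. -/
  h2P : ∀ (j : T.ι) (P : Subgroup (T.G j)), IsPGroup p P →
    Finite (groupCohomology (C.atSub j P) 2) ∧
      Nat.card (groupCohomology (C.atSub j P) 2) ≤ Nat.card P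
  /-- the fundamental `p`-classes -/
  u : ∀ j : T.ι, groupCohomology (C.C j) 2
  /-- `u j` has order exactly `|G j|_p`. -/
  u_order : ∀ j : T.ι, addOrderOf (u j) = p ^ (Nat.card (T.G j)).factorization p
  /-- `infl (u i) = |ker (G j → G i)| • u j`. -/
  u_infl : ∀ {i j : T.ι} (h : i ≤ j),
    (groupCohomology.map (T.π h) (C.φ h) 2).hom (u i) = Nat.card (T.π h).ker • u j
  /-- `C(K) / p` is finite. -/
  finite_mod_p : ∀ (j : T.ι) (U : Subgroup (T.G j)), ∃ F : Finset (C.C j),
    ∀ c : C.C j, (∀ u ∈ U, (C.C j).ρ u c = c) →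
      ∃ f ∈ F, ∃ e : C.C j, (∀ u ∈ U, (C.C j).ρ u e = e) ∧ c = f + p • e

end Fermat.Agent.CFT.Duality
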