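/-
P4 / Layer C6 (existence theorem), leaf C6-G: the abstract tower form of Tate's theorem in degree `0`.

For fundamental `p`-classes `F : PFundamental p T C` and an elementary abelian layer
`N = ker (G k → G j₀)` of the tower:

* `PFundamental.exists_norm_eq_nsmul` : `p • C(j₀)` consists of norms from `C(k)`;
* `PFundamental.card_ker_le_index` : a subgroup of `C(j₀)` consisting of norms has index `≥ |N|`;
* `PFundamental.existence_of_card_le` : if `C(j₀) / p` is covered by at most `|N|` classes, then the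
  norm group of the layer is exactly `p • C(j₀)` (the body of `PExistence.existence'`, `V = ⊥`).
-/
import Fermat.Agent.Lib.CFT.Coh.TateZero
import Fermat.Agent.Lib.CFT.Coh.NormEqCount
import Fermat.Agent.Lib.CFT.Coh.FundamentalClass
import Fermat.Agent.Lib.CFT.Duality.Tower

set_option autoImplicit false
set_option linter.unusedSectionVars false
set_option linter.unusedVariables false
set_option linter.style.haveILetI false

namespace Fermat.Agent.CFT.Duality

open CategoryTheory CategoryTheory.Limits Fermat.Agent.CFT.Coh Representation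

noncomputable section

variable {p : ℕ} [Fact p.Prime] {T : Tower} {C : TowerModule ℤ T}

/-- the image of `C(j₀)` in `C(k)` is invariant under `ker (G k → G j₀)` -/
lemma TowerModule.ρ_φ_of_mem_ker (C : TowerModule ℤ T) {j₀ k : T.ι} (h : j₀ ≤ k) (g : T.G k)
    (hg : g ∈ (T.π h).ker) (c : C.C j₀) : (C.C k).ρ g ((C.φ h).hom c) = (C.φ h).hom c := by
  have h1 := Rep.hom_comm_apply (C.φ h) g c
  rw [← h1]
  congr 1
  change (C.C j₀).ρ (T.π h g) c = c
  rw [MonoidHom.mem_ker.1 hg, map_one]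
  rfl

/-- a group of exponent `p` is a `p`-group -/
lemma isPGroup_of_forall_pow_eq_one {G : Type*} [Group G] (H : Subgroup G)
    (hexp : ∀ g ∈ H, g ^ p = 1) : IsPGroup p H := fun g =>
  ⟨1, by rw [pow_one]; exact Subtype.ext (hexp g.1 g.2)⟩

namespace PFundamental

variable (F : PFundamental p T C) {j₀ k : T.ι} (h : j₀ ≤ k)

/-- the restriction of the fundamental class to a `p`-subgroup `N` has order `|N|` -/
lemma addOrderOf_resClass_of_isPGroup (k : T.ι) (N : Subgroup (T.G k)) (hN : IsPGroup p N) :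
    addOrderOf (resClass (C.C k) (F.u k) N) = Nat.card N := by
  have hp : p.Prime := Fact.out
  rw [addOrderOf_resClass (C.C k) p (F.u k) (F.u_order k) N]
  obtain ⟨n, hn⟩ := hN.exists_card_eq
  rw [hn, hp.factorization_pow, Finsupp.single_eq_same]

/-- the map `C(j₀) → Ĥ⁰(N, C(k))` -/
def toTateH0 (C : TowerModule ℤ T) {j₀ k : T.ι} (h : j₀ ≤ k) [Fintype (T.π h).ker] :
    C.C j₀ →+ TateH0 (C.atSub k (T.π h).ker) :=
  AddMonoidHom.mk' (fun c : C.C j₀ => TateH0.mk (C.atSub k (T.π h).ker)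
      ⟨(C.φ h).hom c, fun g => C.ρ_φ_of_mem_ker h g.1 g.2 c⟩)
    (fun a b => by
      rw [← map_add]
      exact congrArg _ (Subtype.ext (map_add (C.φ h).hom a b)))

lemma toTateH0_apply [Fintype (T.π h).ker] (c : C.C j₀) :
    toTateH0 C h c = TateH0.mk (C.atSub k (T.π h).ker)
      ⟨(C.φ h).hom c, fun g => C.ρ_φ_of_mem_ker h g.1 g.2 c⟩ := rfl

/-- `toTateH0 c = 0` iff `φ c` is a norm -/
lemma toTateH0_eq_zero_iff [Fintype (T.π h).ker] (c : C.C j₀) :
    toTateH0 C h c = 0 ↔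
      ∃ d : C.C k, (C.φ h).hom c = ∑ᶠ g : (T.π h).ker, (C.C k).ρ (g : T.G k) d := by
  rw [toTateH0_apply, TateH0.mk_eq_zero_iff]
  refine exists_congr (fun d => ?_)
  rw [finsum_eq_sum_of_fintype, norm_apply_eq_sum]
  exact eq_comm

include F in
lemma toTateH0_surjective [Fintype (T.π h).ker] : Function.Surjective (toTateH0 C h) := by
  intro z
  obtain ⟨x, rfl⟩ := TateH0.mk_surjective _ z
  obtain ⟨c, hc⟩ := F.descent.surjective h x.1
    (fun g hg => x.2 ⟨g, MonoidHom.mem_ker.2 hg⟩)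
  exact ⟨c, congrArg (TateH0.mk _) (Subtype.ext hc)⟩

variable (hexp : ∀ g ∈ (T.π h).ker, g ^ p = 1)

include F hexp in
/-- `p` kills `Ĥ⁰(N, C(k))` -/
lemma nsmul_tateH0_ker_eq_zero [Fintype (T.π h).ker] (z : TateH0 (C.atSub k (T.π h).ker)) :
    p • z = 0 := by
  have hN : IsPGroup p (T.π h).ker := isPGroup_of_forall_pow_eq_one _ hexp
  obtain ⟨hfin, hcard⟩ := F.h2P k (T.π h).ker hN
  haveI := hfin
  haveI := F.h1P k (T.π h).ker hN
  have h1 : IsZero (groupCohomology (C.atSub k (T.π h).ker) 1) :=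
    ModuleCat.isZero_of_subsingleton _
  exact nsmul_tateH0_eq_zero_of_order p hN (C.atSub k (T.π h).ker)
    (resClass (C.C k) (F.u k) (T.π h).ker) h1 hcard
    (F.addOrderOf_resClass_of_isPGroup k _ hN) (fun g => Subtype.ext (hexp g.1 g.2)) z

variable (hcomm : ∀ g ∈ (T.π h).ker, ∀ g' ∈ (T.π h).ker, g * g' = g' * g)

include F hexp hcomm in
/-- `|Ĥ⁰(N, C(k))| = |N|` -/
lemma card_tateH0_ker [Fintype (T.π h).ker] :
    Nat.card (TateH0 (C.atSub k (T.π h).ker)) = Nat.card (T.π h).ker := by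
  have hN : IsPGroup p (T.π h).ker := isPGroup_of_forall_pow_eq_one _ hexp
  obtain ⟨hfin, hcard⟩ := F.h2P k (T.π h).ker hN
  haveI := hfin
  haveI := F.h1P k (T.π h).ker hN
  have h1 : IsZero (groupCohomology (C.atSub k (T.π h).ker) 1) :=
    ModuleCat.isZero_of_subsingleton _
  letI : CommGroup (T.π h).ker :=
    { (inferInstance : Group (T.π h).ker) with
      mul_comm := fun a b => Subtype.ext (hcomm a.1 a.2 b.1 b.2) }
  exact card_tateH0_eq_of_comm_of_order p hN (C.atSub k (T.π h).ker)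
    (resClass (C.C k) (F.u k) (T.π h).ker) h1 hcard (F.addOrderOf_resClass_of_isPGroup k _ hN)

end PFundamental

/-- **LEAF C6-G (a)**: for an elementary abelian layer `N = ker (G k → G j₀)`, `p • C(j₀)` consists
of norms from `C(k)`. -/
theorem PFundamental.exists_norm_eq_nsmul (F : PFundamental p T C) {j₀ k : T.ι} (h : j₀ ≤ k)
    (hexp : ∀ g ∈ (T.π h).ker, g ^ p = 1)
    (hcomm : ∀ g ∈ (T.π h).ker, ∀ g' ∈ (T.π h).ker, g * g' = g' * g) (c : C.C j₀) :
    ∃ d : C.C k, (C.φ h).hom (p • c) = ∑ᶠ g : (T.π h).ker, (C.C k).ρ (g : T.G k) d := by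
  letI : Fintype (T.π h).ker := Fintype.ofFinite _
  rw [← PFundamental.toTateH0_eq_zero_iff, map_nsmul]
  exact F.nsmul_tateH0_ker_eq_zero h hexp _

/-- **LEAF C6-G (b)**: first inequality in index form: a subgroup of `C(j₀)` consisting of norms
from `C(k)` has index at least `|N|`. -/
theorem PFundamental.card_ker_le_index (F : PFundamental p T C) {j₀ k : T.ι} (h : j₀ ≤ k)
    (hexp : ∀ g ∈ (T.π h).ker, g ^ p = 1)
    (hcomm : ∀ g ∈ (T.π h).ker, ∀ g' ∈ (T.π h).ker, g * g' = g' * g)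
    (H : AddSubgroup (C.C j₀))
    (hH : ∀ x ∈ H, ∃ d : C.C k, (C.φ h).hom x = ∑ᶠ g : (T.π h).ker, (C.C k).ρ (g : T.G k) d)
    (hfin : H.index ≠ 0) : Nat.card (T.π h).ker ≤ H.index := by
  letI : Fintype (T.π h).ker := Fintype.ofFinite _
  have hle : H ≤ (PFundamental.toTateH0 C h).ker := fun x hx =>
    AddMonoidHom.mem_ker.2 ((PFundamental.toTateH0_eq_zero_iff h x).2 (hH x hx))
  have hidx : (PFundamental.toTateH0 C h).ker.index = Nat.card (T.π h).ker := by
    rw [AddSubgroup.index_ker, AddMonoidHom.range_eq_top.2 (F.toTateH0_surjective h),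
      AddSubgroup.card_top, F.card_tateH0_ker h hexp hcomm]
  rw [← hidx]
  exact Nat.le_of_dvd (Nat.pos_of_ne_zero hfin) (AddSubgroup.index_dvd_of_le hle)

/-- for the trivial subgroup, `q ↦ q.out` is a bijection `N ⧸ ⊥ ≃ N` -/
lemma finsum_quotient_bot_out {G M : Type*} [Group G] [AddCommMonoid M] (N : Subgroup G)
    (f : N → M) :
    ∑ᶠ q : N ⧸ (⊥ : Subgroup G).subgroupOf N, f q.out = ∑ᶠ g : N, f g := by
  have hbot : (⊥ : Subgroup G).subgroupOf N = ⊥ := Subgroup.bot_subgroupOf N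
  have hbij : Function.Bijective
      (fun q : N ⧸ (⊥ : Subgroup G).subgroupOf N => (q.out : N)) := by
    constructor
    · intro q q' hqq
      have hqq' : q.out = q'.out := hqq
      rw [← QuotientGroup.out_eq' q, ← QuotientGroup.out_eq' q', hqq']
    · intro g
      refine ⟨QuotientGroup.mk g, ?_⟩
      obtain ⟨x, hx⟩ := QuotientGroup.mk_out_eq_mul ((⊥ : Subgroup G).subgroupOf N) g
      have hx1 : (x : N) = 1 := by
        have h1 : (x : N) ∈ (⊥ : Subgroup G).subgroupOf N := x.2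
        have h2 : (x : N) ∈ (⊥ : Subgroup N) := hbot ▸ h1
        exact Subgroup.mem_bot.1 h2
      change (QuotientGroup.mk g : N ⧸ (⊥ : Subgroup G).subgroupOf N).out = g
      rw [hx, hx1, mul_one]
  exact finsum_comp_equiv (Equiv.ofBijective _ hbij) (f := f)

/-- **LEAF C6-G (c)**: the existence theorem at `j₀` from a covering of `C(j₀) / p` by at most `|N|`
classes (the exact shape of the body of `PExistence.existence'` with `V = ⊥`). -/
theorem PFundamental.existence_of_card_le (F : PFundamental p T C) {j₀ k : T.ι} (h : j₀ ≤ k)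
    (hexp : ∀ g ∈ (T.π h).ker, g ^ p = 1)
    (hcomm : ∀ g ∈ (T.π h).ker, ∀ g' ∈ (T.π h).ker, g * g' = g' * g)
    (Fs : Finset (C.C j₀)) (hFs : Fs.card ≤ Nat.card (T.π h).ker)
    (hcover : ∀ c : C.C j₀, ∃ f ∈ Fs, ∃ e : C.C j₀, c = f + p • e) :
    ∃ V : Subgroup (T.G k),
    V ≤ (T.π h).ker ∧ (V.subgroupOf (T.π h).ker).Normal ∧
    (∀ g ∈ (T.π h).ker, g ^ p ∈ V) ∧
    (∀ g ∈ (T.π h).ker, ∀ g' ∈ (T.π h).ker, g * g' * g⁻¹ * g'⁻¹ ∈ V) ∧
    ∀ d : C.C k, (∀ v ∈ V, (C.C k).ρ v d = d) → ∃ e : C.C j₀, (C.φ h).hom (p • e) =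
      ∑ᶠ q : (T.π h).ker ⧸ V.subgroupOf (T.π h).ker, (C.C k).ρ ((q.out : (T.π h).ker) : T.G k) d := by
  classical
  letI : Fintype (T.π h).ker := Fintype.ofFinite _
  refine ⟨⊥, bot_le, ?_, fun g hg => Subgroup.mem_bot.2 (hexp g hg), fun g hg g' hg' => ?_,
    fun d _ => ?_⟩
  · rw [Subgroup.bot_subgroupOf]
    infer_instance
  · rw [Subgroup.mem_bot, hcomm g hg g' hg']
    group
  · -- the counting lemma on `R = C(k)|_N`
    have hcardT := F.card_tateH0_ker h hexp hcomm
    haveI : Finite (TateH0 (C.atSub k (T.π h).ker)) :=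
      Nat.finite_of_card_ne_zero (hcardT.trans_ne Nat.card_pos.ne')
    -- invariants of `C(k)` come from `C(j₀)`
    have hdesc : ∀ c : C.C k, (∀ g : (T.π h).ker, (C.atSub k (T.π h).ker).ρ g c = c) →
        ∃ x : C.C j₀, (C.φ h).hom x = c := fun c hc =>
      F.descent.surjective h c (fun g hg => hc ⟨g, MonoidHom.mem_ker.2 hg⟩)
    have hcov : ∀ c : C.C k, (∀ g : (T.π h).ker, (C.atSub k (T.π h).ker).ρ g c = c) →
        ∃ f ∈ Fs.image (fun c => ((C.φ h).hom c : C.C k)), ∃ e : C.C k,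
          (∀ g : (T.π h).ker, (C.atSub k (T.π h).ker).ρ g e = e) ∧ c = f + p • e := by
      intro c hc
      obtain ⟨x, rfl⟩ := hdesc c hc
      obtain ⟨f, hf, e, rfl⟩ := hcover x
      refine ⟨(C.φ h).hom f, Finset.mem_image_of_mem _ hf, (C.φ h).hom e,
        fun g => C.ρ_φ_of_mem_ker h g.1 g.2 e, ?_⟩
      rw [map_add, map_nsmul]
    have hP : ∀ c : C.C k, (∀ g : (T.π h).ker, (C.atSub k (T.π h).ker).ρ g c = c) →
        ∃ y : C.C k, ∑ g : (T.π h).ker, (C.atSub k (T.π h).ker).ρ g y = p • c := by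
      intro c hc
      obtain ⟨x, rfl⟩ := hdesc c hc
      obtain ⟨y, hy⟩ := F.exists_norm_eq_nsmul h hexp hcomm x
      refine ⟨y, ?_⟩
      rw [finsum_eq_sum_of_fintype, map_nsmul] at hy
      exact hy.symm
    obtain ⟨e, he, hsum⟩ := norm_eq_nsmul_of_card_le (C.atSub k (T.π h).ker) p
      (Fs.image (fun c => ((C.φ h).hom c : C.C k)))
      ((Finset.card_image_le).trans (hFs.trans hcardT.ge)) hcov hP d
    obtain ⟨e₀, rfl⟩ := hdesc e he
    refine ⟨e₀, ?_⟩
    rw [finsum_quotient_bot_out (T.π h).ker (fun g => (C.C k).ρ (g : T.G k) d),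
      finsum_eq_sum_of_fintype, map_nsmul]
    exact hsum.symm

end

end Fermat.Agent.CFT.Duality
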