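import Fermat.Agent.Lib.CFT.Duality.Tower
import Fermat.Agent.Lib.CFT.Tower.Contract

/-!
# P4 / Layer D : constructions on towers and the concrete towers of `ℚ̄ / ℚ`
(the sorry-free definitions of the D-contract stub `CFTstubs/Duality/PoitouTate.lean` of helper9, with `decompFamily.map_eq` proved.)
-/

set_option autoImplicit false

open CategoryTheory

namespace Fermat.Agent.CFT.Duality

noncomputable section

namespace Tower

variable (T : Tower)

/-- Restrict a tower to a directed, nonempty set of levels. -/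
def filter (P : T.ι → Prop) (hne : ∃ i, P i)
    (hdir : ∀ i j, P i → P j → ∃ k, P k ∧ i ≤ k ∧ j ≤ k) : Tower where
  ι := {i : T.ι // P i}
  instDirected := ⟨fun a b => by
    obtain ⟨k, hk, h1, h2⟩ := hdir a.1 b.1 a.2 b.2
    exact ⟨⟨k, hk⟩, h1, h2⟩⟩
  instNonempty := by obtain ⟨i, hi⟩ := hne; exact ⟨⟨i, hi⟩⟩
  G i := T.G i.1
  π h := T.π (i := _) (j := _) h
  π_surjective _ := T.π_surjective _
  π_refl i g := T.π_refl i.1 g
  π_comp _ _ g := T.π_comp _ _ g

/-- A compatible family of subgroups (e.g. decomposition groups). -/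
structure SubgroupFamily where
  /-- the subgroup at each level -/
  D : ∀ i, Subgroup (T.G i)
  map_eq : ∀ {i j : T.ι} (h : i ≤ j), (D j).map (T.π h) = D i

/-- The tower of a compatible family of subgroups. -/
def subTower (D : T.SubgroupFamily) : Tower where
  ι := T.ι
  G i := D.D i
  π {i j} h := ((T.π h).comp (D.D j).subtype).codRestrict (D.D i) (fun x => by
    rw [← D.map_eq h]; exact ⟨x.1, x.2, rfl⟩)
  π_surjective {i j} h := by
    rintro ⟨y, hy⟩
    rw [← D.map_eq h] at hy
    obtain ⟨x, hx, rfl⟩ := hy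
    exact ⟨⟨x, hx⟩, rfl⟩
  π_refl i g := Subtype.ext (T.π_refl i g.1)
  π_comp h h' g := Subtype.ext (T.π_comp h h' g.1)

end Tower

namespace TowerModule

variable {k : Type} [CommRing k] {T : Tower}

/-- Restrict a tower module to a set of levels. -/
def filter (A : TowerModule k T) (P : T.ι → Prop) (hne : ∃ i, P i)
    (hdir : ∀ i j, P i → P j → ∃ l, P l ∧ i ≤ l ∧ j ≤ l) : TowerModule k (T.filter P hne hdir) where
  C i := A.C i.1
  φ h := A.φ (i := _) (j := _) h
  φ_refl i x := A.φ_refl i.1 x
  φ_comp _ _ x := A.φ_comp _ _ x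

/-- Restrict a tower module to a compatible family of subgroups. -/
def resSub (A : TowerModule k T) (D : T.SubgroupFamily) : TowerModule k (T.subTower D) where
  C i := Rep.res (D.D i).subtype (A.C i)
  φ {_ j} h := (Rep.resFunctor (D.D j).subtype).map (A.φ h)
  φ_refl i x := A.φ_refl i x
  φ_comp h h' x := A.φ_comp h h' x

end TowerModule

/-! ## The concrete towers of `ℚ̄ / ℚ` -/

instance Level.finite_G (L : Level) : Finite L.G :=
  Subgroup.quotient_finite_of_isOpen L.N (IntermediateField.fixingSubgroup_isOpen L.toIntermediateField)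

/-- The tower of all levels above `L₀`. -/
def levelTower (L₀ : Level) : Tower where
  ι := {L : Level // L₀ ≤ L}
  instDirected := ⟨fun a b => ⟨⟨a.1 ⊔ b.1, a.2.trans le_sup_left⟩,
    le_sup_left (a := a.1), le_sup_right (a := a.1)⟩⟩
  instNonempty := ⟨⟨L₀, le_refl _⟩⟩
  G L := L.1.G
  π h := Level.map h
  π_surjective h := Level.map_surjective h
  π_refl L g := by rw [Level.map_refl]; rfl
  π_comp h h' g := by
    have := Level.map_comp h h'
    exact congrArg (fun f => f g) this

/-- The decomposition groups at `q`. -/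
def decompFamily (q : Nat.Primes) (L₀ : Level) : (levelTower L₀).SubgroupFamily where
  D := fun (L : {L : Level // L₀ ≤ L}) => decomp q L.1
  map_eq := fun {i j} h => by
    change (decomp q j.1).map (Level.map h) = decomp q i.1
    unfold decomp
    rw [Subgroup.map_map]
    rfl

/-- The predicate "unramified outside `S`" on `levelTower L₀`. -/
def isSPred (S : Finset Nat.Primes) (L₀ : Level) : (levelTower L₀).ι → Prop :=
  fun (L : {L : Level // L₀ ≤ L}) => L.1.IsS S

lemma isSPred_nonempty {S : Finset Nat.Primes} {L₀ : Level} (h₀ : L₀.IsS S) :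
    ∃ i, isSPred S L₀ i := ⟨(⟨L₀, le_refl _⟩ : {L : Level // L₀ ≤ L}), h₀⟩

lemma isSPred_directed (S : Finset Nat.Primes) (L₀ : Level) :
    ∀ i j, isSPred S L₀ i → isSPred S L₀ j → ∃ k, isSPred S L₀ k ∧ i ≤ k ∧ j ≤ k :=
  fun (i j : {L : Level // L₀ ≤ L}) (hi : i.1.IsS S) (hj : j.1.IsS S) =>
    ⟨(⟨i.1 ⊔ j.1, i.2.trans le_sup_left⟩ : {L : Level // L₀ ≤ L}), Level.IsS.sup hi hj,
      le_sup_left (a := i.1), le_sup_right (a := i.1)⟩

/-- The tower of the `S`-levels above `L₀`: the tower of `G_S = Gal(ℚ_S / ℚ)`. -/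
abbrev towerS (S : Finset Nat.Primes) (L₀ : Level) (h₀ : L₀.IsS S) : Tower :=
  (levelTower L₀).filter (isSPred S L₀) (isSPred_nonempty h₀) (isSPred_directed S L₀)

/-- The full local tower at `q` (decomposition groups in ALL levels above `L₀`). -/
abbrev towerLoc (q : Nat.Primes) (L₀ : Level) : Tower := (levelTower L₀).subTower (decompFamily q L₀)

/-- The local `S`-tower at `q` (decomposition groups in the `S`-levels). -/
abbrev towerLocS (S : Finset Nat.Primes) (q : Nat.Primes) (L₀ : Level) (h₀ : L₀.IsS S) : Tower :=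
  (towerLoc q L₀).filter (isSPred S L₀) (isSPred_nonempty h₀) (isSPred_directed S L₀)

end

end Fermat.Agent.CFT.Duality
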