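import Mathlib

/-!
# P4 / Layer D, D-EXT3 : `extMk` under an exact functor

`(R.extMk f).mapExactFunctor F = R'.extMk (φ_n ≫ F f)` for a comparison `φ : R' ⟶ F R` of
resolutions.  The proof is done at the level of `SmallShiftedHom`.
-/

set_option autoImplicit false
set_option linter.unusedSectionVars false

universe w w' v v' u u'

open CategoryTheory Category Abelian Limits ZeroObject HomologicalComplex CochainComplex HomComplex Localization

namespace Fermat.Agent.CFT.Duality


section ExtendMap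


variable {ι ι' : Type*} {c : ComplexShape ι} {c' : ComplexShape ι'}
  {C D : Type*} [Category C] [Category D] [HasZeroObject C] [HasZeroObject D]
  [HasZeroMorphisms C] [HasZeroMorphisms D] (F : C ⥤ D) [F.PreservesZeroMorphisms]
  (K : HomologicalComplex C c) (e : c.Embedding c')

/-- components of `extendMapIso` -/
noncomputable def extendXMapIso :
    ∀ i : Option ι, extend.X ((F.mapHomologicalComplex c).obj K) i ≅ F.obj (extend.X K i)
  | some _ => Iso.refl _
  | none => (F.mapZeroObject).symm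

theorem extendXMapIso_hom_d (i j : Option ι) :
    (extendXMapIso F K i).hom ≫ F.map (extend.d K i j) =
      extend.d ((F.mapHomologicalComplex c).obj K) i j ≫ (extendXMapIso F K j).hom :=
  match i, j with
  | none, _ => by
      simp only [extend.d_none_eq_zero, F.map_zero, comp_zero, zero_comp]
  | some i, some j => by
      dsimp [extendXMapIso]
      erw [id_comp, comp_id]
      rfl
  | some _, none => by
      simp only [extend.d_none_eq_zero', F.map_zero, comp_zero, zero_comp]

theorem extendXMapIso_hom_eq {o : Option ι} {a : ι} (h : o = some a) :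
    (extendXMapIso F K o).hom =
      (extend.XIso ((F.mapHomologicalComplex c).obj K) h).hom ≫ F.map (extend.XIso K h).inv := by
  subst h
  show 𝟙 _ = 𝟙 _ ≫ F.map (𝟙 _)
  simp

/-- extension by zero commutes with applying a functor -/
noncomputable def extendMapIso :
    ((F.mapHomologicalComplex c).obj K).extend e ≅ (F.mapHomologicalComplex c').obj (K.extend e) :=
  Hom.isoOfComponents (fun i' => extendXMapIso F K (e.r i'))
    (fun i' j' _ => extendXMapIso_hom_d F K (e.r i') (e.r j'))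

theorem extendMapIso_hom_f {i : ι} {i' : ι'} (h : e.f i = i') :
    (extendMapIso F K e).hom.f i' =
      (((F.mapHomologicalComplex c).obj K).extendXIso e h).hom ≫
        F.map (K.extendXIso e h).inv :=
  extendXMapIso_hom_eq F K (e.r_eq_some h)

end ExtendMap



section SSH

variable {C : Type u} [Category.{v} C] (W : MorphismProperty C) {M : Type w'} [AddMonoid M]
  [HasShift C M] [W.IsCompatibleWithShift M]

theorem ssh_mk₀_comp_mk {X Y Z : C} [HasSmallLocalizedShiftedHom.{w} W M X Y]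
    [HasSmallLocalizedShiftedHom.{w} W M Y Z] [HasSmallLocalizedShiftedHom.{w} W M X Z]
    [HasSmallLocalizedShiftedHom.{w} W M Z Z] (a : X ⟶ Y) {n : M} (ζ : ShiftedHom Y Z n) :
    (SmallShiftedHom.mk₀ W (0 : M) rfl a).comp (SmallShiftedHom.mk W ζ) (add_zero n) =
      SmallShiftedHom.mk W (a ≫ ζ) := by
  apply (SmallShiftedHom.equiv W W.Q).injective
  simp [SmallShiftedHom.equiv_comp, ShiftedHom.mk₀_comp, ShiftedHom.map]

theorem ssh_mk₀_comp_comp {X Y Z T : C} [HasSmallLocalizedShiftedHom.{w} W M X Y]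
    [HasSmallLocalizedShiftedHom.{w} W M Y Z] [HasSmallLocalizedShiftedHom.{w} W M X Z]
    [HasSmallLocalizedShiftedHom.{w} W M Z T] [HasSmallLocalizedShiftedHom.{w} W M Y T]
    [HasSmallLocalizedShiftedHom.{w} W M X T] [HasSmallLocalizedShiftedHom.{w} W M T T]
    (a : X ⟶ Y) (b : Y ⟶ Z) {n : M} (β : SmallShiftedHom.{w} W Z T n) :
    (SmallShiftedHom.mk₀ W (0 : M) rfl (a ≫ b)).comp β (add_zero n) =
      (SmallShiftedHom.mk₀ W (0 : M) rfl a).comp
        ((SmallShiftedHom.mk₀ W (0 : M) rfl b).comp β (add_zero n)) (add_zero n) := by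
  apply (SmallShiftedHom.equiv W W.Q).injective
  simp [SmallShiftedHom.equiv_comp, ShiftedHom.mk₀_comp]

end SSH



section A

variable {C : Type u} [Category.{v} C] [Abelian C] [HasExt.{w} C]

/-- the cocycle attached to `f` -/
noncomputable abbrev extCocycle {X Y : C} (R : ProjectiveResolution X) {n : ℕ}
    (f : R.complex.X n ⟶ Y) (m : ℕ) (hm : n + 1 = m) (hf : R.complex.d m n ≫ f = 0) :
    Cocycle R.cochainComplex ((singleFunctor C 0).obj Y) (n : ℤ) :=
  Cocycle.toSingleMk ((R.cochainComplexXIso (-n) n rfl).hom ≫ f) (by simp)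
      (-m) (by lia) (by simpa [R.cochainComplex_d _ _ m n rfl rfl])

theorem quasiIso_π' {X : C} (R : ProjectiveResolution X) :
    HomologicalComplex.quasiIso C (ComplexShape.up ℤ) R.π' := by
  rw [HomologicalComplex.mem_quasiIso_iff]; infer_instance

theorem mk₀_π'_comp_extMk {X Y : C} (R : ProjectiveResolution X) {n : ℕ}
    (f : R.complex.X n ⟶ Y) (m : ℕ) (hm : n + 1 = m) (hf : R.complex.d m n ≫ f = 0) :
    (SmallShiftedHom.mk₀ (HomologicalComplex.quasiIso C (ComplexShape.up ℤ)) (0 : ℤ) rfl R.π').comp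
        (R.extMk f m hm hf) (add_zero _) =
      SmallShiftedHom.mk _ (Cocycle.equivHomShift.symm (extCocycle R f m hm hf)) := by
  have h := (SmallShiftedHom.precompEquiv.{w} (Z := (singleFunctor C 0).obj Y) (a := (n : ℤ))
    R.π' (quasiIso_π' R)).apply_symm_apply
      (CohomologyClass.mk (extCocycle R f m hm hf)).toSmallShiftedHom
  exact h


end A

section Helpers

variable {C : Type u} [Category.{v} C] [Preadditive C] {D : Type u'} [Category.{v'} D] [Preadditive D]
  (F : C ⥤ D) [F.Additive]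
  {K L M N : CochainComplex C ℤ} {n : ℤ}

theorem equivHomShift_v (Ψ : K ⟶ L⟦n⟧) (p q : ℤ) (hpq : p + n = q) :
    (Cocycle.equivHomShift Ψ).1.v p q hpq = Ψ.f p ≫ (L.shiftFunctorObjXIso n p q hpq.symm).hom := by
  subst hpq
  simp [Cocycle.equivHomShift_apply, Cochain.rightUnshift_v _ _ _ _ _ _ _ (add_zero p)]

theorem equivHomShift_symm_f (z : Cocycle K L n) (p q : ℤ) (hpq : p + n = q) :
    (Cocycle.equivHomShift.symm z).f p =
      z.1.v p q hpq ≫ (L.shiftFunctorObjXIso n p q hpq.symm).inv := by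
  subst hpq
  simp [Cocycle.equivHomShift_symm_apply,
    Cochain.rightShift_v _ _ _ (zero_add n) p p (add_zero _) (p + n) rfl]

theorem shift_map_f_comp_iso (g : M ⟶ N) (p q : ℤ) (hpq : q = p + n) :
    (g⟦n⟧').f p ≫ (N.shiftFunctorObjXIso n p q hpq).hom =
      (M.shiftFunctorObjXIso n p q hpq).hom ≫ g.f q := by
  subst hpq
  simp
  exact (Category.id_comp _).symm

theorem map_iso_inv_comm_iso (p q : ℤ) (hpq : q = p + n) :
    F.map (L.shiftFunctorObjXIso n p q hpq).inv ≫
      (((F.mapHomologicalComplex (ComplexShape.up ℤ)).commShiftIso n).hom.app L).f p ≫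
        (CochainComplex.shiftFunctorObjXIso
          ((F.mapHomologicalComplex (ComplexShape.up ℤ)).obj L) n p q hpq).hom =
      𝟙 _ := by
  subst hpq
  simp
  exact (Category.comp_id _).trans (F.map_id _)

end Helpers


theorem aux_cat {C : Type*} {D : Type*} [Category C] [Category D] (F : C ⥤ D) {A B X S : C}
    {A' B' S' : D} (a : A ≅ B) (π0 : B ⟶ X) (s : S ≅ X) (a' : A' ⟶ B') (φ0 : B' ⟶ F.obj B)
    (s' : F.obj X ⟶ S') :
    (a' ≫ φ0 ≫ F.map a.inv) ≫ F.map (a.hom ≫ π0 ≫ s.inv) ≫ F.map s.hom ≫ s' =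
      a' ≫ (φ0 ≫ F.map π0) ≫ s' := by
  simp only [Category.assoc, F.map_comp]
  rw [← F.map_comp_assoc a.inv, Iso.inv_hom_id, F.map_id, Category.id_comp,
    ← F.map_comp_assoc s.inv, Iso.inv_hom_id, F.map_id, Category.id_comp]

theorem aux_cat2 {C : Type*} {D : Type*} [Category C] [Category D] (F : C ⥤ D)
    {A B Y S T : C} {A' B' T' T'' S'' : D}
    (a' : A' ⟶ B') (φn : B' ⟶ F.obj B) (a : A ≅ B) (f : B ⟶ Y) (s : S ≅ Y) (t : T ≅ S)
    (A1 : A' ⟶ F.obj A) (A2 : F.obj A ⟶ F.obj T) (A3 : F.obj T ⟶ T') (A4 : T' ⟶ T'')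
    (t'' : T'' ⟶ S'') (t' : T' ≅ F.obj S) (e0 : F.obj S ⟶ S'') (s'inv : F.obj Y ⟶ S'')
    (s'hom : S'' ⟶ F.obj Y) (zv : A' ⟶ S'')
    (h1 : A1 = a' ≫ φn ≫ F.map a.inv) (h2 : A2 = F.map (((a.hom ≫ f) ≫ s.inv) ≫ t.inv))
    (h3 : A4 ≫ t'' = t'.hom ≫ e0) (h4 : F.map t.inv ≫ A3 ≫ t'.hom = 𝟙 (F.obj S))
    (h5 : e0 = F.map s.hom ≫ s'inv) (h6 : zv = (a' ≫ φn ≫ F.map f) ≫ s'inv) :
    A1 ≫ A2 ≫ A3 ≫ A4 ≫ t'' ≫ s'hom = zv ≫ s'hom := by
  subst h1 h2 h5 h6
  rw [reassoc_of% h3]
  simp only [Category.assoc, F.map_comp]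
  rw [reassoc_of% h4, ← F.map_comp_assoc a.inv, Iso.inv_hom_id, F.map_id, Category.id_comp,
    ← F.map_comp_assoc s.inv, Iso.inv_hom_id, F.map_id, Category.id_comp]

section Main

variable {C : Type u} [Category.{v} C] [Abelian C] {D : Type u'} [Category.{v'} D] [Abelian D]
  [HasExt.{w} C] [HasExt.{w'} D]
  (F : C ⥤ D) [F.Additive] [PreservesFiniteLimits F] [PreservesFiniteColimits F]

variable {X Y : C} (R : ProjectiveResolution X)

/-- `F` applied to the resolution, as a cochain complex -/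
noncomputable abbrev mapCochainComplex : CochainComplex D ℤ :=
  (F.mapHomologicalComplex (ComplexShape.up ℤ)).obj R.cochainComplex

/-- the augmentation of `F` applied to the resolution -/
noncomputable def mapπ' : mapCochainComplex F R ⟶ (singleFunctor D 0).obj (F.obj X) :=
  (F.mapHomologicalComplex (ComplexShape.up ℤ)).map R.π' ≫
    (F.mapCochainComplexSingleFunctor 0).hom.app X

instance : QuasiIso (mapπ' F R) := by
  dsimp [mapπ']
  infer_instance

theorem quasiIso_mapπ' : HomologicalComplex.quasiIso D (ComplexShape.up ℤ) (mapπ' F R) := by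
  rw [HomologicalComplex.mem_quasiIso_iff]; infer_instance

instance : (mapCochainComplex F R).IsStrictlyLE 0 := by
  dsimp [mapCochainComplex]
  infer_instance

instance : (mapCochainComplex F R).IsGE 0 := by
  simp only [HomologicalComplex.isSupported_iff_of_quasiIso (mapπ' F R)]
  infer_instance


instance instSmallComp₁ (K : CochainComplex D ℤ) [K.IsGE 0] [K.IsLE 0] (Z : C) :
    HasSmallLocalizedShiftedHom.{w'} (HomologicalComplex.quasiIso D (ComplexShape.up ℤ)) ℤ K
      ((F ⋙ singleFunctor D 0).obj Z) :=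
  inferInstanceAs (HasSmallLocalizedShiftedHom.{w'}
    (HomologicalComplex.quasiIso D (ComplexShape.up ℤ)) ℤ K ((singleFunctor D 0).obj (F.obj Z)))

instance instSmallComp₂ (K : CochainComplex D ℤ) [K.IsGE 0] [K.IsLE 0] (Z : C) :
    HasSmallLocalizedShiftedHom.{w'} (HomologicalComplex.quasiIso D (ComplexShape.up ℤ)) ℤ
      ((F ⋙ singleFunctor D 0).obj Z) K :=
  inferInstanceAs (HasSmallLocalizedShiftedHom.{w'}
    (HomologicalComplex.quasiIso D (ComplexShape.up ℤ)) ℤ ((singleFunctor D 0).obj (F.obj Z)) K)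

/-- the localizer morphism induced by the exact functor `F` -/
noncomputable abbrev locMor :=
  F.mapHomologicalComplexUpToQuasiIsoLocalizerMorphism (ComplexShape.up ℤ)

/-- image under `F` of the shifted morphism attached to a cocycle -/
noncomputable def mapShifted {n : ℕ} (f : R.complex.X n ⟶ Y) (m : ℕ) (hm : n + 1 = m)
    (hf : R.complex.d m n ≫ f = 0) :
    ShiftedHom (mapCochainComplex F R) ((singleFunctor D 0).obj (F.obj Y)) (n : ℤ) :=
  (ShiftedHom.mk₀ (0 : ℤ) rfl (Iso.refl (mapCochainComplex F R)).inv).comp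
    ((ShiftedHom.map (Cocycle.equivHomShift.symm (extCocycle R f m hm hf))
      (F.mapHomologicalComplex (ComplexShape.up ℤ))).comp
      (ShiftedHom.mk₀ (0 : ℤ) rfl ((F.mapCochainComplexSingleFunctor 0).app Y).hom) (zero_add _))
    (add_zero _)

theorem mk₀_mapπ'_comp_mapExactFunctor {n : ℕ} (f : R.complex.X n ⟶ Y) (m : ℕ) (hm : n + 1 = m)
    (hf : R.complex.d m n ≫ f = 0) :
    (SmallShiftedHom.mk₀ (HomologicalComplex.quasiIso D (ComplexShape.up ℤ)) (0 : ℤ) rfl
        (mapπ' F R)).comp ((R.extMk f m hm hf).mapExactFunctor F) (add_zero _) =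
      SmallShiftedHom.mk _ (mapShifted F R f m hm hf) := by
  have h1 := congrArg ((locMor F).smallShiftedHomMap (Iso.refl (mapCochainComplex F R))
    ((F.mapCochainComplexSingleFunctor 0).app Y)) (mk₀_π'_comp_extMk R f m hm hf)
  have h2 := (locMor F).smallShiftedHomMap_comp (Iso.refl (mapCochainComplex F R))
    ((F.mapCochainComplexSingleFunctor 0).app X) ((F.mapCochainComplexSingleFunctor 0).app Y)
    (SmallShiftedHom.mk₀ (HomologicalComplex.quasiIso C (ComplexShape.up ℤ)) (0 : ℤ) rfl R.π')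
    (R.extMk f m hm hf) (add_zero _)
  have h3 := (locMor F).smallShiftedHomMap_mk₀ (Iso.refl (mapCochainComplex F R))
    ((F.mapCochainComplexSingleFunctor 0).app X) (0 : ℤ) rfl R.π'
  have h4 := (locMor F).smallShiftedHomMap_mk (Iso.refl (mapCochainComplex F R))
    ((F.mapCochainComplexSingleFunctor 0).app Y)
    (Cocycle.equivHomShift.symm (extCocycle R f m hm hf))
  have h5 : (Iso.refl (mapCochainComplex F R)).inv ≫ (locMor F).functor.map R.π' ≫
      ((F.mapCochainComplexSingleFunctor 0).app X).hom = mapπ' F R :=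
    Category.id_comp _
  have h6 := h3.trans (congrArg (SmallShiftedHom.mk₀
    (HomologicalComplex.quasiIso D (ComplexShape.up ℤ)) (0 : ℤ) rfl) h5)
  have h7 := h2.trans (congrArg (fun t => SmallShiftedHom.comp t
    ((R.extMk f m hm hf).mapExactFunctor F) (add_zero ((n : ℕ) : ℤ))) h6)
  exact h7.symm.trans (h1.trans h4)


section Comparison

variable (R' : ProjectiveResolution (F.obj X))
  (φ : R'.complex ⟶ (F.mapHomologicalComplex (ComplexShape.down ℕ)).obj R.complex)

/-- the comparison of resolutions, extended to cochain complexes indexed by `ℤ` -/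
noncomputable def liftComparison : R'.cochainComplex ⟶ mapCochainComplex F R :=
  HomologicalComplex.extendMap φ ComplexShape.embeddingDownNat ≫
    (extendMapIso F R.complex ComplexShape.embeddingDownNat).hom

theorem liftComparison_f (i : ℤ) (k : ℕ) (h : -(k : ℤ) = i) :
    (liftComparison F R R' φ).f i =
      (R'.cochainComplexXIso i k h).hom ≫ φ.f k ≫ F.map (R.cochainComplexXIso i k h).inv := by
  have h' : ComplexShape.embeddingDownNat.f k = i := h
  show (HomologicalComplex.extendMap φ ComplexShape.embeddingDownNat).f i ≫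
    (extendMapIso F R.complex ComplexShape.embeddingDownNat).hom.f i = _
  rw [HomologicalComplex.extendMap_f φ ComplexShape.embeddingDownNat h',
    extendMapIso_hom_f F R.complex ComplexShape.embeddingDownNat h']
  erw [Category.assoc, Category.assoc, Iso.inv_hom_id_assoc]
  rfl

theorem liftComparison_comp_mapπ' (hφ : φ.f 0 ≫ F.map (R.π.f 0) = R'.π.f 0) :
    liftComparison F R R' φ ≫ mapπ' F R = R'.π' := by
  apply HomologicalComplex.to_single_hom_ext
  have e1 := liftComparison_f F R R' φ 0 0 (by simp)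
  have e2 : (mapπ' F R).f 0 = F.map ((R.cochainComplexXIso 0 0 (by simp)).hom ≫ R.π.f 0 ≫
      (HomologicalComplex.singleObjXSelf (ComplexShape.up ℤ) 0 X).inv) ≫
      F.map (HomologicalComplex.singleObjXSelf (ComplexShape.up ℤ) 0 X).hom ≫
        (HomologicalComplex.singleObjXSelf (ComplexShape.up ℤ) 0 (F.obj X)).inv := by
    show F.map (R.π'.f 0) ≫
      ((HomologicalComplex.singleMapHomologicalComplex F (ComplexShape.up ℤ) 0).hom.app X).f 0 = _
    rw [R.π'_f_zero, HomologicalComplex.singleMapHomologicalComplex_hom_app_self]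
    rfl
  rw [HomologicalComplex.comp_f, e1, e2, R'.π'_f_zero, ← hφ]
  exact aux_cat F (R.cochainComplexXIso 0 0 (by simp)) (R.π.f 0)
    (HomologicalComplex.singleObjXSelf (ComplexShape.up ℤ) 0 X)
    (R'.cochainComplexXIso 0 0 (by simp)).hom (φ.f 0)
    (HomologicalComplex.singleObjXSelf (ComplexShape.up ℤ) 0 (F.obj X)).inv

theorem mapShifted_eq {n : ℕ} (f : R.complex.X n ⟶ Y) (m : ℕ) (hm : n + 1 = m)
    (hf : R.complex.d m n ≫ f = 0) :
    mapShifted F R f m hm hf =
      ((F.mapHomologicalComplex (ComplexShape.up ℤ)).map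
          (Cocycle.equivHomShift.symm (extCocycle R f m hm hf)) ≫
        ((F.mapHomologicalComplex (ComplexShape.up ℤ)).commShiftIso (n : ℤ)).hom.app _) ≫
        ((F.mapCochainComplexSingleFunctor 0).hom.app Y)⟦(n : ℤ)⟧' := by
  simp [mapShifted, ShiftedHom.comp_mk₀, ShiftedHom.mk₀_comp, ShiftedHom.map]

theorem liftComparison_comp_mapShifted {n : ℕ} (f : R.complex.X n ⟶ Y) (m : ℕ) (hm : n + 1 = m)
    (hf : R.complex.d m n ≫ f = 0) (hf' : R'.complex.d m n ≫ φ.f n ≫ F.map f = 0) :
    liftComparison F R R' φ ≫ mapShifted F R f m hm hf =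
      Cocycle.equivHomShift.symm (extCocycle R' (φ.f n ≫ F.map f) m hm hf') := by
  apply Cocycle.equivHomShift.injective
  rw [AddEquiv.apply_symm_apply]
  ext : 1
  have hpq : -(n : ℤ) + n = 0 := by simp
  apply (Cochain.toSingleEquiv hpq).injective
  show (Cocycle.equivHomShift (liftComparison F R R' φ ≫ mapShifted F R f m hm hf)).1.v
      (-(n : ℤ)) 0 hpq ≫ (HomologicalComplex.singleObjXSelf (ComplexShape.up ℤ) 0 (F.obj Y)).hom =
    (extCocycle R' (φ.f n ≫ F.map f) m hm hf').1.v (-(n : ℤ)) 0 hpq ≫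
      (HomologicalComplex.singleObjXSelf (ComplexShape.up ℤ) 0 (F.obj Y)).hom
  rw [equivHomShift_v, mapShifted_eq]
  simp only [HomologicalComplex.comp_f, Category.assoc]
  have hq : (0 : ℤ) = -(n : ℤ) + n := hpq.symm
  have h1 := liftComparison_f F R R' φ (-(n : ℤ)) n rfl
  have h2 : ((F.mapHomologicalComplex (ComplexShape.up ℤ)).map
      (Cocycle.equivHomShift.symm (extCocycle R f m hm hf))).f (-(n : ℤ)) =
      F.map ((((R.cochainComplexXIso (-(n : ℤ)) n rfl).hom ≫ f) ≫
        (HomologicalComplex.singleObjXSelf (ComplexShape.up ℤ) 0 Y).inv) ≫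
        (CochainComplex.shiftFunctorObjXIso ((singleFunctor C 0).obj Y) n (-(n : ℤ)) 0 hq).inv) := by
    have hz : (extCocycle R f m hm hf).1.v (-(n : ℤ)) 0 hpq =
        ((R.cochainComplexXIso (-(n : ℤ)) n rfl).hom ≫ f) ≫
          (HomologicalComplex.singleObjXSelf (ComplexShape.up ℤ) 0 Y).inv :=
      Cochain.toSingleMk_v _ _
    rw [Functor.mapHomologicalComplex_map_f, equivHomShift_symm_f _ (-(n : ℤ)) 0 hpq, hz]
    rfl
  have h3 := shift_map_f_comp_iso (n := (n : ℤ)) ((F.mapCochainComplexSingleFunctor 0).hom.app Y)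
    (-(n : ℤ)) 0 hq
  have h4 := map_iso_inv_comm_iso F (L := (singleFunctor C 0).obj Y) (n := (n : ℤ)) (-(n : ℤ)) 0 hq
  have h5 : ((F.mapCochainComplexSingleFunctor 0).hom.app Y).f 0 =
      F.map (HomologicalComplex.singleObjXSelf (ComplexShape.up ℤ) 0 Y).hom ≫
        (HomologicalComplex.singleObjXSelf (ComplexShape.up ℤ) 0 (F.obj Y)).inv :=
    HomologicalComplex.singleMapHomologicalComplex_hom_app_self F (ComplexShape.up ℤ) 0 Y
  have h6 : (extCocycle R' (φ.f n ≫ F.map f) m hm hf').1.v (-(n : ℤ)) 0 hpq =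
      ((R'.cochainComplexXIso (-(n : ℤ)) n rfl).hom ≫ φ.f n ≫ F.map f) ≫
        (HomologicalComplex.singleObjXSelf (ComplexShape.up ℤ) 0 (F.obj Y)).inv :=
    Cochain.toSingleMk_v _ _
  exact aux_cat2 F _ _ _ _ _ _ _ _ _ _ _ _ _ _ _ _ h1 h2 h3 h4 h5 h6

end Comparison

/-- **D-EXT3.** `extMk` under an exact functor `F`, with respect to a comparison of resolutions. -/
theorem extMk_mapExactFunctor (R' : ProjectiveResolution (F.obj X))
    (φ : R'.complex ⟶ (F.mapHomologicalComplex (ComplexShape.down ℕ)).obj R.complex)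
    (hφ : φ.f 0 ≫ F.map (R.π.f 0) = R'.π.f 0)
    {n : ℕ} (f : R.complex.X n ⟶ Y) (m : ℕ) (hm : n + 1 = m) (hf : R.complex.d m n ≫ f = 0)
    (hf' : R'.complex.d m n ≫ φ.f n ≫ F.map f = 0) :
    (R.extMk f m hm hf).mapExactFunctor F = R'.extMk (φ.f n ≫ F.map f) m hm hf' := by
  apply (SmallShiftedHom.precompEquiv.{w'} (Z := (singleFunctor D 0).obj (F.obj Y))
    (a := ((n : ℕ) : ℤ)) R'.π' (quasiIso_π' R')).injective
  show (SmallShiftedHom.mk₀ (HomologicalComplex.quasiIso D (ComplexShape.up ℤ)) (0 : ℤ) rfl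
      R'.π').comp ((R.extMk f m hm hf).mapExactFunctor F) (add_zero _) =
    (SmallShiftedHom.mk₀ (HomologicalComplex.quasiIso D (ComplexShape.up ℤ)) (0 : ℤ) rfl
      R'.π').comp (R'.extMk (φ.f n ≫ F.map f) m hm hf') (add_zero _)
  have h1 := mk₀_π'_comp_extMk R' (φ.f n ≫ F.map f) m hm hf'
  have h2 := ssh_mk₀_comp_comp (HomologicalComplex.quasiIso D (ComplexShape.up ℤ))
    (liftComparison F R R' φ) (mapπ' F R) ((R.extMk f m hm hf).mapExactFunctor F)
  have h3 := mk₀_mapπ'_comp_mapExactFunctor F R f m hm hf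
  have h4 := ssh_mk₀_comp_mk (HomologicalComplex.quasiIso D (ComplexShape.up ℤ))
    (liftComparison F R R' φ) (mapShifted F R f m hm hf)
  have h5 := liftComparison_comp_mapShifted F R R' φ f m hm hf hf'
  have h6 := liftComparison_comp_mapπ' F R R' φ hφ
  rw [h1, ← h5, ← h4, ← h3, ← h2]
  congr 2
  exact h6.symm

end Main

end Fermat.Agent.CFT.Duality
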