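import Fermat.Agent.Lib.CFT.Duality.Bridge1
import Fermat.Agent.Lib.CFT.Duality.ExtMkMap

/-!
# P4 / Layer D, D-BR2 : `cohToExt` commutes with `groupCohomology.map` along any group homomorphism
-/

set_option autoImplicit false

open CategoryTheory Abelian groupCohomology Rep Finsupp
open scoped TensorProduct

namespace Fermat.Agent.CFT.Duality

noncomputable section

section Augmentation

variable {k G : Type} [CommRing k] [Group G]

set_option backward.isDefEq.respectTransparency false in
theorem diagonalSuccIsoFree_inv_single_single (m : ℕ) (f : Fin m → G) (g : G) (r : k) :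
    (diagonalSuccIsoFree k G m).inv.hom (single f (MonoidAlgebra.single g r)) =
      MonoidAlgebra.single (g • Fin.partialProd f) r := by
  simp only [diagonalSuccIsoFree, diagonalSuccIsoTensorTrivial, Iso.trans_inv, Rep.hom_comp,
    Representation.IntertwiningMap.comp_apply]
  have step1 : (Hom.hom (leftRegularTensorTrivialIsoFree k G (Fin m → G)).inv)
      (single f (.single g r)) = .single g 1 ⊗ₜ[k] .single f r :=
    Representation.leftRegularTensorTrivialIsoFree_symm_apply_single_single f g r
  rw [step1]
  simp only [mkIso_inv, Representation.linearizeOfMulActionIso, Representation.Equiv.mk_symm,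
    LinearEquiv.refl_symm, ConcreteCategory.hom_ofHom, Action.tensorObj_V,
    Functor.mapIso_inv, tensor_V, tensor_ρ, Iso.symm_inv, Functor.Monoidal.μIso_hom, μ_hom,
    MonoidalCategory.tensorIso_inv, Representation.linearizeTrivialIso, hom_tensorHom,
    Representation.IntertwiningMap.tensor_apply, Representation.Equiv.coe_toIntertwiningMap,
    Representation.Equiv.mk_apply, LinearEquiv.refl_apply]
  have key₁ := Representation.linearizeMap_single (k := k)
    (Action.diagonalSuccIsoTensorTrivial G m).inv (g, f) ((1 : k) * r)
  have key₂ := Representation.LinearizeMonoidal.μ_apply_single_single (k := k)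
    (X := Action.leftRegular G) (Y := Action.trivial G (Fin m → G)) g f 1 r
  exact ((congrArg (fun z => (Representation.linearizeMap
    (Action.diagonalSuccIsoTensorTrivial G m).inv) z) key₂).trans key₁).trans (by
      rw [one_mul]
      exact congrArg (fun t => MonoidAlgebra.single t r)
        (Action.diagonalSuccIsoTensorTrivial_inv_hom_apply g f))

theorem standardComplex_ε_single (y : Fin 1 → G) (r : k) :
    (Rep.standardComplex.ε k G).hom (MonoidAlgebra.single y r) = r := by
  simp [Rep.standardComplex.ε]

theorem barResolution_π_single (x : Fin 0 → G) (g : G) (r : k) :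
    ((barResolution k G).π.f 0).hom (Finsupp.single x (MonoidAlgebra.single g r)) = r := by
  have h1 : (barResolution k G).π.f 0 =
      (diagonalSuccIsoFree k G 0).inv ≫ Rep.standardComplex.ε k G := by
    show ((Rep.barComplex.isoStandardComplex k G).hom ≫ Rep.standardComplex.εToSingle₀ k G).f 0 = _
    rw [HomologicalComplex.comp_f]
    rfl
  rw [h1]
  show (Rep.standardComplex.ε k G).hom ((diagonalSuccIsoFree k G 0).inv.hom
    (Finsupp.single x (MonoidAlgebra.single g r))) = r
  rw [diagonalSuccIsoFree_inv_single_single, standardComplex_ε_single]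


end Augmentation

variable {k G H : Type} [CommRing k] [Group G] [Group H] (f : H →* G)

/-- the comparison of bar resolutions along a group homomorphism, degree `n` -/
def barMapX (n : ℕ) : (barResolution k H).complex.X n ⟶
    (Rep.resFunctor f).obj ((barResolution k G).complex.X n) :=
  freeLift k H ((Rep.resFunctor f).obj ((barResolution k G).complex.X n))
    (fun g => (Finsupp.single (f ∘ g) (MonoidAlgebra.single (1 : G) (1 : k)) :
      (Fin n → G) →₀ MonoidAlgebra k G))

theorem barMapX_single (n : ℕ) (x : Fin n → H) (h : H) (r : k) :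
    (barMapX (k := k) f n).hom (Finsupp.single x (MonoidAlgebra.single h r)) =
      (Finsupp.single (f ∘ x) (MonoidAlgebra.single (f h) r) :
        (Fin n → G) →₀ MonoidAlgebra k G) := by
  have := Representation.freeLift_single_single (k := k)
    ((Rep.resFunctor f).obj ((barResolution k G).complex.X n)).ρ x h r
    (fun g => (Finsupp.single (f ∘ g) (MonoidAlgebra.single (1 : G) (1 : k)) :
      (Fin n → G) →₀ MonoidAlgebra k G))
  refine this.trans ?_
  show r • (Representation.free k G (Fin n → G)) (f h)
    (Finsupp.single (f ∘ x) (MonoidAlgebra.single (1 : G) (1 : k))) = _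
  rw [Representation.free_single_single, mul_one, Finsupp.smul_single, MonoidAlgebra.smul_single,
    smul_eq_mul, mul_one]

theorem barMapX_comm (n : ℕ) :
    barMapX (k := k) f (n + 1) ≫ (Rep.resFunctor f).map ((barResolution k G).complex.d (n + 1) n) =
      (barResolution k H).complex.d (n + 1) n ≫ barMapX f n := by
  apply free_ext
  intro x
  have hG : ∀ y : Fin (n + 1) → G, ((Rep.resFunctor f).map ((barResolution k G).complex.d (n + 1) n)).hom
      (Finsupp.single y (MonoidAlgebra.single (1 : G) (1 : k))) =
      Finsupp.single (fun i => y i.succ) (MonoidAlgebra.single (y 0) (1 : k)) +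
      ∑ j : Fin (n + 1), Finsupp.single (j.contractNth (· * ·) y)
        (MonoidAlgebra.single (1 : G) ((-1 : k) ^ (j.val + 1))) := by
    intro y
    have := barComplex.d_single (k := k) (G := G) n y
    rw [← barComplex.d_def] at this
    exact this
  have hH : ((barResolution k H).complex.d (n + 1) n).hom
      (Finsupp.single x (MonoidAlgebra.single (1 : H) (1 : k))) =
      Finsupp.single (fun i => x i.succ) (MonoidAlgebra.single (x 0) (1 : k)) +
      ∑ j : Fin (n + 1), Finsupp.single (j.contractNth (· * ·) x)
        (MonoidAlgebra.single (1 : H) ((-1 : k) ^ (j.val + 1))) := by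
    have := barComplex.d_single (k := k) (G := H) n x
    rw [← barComplex.d_def] at this
    exact this
  show ((Rep.resFunctor f).map ((barResolution k G).complex.d (n + 1) n)).hom
      ((barMapX (k := k) f (n + 1)).hom (Finsupp.single x (MonoidAlgebra.single (1 : H) (1 : k)))) =
    (barMapX (k := k) f n).hom (((barResolution k H).complex.d (n + 1) n).hom
      (Finsupp.single x (MonoidAlgebra.single (1 : H) (1 : k))))
  rw [barMapX_single, hH, map_one, hG]
  let T : ((Fin n → H) →₀ MonoidAlgebra k H) →ₗ[k] ((Fin n → G) →₀ MonoidAlgebra k G) :=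
    (barMapX (k := k) f n).hom.toLinearMap
  have hT : ∀ (y : Fin n → H) (h : H) (r : k),
      T (Finsupp.single y (MonoidAlgebra.single h r)) =
        Finsupp.single (f ∘ y) (MonoidAlgebra.single (f h) r) := barMapX_single f n
  show (Finsupp.single (fun i => (f ∘ x) i.succ) (MonoidAlgebra.single ((f ∘ x) 0) (1 : k)) +
      ∑ j : Fin (n + 1), Finsupp.single (j.contractNth (· * ·) (f ∘ x))
        (MonoidAlgebra.single (1 : G) ((-1 : k) ^ (j.val + 1))) :
        (Fin n → G) →₀ MonoidAlgebra k G) =
    T (Finsupp.single (fun i => x i.succ) (MonoidAlgebra.single (x 0) (1 : k)) +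
      ∑ j : Fin (n + 1), Finsupp.single (j.contractNth (· * ·) x)
        (MonoidAlgebra.single (1 : H) ((-1 : k) ^ (j.val + 1))))
  rw [map_add, map_sum, hT]
  congr 1
  refine Finset.sum_congr rfl fun j _ => ?_
  rw [hT, map_one, Fin.comp_contractNth (· * ·) (· * ·) (map_mul f)]

/-- the comparison of bar resolutions along a group homomorphism -/
def barMap : (barResolution k H).complex ⟶
    ((Rep.resFunctor f).mapHomologicalComplex (ComplexShape.down ℕ)).obj
      (barResolution k G).complex where
  f n := barMapX f n
  comm' i j hij := by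
    obtain rfl : j + 1 = i := hij
    exact barMapX_comm f j

theorem barMap_f (n : ℕ) : (barMap (k := k) f).f n = barMapX f n := rfl

theorem barMap_π :
    (barMap (k := k) f).f 0 ≫ (Rep.resFunctor f).map ((barResolution k G).π.f 0) =
      (barResolution k H).π.f 0 := by
  apply free_ext
  intro x
  show ((Rep.resFunctor f).map ((barResolution k G).π.f 0)).hom
      ((barMapX (k := k) f 0).hom (Finsupp.single x (MonoidAlgebra.single (1 : H) (1 : k)))) =
    ((barResolution k H).π.f 0).hom (Finsupp.single x (MonoidAlgebra.single (1 : H) (1 : k)))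
  rw [barMapX_single]
  exact (barResolution_π_single (k := k) (f ∘ x) (f 1) 1).trans
    (barResolution_π_single (k := k) x 1 1).symm


theorem cochainLift_barMap {A : Rep k G} {B : Rep k H} (φ : Rep.res f A ⟶ B) (n : ℕ)
    (c : (Fin n → G) → A) :
    cochainLift B n (fun g : Fin n → H => φ.hom (c (f ∘ g))) =
      ((barMap f).f n ≫ (Rep.resFunctor f).map (cochainLift A n c)) ≫ φ := by
  apply (cochainLift B n).symm.injective
  rw [LinearEquiv.symm_apply_apply]
  funext g
  rw [cochainLift_symm_apply]
  show _ = φ.hom ((cochainLift A n c).hom ((barMapX (k := k) f n).hom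
    (Finsupp.single g (MonoidAlgebra.single (1 : H) (1 : k)))))
  rw [barMapX_single, map_one, cochainLift_apply_single]

theorem barMap_d_comp {A : Rep k G} (n : ℕ) (z : cocycles A n) :
    (barResolution k H).complex.d (n + 1) n ≫ (barMap f).f n ≫
      (Rep.resFunctor f).map (cochainLift A n (iCocycles A n z)) = 0 := by
  rw [← Category.assoc, ← (barMap (k := k) f).comm (n + 1) n, Category.assoc]
  show _ ≫ (Rep.resFunctor f).map ((barResolution k G).complex.d (n + 1) n) ≫
    (Rep.resFunctor f).map (cochainLift A n (iCocycles A n z)) = 0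
  rw [← Functor.map_comp, barResolution_d_comp_cochainLift, Functor.map_zero, Limits.comp_zero]

/-- **D-BR2.** -/
theorem cohToExt_map (A : Rep k G) (B : Rep k H) (φ : Rep.res f A ⟶ B) (n : ℕ)
    (x : groupCohomology A n) :
    cohToExt B n (groupCohomology.map f φ n x) =
      (((cohToExt A n x).mapExactFunctor (Rep.resFunctor f)).comp (Ext.mk₀ φ) (add_zero n) :
        Ext (Rep.trivial k H k) B n) := by
  obtain ⟨z, rfl⟩ := π_surjective A n x
  rw [groupCohomology.π_map_apply, cohToExt_π, cohToExt_π]
  have h := extMk_mapExactFunctor (Rep.resFunctor f) (barResolution k G) (barResolution k H)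
    (barMap f) (barMap_π f) (cochainLift A n (iCocycles A n z)) (n + 1) rfl
    (barResolution_d_comp_cochainLift A n z) (barMap_d_comp f n z)
  refine Eq.trans ?_ (congrArg (fun e : Ext (Rep.trivial k H k) ((Rep.resFunctor f).obj A) n =>
    e.comp (Ext.mk₀ φ) (add_zero n)) h.symm)
  show _ = ((barResolution k H).extMk ((barMap f).f n ≫
    (Rep.resFunctor f).map (cochainLift A n (iCocycles A n z))) (n + 1) rfl
      (barMap_d_comp f n z)).comp (Ext.mk₀ φ) (add_zero n)
  rw [ProjectiveResolution.extMk_comp_mk₀]
  congr 1
  rw [iCocycles_cocyclesMap, cochainLift_barMap]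

end

end Fermat.Agent.CFT.Duality
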