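import Fermat.Agent.Lib.CFT.Duality.ExtLimPair
import Fermat.Agent.Lib.CFT.Duality.CohLim
import Fermat.Agent.Lib.CFT.Duality.Bridge2

/-!
# P4 / Layer D : `HLim B n = colim_j Ext^n(k, B_j)` versus `CohLim B n = colim_j H^n(G_j, B_j)`

The level-wise bridge `cohToExt` (Bridge1, Bridge2) passes to the colimits, compatibly with the
localisation maps to a compatible family of subgroups; hence `ShaLim ≃ ShaCoh`.
-/

set_option autoImplicit false

open CategoryTheory Abelian groupCohomology

namespace Fermat.Agent.CFT.Duality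

noncomputable section

variable {k : Type} [CommRing k] {T : Tower}

open TowerModule

theorem extTrans_cohToExt (B : TowerModule k T) (n : ℕ) {i j : T.ι} (h : i ≤ j)
    (x : groupCohomology (B.C i) n) :
    extTrans (triv k T) B n h (cohToExt (B.C i) n x) =
      cohToExt (B.C j) n (B.cohSysMap n i j h x) := by
  unfold extTrans
  rw [extPull_apply]
  have h1 : inv ((triv k T).φ h) = 𝟙 _ := IsIso.inv_id
  rw [h1]
  have h2 := cohToExt_map (T.π h) (B.C i) (B.C j) (B.φ h) n x
  refine Eq.trans ?_ h2.symm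
  exact Ext.mk₀_id_comp _

theorem extTrans_cohToExt_symm (B : TowerModule k T) (n : ℕ) {i j : T.ι} (h : i ≤ j)
    (ξ : Ext ((triv k T).C i) (B.C i) n) :
    (cohToExt (B.C j) n).symm (extTrans (triv k T) B n h ξ) =
      B.cohSysMap n i j h ((cohToExt (B.C i) n).symm ξ) := by
  rw [AddEquiv.symm_apply_eq, ← extTrans_cohToExt, AddEquiv.apply_symm_apply]

/-- the comparison map `HLim B n → CohLim B n` -/
def hlimToCohLim (B : TowerModule k T) (n : ℕ) : HLim B n →+ B.CohLim n :=
  ExtLim.lift (triv k T) B n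
    (fun j => (CohLim.of B n j).toAddMonoidHom.comp (cohToExt (B.C j) n).symm.toAddMonoidHom)
    (fun {i j} h ξ => by
      show CohLim.of B n j ((cohToExt (B.C j) n).symm (extTrans (triv k T) B n h ξ)) =
        CohLim.of B n i ((cohToExt (B.C i) n).symm ξ)
      rw [extTrans_cohToExt_symm, CohLim.of_f])

theorem hlimToCohLim_of (B : TowerModule k T) (n : ℕ) (j : T.ι)
    (ξ : Ext ((triv k T).C j) (B.C j) n) :
    hlimToCohLim B n (ExtLim.of (triv k T) B n j ξ) =
      CohLim.of B n j ((cohToExt (B.C j) n).symm ξ) := rfl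

theorem hlimToCohLim_injective (B : TowerModule k T) (n : ℕ) :
    Function.Injective (hlimToCohLim B n) := by
  rw [injective_iff_map_eq_zero]
  intro z hz
  induction z using ExtLim.induction_on with
  | h j ξ =>
    rw [hlimToCohLim_of] at hz
    obtain ⟨l, hjl, hl⟩ := CohLim.of_eq_zero B n hz
    rw [← extTrans_cohToExt_symm, AddEquiv.map_eq_zero_iff] at hl
    rw [← ExtLim.of_trans (triv k T) B n hjl ξ, hl]
    exact map_zero (ExtLim.of (triv k T) B n l)

theorem hlimToCohLim_surjective (B : TowerModule k T) (n : ℕ) :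
    Function.Surjective (hlimToCohLim B n) := by
  intro z
  obtain ⟨j, x, rfl⟩ := CohLim.exists_of B n z
  refine ⟨ExtLim.of (triv k T) B n j (cohToExt (B.C j) n x), ?_⟩
  rw [hlimToCohLim_of, AddEquiv.symm_apply_apply]

/-- `colim_j Ext^n(k, B_j) ≃ colim_j H^n(G_j, B_j)` -/
def hlimEquivCohLim (B : TowerModule k T) (n : ℕ) : HLim B n ≃+ B.CohLim n :=
  AddEquiv.ofBijective (hlimToCohLim B n) ⟨hlimToCohLim_injective B n, hlimToCohLim_surjective B n⟩

theorem hlimEquivCohLim_of (B : TowerModule k T) (n : ℕ) (j : T.ι)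
    (ξ : Ext ((triv k T).C j) (B.C j) n) :
    hlimEquivCohLim B n (ExtLim.of (triv k T) B n j ξ) =
      CohLim.of B n j ((cohToExt (B.C j) n).symm ξ) := rfl

theorem hlimEquivCohLim_symm_of (B : TowerModule k T) (n : ℕ) (j : T.ι)
    (x : groupCohomology (B.C j) n) :
    (hlimEquivCohLim B n).symm (CohLim.of B n j x) =
      ExtLim.of (triv k T) B n j (cohToExt (B.C j) n x) := by
  rw [AddEquiv.symm_apply_eq, hlimEquivCohLim_of, AddEquiv.symm_apply_apply]

/-! ### Localisation -/

section Loc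

variable (P : T.ι → Prop) (hne : ∃ i, P i)
  (hdir : ∀ i j, P i → P j → ∃ l, P l ∧ i ≤ l ∧ j ≤ l) (D : T.SubgroupFamily)
  (A : TowerModule k T) (n : ℕ)

/-- level-wise restriction to the subgroups of a family, on `Ext` -/
def resSubExt (j : T.ι) : Ext ((triv k T).C j) (A.C j) n →+
    Ext ((triv k (T.subTower D)).C j) ((A.resSub D).C j) n :=
  extPull (D.D j).subtype (𝟙 (Rep.trivial k (D.D j) k)) (𝟙 (Rep.res (D.D j).subtype (A.C j))) n

theorem resSubExt_cohToExt (j : T.ι) (x : groupCohomology (A.C j) n) :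
    resSubExt D A n j (cohToExt (A.C j) n x) =
      cohToExt ((A.resSub D).C j) n (resSubMap D A n j x) := by
  have h2 := cohToExt_map (D.D j).subtype (A.C j) (Rep.res (D.D j).subtype (A.C j))
    (𝟙 (Rep.res (D.D j).subtype (A.C j))) n x
  refine Eq.trans ?_ h2.symm
  exact Ext.mk₀_id_comp _

theorem resSubExt_symm (j : T.ι) (ξ : Ext ((triv k T).C j) (A.C j) n) :
    (cohToExt ((A.resSub D).C j) n).symm (resSubExt D A n j ξ) =
      resSubMap D A n j ((cohToExt (A.C j) n).symm ξ) := by
  rw [AddEquiv.symm_apply_eq, ← resSubExt_cohToExt, AddEquiv.apply_symm_apply]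

theorem resSubExt_extTrans {i j : T.ι} (h : i ≤ j) (ξ : Ext ((triv k T).C i) (A.C i) n) :
    resSubExt D A n j (extTrans (triv k T) A n h ξ) =
      extTrans (triv k (T.subTower D)) (A.resSub D) n h (resSubExt D A n i ξ) := by
  obtain ⟨x, rfl⟩ := (cohToExt (A.C i) n).surjective ξ
  rw [extTrans_cohToExt, resSubExt_cohToExt, resSubExt_cohToExt, extTrans_cohToExt,
    resSubMap_comm]

/-- The localisation map `colim_{j ∈ P} Ext^n(k, A_j) → colim_j Ext^n_{D_j}(k, A_j)`. -/
def locLimAt : HLim (A.filter P hne hdir) n →+ HLim (A.resSub D) n :=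
  ExtLim.lift (triv k (T.filter P hne hdir)) (A.filter P hne hdir) n
    (fun j => (ExtLim.of (triv k (T.subTower D)) (A.resSub D) n j.1).comp (resSubExt D A n j.1))
    (fun {i j} h ξ => by
      show ExtLim.of (triv k (T.subTower D)) (A.resSub D) n j.1
          (resSubExt D A n j.1 (extTrans (triv k T) A n h ξ)) =
        ExtLim.of (triv k (T.subTower D)) (A.resSub D) n i.1 (resSubExt D A n i.1 ξ)
      rw [resSubExt_extTrans, ExtLim.of_trans])

theorem locLimAt_of (j : (T.filter P hne hdir).ι) (ξ : Ext ((triv k T).C j.1) (A.C j.1) n) :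
    locLimAt P hne hdir D A n
        (ExtLim.of (triv k (T.filter P hne hdir)) (A.filter P hne hdir) n j ξ) =
      ExtLim.of (triv k (T.subTower D)) (A.resSub D) n j.1 (resSubExt D A n j.1 ξ) := rfl

theorem hlimEquivCohLim_locLimAt (z : HLim (A.filter P hne hdir) n) :
    hlimEquivCohLim (A.resSub D) n (locLimAt P hne hdir D A n z) =
      cohLoc P hne hdir D A n (hlimEquivCohLim (A.filter P hne hdir) n z) := by
  induction z using ExtLim.induction_on with
  | h j ξ =>
    rw [locLimAt_of, hlimEquivCohLim_of, hlimEquivCohLim_of, cohLoc_of, resSubExt_symm]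
    rfl

end Loc

/-! ### Abstract Tate–Shafarevich groups -/

section Sha

variable (P : T.ι → Prop) (hne : ∃ i, P i)
  (hdir : ∀ i j, P i → P j → ∃ l, P l ∧ i ≤ l ∧ j ≤ l) {Q : Type} (D : Q → T.SubgroupFamily)

/-- The localisation map `colim_{j ∈ P} H^n(G_j, A_j) → colim_{all j} H^n(D_{q,j}, A_j)`
(restriction to the subgroups, then inclusion of the index sets). -/
def locLim (A : TowerModule k T) (q : Q) (n : ℕ) :
    HLim (A.filter P hne hdir) n →+ HLim (A.resSub (D q)) n :=
  locLimAt P hne hdir (D q) A n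

theorem locLim_of (A : TowerModule k T) (q : Q) (n : ℕ) (j : (T.filter P hne hdir).ι)
    (ξ : Ext ((triv k T).C j.1) (A.C j.1) n) :
    locLim P hne hdir D A q n
        (ExtLim.of (triv k (T.filter P hne hdir)) (A.filter P hne hdir) n j ξ) =
      ExtLim.of (triv k (T.subTower (D q))) (A.resSub (D q)) n j.1 (resSubExt (D q) A n j.1 ξ) :=
  rfl

theorem hlimEquivCohLim_locLim (A : TowerModule k T) (q : Q) (n : ℕ)
    (z : HLim (A.filter P hne hdir) n) :
    hlimEquivCohLim (A.resSub (D q)) n (locLim P hne hdir D A q n z) =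
      cohLoc P hne hdir (D q) A n (hlimEquivCohLim (A.filter P hne hdir) n z) :=
  hlimEquivCohLim_locLimAt P hne hdir (D q) A n z

/-- `Ш^n(A) = ker (colim_{j ∈ P} H^n(G_j, A_j) → ∏_q colim_{all j} H^n(D_{q,j}, A_j))`. -/
def ShaLim (A : TowerModule k T) (n : ℕ) : AddSubgroup (HLim (A.filter P hne hdir) n) :=
  ⨅ q : Q, (locLim P hne hdir D A q n).ker

theorem mem_shaLim_iff (A : TowerModule k T) (n : ℕ) (z : HLim (A.filter P hne hdir) n) :
    z ∈ ShaLim P hne hdir D A n ↔
      hlimEquivCohLim (A.filter P hne hdir) n z ∈ ShaCoh P hne hdir A n D := by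
  simp only [ShaLim, ShaCoh, AddSubgroup.mem_iInf, Submodule.mem_iInf, AddMonoidHom.mem_ker,
    LinearMap.mem_ker]
  refine forall_congr' fun q => ?_
  rw [← hlimEquivCohLim_locLim, AddEquiv.map_eq_zero_iff]

/-- `ShaLim ≃ ShaCoh` -/
def shaLimEquivShaCoh (A : TowerModule k T) (n : ℕ) :
    ShaLim P hne hdir D A n ≃+ ShaCoh P hne hdir A n D where
  toFun z := ⟨hlimEquivCohLim (A.filter P hne hdir) n z.1,
    (mem_shaLim_iff P hne hdir D A n z.1).1 z.2⟩
  invFun y := ⟨(hlimEquivCohLim (A.filter P hne hdir) n).symm y.1,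
    (mem_shaLim_iff P hne hdir D A n _).2 (by rw [AddEquiv.apply_symm_apply]; exact y.2)⟩
  left_inv z := Subtype.ext (AddEquiv.symm_apply_apply _ _)
  right_inv y := Subtype.ext (AddEquiv.apply_symm_apply _ _)
  map_add' z w := Subtype.ext (map_add _ _ _)

end Sha

end

end Fermat.Agent.CFT.Duality
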