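import Fermat.Agent.Lib.CFT.Duality.LevelTower

/-!
# P4 / Layer D : restriction of fundamental classes / class formations to a directed set of levels

`T.filter P` has the same groups and `C.filter P` the same modules as `T`, `C` on the levels satisfying
`P`, so everything except `pinf` (which is a property of the set of levels) restricts verbatim.
Used by Layer B: the local fundamental classes live on the FULL local tower `towerLoc q L₀` and are
restricted to the `S`-levels `towerLocS S q L₀ h₀`.
-/

set_option autoImplicit false

namespace Fermat.Agent.CFT.Duality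

variable {p : ℕ} [Fact p.Prime] {T : Tower} {C : TowerModule ℤ T} (P : T.ι → Prop)
  (hne : ∃ i, P i) (hdir : ∀ i j, P i → P j → ∃ k, P k ∧ i ≤ k ∧ j ≤ k)

/-- Galois descent restricts to a set of levels. -/
theorem TowerModule.HasDescent.filter (h : C.HasDescent) : (C.filter P hne hdir).HasDescent where
  injective hij := h.injective (i := _) (j := _) hij
  surjective hij y hy := h.surjective (i := _) (j := _) hij y hy

/-- Fundamental `p`-classes restrict to a directed set of levels (`pinf` must be supplied). -/
def PFundamental.filter (F : PFundamental p T C)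
    (hpinf : ∀ (j : (T.filter P hne hdir).ι) (U : Subgroup ((T.filter P hne hdir).G j)) (n : ℕ),
      ∃ (k : (T.filter P hne hdir).ι) (h : j ≤ k), p ^ n ∣ Nat.card ((T.filter P hne hdir).pre h U)) :
    PFundamental p (T.filter P hne hdir) (C.filter P hne hdir) where
  descent := F.descent.filter P hne hdir
  pinf := hpinf
  h1P j Q hQ := F.h1P j.1 Q hQ
  h2P j Q hQ := F.h2P j.1 Q hQ
  u j := F.u j.1
  u_order j := F.u_order j.1
  u_infl h := F.u_infl (i := _) (j := _) h
  finite_mod_p j U := F.finite_mod_p j.1 U

/-- A `p`-class formation restricts to a directed set of levels (`pinf` must be supplied). -/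
def PClassFormation.filter (cf : PClassFormation p T C)
    (hpinf : ∀ (j : (T.filter P hne hdir).ι) (U : Subgroup ((T.filter P hne hdir).G j)) (n : ℕ),
      ∃ (k : (T.filter P hne hdir).ι) (h : j ≤ k), p ^ n ∣ Nat.card ((T.filter P hne hdir).pre h U)) :
    PClassFormation p (T.filter P hne hdir) (C.filter P hne hdir) where
  descent := cf.descent.filter P hne hdir
  pinf := hpinf
  h1 j U x hx := cf.h1 j.1 U x hx
  h3 j U x hx := cf.h3 j.1 U x hx
  inv j U := cf.inv j.1 U
  inv_injective j U x hx hx' := cf.inv_injective j.1 U x hx hx'
  inv_surjective j U := cf.inv_surjective j.1 U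
  inv_infl h U x := cf.inv_infl (i := _) (j := _) h U x
  inv_res j _ _ h x := cf.inv_res j.1 h x
  finite_mod_p j U := cf.finite_mod_p j.1 U

end Fermat.Agent.CFT.Duality
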