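import Fermat.Agent.Lib.CFT.Duality.ExtLimSeq

/-!
# P4 / Layer D : the Yoneda product on the groups `ExtLim`, the groups `HLim`

* `ExtLim.comp : ExtLim A' A s →+ ExtLim A B r →+ ExtLim A' B t`  (`s + r = t`), levelwise `Ext.comp`.
* `HLim B s := ExtLim (triv k T) B s = colim_j H^s(G_j, B_j)`.
* `pairing A B r s : ExtLim A B r →+ HLim A s →+ HLim B t`.
-/

set_option autoImplicit false
set_option linter.unusedSectionVars false

open CategoryTheory Abelian

namespace Fermat.Agent.CFT.Duality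

noncomputable section

namespace TowerModule

variable {k : Type} [CommRing k] {T : Tower}

section

variable (A B : TowerModule k T) [A.IsCartesian] (r : ℕ)

lemma ExtLim.exists_of_ge (x : ExtLim A B r) (i : T.ι) :
    ∃ l, i ≤ l ∧ ∃ ξ, ExtLim.of A B r l ξ = x := by
  obtain ⟨j, ξ, rfl⟩ := ExtLim.exists_of A B r x
  obtain ⟨l, hil, hjl⟩ := exists_ge_ge i j
  exact ⟨l, hil, extTrans A B r hjl ξ, ExtLim.of_trans A B r hjl ξ⟩

end

section Comp

variable {A' A : TowerModule k T} [A'.IsCartesian] [A.IsCartesian] (B : TowerModule k T)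

lemma extTrans_comp_ext {s r t : ℕ} (hsr : s + r = t) {i j : T.ι} (h : i ≤ j)
    (x : Ext (A'.C i) (A.C i) s) (ξ : Ext (A.C i) (B.C i) r) :
    extTrans A' B t h (x.comp ξ hsr) = (extTrans A' A s h x).comp (extTrans A B r h ξ) hsr :=
  (extPull_comp_ext (T.π h) (inv (A'.φ h)) (A.φ h) (inv (A.φ h)) (IsIso.hom_inv_id _) (B.φ h)
    x ξ hsr).symm

/-- The Yoneda product in the limit, as a plain function. -/
def ExtLim.comp₂ (s r t : ℕ) (hsr : s + r = t) : ExtLim A' A s → ExtLim A B r → ExtLim A' B t :=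
  DirectLimit.map₂ (F₁ := fun j : T.ι => Ext (A'.C j) (A.C j) s)
    (F₂ := fun j : T.ι => Ext (A.C j) (B.C j) r) (F := fun j : T.ι => Ext (A'.C j) (B.C j) t)
    (fun _ _ h => extTrans A' A s h) (fun _ _ h => extTrans A B r h)
    (fun _ _ h => extTrans A' B t h) (fun _ x ξ => x.comp ξ hsr)
    (fun _ _ h x ξ => extTrans_comp_ext B hsr h x ξ)

lemma ExtLim.comp₂_of (s r t : ℕ) (hsr : s + r = t) (j : T.ι) (x : Ext (A'.C j) (A.C j) s)
    (ξ : Ext (A.C j) (B.C j) r) :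
    ExtLim.comp₂ B s r t hsr (ExtLim.of A' A s j x) (ExtLim.of A B r j ξ)
      = ExtLim.of A' B t j (x.comp ξ hsr) := by
  rw [ExtLim.of_def, ExtLim.of_def, ExtLim.of_def]
  unfold ExtLim.comp₂
  exact DirectLimit.map₂_def (F₁ := fun j : T.ι => Ext (A'.C j) (A.C j) s)
    (F₂ := fun j : T.ι => Ext (A.C j) (B.C j) r) (F := fun j : T.ι => Ext (A'.C j) (B.C j) t)
    (fun _ _ h => extTrans A' A s h) (fun _ _ h => extTrans A B r h)
    (fun _ _ h => extTrans A' B t h) (fun _ x ξ => x.comp ξ hsr)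
    (fun _ _ h x ξ => extTrans_comp_ext B hsr h x ξ) j x ξ

lemma ExtLim.comp₂_add_left (s r t : ℕ) (hsr : s + r = t) (x x' : ExtLim A' A s)
    (ξ : ExtLim A B r) :
    ExtLim.comp₂ B s r t hsr (x + x') ξ
      = ExtLim.comp₂ B s r t hsr x ξ + ExtLim.comp₂ B s r t hsr x' ξ := by
  obtain ⟨i₁, x₁, rfl⟩ := ExtLim.exists_of A' A s x
  obtain ⟨i₂, h₁₂, x₂, rfl⟩ := ExtLim.exists_of_ge A' A s x' i₁
  obtain ⟨l, h₂l, ξ₃, rfl⟩ := ExtLim.exists_of_ge A B r ξ i₂
  rw [← ExtLim.of_trans A' A s (h₁₂.trans h₂l) x₁, ← ExtLim.of_trans A' A s h₂l x₂,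
    ← map_add, ExtLim.comp₂_of, ExtLim.comp₂_of, ExtLim.comp₂_of, ← map_add, Ext.add_comp]

lemma ExtLim.comp₂_add_right (s r t : ℕ) (hsr : s + r = t) (x : ExtLim A' A s)
    (ξ ξ' : ExtLim A B r) :
    ExtLim.comp₂ B s r t hsr x (ξ + ξ')
      = ExtLim.comp₂ B s r t hsr x ξ + ExtLim.comp₂ B s r t hsr x ξ' := by
  obtain ⟨i₁, x₁, rfl⟩ := ExtLim.exists_of A' A s x
  obtain ⟨i₂, h₁₂, ξ₂, rfl⟩ := ExtLim.exists_of_ge A B r ξ i₁
  obtain ⟨l, h₂l, ξ₃, rfl⟩ := ExtLim.exists_of_ge A B r ξ' i₂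
  rw [← ExtLim.of_trans A' A s (h₁₂.trans h₂l) x₁, ← ExtLim.of_trans A B r h₂l ξ₂,
    ← map_add, ExtLim.comp₂_of, ExtLim.comp₂_of, ExtLim.comp₂_of, ← map_add, Ext.comp_add]

/-- The Yoneda product in the limit. -/
def ExtLim.comp (s r t : ℕ) (hsr : s + r = t) :
    ExtLim A' A s →+ ExtLim A B r →+ ExtLim A' B t :=
  AddMonoidHom.mk' (fun x => AddMonoidHom.mk' (ExtLim.comp₂ B s r t hsr x)
      (ExtLim.comp₂_add_right B s r t hsr x))
    (fun x x' => by
      ext ξ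
      exact ExtLim.comp₂_add_left B s r t hsr x x' ξ)

@[simp] lemma ExtLim.comp_of (s r t : ℕ) (hsr : s + r = t) (j : T.ι)
    (x : Ext (A'.C j) (A.C j) s) (ξ : Ext (A.C j) (B.C j) r) :
    ExtLim.comp B s r t hsr (ExtLim.of A' A s j x) (ExtLim.of A B r j ξ)
      = ExtLim.of A' B t j (x.comp ξ hsr) :=
  ExtLim.comp₂_of B s r t hsr j x ξ

/-- Two elements of (different) `ExtLim` groups are represented on a common level. -/
lemma ExtLim.exists_of₂ {s r : ℕ} (x : ExtLim A' A s) (ξ : ExtLim A B r) :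
    ∃ (j : T.ι) (x₀ : Ext (A'.C j) (A.C j) s) (ξ₀ : Ext (A.C j) (B.C j) r),
      ExtLim.of A' A s j x₀ = x ∧ ExtLim.of A B r j ξ₀ = ξ := by
  obtain ⟨i₁, x₁, rfl⟩ := ExtLim.exists_of A' A s x
  obtain ⟨l, h, ξ₂, rfl⟩ := ExtLim.exists_of_ge A B r ξ i₁
  exact ⟨l, extTrans A' A s h x₁, ξ₂, ExtLim.of_trans A' A s h x₁, rfl⟩

omit [A.IsCartesian] in
lemma ExtFamily.extTrans_c [A.IsCartesian] {s : ℕ} (c : ExtFamily A' A s) {i j : T.ι} (h : i ≤ j) :
    extTrans A' A s h (c.c i) = c.c j := by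
  unfold extTrans
  rw [extPull_apply, c.comm h,
    ← Ext.comp_assoc (Ext.mk₀ (inv (A'.φ h))) (Ext.mk₀ (A'.φ h)) _ (zero_add 0) (zero_add s)
      (by omega), Ext.mk₀_comp_mk₀, IsIso.inv_hom_id, Ext.mk₀_id_comp]

/-- The class of a compatible family in the limit. -/
def ExtLim.ofFamily {s : ℕ} (c : ExtFamily A' A s) : ExtLim A' A s :=
  ExtLim.of A' A s (Classical.arbitrary T.ι) (c.c _)

lemma ExtLim.ofFamily_eq {s : ℕ} (c : ExtFamily A' A s) (j : T.ι) :
    ExtLim.ofFamily c = ExtLim.of A' A s j (c.c j) := by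
  unfold ExtLim.ofFamily
  obtain ⟨l, h1, h2⟩ := exists_ge_ge (Classical.arbitrary T.ι) j
  rw [← ExtLim.of_trans A' A s h1, ← ExtLim.of_trans A' A s h2, c.extTrans_c, c.extTrans_c]

/-- `compLeft` with a compatible family is the product with its class in the limit. -/
lemma ExtLim.compLeft_eq_comp {s : ℕ} (c : ExtFamily A' A s) (r t : ℕ) (hsr : s + r = t)
    (ξ : ExtLim A B r) :
    ExtLim.compLeft B c r t hsr ξ = ExtLim.comp B s r t hsr (ExtLim.ofFamily c) ξ := by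
  induction ξ using ExtLim.induction_on with
  | h j ξ₀ => rw [ExtLim.ofFamily_eq c j, ExtLim.compLeft_of, ExtLim.comp_of]

end Comp

section Assoc

variable {A'' A' A : TowerModule k T} [A''.IsCartesian] [A'.IsCartesian] [A.IsCartesian]
  (B : TowerModule k T)

/-- Associativity of the Yoneda product in the limit. -/
lemma ExtLim.comp_assoc {a b c ab bc abc : ℕ} (hab : a + b = ab) (hbc : b + c = bc)
    (habc : a + b + c = abc) (x : ExtLim A'' A' a) (y : ExtLim A' A b) (ξ : ExtLim A B c) :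
    ExtLim.comp B ab c abc (by omega) (ExtLim.comp A a b ab hab x y) ξ
      = ExtLim.comp B a bc abc (by omega) x (ExtLim.comp B b c bc hbc y ξ) := by
  obtain ⟨i₁, x₁, rfl⟩ := ExtLim.exists_of A'' A' a x
  obtain ⟨i₂, h₁₂, y₂, rfl⟩ := ExtLim.exists_of_ge A' A b y i₁
  obtain ⟨l, h₂l, ξ₃, rfl⟩ := ExtLim.exists_of_ge A B c ξ i₂
  rw [← ExtLim.of_trans A'' A' a (h₁₂.trans h₂l) x₁, ← ExtLim.of_trans A' A b h₂l y₂,
    ExtLim.comp_of, ExtLim.comp_of, ExtLim.comp_of, ExtLim.comp_of,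
    Ext.comp_assoc _ _ _ hab hbc habc]

/-- `compRight` with a compatible family (between cartesian modules) is the product with its class
in the limit. -/
lemma ExtLim.compRight_eq_comp {s : ℕ} (c : ExtFamily A' A s) (r t : ℕ) (hrs : r + s = t)
    (x : ExtLim A'' A' r) :
    ExtLim.compRight A'' c r t hrs x = ExtLim.comp A r s t hrs x (ExtLim.ofFamily c) := by
  induction x using ExtLim.induction_on with
  | h j x₀ => rw [ExtLim.ofFamily_eq c j, ExtLim.compRight_of, ExtLim.comp_of]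

end Assoc

end TowerModule

open TowerModule

variable {k : Type} [CommRing k] {T : Tower}

/-- `colim_j H^s(G_j, B_j)`, as `colim_j Ext^s(k, B_j)`. -/
abbrev HLim (B : TowerModule k T) (s : ℕ) : Type := ExtLim (triv k T) B s

/-- The Yoneda pairing `ExtLim A B r × HLim A s → HLim B t` (`s + r = t`):
on a common level `j`, `(ξ, x) ↦ x.comp ξ`. -/
def pairing (A B : TowerModule k T) [A.IsCartesian] (r s t : ℕ) (h : s + r = t) :
    ExtLim A B r →+ HLim A s →+ HLim B t :=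
  (ExtLim.comp (A' := triv k T) B s r t h).flip

@[simp] theorem pairing_of (A B : TowerModule k T) [A.IsCartesian] (r s t : ℕ) (h : s + r = t)
    (j : T.ι) (ξ : Ext (A.C j) (B.C j) r) (x : Ext ((triv k T).C j) (A.C j) s) :
    pairing A B r s t h (ExtLim.of A B r j ξ) (ExtLim.of (triv k T) A s j x)
      = ExtLim.of (triv k T) B t j (x.comp ξ h) :=
  ExtLim.comp_of B s r t h j x ξ

end

end Fermat.Agent.CFT.Duality
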