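/-
P4 / Layer D, task D-INV0: fundamental `p`-classes on a tower module give a `p`-class formation.

All the work is done for one finite group in `Coh/FundamentalClass.lean`; here the invariant maps
`towerInv` and the fields of `PClassFormation` are obtained level by level.  Every lemma takes the
relevant fields of `PFundamental` as explicit hypotheses.
-/
import Fermat.Agent.Lib.CFT.Duality.Tower
import Fermat.Agent.Lib.CFT.Coh.FundamentalClass

set_option autoImplicit false
set_option linter.unusedSectionVars false

namespace Fermat.Agent.CFT.Duality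

open CategoryTheory Fermat.Agent.CFT.Coh

section TowerInv

variable {p : ℕ} [hp : Fact p.Prime] {T : Tower} {C : TowerModule ℤ T}
  (u : ∀ j : T.ι, groupCohomology (C.C j) 2)
  (u_order : ∀ j : T.ι, addOrderOf (u j) = p ^ (Nat.card (T.G j)).factorization p)
  (h2P : ∀ (j : T.ι) (P : Subgroup (T.G j)), IsPGroup p P →
    Finite (groupCohomology (C.atSub j P) 2) ∧
      Nat.card (groupCohomology (C.atSub j P) 2) ≤ Nat.card P)

/-- the invariant maps of a tower module with fundamental `p`-classes -/
noncomputable def towerInv (j : T.ι) (U : Subgroup (T.G j)) :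
    groupCohomology (C.atSub j U) 2 →+ AddCircle (1 : ℚ) :=
  invOf (C.C j) p (u j) (u_order j) (h2P j) U

theorem towerInv_injective (j : T.ι) (U : Subgroup (T.G j))
    (x : groupCohomology (C.atSub j U) 2) (hpx : p • x = 0)
    (hx : towerInv u u_order h2P j U x = 0) : x = 0 :=
  invOf_injective (C.C j) p (u j) (u_order j) (h2P j) U x hpx hx

theorem towerInv_surjective (j : T.ι) (U : Subgroup (T.G j)) :
    ∃ x : groupCohomology (C.atSub j U) 2, p ^ (Nat.card U).factorization p • x = 0 ∧
      towerInv u u_order h2P j U x =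
        ((1 / (p ^ (Nat.card U).factorization p : ℕ) : ℚ) : AddCircle (1 : ℚ)) :=
  invOf_surjective (C.C j) p (u j) (u_order j) (h2P j) U

theorem towerInv_res (j : T.ι) {V U : Subgroup (T.G j)} (h : V ≤ U)
    (x : groupCohomology (C.atSub j U) 2) :
    towerInv u u_order h2P j V (C.resMap j h 2 x) = V.relIndex U • towerInv u u_order h2P j U x :=
  invOf_resLE (C.C j) p (u j) (u_order j) (h2P j) h x

theorem towerInv_infl
    (u_infl : ∀ {i j : T.ι} (h : i ≤ j),
      (groupCohomology.map (T.π h) (C.φ h) 2).hom (u i) = Nat.card (T.π h).ker • u j)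
    {i j : T.ι} (h : i ≤ j) (U : Subgroup (T.G i)) (x : groupCohomology (C.atSub i U) 2) :
    towerInv u u_order h2P j (T.pre h U) (C.inflMap h U 2 x) = towerInv u u_order h2P i U x :=
  invOf_inflSub (T.π h) (T.π_surjective h) (C.C i) (C.C j) (C.φ h) p (u i) (u j) (u_order i)
    (u_order j) (h2P i) (h2P j) (u_infl h) U x

theorem tower_h1
    (h1P : ∀ (j : T.ι) (P : Subgroup (T.G j)), IsPGroup p P →
      Subsingleton (groupCohomology (C.atSub j P) 1))
    (j : T.ι) (U : Subgroup (T.G j)) (x : groupCohomology (C.atSub j U) 1) (hx : p • x = 0) :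
    x = 0 :=
  eq_zero_of_h1P (C.C j) p (h1P j) U x hx

include u_order h2P in
theorem tower_h3
    (h1P : ∀ (j : T.ι) (P : Subgroup (T.G j)), IsPGroup p P →
      Subsingleton (groupCohomology (C.atSub j P) 1))
    (j : T.ι) (U : Subgroup (T.G j)) (x : groupCohomology (C.atSub j U) 3) (hx : p • x = 0) :
    x = 0 :=
  eq_zero_of_tate_H3 (C.C j) p (u j) (u_order j) (h2P j) addHomsLinear_int int_torsionFree_hyp
    int_euclid_hyp (h1P j) U x hx

end TowerInv

/-- **D-INV0**: fundamental `p`-classes give a `p`-class formation. -/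
noncomputable def PFundamental.toPClassFormation {p : ℕ} [Fact p.Prime] {T : Tower}
    {C : TowerModule ℤ T} (F : PFundamental p T C) : PClassFormation p T C where
  descent := F.descent
  pinf := F.pinf
  h1 := tower_h1 F.h1P
  h3 := tower_h3 F.u F.u_order F.h2P F.h1P
  inv := towerInv F.u F.u_order F.h2P
  inv_injective := towerInv_injective F.u F.u_order F.h2P
  inv_surjective := towerInv_surjective F.u F.u_order F.h2P
  inv_infl := towerInv_infl F.u F.u_order F.h2P F.u_infl
  inv_res := towerInv_res F.u F.u_order F.h2P
  finite_mod_p := F.finite_mod_p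

end Fermat.Agent.CFT.Duality
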