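import Fermat.Agent.Lib.CFT.Duality.ExtLimPair
import Fermat.Agent.Lib.CFT.Coh.AugRep

/-!
# P4 / Layer D : constant tower modules, the Bockstein sequence, limit formations

* `TowerModule.const T V` : the constant tower module with fibre `V` (trivial action), cartesian.
* `TowerModule.constShortExact` : a short exact sequence of `k`-modules gives a short exact sequence
  of constant tower modules.
* `bockstein p T` : `0 → ℤ → ℤ → 𝔽_p → 0`.
* `LimFormation p T C` : the limit-level axioms of a `p`-class formation in `Ext` language, and the maps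
  `α^r : ExtLim A C r → Hom(HLim A s, ℚ/ℤ)`  (`s + r = 2`).
-/

set_option autoImplicit false
set_option linter.unusedSectionVars false

open CategoryTheory Abelian

namespace Fermat.Agent.CFT.Duality

noncomputable section

namespace TowerModule

variable {k : Type} [CommRing k]

/-- The constant tower module with fibre `V`. -/
def const (T : Tower) (V : Type) [AddCommGroup V] [Module k V] : TowerModule k T where
  C i := Rep.trivial k (T.G i) V
  φ _ := 𝟙 (Rep.trivial k _ V)
  φ_refl _ _ := rfl
  φ_comp _ _ _ := rfl

instance (T : Tower) (V : Type) [AddCommGroup V] [Module k V] :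
    (const (k := k) T V).IsCartesian :=
  ⟨fun {_ j} _ => show IsIso (𝟙 (Rep.trivial k (T.G j) V)) from inferInstance⟩

lemma triv_eq_const (T : Tower) : triv k T = const T k := rfl

variable {T : Tower} {V W X : Type} [AddCommGroup V] [Module k V] [AddCommGroup W] [Module k W]
  [AddCommGroup X] [Module k X]

/-- A linear map gives a morphism of constant tower modules. -/
def constHom (T : Tower) (f : V →ₗ[k] W) : (const (k := k) T V).Hom (const T W) where
  f _ := Rep.ofHom ⟨f, fun _ => rfl⟩
  comm _ := rfl

@[simp] lemma constHom_f_hom (f : V →ₗ[k] W) (i : T.ι) (v : V) :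
    ((constHom T f).f i).hom v = f v := rfl

/-- A short exact sequence of modules gives a short exact sequence of constant tower modules. -/
def constShortExact (T : Tower) (f : V →ₗ[k] W) (g : W →ₗ[k] X) (hf : Function.Injective f)
    (hg : Function.Surjective g) (hgf : ∀ v, g (f v) = 0)
    (hex : ∀ w, g w = 0 → ∃ v, f v = w) :
    ShortExact (const (k := k) T V) (const T W) (const T X) where
  f := constHom T f
  g := constHom T g
  zero i := by
    ext v
    exact hgf v
  exact i := Coh.shortExact_of_functions (X := ShortComplex.mk ((constHom T f).f i)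
      ((constHom T g).f i) (by ext v; exact hgf v)) hf hg hex

end TowerModule

open TowerModule

section Bockstein

variable (p : ℕ) [Fact p.Prime] (T : Tower)

/-- The constant tower module `𝔽_p`. -/
abbrev FpMod : TowerModule ℤ T := const T (ZMod p)

/-- The Bockstein sequence `0 → ℤ → ℤ → 𝔽_p → 0` of constant tower modules. -/
def bockstein : ShortExact (triv ℤ T) (triv ℤ T) (FpMod p T) :=
  constShortExact (k := ℤ) (V := ℤ) (W := ℤ) (X := ZMod p) T
    (LinearMap.lsmul ℤ ℤ (p : ℤ)) (Int.castAddHom (ZMod p)).toIntLinearMap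
    (fun a b h => by
      have hp : (p : ℤ) ≠ 0 := by exact_mod_cast (Fact.out : p.Prime).ne_zero
      have h' : (p : ℤ) * a = (p : ℤ) * b := h
      exact mul_left_cancel₀ hp h')
    (fun x => by
      obtain ⟨n, rfl⟩ := ZMod.intCast_surjective x
      exact ⟨n, rfl⟩)
    (fun v => by simp)
    (fun w hw => by
      have : ((w : ℤ) : ZMod p) = 0 := hw
      rw [ZMod.intCast_zmod_eq_zero_iff_dvd] at this
      obtain ⟨c, rfl⟩ := this
      exact ⟨c, by simp⟩)

end Bockstein

/-- **Limit formation**: the limit-level axioms of a `p`-class formation, in `Ext` language. -/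
structure LimFormation (p : ℕ) [Fact p.Prime] (T : Tower) (C : TowerModule ℤ T) where
  /-- the invariant map on `colim_j H²(G_j, C_j)` -/
  invLim : HLim C 2 →+ AddCircle (1 : ℚ)
  /-- `colim H¹(G_j, C_j)` is torsion prime to `p` -/
  h1 : ∀ x : HLim C 1, ∃ m : ℕ, m.Coprime p ∧ m • x = 0
  /-- `colim H³(G_j, C_j)` has no `p`-torsion -/
  h3 : ∀ x : HLim C 3, p • x = 0 → x = 0
  /-- `inv` is injective on `p`-torsion -/
  inv_injective : ∀ x : HLim C 2, p • x = 0 → invLim x = 0 → x = 0
  /-- there is a class of invariant `1/p` -/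
  inv_surjective : ∃ x : HLim C 2, p • x = 0 ∧ invLim x = ((1 / p : ℚ) : AddCircle (1 : ℚ))
  /-- `colim H²(G_j, C_j)` is `p`-divisible -/
  h2_div : ∀ x : HLim C 2, ∃ y : HLim C 2, p • y = x

namespace LimFormation

variable {p : ℕ} [Fact p.Prime] {T : Tower} {C : TowerModule ℤ T} (L : LimFormation p T C)

/-- `α^r : ExtLim A C r → Hom(HLim A s, ℚ/ℤ)` for `s + r = 2`. -/
def alpha (A : TowerModule ℤ T) [A.IsCartesian] (r s : ℕ) (h : s + r = 2) :
    ExtLim A C r →+ (HLim A s →+ AddCircle (1 : ℚ)) :=
  (AddMonoidHom.compHom L.invLim).comp (pairing A C r s 2 h)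

lemma alpha_apply (A : TowerModule ℤ T) [A.IsCartesian] (r s : ℕ) (h : s + r = 2)
    (ξ : ExtLim A C r) (x : HLim A s) :
    L.alpha A r s h ξ x = L.invLim (pairing A C r s 2 h ξ x) := rfl

end LimFormation

end

end Fermat.Agent.CFT.Duality
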