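/-
P4 / Layer D, task D-INV: the invariant map on `H²` of the top groups of a `p`-class formation and
on the colimit `HLim C 2 = colim_j H²(G_j, C_j)`.
-/
import Fermat.Agent.Lib.CFT.Duality.ExtLimPair
import Fermat.Agent.Lib.CFT.Duality.Bridge2
import Fermat.Agent.Lib.CFT.Duality.InvOfFundamental
import Fermat.Agent.Lib.CFT.Duality.LimFormation

set_option autoImplicit false
set_option linter.unusedSectionVars false

open CategoryTheory Abelian

namespace Fermat.Agent.CFT.Duality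

open TowerModule Fermat.Agent.CFT.Coh

noncomputable section

variable {T : Tower}

/-- the transition maps of `j ↦ Ext^n(ℤ, C_j)` are the inflation maps of group cohomology -/
theorem extTrans_cohToExt_infl {k : Type} [CommRing k] (C : TowerModule k T) (n : ℕ) {i j : T.ι}
    (h : i ≤ j) (x : groupCohomology (C.C i) n) :
    extTrans (triv k T) C n h (cohToExt (C.C i) n x) =
      cohToExt (C.C j) n (groupCohomology.map (T.π h) (C.φ h) n x) := by
  rw [cohToExt_map]
  unfold extTrans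
  rw [extPull_apply]
  have h1 : inv ((triv k T).φ h) = 𝟙 _ := by
    change inv (𝟙 (Rep.trivial k (T.G j) k)) = 𝟙 _
    exact IsIso.inv_id
  rw [h1]
  exact Ext.mk₀_id_comp _

variable {p : ℕ} [Fact p.Prime] {C : TowerModule ℤ T}

/-- restriction to the top subgroup `⊤ ≤ G_j` -/
def resTop (C : TowerModule ℤ T) (j : T.ι) (n : ℕ) :
    groupCohomology (C.C j) n →+ groupCohomology (C.atSub j ⊤) n :=
  (groupCohomology.map (⊤ : Subgroup (T.G j)).subtype (𝟙 (C.atSub j ⊤)) n).hom.toAddMonoidHom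

/-- `inv` on `H²(G_j, C_j)` in group cohomology language -/
def PClassFormation.invCoh (cf : PClassFormation p T C) (j : T.ι) :
    groupCohomology (C.C j) 2 →+ AddCircle (1 : ℚ) :=
  (cf.inv j ⊤).comp (resTop C j 2)

/-- `inv` is compatible with the global inflation maps `H²(G_i, C_i) → H²(G_j, C_j)` -/
theorem PClassFormation.invCoh_infl (cf : PClassFormation p T C) {i j : T.ι} (h : i ≤ j)
    (x : groupCohomology (C.C i) 2) :
    cf.invCoh j (groupCohomology.map (T.π h) (C.φ h) 2 x) = cf.invCoh i x := by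
  have h1 := cf.inv_infl h ⊤ (resTop C i 2 x)
  have h2 := cf.inv_res j (le_top : T.pre h ⊤ ≤ ⊤)
    (resTop C j 2 (groupCohomology.map (T.π h) (C.φ h) 2 x))
  have hidx : (T.pre h (⊤ : Subgroup (T.G i))).relIndex ⊤ = 1 := by
    rw [Subgroup.relIndex_top_right]
    change (Subgroup.comap (T.π h) ⊤).index = 1
    rw [Subgroup.comap_top, Subgroup.index_top]
  rw [hidx, one_smul] at h2
  -- both composites are the restriction of the inflated class to `π⁻¹ ⊤`
  have e1 : C.inflMap h ⊤ 2 (resTop C i 2 x) =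
      (groupCohomology.map (T.pre h ⊤).subtype (𝟙 (C.atSub j (T.pre h ⊤))) 2).hom
        (groupCohomology.map (T.π h) (C.φ h) 2 x) := by
    have := congr($(res_comp_inflSub (T.π h) (C.C i) (C.C j) (C.φ h) ⊤ 2) x)
    exact this
  have e2 : C.resMap j (le_top : T.pre h ⊤ ≤ ⊤) 2
      (resTop C j 2 (groupCohomology.map (T.π h) (C.φ h) 2 x)) =
      (groupCohomology.map (T.pre h ⊤).subtype (𝟙 (C.atSub j (T.pre h ⊤))) 2).hom
        (groupCohomology.map (T.π h) (C.φ h) 2 x) := by
    have := congr($(res_comp_resLE (C.C j) (le_top : T.pre h ⊤ ≤ ⊤) 2)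
      (groupCohomology.map (T.π h) (C.φ h) 2 x))
    exact this
  change cf.inv j ⊤ (resTop C j 2 (groupCohomology.map (T.π h) (C.φ h) 2 x)) =
    cf.inv i ⊤ (resTop C i 2 x)
  rw [← h2, e2, ← e1, h1]

/-- `inv` on `H²(G_j, C_j) = Ext²(ℤ, C_j)`. -/
def PClassFormation.invTop (cf : PClassFormation p T C) (j : T.ι) :
    Ext ((triv ℤ T).C j) (C.C j) 2 →+ AddCircle (1 : ℚ) :=
  (cf.invCoh j).comp (cohToExt (C.C j) 2).symm.toAddMonoidHom

theorem PClassFormation.invTop_cohToExt (cf : PClassFormation p T C) (j : T.ι)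
    (x : groupCohomology (C.C j) 2) : cf.invTop j (cohToExt (C.C j) 2 x) = cf.invCoh j x := by
  change cf.invCoh j ((cohToExt (C.C j) 2).symm (cohToExt (C.C j) 2 x)) = _
  rw [AddEquiv.symm_apply_apply]

theorem PClassFormation.invTop_extTrans (cf : PClassFormation p T C) {i j : T.ι} (h : i ≤ j)
    (ξ : Ext ((triv ℤ T).C i) (C.C i) 2) :
    cf.invTop j (extTrans (triv ℤ T) C 2 h ξ) = cf.invTop i ξ := by
  obtain ⟨x, rfl⟩ := (cohToExt (C.C i) 2).surjective ξ
  rw [extTrans_cohToExt_infl, cf.invTop_cohToExt, cf.invTop_cohToExt, cf.invCoh_infl]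

/-- `inv` on `colim_j H²(G_j, C_j)`. -/
def PClassFormation.invLim (cf : PClassFormation p T C) : HLim C 2 →+ AddCircle (1 : ℚ) :=
  ExtLim.lift (triv ℤ T) C 2 (fun j => cf.invTop j) (fun h ξ => cf.invTop_extTrans h ξ)

@[simp] theorem PClassFormation.invLim_of (cf : PClassFormation p T C) (j : T.ι)
    (x : Ext ((triv ℤ T).C j) (C.C j) 2) :
    cf.invLim (ExtLim.of (triv ℤ T) C 2 j x) = cf.invTop j x :=
  ExtLim.lift_of (triv ℤ T) C 2 (fun j => cf.invTop j) (fun h ξ => cf.invTop_extTrans h ξ) j x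

/-! ### Elements of `HLim C n` as group cohomology classes -/

/-- the class in `colim_j Hⁿ(G_j, C_j)` of a group cohomology class at level `j` -/
def hlimOf (C : TowerModule ℤ T) (n : ℕ) (j : T.ι) : groupCohomology (C.C j) n →+ HLim C n :=
  (ExtLim.of (triv ℤ T) C n j).comp (cohToExt (C.C j) n).toAddMonoidHom

theorem hlimOf_apply (C : TowerModule ℤ T) (n : ℕ) (j : T.ι) (x : groupCohomology (C.C j) n) :
    hlimOf C n j x = ExtLim.of (triv ℤ T) C n j (cohToExt (C.C j) n x) := rfl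

theorem hlimOf_infl (C : TowerModule ℤ T) (n : ℕ) {i j : T.ι} (h : i ≤ j)
    (x : groupCohomology (C.C i) n) :
    hlimOf C n j (groupCohomology.map (T.π h) (C.φ h) n x) = hlimOf C n i x := by
  rw [hlimOf_apply, ← extTrans_cohToExt_infl, ExtLim.of_trans]
  rfl

theorem exists_hlimOf (C : TowerModule ℤ T) (n : ℕ) (y : HLim C n) :
    ∃ (j : T.ι) (x : groupCohomology (C.C j) n), hlimOf C n j x = y := by
  obtain ⟨j, ξ, rfl⟩ := ExtLim.exists_of (triv ℤ T) C n y
  obtain ⟨x, rfl⟩ := (cohToExt (C.C j) n).surjective ξ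
  exact ⟨j, x, rfl⟩

theorem exists_hlimOf_ge (C : TowerModule ℤ T) (n : ℕ) (y : HLim C n) (i : T.ι) :
    ∃ (j : T.ι) (_ : i ≤ j) (x : groupCohomology (C.C j) n), hlimOf C n j x = y := by
  obtain ⟨j, x, rfl⟩ := exists_hlimOf C n y
  obtain ⟨l, hil, hjl⟩ := exists_ge_ge i j
  exact ⟨l, hil, groupCohomology.map (T.π hjl) (C.φ hjl) n x, hlimOf_infl C n hjl x⟩

theorem hlimOf_eq_zero (C : TowerModule ℤ T) (n : ℕ) {i : T.ι} {x : groupCohomology (C.C i) n}
    (h : hlimOf C n i x = 0) :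
    ∃ (j : T.ι) (hij : i ≤ j), groupCohomology.map (T.π hij) (C.φ hij) n x = 0 := by
  obtain ⟨j, hij, hj⟩ := ExtLim.of_eq_zero (triv ℤ T) C n h
  have hj' : extTrans (triv ℤ T) C n hij (cohToExt (C.C i) n x) = 0 := hj
  rw [extTrans_cohToExt_infl] at hj'
  exact ⟨j, hij, (cohToExt (C.C j) n).injective (hj'.trans (map_zero _).symm)⟩

theorem PClassFormation.invLim_hlimOf (cf : PClassFormation p T C) (j : T.ι)
    (x : groupCohomology (C.C j) 2) : cf.invLim (hlimOf C 2 j x) = cf.invCoh j x := by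
  rw [hlimOf_apply, cf.invLim_of, cf.invTop_cohToExt]

/-- positive degree cohomology classes are torsion -/
theorem card_nsmul_groupCohomology_eq_zero (C : TowerModule ℤ T) (j : T.ι) (n : ℕ)
    (x : groupCohomology (C.C j) (n + 1)) : Nat.card (T.G j) • x = 0 := by
  classical
  let _ : Fintype (T.G j) := Fintype.ofFinite _
  have := card_smul_eq_zero (C.C j) (n + 1) (Nat.succ_pos n) x
  rwa [Nat.cast_smul_eq_nsmul, ← Nat.card_eq_fintype_card] at this

/-! ### Finite level facts -/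

theorem exists_nsmul_eq_of_coprime {M : Type*} [AddCommGroup M] (p : ℕ) (x : M) (N' : ℕ)
    (hcop : Nat.Coprime p N') (hx : N' • x = 0) : ∃ z : M, p • z = x := by
  obtain ⟨a, b, hab⟩ := Nat.isCoprime_iff_coprime.2 hcop
  refine ⟨a • x, ?_⟩
  have h1 : (1 : ℤ) • x = x := one_smul _ _
  rw [← hab, add_smul, mul_smul, mul_smul, natCast_zsmul, natCast_zsmul, hx, smul_zero,
    add_zero] at h1
  exact (smul_comm p a x).trans h1

/-- a torsion element is the sum of a `p`-primary element and an element killed by a number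
prime to `p` -/
theorem exists_pprimary_decomp {M : Type*} [AddCommGroup M] (p : ℕ) [Fact p.Prime] (x : M) (N : ℕ)
    (hN : N ≠ 0) (hx : N • x = 0) :
    ∃ (x₁ x₂ : M) (N' : ℕ), Nat.Coprime p N' ∧ x = x₁ + x₂ ∧ N' • x₁ = 0 ∧
      p ^ N.factorization p • x₂ = 0 := by
  have hcop : Nat.Coprime (p ^ N.factorization p) (N / p ^ N.factorization p) :=
    (Nat.coprime_ordCompl Fact.out hN).pow_left _
  obtain ⟨a, b, hab⟩ := Nat.isCoprime_iff_coprime.2 hcop
  have hmul : p ^ N.factorization p * (N / p ^ N.factorization p) = N :=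
    Nat.ordProj_mul_ordCompl_eq_self N p
  refine ⟨(a * (p ^ N.factorization p : ℕ)) • x, (b * (N / p ^ N.factorization p : ℕ)) • x,
    N / p ^ N.factorization p, Nat.coprime_ordCompl Fact.out hN, ?_, ?_, ?_⟩
  · rw [← add_smul, hab, one_smul]
  · rw [← natCast_zsmul, ← mul_smul, mul_comm, mul_assoc, mul_smul, ← Nat.cast_mul, hmul,
      natCast_zsmul, hx, smul_zero]
  · rw [← natCast_zsmul, ← mul_smul, mul_comm, mul_assoc, mul_smul, ← Nat.cast_mul,
      mul_comm, hmul, natCast_zsmul, hx, smul_zero]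


theorem res_top_bijective {k G : Type} [CommRing k] [Group G] (A : Rep k G) (n : ℕ) :
    Function.Bijective (groupCohomology.map (⊤ : Subgroup G).subtype
      (𝟙 (Rep.res (⊤ : Subgroup G).subtype A)) n) := by
  let e : G ≃* (⊤ : Subgroup G) := Subgroup.topEquiv.symm
  let I := groupCohomology.mapIso (A := Rep.res (⊤ : Subgroup G).subtype A) (B := A) e
    (LinearEquiv.refl k A.V) (by intro g; rfl) n
  have h : I.hom = groupCohomology.map (⊤ : Subgroup G).subtype
      (𝟙 (Rep.res (⊤ : Subgroup G).subtype A)) n := by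
    refine groupCohomology.map_congr ?_ ?_ n
    · ext x; rfl
    · rfl
  rw [← h]
  exact ConcreteCategory.bijective_of_isIso I.hom

/-- elements of `ℚ/ℤ` killed by `N` are multiples of `1/N` -/
theorem exists_int_div_of_nsmul_eq_zero (N : ℕ) (hN : N ≠ 0) (a : AddCircle (1 : ℚ))
    (ha : N • a = 0) : ∃ c : ℤ, a = c • (((1 / (N : ℚ)) : ℚ) : AddCircle (1 : ℚ)) := by
  obtain ⟨q, rfl⟩ := QuotientAddGroup.mk_surjective a
  have h1 : (((N : ℚ) * q : ℚ) : AddCircle (1 : ℚ)) = 0 := by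
    rw [← ha, ← nsmul_eq_mul]
    rfl
  rw [AddCircle.coe_eq_zero_iff] at h1
  obtain ⟨c, hc⟩ := h1
  refine ⟨c, ?_⟩
  have hN' : (N : ℚ) ≠ 0 := Nat.cast_ne_zero.2 hN
  have hc' : (c : ℚ) = N * q := by simpa using hc
  have : q = c • (1 / (N : ℚ)) := by
    rw [zsmul_eq_mul, hc']
    field_simp
  rw [this]
  rfl

theorem resTop_bijective (C : TowerModule ℤ T) (j : T.ι) (n : ℕ) :
    Function.Bijective (resTop C j n) :=
  res_top_bijective (C.C j) n

/-- `inv` is injective on the `p`-primary part of `H²(G_j, C_j)` -/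
theorem PClassFormation.invCoh_injective (cf : PClassFormation p T C) (j : T.ι) (m : ℕ)
    (x : groupCohomology (C.C j) 2) (hx : p ^ m • x = 0) (h : cf.invCoh j x = 0) : x = 0 := by
  induction m generalizing x with
  | zero => simpa using hx
  | succ m ih =>
    have h1 : p • x = 0 := by
      apply ih (p • x)
      · rw [← mul_smul, ← pow_succ]
        exact hx
      · rw [map_nsmul, h, smul_zero]
    apply (resTop_bijective C j 2).1
    rw [map_zero]
    apply cf.inv_injective j ⊤ (resTop C j 2 x)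
    · rw [← map_nsmul, h1, map_zero]
    · exact h

/-- `H¹(G_j, C_j)` has no `p`-torsion -/
theorem PClassFormation.h1_top (cf : PClassFormation p T C) (j : T.ι) (m : ℕ)
    (x : groupCohomology (C.C j) 1) (hx : p ^ m • x = 0) : x = 0 := by
  induction m generalizing x with
  | zero => simpa using hx
  | succ m ih =>
    have h1 : p • x = 0 := by
      apply ih (p • x)
      rw [← mul_smul, ← pow_succ]
      exact hx
    apply (resTop_bijective C j 1).1
    rw [map_zero]
    apply cf.h1 j ⊤ (resTop C j 1 x)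
    rw [← map_nsmul, h1, map_zero]

/-- `H³(G_j, C_j)` has no `p`-torsion -/
theorem PClassFormation.h3_top (cf : PClassFormation p T C) (j : T.ι) (m : ℕ)
    (x : groupCohomology (C.C j) 3) (hx : p ^ m • x = 0) : x = 0 := by
  induction m generalizing x with
  | zero => simpa using hx
  | succ m ih =>
    have h1 : p • x = 0 := by
      apply ih (p • x)
      rw [← mul_smul, ← pow_succ]
      exact hx
    apply (resTop_bijective C j 3).1
    rw [map_zero]
    apply cf.h3 j ⊤ (resTop C j 3 x)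
    rw [← map_nsmul, h1, map_zero]

/-- classes of invariant `1/p^m` exist at a high enough level -/
theorem PClassFormation.exists_invCoh_eq (cf : PClassFormation p T C) (j : T.ι) (m : ℕ) :
    ∃ (l : T.ι) (_ : j ≤ l) (z : groupCohomology (C.C l) 2), p ^ m • z = 0 ∧
      cf.invCoh l z = (((1 / (p ^ m : ℕ) : ℚ)) : AddCircle (1 : ℚ)) := by
  obtain ⟨l, hjl, hdvd⟩ := cf.pinf j ⊤ m
  obtain ⟨x, hx1, hx2⟩ := cf.inv_surjective l ⊤
  set e := (Nat.card (⊤ : Subgroup (T.G l))).factorization p with he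
  have hme : m ≤ e := by
    have hpre : T.pre hjl (⊤ : Subgroup (T.G j)) = ⊤ := Subgroup.comap_top _
    rw [hpre] at hdvd
    have hpos : Nat.card (⊤ : Subgroup (T.G l)) ≠ 0 := Nat.card_pos.ne'
    exact (Nat.Prime.pow_dvd_iff_le_factorization Fact.out hpos).1 hdvd
  obtain ⟨z, hz⟩ := (resTop_bijective C l 2).2 (p ^ (e - m) • x)
  refine ⟨l, hjl, z, ?_, ?_⟩
  · apply (resTop_bijective C l 2).1
    rw [map_nsmul, hz, map_zero, ← mul_smul, ← pow_add, Nat.add_sub_cancel' hme]
    exact hx1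
  · change cf.inv l ⊤ (resTop C l 2 z) = _
    rw [hz, map_nsmul, hx2]
    have hp0 : (p : ℚ) ≠ 0 := Nat.cast_ne_zero.2 (Fact.out : p.Prime).ne_zero
    have : (p ^ (e - m) : ℕ) • (1 / ((p ^ e : ℕ) : ℚ)) = 1 / ((p ^ m : ℕ) : ℚ) := by
      rw [nsmul_eq_mul]
      push_cast
      rw [← Nat.add_sub_cancel' hme, pow_add]
      have : m + (e - m) - m = e - m := by omega
      rw [this]
      field_simp
    rw [← this]
    rfl


/-! ### Limit facts -/

/-- a torsion class in the limit is represented by a torsion class at some level -/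
theorem exists_hlimOf_nsmul_eq_zero (C : TowerModule ℤ T) (n : ℕ) (N : ℕ) (y : HLim C n)
    (hy : N • y = 0) (i : T.ι) :
    ∃ (j : T.ι) (_ : i ≤ j) (x : groupCohomology (C.C j) n), hlimOf C n j x = y ∧ N • x = 0 := by
  obtain ⟨j, hij, x, rfl⟩ := exists_hlimOf_ge C n y i
  rw [← map_nsmul] at hy
  obtain ⟨l, hjl, hl⟩ := hlimOf_eq_zero C n hy
  refine ⟨l, hij.trans hjl, groupCohomology.map (T.π hjl) (C.φ hjl) n x, hlimOf_infl C n hjl x, ?_⟩
  rw [← hl]
  exact (map_nsmul (groupCohomology.map (T.π hjl) (C.φ hjl) n).hom N x).symm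

/-- every class in `colim_j Hⁿ⁺¹(G_j, C_j)` is torsion -/
theorem exists_nsmul_hlim_eq_zero (C : TowerModule ℤ T) (n : ℕ) (y : HLim C (n + 1)) :
    ∃ N : ℕ, N ≠ 0 ∧ N • y = 0 := by
  obtain ⟨j, x, rfl⟩ := exists_hlimOf C (n + 1) y
  refine ⟨Nat.card (T.G j), Nat.card_pos.ne', ?_⟩
  rw [← map_nsmul, card_nsmul_groupCohomology_eq_zero, map_zero]

/-- `inv` is injective on the `p`-primary part of `colim_j H²(G_j, C_j)` -/
theorem PClassFormation.invLim_injective (cf : PClassFormation p T C) (m : ℕ) (y : HLim C 2)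
    (hy : p ^ m • y = 0) (h : cf.invLim y = 0) : y = 0 := by
  obtain ⟨i⟩ := T.instNonempty
  obtain ⟨j, -, x, rfl, hx⟩ := exists_hlimOf_nsmul_eq_zero C 2 (p ^ m) y hy i
  rw [cf.invLim_hlimOf] at h
  rw [cf.invCoh_injective j m x hx h, map_zero]

/-- classes of invariant `1/p^m` in the limit -/
theorem PClassFormation.exists_invLim_eq (cf : PClassFormation p T C) (m : ℕ) :
    ∃ z : HLim C 2, p ^ m • z = 0 ∧
      cf.invLim z = (((1 / (p ^ m : ℕ) : ℚ)) : AddCircle (1 : ℚ)) := by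
  obtain ⟨i⟩ := T.instNonempty
  obtain ⟨l, -, z, hz1, hz2⟩ := cf.exists_invCoh_eq i m
  refine ⟨hlimOf C 2 l z, ?_, ?_⟩
  · rw [← map_nsmul, hz1, map_zero]
  · rw [cf.invLim_hlimOf, hz2]

/-- the `p`-primary part of `colim_j H²(G_j, C_j)` is `p`-divisible -/
theorem PClassFormation.exists_nsmul_eq_of_pprimary (cf : PClassFormation p T C) (m : ℕ)
    (y : HLim C 2) (hy : p ^ m • y = 0) : ∃ z : HLim C 2, p • z = y ∧ p ^ (m + 1) • z = 0 := by
  have hpm : p ^ m ≠ 0 := pow_ne_zero _ (Fact.out : p.Prime).ne_zero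
  have ha : p ^ m • cf.invLim y = 0 := by rw [← map_nsmul, hy, map_zero]
  obtain ⟨c, hc⟩ := exists_int_div_of_nsmul_eq_zero (p ^ m) hpm _ ha
  obtain ⟨w, hw1, hw2⟩ := cf.exists_invLim_eq (m + 1)
  refine ⟨c • w, ?_, ?_⟩
  · have h0 : p ^ m • (p • c • w - y) = 0 := by
      rw [smul_sub, hy, sub_zero, ← mul_smul, ← pow_succ, smul_comm, hw1, smul_zero]
    have h1 : cf.invLim (p • c • w - y) = 0 := by
      rw [map_sub, map_nsmul, map_zsmul, hw2, hc, sub_eq_zero, smul_comm]
      congr 1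
      have hp0 : (p : ℚ) ≠ 0 := Nat.cast_ne_zero.2 (Fact.out : p.Prime).ne_zero
      have : p • (1 / ((p ^ (m + 1) : ℕ) : ℚ)) = 1 / ((p ^ m : ℕ) : ℚ) := by
        rw [nsmul_eq_mul]
        push_cast
        rw [pow_succ]
        field_simp
      rw [← this]
      rfl
    exact sub_eq_zero.1 (cf.invLim_injective m _ h0 h1)
  · rw [smul_comm, hw1, smul_zero]

/-- `colim_j H¹(G_j, C_j)` has no `p`-torsion -/
theorem PClassFormation.hlim_one_eq_zero (cf : PClassFormation p T C) (m : ℕ) (y : HLim C 1)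
    (hy : p ^ m • y = 0) : y = 0 := by
  obtain ⟨i⟩ := T.instNonempty
  obtain ⟨j, -, x, rfl, hx⟩ := exists_hlimOf_nsmul_eq_zero C 1 (p ^ m) y hy i
  rw [cf.h1_top j m x hx, map_zero]

/-- `colim_j H³(G_j, C_j)` has no `p`-torsion -/
theorem PClassFormation.hlim_three_eq_zero (cf : PClassFormation p T C) (m : ℕ) (y : HLim C 3)
    (hy : p ^ m • y = 0) : y = 0 := by
  obtain ⟨i⟩ := T.instNonempty
  obtain ⟨j, -, x, rfl, hx⟩ := exists_hlimOf_nsmul_eq_zero C 3 (p ^ m) y hy i
  rw [cf.h3_top j m x hx, map_zero]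

/-- `colim_j H¹(G_j, C_j)` is `p`-divisible -/
theorem PClassFormation.hlim_one_divisible (cf : PClassFormation p T C) (y : HLim C 1) :
    ∃ z : HLim C 1, p • z = y := by
  obtain ⟨N, hN, hNy⟩ := exists_nsmul_hlim_eq_zero C 0 y
  obtain ⟨y₁, y₂, N', hcop, rfl, h1, h2⟩ := exists_pprimary_decomp p y N hN hNy
  rw [cf.hlim_one_eq_zero _ y₂ h2, add_zero]
  exact exists_nsmul_eq_of_coprime p y₁ N' hcop h1

/-- `colim_j H²(G_j, C_j)` is `p`-divisible -/
theorem PClassFormation.hlim_two_divisible (cf : PClassFormation p T C) (y : HLim C 2) :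
    ∃ z : HLim C 2, p • z = y := by
  obtain ⟨N, hN, hNy⟩ := exists_nsmul_hlim_eq_zero C 1 y
  obtain ⟨y₁, y₂, N', hcop, rfl, h1, h2⟩ := exists_pprimary_decomp p y N hN hNy
  obtain ⟨z₁, hz₁⟩ := exists_nsmul_eq_of_coprime p y₁ N' hcop h1
  obtain ⟨z₂, hz₂, -⟩ := cf.exists_nsmul_eq_of_pprimary _ y₂ h2
  exact ⟨z₁ + z₂, by rw [smul_add, hz₁, hz₂]⟩

/-! ### The limit formation of a `p`-class formation -/

/-- `colim_j H¹(G_j, C_j)` is torsion prime to `p` -/
theorem PClassFormation.exists_coprime_nsmul_hlim_one (cf : PClassFormation p T C)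
    (x : HLim C 1) : ∃ m : ℕ, m.Coprime p ∧ m • x = 0 := by
  obtain ⟨N, hN, hNx⟩ := exists_nsmul_hlim_eq_zero C 0 x
  obtain ⟨x₁, x₂, N', hcop, rfl, h1, h2⟩ := exists_pprimary_decomp p x N hN hNx
  refine ⟨N', hcop.symm, ?_⟩
  rw [cf.hlim_one_eq_zero _ x₂ h2, add_zero, h1]

/-- the limit-level axioms of a `p`-class formation (D-INV → D-FP, D-D1) -/
def PClassFormation.limFormation (cf : PClassFormation p T C) : LimFormation p T C where
  invLim := cf.invLim
  h1 := cf.exists_coprime_nsmul_hlim_one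
  h3 x hx := cf.hlim_three_eq_zero 1 x (by rwa [pow_one])
  inv_injective x hx h := cf.invLim_injective 1 x (by rwa [pow_one]) h
  inv_surjective := by
    obtain ⟨z, hz1, hz2⟩ := cf.exists_invLim_eq 1
    refine ⟨z, by rwa [pow_one] at hz1, ?_⟩
    rw [hz2, pow_one]
  h2_div := cf.hlim_two_divisible

@[simp] theorem PClassFormation.limFormation_invLim (cf : PClassFormation p T C) :
    cf.limFormation.invLim = cf.invLim := rfl

end

end Fermat.Agent.CFT.Duality
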