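import Fermat.Agent.Lib.CFT.Duality.Cartesian
import Fermat.Agent.Lib.CFT.Duality.FilterFormation
import Fermat.Agent.Lib.CFT.Duality.InvLim

/-!
# P4 / Layer D, D-COF : re-basing a tower to a cofinal set of levels

For a cofinal directed set of levels `P` the groups `ExtLim` over `T.filter P` and over `T` agree
(`filterEquiv`), compatibly with the Yoneda product.  `Tower.above T l` is the tower of the levels
`≥ l`; it has the bottom level `⟨l, le_refl l⟩`.
-/

set_option autoImplicit false
set_option linter.unusedSectionVars false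

open CategoryTheory Abelian

namespace Fermat.Agent.CFT.Duality

noncomputable section

namespace TowerModule

variable {k : Type} [CommRing k] {T : Tower} (P : T.ι → Prop) (hne : ∃ i, P i)
  (hdir : ∀ i j, P i → P j → ∃ l, P l ∧ i ≤ l ∧ j ≤ l)

instance filter_isCartesian (A : TowerModule k T) [A.IsCartesian] :
    (A.filter P hne hdir).IsCartesian where
  isIso {i j} h := IsCartesian.isIso (A := A) (show i.1 ≤ j.1 from h)

lemma triv_filter : (triv k T).filter P hne hdir = triv k (T.filter P hne hdir) := rfl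

section

variable (A B : TowerModule k T) [A.IsCartesian] (r : ℕ)

lemma extTrans_filter {i j : (T.filter P hne hdir).ι} (h : i ≤ j)
    (ξ : Ext (A.C i.1) (B.C i.1) r) :
    extTrans (A.filter P hne hdir) (B.filter P hne hdir) r h ξ =
      extTrans A B r (show i.1 ≤ j.1 from h) ξ := rfl

/-- The comparison map `ExtLim` over the filtered tower → `ExtLim` over the full tower. -/
def filterMap : ExtLim (A.filter P hne hdir) (B.filter P hne hdir) r →+ ExtLim A B r :=
  ExtLim.lift (A.filter P hne hdir) (B.filter P hne hdir) r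
    (fun i => ExtLim.of A B r i.1)
    (fun {i j} h ξ => ExtLim.of_trans A B r (show i.1 ≤ j.1 from h) ξ)

@[simp] lemma filterMap_of (i : (T.filter P hne hdir).ι) (ξ : Ext (A.C i.1) (B.C i.1) r) :
    filterMap P hne hdir A B r (ExtLim.of (A.filter P hne hdir) (B.filter P hne hdir) r i ξ) =
      ExtLim.of A B r i.1 ξ := rfl

variable (hcof : ∀ i, ∃ j, P j ∧ i ≤ j)

include hcof in
lemma filterMap_surjective : Function.Surjective (filterMap P hne hdir A B r) := by
  intro x
  obtain ⟨i, ξ, rfl⟩ := ExtLim.exists_of A B r x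
  obtain ⟨j, hj, hij⟩ := hcof i
  refine ⟨ExtLim.of (A.filter P hne hdir) (B.filter P hne hdir) r ⟨j, hj⟩
    (extTrans A B r hij ξ), ?_⟩
  rw [filterMap_of]
  exact ExtLim.of_trans A B r hij ξ

include hcof in
lemma filterMap_injective : Function.Injective (filterMap P hne hdir A B r) := by
  rw [injective_iff_map_eq_zero]
  intro x hx
  obtain ⟨i, ξ, rfl⟩ := ExtLim.exists_of (A.filter P hne hdir) (B.filter P hne hdir) r x
  rw [filterMap_of] at hx
  obtain ⟨j, hij, hj⟩ := ExtLim.of_eq_zero A B r hx
  obtain ⟨l, hl, hjl⟩ := hcof j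
  have h1 : extTrans A B r (hij.trans hjl) ξ = 0 := by
    rw [← extTrans_trans A B r hij hjl, hj, map_zero]
  have h2 : ExtLim.of (A.filter P hne hdir) (B.filter P hne hdir) r i ξ =
      ExtLim.of (A.filter P hne hdir) (B.filter P hne hdir) r ⟨l, hl⟩
        (extTrans (A.filter P hne hdir) (B.filter P hne hdir) r
          (show i ≤ (⟨l, hl⟩ : (T.filter P hne hdir).ι) from hij.trans hjl) ξ) :=
    (ExtLim.of_trans (A.filter P hne hdir) (B.filter P hne hdir) r
      (show i ≤ (⟨l, hl⟩ : (T.filter P hne hdir).ι) from hij.trans hjl) ξ).symm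
  have h3 : extTrans (A.filter P hne hdir) (B.filter P hne hdir) r
      (show i ≤ (⟨l, hl⟩ : (T.filter P hne hdir).ι) from hij.trans hjl) ξ = 0 := h1
  rw [h2, h3]
  exact map_zero (ExtLim.of (A.filter P hne hdir) (B.filter P hne hdir) r
    (⟨l, hl⟩ : (T.filter P hne hdir).ι))

/-- **Cofinality**: `ExtLim` over a cofinal directed set of levels agrees with `ExtLim` over the
full tower. -/
def filterEquiv : ExtLim (A.filter P hne hdir) (B.filter P hne hdir) r ≃+ ExtLim A B r :=
  AddEquiv.ofBijective (filterMap P hne hdir A B r)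
    ⟨filterMap_injective P hne hdir A B r hcof, filterMap_surjective P hne hdir A B r hcof⟩

@[simp] lemma filterEquiv_apply (x : ExtLim (A.filter P hne hdir) (B.filter P hne hdir) r) :
    filterEquiv P hne hdir A B r hcof x = filterMap P hne hdir A B r x := rfl

end

/-- The comparison map is compatible with the Yoneda product. -/
lemma filterMap_comp (A' A B : TowerModule k T) [A'.IsCartesian] [A.IsCartesian] (s r t : ℕ)
    (hsr : s + r = t) (x : ExtLim (A'.filter P hne hdir) (A.filter P hne hdir) s)
    (ξ : ExtLim (A.filter P hne hdir) (B.filter P hne hdir) r) :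
    filterMap P hne hdir A' B t (ExtLim.comp (B.filter P hne hdir) s r t hsr x ξ) =
      ExtLim.comp B s r t hsr (filterMap P hne hdir A' A s x) (filterMap P hne hdir A B r ξ) := by
  obtain ⟨j, x₀, ξ₀, rfl, rfl⟩ := ExtLim.exists_of₂ (B.filter P hne hdir) x ξ
  rw [ExtLim.comp_of, filterMap_of, filterMap_of, filterMap_of, ExtLim.comp_of]
  rfl

end TowerModule

/-! ### `pinf` and the existence theorem on a cofinal set of levels -/

section Formation

variable {p : ℕ} {T : Tower} {C : TowerModule ℤ T} (P : T.ι → Prop)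
  (hne : ∃ i, P i) (hdir : ∀ i j, P i → P j → ∃ l, P l ∧ i ≤ l ∧ j ≤ l)
  (hcof : ∀ i, ∃ j, P j ∧ i ≤ j)

lemma Tower.card_pre_dvd_card_pre {i j l : T.ι} (h : i ≤ j) (h' : j ≤ l) (U : Subgroup (T.G i)) :
    Nat.card (T.pre h U) ∣ Nat.card (T.pre (h.trans h') U) := by
  have h1 : T.pre (h.trans h') U = T.pre h' (T.pre h U) := by
    ext g
    show T.π (h.trans h') g ∈ U ↔ T.π h (T.π h' g) ∈ U
    rw [T.π_comp]
  rw [h1]
  exact Subgroup.card_dvd_of_surjective (T.πU h' (T.pre h U))
    (MonoidHom.subgroupComap_surjective_of_surjective _ _ (T.π_surjective h'))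

include hcof in
/-- `pinf` passes to a cofinal set of levels. -/
lemma pinf_filter
    (hpinf : ∀ (j : T.ι) (U : Subgroup (T.G j)) (n : ℕ),
      ∃ (k : T.ι) (h : j ≤ k), p ^ n ∣ Nat.card (T.pre h U))
    (j : (T.filter P hne hdir).ι) (U : Subgroup ((T.filter P hne hdir).G j)) (n : ℕ) :
    ∃ (k : (T.filter P hne hdir).ι) (h : j ≤ k),
      p ^ n ∣ Nat.card ((T.filter P hne hdir).pre h U) := by
  obtain ⟨k, h, hk⟩ := hpinf j.1 U n
  obtain ⟨l, hl, hkl⟩ := hcof k
  exact ⟨⟨l, hl⟩, h.trans hkl, hk.trans (T.card_pre_dvd_card_pre h hkl U)⟩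

/-- A `p`-class formation restricts to a cofinal directed set of levels. -/
def PClassFormation.filterCofinal [Fact p.Prime] (cf : PClassFormation p T C) :
    PClassFormation p (T.filter P hne hdir) (C.filter P hne hdir) :=
  cf.filter P hne hdir (pinf_filter P hne hdir hcof cf.pinf)

/-- The invariant map of the restricted formation is the restriction of the invariant map. -/
lemma PClassFormation.filter_invLim [Fact p.Prime] (cf : PClassFormation p T C)
    (hpinf : ∀ (j : (T.filter P hne hdir).ι) (U : Subgroup ((T.filter P hne hdir).G j)) (n : ℕ),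
      ∃ (k : (T.filter P hne hdir).ι) (h : j ≤ k), p ^ n ∣ Nat.card ((T.filter P hne hdir).pre h U))
    (z : HLim (C.filter P hne hdir) 2) :
    (cf.filter P hne hdir hpinf).invLim z =
      cf.invLim (TowerModule.filterMap P hne hdir (TowerModule.triv ℤ T) C 2 z) := by
  induction z using TowerModule.ExtLim.induction_on with
  | h j ξ =>
    rw [PClassFormation.invLim_of]
    exact (cf.invLim_of j.1 ξ).symm

include hcof in
/-- The existence theorem restricts to a cofinal directed set of levels closed upwards. -/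
lemma PExistence.filter (ex : PExistence p T C) (hup : ∀ i j, P i → i ≤ j → P j) :
    PExistence p (T.filter P hne hdir) (C.filter P hne hdir) where
  existence' j₀ := by
    obtain ⟨k, h, V, h1, h2, h3, h4, h5⟩ := ex.existence' j₀.1
    exact ⟨⟨k, hup j₀.1 k j₀.2 h⟩, h, V, h1, h2, h3, h4, h5⟩

end Formation

/-! ### The tower of the levels above a given one -/

section Above

variable {k : Type} [CommRing k] (T : Tower) (l : T.ι)

lemma Tower.above_ne : ∃ i, l ≤ i := ⟨l, le_refl l⟩

lemma Tower.above_dir : ∀ i j : T.ι, l ≤ i → l ≤ j → ∃ m, l ≤ m ∧ i ≤ m ∧ j ≤ m := by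
  intro i j hi _
  obtain ⟨m, him, hjm⟩ := exists_ge_ge i j
  exact ⟨m, hi.trans him, him, hjm⟩

lemma Tower.above_cof : ∀ i : T.ι, ∃ j, l ≤ j ∧ i ≤ j := by
  intro i
  obtain ⟨m, hlm, him⟩ := exists_ge_ge l i
  exact ⟨m, hlm, him⟩

/-- The tower of the levels `≥ l`. -/
abbrev Tower.above : Tower := T.filter (l ≤ ·) (T.above_ne l) (T.above_dir l)

/-- The bottom level of `T.above l`. -/
abbrev Tower.aboveBot : (T.above l).ι := ⟨l, le_refl l⟩

lemma Tower.aboveBot_le (i : (T.above l).ι) : T.aboveBot l ≤ i := i.2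

variable {T}

/-- The restriction of a tower module to the levels `≥ l`. -/
abbrev TowerModule.above (A : TowerModule k T) (l : T.ι) : TowerModule k (T.above l) :=
  A.filter (l ≤ ·) (T.above_ne l) (T.above_dir l)

/-- `ExtLim` over the levels `≥ l` agrees with `ExtLim`. -/
def TowerModule.aboveEquiv (A B : TowerModule k T) [A.IsCartesian] (l : T.ι) (r : ℕ) :
    TowerModule.ExtLim (A.above l) (B.above l) r ≃+ TowerModule.ExtLim A B r :=
  TowerModule.filterEquiv (l ≤ ·) (T.above_ne l) (T.above_dir l) A B r (T.above_cof l)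

@[simp] lemma TowerModule.aboveEquiv_of (A B : TowerModule k T) [A.IsCartesian] (l : T.ι) (r : ℕ)
    (i : (T.above l).ι) (ξ : Abelian.Ext (A.C i.1) (B.C i.1) r) :
    A.aboveEquiv B l r (TowerModule.ExtLim.of (A.above l) (B.above l) r i ξ) =
      TowerModule.ExtLim.of A B r i.1 ξ := rfl

lemma TowerModule.aboveEquiv_comp (A' A B : TowerModule k T) [A'.IsCartesian] [A.IsCartesian]
    (l : T.ι) (s r t : ℕ) (hsr : s + r = t)
    (x : TowerModule.ExtLim (A'.above l) (A.above l) s)
    (ξ : TowerModule.ExtLim (A.above l) (B.above l) r) :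
    A'.aboveEquiv B l t (TowerModule.ExtLim.comp (B.above l) s r t hsr x ξ) =
      TowerModule.ExtLim.comp B s r t hsr (A'.aboveEquiv A l s x) (A.aboveEquiv B l r ξ) :=
  TowerModule.filterMap_comp (l ≤ ·) (T.above_ne l) (T.above_dir l) A' A B s r t hsr x ξ

/-- `HLim` over the levels `≥ l` agrees with `HLim`. -/
def TowerModule.aboveHEquiv (B : TowerModule k T) (l : T.ι) (s : ℕ) :
    HLim (B.above l) s ≃+ HLim B s :=
  (TowerModule.triv k T).aboveEquiv B l s

@[simp] lemma TowerModule.aboveHEquiv_of (B : TowerModule k T) (l : T.ι) (s : ℕ)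
    (i : (T.above l).ι) (ξ : Abelian.Ext ((TowerModule.triv k T).C i.1) (B.C i.1) s) :
    B.aboveHEquiv l s (TowerModule.ExtLim.of (TowerModule.triv k (T.above l)) (B.above l) s i ξ) =
      TowerModule.ExtLim.of (TowerModule.triv k T) B s i.1 ξ := rfl

lemma TowerModule.aboveEquiv_pairing (A B : TowerModule k T) [A.IsCartesian] (l : T.ι)
    (r s t : ℕ) (h : s + r = t) (ξ : TowerModule.ExtLim (A.above l) (B.above l) r)
    (x : HLim (A.above l) s) :
    B.aboveHEquiv l t (pairing (A.above l) (B.above l) r s t h ξ x) =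
      pairing A B r s t h (A.aboveEquiv B l r ξ) (A.aboveHEquiv l s x) :=
  TowerModule.aboveEquiv_comp (TowerModule.triv k T) A B l s r t h x ξ

/-- A `p`-class formation restricts to the levels `≥ l`. -/
def PClassFormation.above {p : ℕ} [Fact p.Prime] {C : TowerModule ℤ T}
    (cf : PClassFormation p T C) (l : T.ι) : PClassFormation p (T.above l) (C.above l) :=
  cf.filterCofinal (l ≤ ·) (T.above_ne l) (T.above_dir l) (T.above_cof l)

lemma PClassFormation.above_invLim {p : ℕ} [Fact p.Prime] {C : TowerModule ℤ T}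
    (cf : PClassFormation p T C) (l : T.ι) (z : HLim (C.above l) 2) :
    (cf.above l).invLim z = cf.invLim (C.aboveHEquiv l 2 z) :=
  cf.filter_invLim (l ≤ ·) (T.above_ne l) (T.above_dir l) _ z

/-- The existence theorem restricts to the levels `≥ l`. -/
lemma PExistence.above {p : ℕ} {C : TowerModule ℤ T} (ex : PExistence p T C) (l : T.ι) :
    PExistence p (T.above l) (C.above l) :=
  ex.filter (l ≤ ·) (T.above_ne l) (T.above_dir l) (T.above_cof l) (fun _ _ hi hij => hi.trans hij)

end Above

end

end Fermat.Agent.CFT.Duality
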