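/-
P4 / Layer D, task D-LOC: injectivity of the comparison maps from a directed set of levels
(`T.filter P`, e.g. the local `S`-tower) to the full tower `T` (e.g. the full local tower):
* on `HLim · 1` for modules with Galois descent (inflation is injective on `H¹`);
* on the `p`-torsion of `HLim C 2` if the inflation maps of `C` are injective on `p`-torsion;
* on `ExtLim A C 2` if moreover `α²` of the filtered formation is injective.
-/
import Fermat.Agent.Lib.CFT.Duality.Rebase
import Fermat.Agent.Lib.CFT.Duality.LimZero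
import Fermat.Agent.Lib.CFT.Duality.HLimCoh

set_option autoImplicit false
set_option linter.unusedSectionVars false
set_option linter.style.haveILetI false

open CategoryTheory Abelian groupCohomology

namespace Fermat.Agent.CFT.Duality

open TowerModule Fermat.Agent.CFT.Coh

section InfH1

variable {k : Type} [CommRing k] {G H : Type} [Group G] [Group H]

/-- **inflation is injective on `H¹`** (descent form): for `f : G →* H` surjective and
`φ : Res(f) A ⟶ B` injective whose image contains the `ker f`-invariants of `B` -/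
theorem map_one_injective_of_descent (f : G →* H) (hf : Function.Surjective f)
    (A : Rep.{0} k H) (B : Rep.{0} k G) (φ : Rep.res f A ⟶ B)
    (hinj : Function.Injective φ.hom)
    (hsurj : ∀ b : B.V, (∀ g : G, f g = 1 → B.ρ g b = b) → ∃ a : A.V, φ.hom a = b) :
    Function.Injective (groupCohomology.map f φ 1) := by
  rw [injective_iff_map_eq_zero]
  intro x hx
  induction x using H1_induction_on with | @h x =>
  rw [H1π_comp_map_apply] at hx
  obtain ⟨b, hb⟩ := (H1π_eq_zero_iff _).1 hx
  rw [H1π_eq_zero_iff]
  have hb' : ∀ g : G, B.ρ g b - b = φ.hom (x (f g)) := fun g => congrFun hb g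
  obtain ⟨a, ha⟩ := hsurj b (fun g hg => by
    have := hb' g
    rw [hg, cocycles₁_map_one, map_zero, sub_eq_zero] at this
    exact this)
  refine ⟨a, funext fun h => ?_⟩
  obtain ⟨g, rfl⟩ := hf h
  apply hinj
  rw [← hb' g, ← ha]
  change φ.hom (A.ρ (f g) a - a) = _
  rw [map_sub]
  congr 1
  exact Rep.hom_comm_apply φ g a

end InfH1

section Degree1

variable {k : Type} [CommRing k] {T : Tower}

/-- a cartesian tower module has Galois descent -/
theorem TowerModule.hasDescent_of_isCartesian (B : TowerModule k T) [B.IsCartesian] :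
    B.HasDescent where
  injective h := B.φ_injective h
  surjective h y _ := ⟨(inv (B.φ h)).hom y, B.φ_inv_φ h y⟩

/-- restriction to a compatible family of subgroups preserves cartesian modules -/
instance TowerModule.resSub_isCartesian (A : TowerModule k T) [A.IsCartesian]
    (D : T.SubgroupFamily) : (A.resSub D).IsCartesian where
  isIso {i j} h := by
    have hij : @LE.le T.ι _ i j := h
    have : IsIso (A.φ hij) := IsCartesian.isIso (A := A) hij
    exact Functor.map_isIso (Rep.resFunctor (D.D j).subtype) (A.φ hij)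

/-- the transition maps of `j ↦ H¹(G_j, B_j)` are injective for modules with descent -/
theorem extTrans_triv_one_injective (B : TowerModule k T) (hB : B.HasDescent) {i j : T.ι}
    (h : i ≤ j) : Function.Injective (extTrans (triv k T) B 1 h) := by
  intro ξ ξ' hξ
  obtain ⟨x, rfl⟩ := (cohToExt (B.C i) 1).surjective ξ
  obtain ⟨x', rfl⟩ := (cohToExt (B.C i) 1).surjective ξ'
  rw [extTrans_cohToExt_infl, extTrans_cohToExt_infl] at hξ
  have h1 := (cohToExt (B.C j) 1).injective hξ
  rw [map_one_injective_of_descent (T.π h) (T.π_surjective h) (B.C i) (B.C j) (B.φ h)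
    (hB.injective h) (hB.surjective h) h1]

/-- `H¹(G_i, B_i) → colim_j H¹(G_j, B_j)` is injective for modules with descent -/
theorem ExtLim.of_triv_one_injective (B : TowerModule k T) (hB : B.HasDescent) (i : T.ι) :
    Function.Injective (ExtLim.of (triv k T) B 1 i) := by
  rw [injective_iff_map_eq_zero]
  intro ξ hξ
  obtain ⟨j, hij, hj⟩ := ExtLim.of_eq_zero (triv k T) B 1 hξ
  exact extTrans_triv_one_injective B hB hij (hj.trans (map_zero _).symm)

variable (P : T.ι → Prop) (hne : ∃ i, P i)
  (hdir : ∀ i j, P i → P j → ∃ l, P l ∧ i ≤ l ∧ j ≤ l)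

/-- **D-LOC (i)**: `colim_{j ∈ P} H¹(G_j, B_j) → colim_j H¹(G_j, B_j)` is injective for modules
with descent (e.g. cartesian modules) -/
theorem filterMap_triv_one_injective (B : TowerModule k T) (hB : B.HasDescent) :
    Function.Injective (filterMap P hne hdir (triv k T) B 1) := by
  rw [injective_iff_map_eq_zero]
  intro y hy
  obtain ⟨i, ξ, rfl⟩ := ExtLim.exists_of ((triv k T).filter P hne hdir) (B.filter P hne hdir) 1 y
  rw [filterMap_of] at hy
  have h0 : ξ = 0 := ExtLim.of_triv_one_injective B hB i.1 (hy.trans (map_zero _).symm)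
  rw [h0, map_zero]

end Degree1

section LocFilter

variable {k : Type} [CommRing k] {T : Tower} (P : T.ι → Prop) (hne : ∃ i, P i)
  (hdir : ∀ i j, P i → P j → ∃ l, P l ∧ i ≤ l ∧ j ≤ l) (D : T.SubgroupFamily)
  (A : TowerModule k T) (n : ℕ)

/-- the localisation map within the levels satisfying `P`:
`colim_{j ∈ P} Hⁿ(G_j, A_j) → colim_{j ∈ P} Hⁿ(D_j, A_j)` -/
noncomputable def locLimFilter : HLim (A.filter P hne hdir) n →+
    HLim ((A.resSub D).filter (T := T.subTower D) P hne hdir) n :=
  ExtLim.lift (triv k (T.filter P hne hdir)) (A.filter P hne hdir) n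
    (fun j => (ExtLim.of (triv k ((T.subTower D).filter P hne hdir))
      ((A.resSub D).filter (T := T.subTower D) P hne hdir) n j).comp (resSubExt D A n j.1))
    (fun {i j} h ξ => by
      show ExtLim.of (triv k ((T.subTower D).filter P hne hdir))
          ((A.resSub D).filter (T := T.subTower D) P hne hdir) n j
          (resSubExt D A n j.1 (extTrans (triv k T) A n h ξ)) =
        ExtLim.of (triv k ((T.subTower D).filter P hne hdir))
          ((A.resSub D).filter (T := T.subTower D) P hne hdir) n i (resSubExt D A n i.1 ξ)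
      rw [resSubExt_extTrans]
      exact ExtLim.of_trans (triv k ((T.subTower D).filter P hne hdir))
        ((A.resSub D).filter (T := T.subTower D) P hne hdir) n
        (show (i : ((T.subTower D).filter P hne hdir).ι) ≤ j from h) (resSubExt D A n i.1 ξ))

theorem locLimFilter_of (j : (T.filter P hne hdir).ι) (ξ : Ext ((triv k T).C j.1) (A.C j.1) n) :
    locLimFilter P hne hdir D A n
        (ExtLim.of (triv k (T.filter P hne hdir)) (A.filter P hne hdir) n j ξ) =
      ExtLim.of (triv k ((T.subTower D).filter P hne hdir))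
        ((A.resSub D).filter (T := T.subTower D) P hne hdir) n j (resSubExt D A n j.1 ξ) := rfl

/-- the localisation map to the full sub-tower factors through the levels satisfying `P` -/
theorem filterMap_locLimFilter (z : HLim (A.filter P hne hdir) n) :
    filterMap (T := T.subTower D) P hne hdir (triv k (T.subTower D)) (A.resSub D) n
      (locLimFilter P hne hdir D A n z) = locLimAt P hne hdir D A n z := by
  induction z using ExtLim.induction_on with
  | h j ξ => rfl

/-- **D-LOC (i), kernel form**: in degree `1`, for `A` cartesian, the kernel of the localisation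
map to the full sub-tower (`Ш¹`-condition) is the kernel of the localisation map within `P` -/
theorem locLimAt_one_eq_zero_iff [A.IsCartesian] (z : HLim (A.filter P hne hdir) 1) :
    locLimAt P hne hdir D A 1 z = 0 ↔ locLimFilter P hne hdir D A 1 z = 0 := by
  rw [← filterMap_locLimFilter]
  constructor
  · intro h
    exact filterMap_triv_one_injective (T := T.subTower D) P hne hdir (A.resSub D)
      (A.resSub D).hasDescent_of_isCartesian (h.trans (map_zero _).symm)
  · intro h
    rw [h]
    exact map_zero _

end LocFilter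

section Degree2

variable {T : Tower} {p : ℕ} [Fact p.Prime] (P : T.ι → Prop) (hne : ∃ i, P i)
  (hdir : ∀ i j, P i → P j → ∃ l, P l ∧ i ≤ l ∧ j ≤ l)

/-- the inflation map on `Hⁿ(⊤, C_i)` is the restriction of the inflation map on `Hⁿ(G_i, C_i)` -/
theorem inflMap_resTop (C : TowerModule ℤ T) {i j : T.ι} (h : i ≤ j) (n : ℕ)
    (x : groupCohomology (C.C i) n) :
    C.inflMap h ⊤ n (resTop C i n x) =
      (groupCohomology.map (T.pre h ⊤).subtype (𝟙 (C.atSub j (T.pre h ⊤))) n).hom
        (groupCohomology.map (T.π h) (C.φ h) n x) := by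
  have := congr($(res_comp_inflSub (T.π h) (C.C i) (C.C j) (C.φ h) ⊤ n) x)
  exact this

/-- the hypothesis `PTData.loc_infl_injective`, in terms of the transition maps of `HLim C 2` -/
theorem extTrans_triv_two_eq_zero (C : TowerModule ℤ T)
    (hinfl : ∀ {L L' : T.ι} (h : L ≤ L') (x : groupCohomology (C.atSub L ⊤) 2),
      p • x = 0 → C.inflMap h ⊤ 2 x = 0 → x = 0)
    {i j : T.ι} (h : i ≤ j) (ξ : Ext ((triv ℤ T).C i) (C.C i) 2) (hp : p • ξ = 0)
    (h0 : extTrans (triv ℤ T) C 2 h ξ = 0) : ξ = 0 := by
  obtain ⟨x, rfl⟩ := (cohToExt (C.C i) 2).surjective ξ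
  rw [extTrans_cohToExt_infl] at h0
  have h1 : groupCohomology.map (T.π h) (C.φ h) 2 x = 0 :=
    (cohToExt (C.C j) 2).injective (h0.trans (map_zero _).symm)
  have h2 : p • x = 0 := by
    apply (cohToExt (C.C i) 2).injective
    rw [map_zero]
    exact (map_nsmul (cohToExt (C.C i) 2) p x).trans hp
  have h3 : resTop C i 2 x = 0 := by
    apply hinfl h
    · rw [← map_nsmul, h2, map_zero]
    · rw [inflMap_resTop, h1, map_zero]
  have h4 : x = 0 := (resTop_bijective C i 2).1 (h3.trans (map_zero _).symm)
  rw [h4]
  exact map_zero _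

/-- `colim_{j ∈ P} H²(G_j, C_j)[p] → colim_j H²(G_j, C_j)` is injective if the inflation maps of
`C` are injective on `p`-torsion -/
theorem hlim_two_filter_eq_zero (C : TowerModule ℤ T)
    (hinfl : ∀ {L L' : T.ι} (h : L ≤ L') (x : groupCohomology (C.atSub L ⊤) 2),
      p • x = 0 → C.inflMap h ⊤ 2 x = 0 → x = 0)
    (y : ExtLim ((triv ℤ T).filter P hne hdir) (C.filter P hne hdir) 2) (hp : p • y = 0)
    (h0 : filterMap P hne hdir (triv ℤ T) C 2 y = 0) : y = 0 := by
  obtain ⟨i, ξ, rfl⟩ := ExtLim.exists_of ((triv ℤ T).filter P hne hdir) (C.filter P hne hdir) 2 y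
  have hp' : ExtLim.of ((triv ℤ T).filter P hne hdir) (C.filter P hne hdir) 2 i (p • ξ) = 0 :=
    (map_nsmul _ p ξ).trans hp
  obtain ⟨i', hii', hi'⟩ :=
    ExtLim.of_eq_zero ((triv ℤ T).filter P hne hdir) (C.filter P hne hdir) 2 hp'
  have e1 : ExtLim.of ((triv ℤ T).filter P hne hdir) (C.filter P hne hdir) 2 i ξ =
      ExtLim.of ((triv ℤ T).filter P hne hdir) (C.filter P hne hdir) 2 i'
        (extTrans ((triv ℤ T).filter P hne hdir) (C.filter P hne hdir) 2 hii' ξ) :=
    (ExtLim.of_trans ((triv ℤ T).filter P hne hdir) (C.filter P hne hdir) 2 hii' ξ).symm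
  have hpη : p • extTrans ((triv ℤ T).filter P hne hdir) (C.filter P hne hdir) 2 hii' ξ = 0 :=
    (map_nsmul _ p ξ).symm.trans hi'
  rw [e1] at h0 ⊢
  have h0' : ExtLim.of (triv ℤ T) C 2 i'.1
      (extTrans ((triv ℤ T).filter P hne hdir) (C.filter P hne hdir) 2 hii' ξ) = 0 := h0
  obtain ⟨j, hij, hj⟩ := ExtLim.of_eq_zero (triv ℤ T) C 2 h0'
  have := extTrans_triv_two_eq_zero C hinfl hij _ hpη hj
  rw [this]
  exact map_zero _

/-- **D-LOC (ii)**: `ExtLim_{T.filter P}(A, C) 2 → ExtLim_T(A, C) 2` is injective if `α²` of the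
filtered formation is injective and the inflation maps of `C` are injective on `p`-torsion of
`H²` -/
theorem filterMap_two_injective (C : TowerModule ℤ T)
    (L : LimFormation p (T.filter P hne hdir) (C.filter P hne hdir))
    (hinfl : ∀ {L L' : T.ι} (h : L ≤ L') (x : groupCohomology (C.atSub L ⊤) 2),
      p • x = 0 → C.inflMap h ⊤ 2 x = 0 → x = 0)
    (A : TowerModule ℤ T) [A.IsCartesian] (hA : ∀ j (a : A.C j), p • a = 0)
    (hα : Function.Injective (L.alpha (A.filter P hne hdir) 2 0 rfl)) :
    Function.Injective (filterMap P hne hdir A C 2) := by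
  rw [injective_iff_map_eq_zero]
  intro ξ hξ
  apply hα
  rw [map_zero]
  apply AddMonoidHom.ext
  intro x
  rw [L.alpha_apply, AddMonoidHom.zero_apply]
  have hξp : p • ξ = 0 := ExtLim.nsmul_eq_zero_of_torsion (A.filter P hne hdir)
    (C.filter P hne hdir) 2 p (fun j a => hA j.1 a) ξ
  have hp : p • (pairing (A.filter P hne hdir) (C.filter P hne hdir) 2 0 2 rfl ξ x) = 0 := by
    have e : p • (pairing (A.filter P hne hdir) (C.filter P hne hdir) 2 0 2 rfl ξ x) =
        pairing (A.filter P hne hdir) (C.filter P hne hdir) 2 0 2 rfl (p • ξ) x := by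
      rw [map_nsmul]
      rfl
    rw [e, hξp, map_zero]
    rfl
  have h0 : filterMap P hne hdir (triv ℤ T) C 2
      (pairing (A.filter P hne hdir) (C.filter P hne hdir) 2 0 2 rfl ξ x) = 0 := by
    have := filterMap_comp P hne hdir (triv ℤ T) A C 0 2 2 rfl x ξ
    rw [hξ, map_zero] at this
    exact this
  have hy : pairing (A.filter P hne hdir) (C.filter P hne hdir) 2 0 2 rfl ξ x = 0 :=
    hlim_two_filter_eq_zero P hne hdir C hinfl _ hp h0
  rw [hy, map_zero]

end Degree2

end Fermat.Agent.CFT.Duality
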