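import Fermat.Agent.Lib.CFT.Duality.DualTwistTower
import Fermat.Agent.Lib.CFT.Duality.HLimCoh
import Fermat.Agent.Lib.CFT.Duality.PTData
import Fermat.Agent.Lib.CFT.Duality.PinfGlobal
import Fermat.Agent.Lib.CFT.Bridge.Cyclo
import Fermat.Agent.Lib.CFT.Tower.Contract

/-!
# P4 / Layer D (D-FINAL, part 3): from abstract Poitou–Tate to the contract D → E

`ShaCardStatement d` is the abstract Poitou–Tate theorem for the class field theory data `d`
(the goal of D-D2).  Given it (for all base levels containing `μ_p`), `PoitouTateStatement p S M`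
follows for every finite `M` trivial on some `S`-level.
-/

set_option autoImplicit false

open CategoryTheory ExtCitation Fermat.Agent.CFT.Pinf

namespace Fermat.Agent.CFT.Duality

noncomputable section

variable {p : ℕ} [hp : Fact p.Prime] {S : Finset Nat.Primes} {L₀ : Level} {h₀ : L₀.IsS S}

/-- **Abstract Poitou–Tate** for the data `d` (Milne ADT I.4.10, Sha part): for every finite
`p`-torsion cartesian tower module `A` over the levels above `L₀`, `Ш¹_S(A)` and
`Ш²_S(Hom(A, μ_p))` are finite of the same cardinality. -/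
def ShaCardStatement (d : PTData p S L₀ h₀) : Prop :=
  ∀ (A : TowerModule ℤ (levelTower L₀)) [A.IsCartesian], (∀ j, Finite (A.C j)) →
    (∀ j (x : A.C j), p • x = 0) →
    Finite (ShaLim (isSPred S L₀) (isSPred_nonempty h₀) (isSPred_directed S L₀)
      (fun q : ↥S => decompFamily q.1 L₀) A 1) ∧
    Finite (ShaLim (isSPred S L₀) (isSPred_nonempty h₀) (isSPred_directed S L₀)
      (fun q : ↥S => decompFamily q.1 L₀) (A.homTo d.μ) 2) ∧
    Nat.card (ShaLim (isSPred S L₀) (isSPred_nonempty h₀) (isSPred_directed S L₀)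
      (fun q : ↥S => decompFamily q.1 L₀) A 1) =
    Nat.card (ShaLim (isSPred S L₀) (isSPred_nonempty h₀) (isSPred_directed S L₀)
      (fun q : ↥S => decompFamily q.1 L₀) (A.homTo d.μ) 2)

/-- The tower module of a finite-dimensional `𝔽_p`-representation is finite. -/
lemma towerOf_finite (M : Rep.{0} (ZMod p) GQ) [FiniteDimensional (ZMod p) M.V]
    (L₀ : Level) (hM : TrivialOn M L₀) (j : (levelTower L₀).ι) :
    Finite ((towerOf M L₀ hM).C j) :=
  show Finite M.V from Module.finite_of_finite (ZMod p)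

/-- The tower module of an `𝔽_p`-representation is killed by `p`. -/
lemma towerOf_ptors (M : Rep.{0} (ZMod p) GQ) (L₀ : Level) (hM : TrivialOn M L₀)
    (j : (levelTower L₀).ι) (x : (towerOf M L₀ hM).C j) : p • x = 0 := by
  change p • (show M.V from x) = 0
  rw [← Nat.cast_smul_eq_nsmul (ZMod p) p (show M.V from x), ZMod.natCast_self, zero_smul]

/-- `M^*(1)` is trivial where `M` and the cyclotomic character are. -/
lemma trivialOn_dualTwist (M : Rep.{0} (ZMod p) GQ) (L₀ : Level) (hM : TrivialOn M L₀)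
    (hχ : ∀ s ∈ L₀.N, cycloChar p s = 1) : TrivialOn (M.dualTwist (cycloChar p)) L₀ := by
  intro s hs
  have h1 : cycloChar p s = 1 := hχ s hs
  have h2 : M.ρ s⁻¹ = 1 := hM s⁻¹ (L₀.N.inv_mem hs)
  ext f
  rw [Rep.dualTwist_ρ_apply, h1, h2]
  simp only [Units.val_one, one_smul]
  rfl

/-- The assembly over a fixed base level. -/
theorem poitouTateStatement_of_shaCard_at (d : PTData p S L₀ h₀) (hd : ShaCardStatement d)
    (M : Rep.{0} (ZMod p) GQ) [FiniteDimensional (ZMod p) M.V] (hM : TrivialOn M L₀)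
    (hχ : ∀ s ∈ L₀.N, cycloChar p s = 1) : PoitouTateStatement p S M := by
  have hM' := trivialOn_dualTwist M L₀ hM hχ
  haveI : FiniteDimensional (ZMod p) (M.dualTwist (cycloChar p)).V :=
    inferInstanceAs (FiniteDimensional (ZMod p) (Module.Dual (ZMod p) M))
  obtain ⟨hf1, hf2, hc⟩ := hd (towerOf (M.dualTwist (cycloChar p)) L₀ hM')
    (towerOf_finite _ L₀ hM') (towerOf_ptors _ L₀ hM')
  -- a generator of `μ_p` at the base level
  have hcard := d.μ_card
  have hcyc : ∀ (L : (levelTower L₀).ι) (σ : GQ) (m : d.μ.C L),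
      (d.μ.C L).ρ (L.1.proj σ) m = ((cycloChar p σ : (ZMod p)ˣ) : ZMod p).val • m := by
    intro L σ m
    rw [d.μ_cyclo]
    exact Nat.cast_smul_eq_nsmul ℤ _ _
  obtain ⟨ζ₀, hζ₀⟩ := exists_ne_zero_of_card p L₀ d.μ hcard
  -- the four identifications
  let e1 := (shaLimEquivShaCoh (isSPred S L₀) (isSPred_nonempty h₀) (isSPred_directed S L₀)
      (fun q : ↥S => decompFamily q.1 L₀) (towerOf (M.dualTwist (cycloChar p)) L₀ hM') 1).toEquiv.trans
    (shaCohEquiv (M.dualTwist (cycloChar p)) L₀ hM' S h₀ intIso₁)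
  let e2 := ((shaLimEquivShaCoh (isSPred S L₀) (isSPred_nonempty h₀) (isSPred_directed S L₀)
      (fun q : ↥S => decompFamily q.1 L₀)
      ((towerOf (M.dualTwist (cycloChar p)) L₀ hM').homTo d.μ) 2).toEquiv.trans
    (shaCohDualTwistEquiv p M L₀ hM hM' d.μ hcard hcyc ζ₀ hζ₀ S h₀ 2).symm).trans
    (shaCohEquiv M L₀ hM S h₀ intIso₂)
  refine ⟨Finite.of_equiv _ e2, Finite.of_equiv _ e1, ?_⟩
  rw [← Nat.card_congr e1, ← Nat.card_congr e2]
  exact hc

/-- The mod `p` cyclotomic character is trivial on `Gal(ℚ̄/ℚ(ζ_p))`. -/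
lemma cycloChar_eq_one_of_mem_cycloLevel (p : ℕ) [hp : Fact p.Prime]
    (σ : GQ) (hσ : σ ∈ (@cycloLevel p ⟨hp.out.ne_zero⟩).N) : cycloChar p σ = 1 := by
  haveI : NeZero p := ⟨hp.out.ne_zero⟩
  rw [mem_cycloLevel_N_iff] at hσ
  refine Bridge.cycloChar_eq_one_of_fixes p σ (fun t ht => ?_)
  obtain ⟨i, -, rfl⟩ := (zetaQbar_spec p).eq_pow_of_pow_eq_one ht
  rw [map_pow, hσ]

/-- `ℚ(ζ_p)` is unramified outside `S ∋ p`. -/
lemma cycloLevel_isS_of_mem (p : ℕ) [hp : Fact p.Prime] (S : Finset Nat.Primes)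
    (hpS : pPrime p ∈ S) : (@cycloLevel p ⟨hp.out.ne_zero⟩).IsS S := by
  haveI : NeZero p := ⟨hp.out.ne_zero⟩
  refine cycloLevel_isS S p (fun q hq => ?_)
  rw [Nat.coprime_primes hp.out q.2]
  intro h
  exact hq ((Subtype.ext h : pPrime p = q) ▸ hpS)

/-- **Contract D → E**: abstract Poitou–Tate over every `S`-level containing `μ_p` gives
`PoitouTateStatement p S M` for every finite `M` which is trivial on some `S`-level. -/
theorem poitouTateStatement_of_shaCard (hpS : pPrime p ∈ S)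
    (hd : ∀ (L₀ : Level) (h₀ : L₀.IsS S), (∀ s ∈ L₀.N, cycloChar p s = 1) →
      ∃ d : PTData p S L₀ h₀, ShaCardStatement d)
    (M : Rep.{0} (ZMod p) GQ) [FiniteDimensional (ZMod p) M.V] (L₁ : Level) (h₁ : L₁.IsS S)
    (hM₁ : TrivialOn M L₁) : PoitouTateStatement p S M := by
  haveI : NeZero p := ⟨hp.out.ne_zero⟩
  have h₀ : (L₁ ⊔ cycloLevel p).IsS S := Level.IsS.sup h₁ (cycloLevel_isS_of_mem p S hpS)
  have hχ : ∀ s ∈ (L₁ ⊔ cycloLevel p).N, cycloChar p s = 1 := fun s hs =>
    cycloChar_eq_one_of_mem_cycloLevel p s (Level.N_anti (le_sup_right (a := L₁)) hs)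
  obtain ⟨d, hd'⟩ := hd (L₁ ⊔ cycloLevel p) h₀ hχ
  exact poitouTateStatement_of_shaCard_at d hd' M (hM₁.mono le_sup_left) hχ

end

end Fermat.Agent.CFT.Duality
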