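import Mathlib

/-!
# P4 / Layer D : duality of finite `p`-torsion abelian groups with values in `ℚ/ℤ`

`Q := AddCircle (1 : ℚ)`.  For a finite abelian group `M` killed by a prime `p`:
* `card_addMonoidHom_addCircle` : `|Hom(M, ℚ/ℤ)| = |M|`;
* `surjective_of_separating` : a homomorphism `α : E → Hom(M, ℚ/ℤ)` whose image separates the points
  of `M` is surjective;
* `bijective_of_separating_of_card_le`, `finite_of_separating`, ...
-/

set_option autoImplicit false
set_option linter.unusedSectionVars false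
set_option linter.style.haveILetI false

namespace Fermat.Agent.CFT.Duality

noncomputable section

open Function

section ZModCircle

variable (p : ℕ) [Fact p.Prime]

/-- `ℤ → ℚ/ℤ`, `n ↦ n / p`. -/
def intToCircle : ℤ →+ AddCircle (1 : ℚ) :=
  (QuotientAddGroup.mk' (AddSubgroup.zmultiples (1 : ℚ))).comp
    ((AddMonoidHom.mulRight ((p : ℚ)⁻¹)).comp (Int.castAddHom ℚ))

lemma intToCircle_apply (n : ℤ) : intToCircle p n = (((n : ℚ) * (p : ℚ)⁻¹ : ℚ) : AddCircle (1 : ℚ)) :=
  rfl

lemma intToCircle_eq_zero_iff (n : ℤ) : intToCircle p n = 0 ↔ (p : ℤ) ∣ n := by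
  have hp : (p : ℚ) ≠ 0 := by exact_mod_cast (Fact.out : p.Prime).ne_zero
  rw [intToCircle_apply, AddCircle.coe_eq_zero_iff]
  constructor
  · rintro ⟨m, hm⟩
    refine ⟨m, ?_⟩
    have h1 : (n : ℚ) = (p : ℚ) * (m : ℚ) := by
      rw [zsmul_eq_mul, mul_one] at hm
      rw [hm]
      field_simp
    exact_mod_cast h1
  · rintro ⟨m, rfl⟩
    refine ⟨m, ?_⟩
    rw [zsmul_eq_mul, mul_one]
    push_cast
    field_simp

/-- `𝔽_p → ℚ/ℤ`, `n ↦ n / p`. -/
def zmodToCircle : ZMod p →+ AddCircle (1 : ℚ) :=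
  ZMod.lift p ⟨intToCircle p, (intToCircle_eq_zero_iff p _).2 (dvd_refl _)⟩

lemma zmodToCircle_intCast (n : ℤ) : zmodToCircle p (n : ZMod p) = intToCircle p n := by
  unfold zmodToCircle
  exact ZMod.lift_coe p _ n

lemma zmodToCircle_injective : Injective (zmodToCircle p) := by
  rw [injective_iff_map_eq_zero]
  intro x hx
  obtain ⟨n, rfl⟩ := ZMod.intCast_surjective x
  rw [zmodToCircle_intCast, intToCircle_eq_zero_iff] at hx
  exact (ZMod.intCast_zmod_eq_zero_iff_dvd n p).2 hx

lemma exists_zmodToCircle_eq (a : AddCircle (1 : ℚ)) (ha : p • a = 0) :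
    ∃ x : ZMod p, zmodToCircle p x = a := by
  have hp : (p : ℚ) ≠ 0 := by exact_mod_cast (Fact.out : p.Prime).ne_zero
  obtain ⟨q, rfl⟩ := QuotientAddGroup.mk_surjective a
  have h1 : ((p • q : ℚ) : AddCircle (1 : ℚ)) = 0 := ha
  rw [AddCircle.coe_eq_zero_iff] at h1
  obtain ⟨m, hm⟩ := h1
  refine ⟨(m : ZMod p), ?_⟩
  rw [zmodToCircle_intCast, intToCircle_apply]
  congr 1
  rw [zsmul_eq_mul, mul_one, nsmul_eq_mul] at hm
  rw [hm]
  field_simp

end ZModCircle

section Dual

variable (p : ℕ) [Fact p.Prime] {M : Type*} [AddCommGroup M]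

/-- For `M` killed by `p`: `Hom(M, 𝔽_p) ≃ Hom(M, ℚ/ℤ)`. -/
def homZModEquivChar (hM : ∀ m : M, p • m = 0) : (M →+ ZMod p) ≃ (M →+ AddCircle (1 : ℚ)) :=
  Equiv.ofBijective (fun φ => (zmodToCircle p).comp φ) (by
    constructor
    · intro φ ψ h
      ext m
      exact zmodToCircle_injective p (DFunLike.congr_fun h m)
    · intro c
      have hc : ∀ m, ∃ x : ZMod p, zmodToCircle p x = c m := fun m =>
        exists_zmodToCircle_eq p (c m) (by rw [← map_nsmul, hM, map_zero])
      choose f hf using hc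
      refine ⟨AddMonoidHom.mk' f (fun a b => ?_), ?_⟩
      · apply zmodToCircle_injective p
        rw [map_add, hf, hf, hf, map_add]
      · ext m
        exact hf m)

lemma card_dual_zmod (V : Type*) [AddCommGroup V] [Module (ZMod p) V] [Finite V] :
    Nat.card (Module.Dual (ZMod p) V) = Nat.card V := by
  have h1 : Nat.card (Module.Dual (ZMod p) V) = Nat.card (ZMod p) ^ Module.finrank (ZMod p)
      (Module.Dual (ZMod p) V) := Module.natCard_eq_pow_finrank
  rw [h1, Subspace.dual_finrank_eq, ← Module.natCard_eq_pow_finrank]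

lemma card_addMonoidHom_zmod (V : Type*) [AddCommGroup V] [Module (ZMod p) V] [Finite V] :
    Nat.card (V →+ ZMod p) = Nat.card V := by
  let e : (V →+ ZMod p) ≃ Module.Dual (ZMod p) V :=
    { toFun := fun f => f.toZModLinearMap p
      invFun := fun g => g.toAddMonoidHom
      left_inv := fun f => rfl
      right_inv := fun g => rfl }
  rw [Nat.card_congr e, card_dual_zmod]

/-- `|Hom(M, ℚ/ℤ)| = |M|` for a finite abelian group `M` killed by `p`. -/
theorem card_addMonoidHom_addCircle [Finite M] (hM : ∀ m : M, p • m = 0) :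
    Nat.card (M →+ AddCircle (1 : ℚ)) = Nat.card M := by
  rw [← Nat.card_congr (homZModEquivChar p hM)]
  letI : Module (ZMod p) M := AddCommGroup.zmodModule hM
  exact card_addMonoidHom_zmod p M

theorem finite_char [Finite M] (hM : ∀ m : M, p • m = 0) : Finite (M →+ AddCircle (1 : ℚ)) := by
  haveI : Finite (M →+ ZMod p) := by
    refine Finite.of_injective (fun φ : M →+ ZMod p => (φ : M → ZMod p)) ?_
    exact DFunLike.coe_injective
  exact Finite.of_equiv _ (homZModEquivChar p hM)

end Dual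

section Pairing

variable (p : ℕ) [Fact p.Prime] {E H : Type*} [AddCommGroup E] [AddCommGroup H]
  (β : E →+ H →+ AddCircle (1 : ℚ))

/-- A right-nondegenerate pairing with `E` finite `p`-torsion: `H` is finite and `|H| ≤ |E|`. -/
theorem finite_of_right_nondeg [Finite E] (hE : ∀ e : E, p • e = 0)
    (h : ∀ x : H, x ≠ 0 → ∃ e, β e x ≠ 0) : Finite H ∧ Nat.card H ≤ Nat.card E := by
  haveI := finite_char p hE
  have hinj : Injective (fun x : H => β.flip x) := by
    intro x y hxy
    by_contra hne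
    obtain ⟨e, he⟩ := h (x - y) (sub_ne_zero.2 hne)
    apply he
    have h1 : β.flip x e = β.flip y e := DFunLike.congr_fun hxy e
    rw [map_sub, sub_eq_zero]
    exact h1
  refine ⟨Finite.of_injective _ hinj, ?_⟩
  rw [← card_addMonoidHom_addCircle p hE]
  exact Nat.card_le_card_of_injective _ hinj

/-- A right-nondegenerate pairing with `H` finite `p`-torsion: `E → Hom(H, ℚ/ℤ)` is surjective. -/
theorem surjective_of_right_nondeg [Finite H] (hH : ∀ x : H, p • x = 0)
    (h : ∀ x : H, x ≠ 0 → ∃ e, β e x ≠ 0) : Surjective β := by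
  haveI := finite_char p hH
  -- the image `Φ` of `β`
  let Φ : AddSubgroup (H →+ AddCircle (1 : ℚ)) := β.range
  have hΦ : ∀ φ : Φ, p • φ = 0 := by
    intro φ
    apply Subtype.ext
    ext x
    show (p • (φ : H →+ AddCircle (1 : ℚ))) x = 0
    rw [AddMonoidHom.smul_apply, ← map_nsmul, hH, map_zero]
  -- `H → Hom(Φ, ℚ/ℤ)` is injective
  let ev : H → (Φ →+ AddCircle (1 : ℚ)) := fun x =>
    (AddMonoidHom.flip (AddMonoidHom.id (H →+ AddCircle (1 : ℚ))) x).comp Φ.subtype
  have hev : Injective ev := by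
    intro x y hxy
    by_contra hne
    obtain ⟨e, he⟩ := h (x - y) (sub_ne_zero.2 hne)
    apply he
    have h1 : ev x ⟨β e, e, rfl⟩ = ev y ⟨β e, e, rfl⟩ := DFunLike.congr_fun hxy _
    rw [map_sub, sub_eq_zero]
    exact h1
  have h1 : Nat.card H ≤ Nat.card Φ := by
    rw [← card_addMonoidHom_addCircle p hΦ]
    haveI := finite_char p hΦ
    exact Nat.card_le_card_of_injective _ hev
  have h2 : Φ = ⊤ := by
    apply AddSubgroup.eq_top_of_le_card
    rw [card_addMonoidHom_addCircle p hH]
    exact h1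
  intro φ
  have : φ ∈ Φ := by rw [h2]; trivial
  exact this

/-- A surjective `β : E → Hom(H, ℚ/ℤ)` with `|E| ≤ |H|` is bijective. -/
theorem bijective_of_surjective_of_card_le [Finite E] [Finite H] (hH : ∀ x : H, p • x = 0)
    (hβ : Surjective β) (hc : Nat.card E ≤ Nat.card H) : Bijective β := by
  apply hβ.bijective_of_nat_card_le
  rw [card_addMonoidHom_addCircle p hH]
  exact hc

end Pairing

section Extension

variable {Y Z : Type*} [AddCommGroup Y] [AddCommGroup Z]

/-- Characters extend along injective homomorphisms (`ℚ/ℤ` is divisible). -/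
theorem exists_char_extension (f : Y →+ Z) (hf : Injective f) (ψ : Y →+ AddCircle (1 : ℚ)) :
    ∃ χ : Z →+ AddCircle (1 : ℚ), ∀ y, χ (f y) = ψ y := by
  obtain ⟨χ, hχ⟩ := CharacterModule.dual_surjective_of_injective (R := ℤ) f.toIntLinearMap hf ψ
  exact ⟨χ, fun y => DFunLike.congr_fun hχ y⟩

/-- A character of `Y` vanishing on the kernel of `g : Y → Z` is the restriction of a character of
`Z`. -/
theorem exists_char_comp_eq (g : Y →+ Z) (ψ : Y →+ AddCircle (1 : ℚ))
    (h : ∀ y, g y = 0 → ψ y = 0) : ∃ χ : Z →+ AddCircle (1 : ℚ), ∀ y, χ (g y) = ψ y := by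
  let ψ' : g.range →+ AddCircle (1 : ℚ) :=
    (QuotientAddGroup.lift g.ker ψ (fun y hy => h y hy)).comp
      (QuotientAddGroup.quotientKerEquivRange g).symm.toAddMonoidHom
  obtain ⟨χ, hχ⟩ := exists_char_extension g.range.subtype Subtype.coe_injective ψ'
  refine ⟨χ, fun y => ?_⟩
  have h1 := hχ ⟨g y, y, rfl⟩
  rw [AddSubgroup.subtype_apply] at h1
  rw [h1]
  have h2 : (QuotientAddGroup.quotientKerEquivRange g).symm ⟨g y, y, rfl⟩ =
      (QuotientAddGroup.mk y : Y ⧸ g.ker) := by
    rw [AddEquiv.symm_apply_eq]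
    rfl
  show QuotientAddGroup.lift g.ker ψ (fun y hy => h y hy)
    ((QuotientAddGroup.quotientKerEquivRange g).symm ⟨g y, y, rfl⟩) = ψ y
  rw [h2]
  rfl

end Extension

section Counting

variable {X Y Z : Type*} [AddCommGroup X] [AddCommGroup Y] [AddCommGroup Z]

/-- `|Y| = |ker g| · |im g|`. -/
theorem card_eq_card_ker_mul_card_range (g : Y →+ Z) :
    Nat.card Y = Nat.card g.ker * Nat.card g.range := by
  rw [AddSubgroup.card_eq_card_quotient_mul_card_addSubgroup g.ker,
    Nat.card_congr (QuotientAddGroup.quotientKerEquivRange g).toEquiv, mul_comm]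

/-- For `X → Y → Z` exact at `Y` with `X`, `Z` finite: `Y` is finite and `|Y| ≤ |X| · |Z|`. -/
theorem finite_and_card_le_of_exact (f : X →+ Y) (g : Y →+ Z) [Finite X] [Finite Z]
    (hex : ∀ y, g y = 0 → ∃ x, f x = y) : Finite Y ∧ Nat.card Y ≤ Nat.card X * Nat.card Z := by
  have hsurj : Surjective (fun x : {x : X // g (f x) = 0} => (⟨f x.1, x.2⟩ : g.ker)) := by
    rintro ⟨y, hy⟩
    obtain ⟨x, rfl⟩ := hex y hy
    exact ⟨⟨x, hy⟩, rfl⟩
  haveI : Finite g.ker := Finite.of_surjective _ hsurj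
  haveI : Finite Y := (g.finite_iff_finite_ker_range).2 ⟨inferInstance, inferInstance⟩
  refine ⟨inferInstance, ?_⟩
  rw [card_eq_card_ker_mul_card_range g]
  refine Nat.mul_le_mul ?_ ?_
  · refine (Nat.card_le_card_of_surjective _ hsurj).trans ?_
    exact Nat.card_le_card_of_injective (fun x : {x : X // g (f x) = 0} => x.1)
      Subtype.coe_injective
  · exact Nat.card_le_card_of_injective (fun z : g.range => (z : Z)) Subtype.coe_injective

/-- For `X → Y → Z` with `f` injective, `g` surjective and `g ∘ f = 0`, `Y` finite: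
`|X| · |Z| ≤ |Y|`. -/
theorem card_mul_le_of_injective_surjective (f : X →+ Y) (g : Y →+ Z) [Finite Y]
    (hf : Injective f) (hg : Surjective g) (hgf : ∀ x, g (f x) = 0) :
    Nat.card X * Nat.card Z ≤ Nat.card Y := by
  rw [card_eq_card_ker_mul_card_range g]
  refine Nat.mul_le_mul ?_ ?_
  · exact Nat.card_le_card_of_injective (fun x : X => (⟨f x, hgf x⟩ : g.ker))
      (fun a b h => hf (congrArg Subtype.val h))
  · have : g.range = ⊤ := AddMonoidHom.range_eq_top.2 hg
    rw [this, AddSubgroup.card_top]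

end Counting

end

end Fermat.Agent.CFT.Duality
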