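/-
P4 / Layer D, task D-DUAL: character module algebra (values in `ℚ/ℤ = AddCircle (1 : ℚ)`):
annihilators of subgroups in the character group, `Hom(H, ℚ/ℤ) / Ann(K) ≃ Hom(K, ℚ/ℤ)`,
`|Hom(H, ℚ/ℤ) / Ann(K)| = |K|`, and for finitely many maps `f_q : H → H_q`:
`Σ_q f_q^*(Hom(H_q, ℚ/ℤ)) = Ann(⋂_q ker f_q)`.
-/
import Fermat.Agent.Lib.CFT.Duality.FinDual

set_option autoImplicit false
set_option linter.unusedSectionVars false
set_option linter.style.haveILetI false

namespace Fermat.Agent.CFT.Duality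

noncomputable section

open Function

section Ann

variable {H : Type*} [AddCommGroup H]

/-- the annihilator of a subgroup `K ≤ H` in the character group of `H` -/
def charAnn (K : AddSubgroup H) : AddSubgroup (H →+ AddCircle (1 : ℚ)) where
  carrier := {χ | ∀ x ∈ K, χ x = 0}
  zero_mem' := fun _ _ => rfl
  add_mem' := fun {a b} ha hb x hx => by
    rw [AddMonoidHom.add_apply, ha x hx, hb x hx, add_zero]
  neg_mem' := fun {a} ha x hx => by
    rw [AddMonoidHom.neg_apply, ha x hx, neg_zero]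

theorem mem_charAnn (K : AddSubgroup H) (χ : H →+ AddCircle (1 : ℚ)) :
    χ ∈ charAnn K ↔ ∀ x ∈ K, χ x = 0 := Iff.rfl

theorem charAnn_anti {K K' : AddSubgroup H} (h : K ≤ K') : charAnn K' ≤ charAnn K :=
  fun _ hχ x hx => hχ x (h hx)

/-- restriction of characters to a subgroup -/
def charRes (K : AddSubgroup H) : (H →+ AddCircle (1 : ℚ)) →+ (K →+ AddCircle (1 : ℚ)) where
  toFun χ := χ.comp K.subtype
  map_zero' := rfl
  map_add' _ _ := rfl

theorem charRes_apply (K : AddSubgroup H) (χ : H →+ AddCircle (1 : ℚ)) (x : K) :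
    charRes K χ x = χ x := rfl

theorem charRes_surjective (K : AddSubgroup H) : Surjective (charRes K) := by
  intro ψ
  obtain ⟨χ, hχ⟩ := exists_char_extension K.subtype Subtype.coe_injective ψ
  exact ⟨χ, AddMonoidHom.ext fun x => hχ x⟩

theorem charRes_ker (K : AddSubgroup H) : (charRes K).ker = charAnn K := by
  ext χ
  rw [AddMonoidHom.mem_ker, mem_charAnn]
  constructor
  · intro h x hx
    exact DFunLike.congr_fun h ⟨x, hx⟩
  · intro h
    exact AddMonoidHom.ext fun x => h x.1 x.2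

/-- `Hom(H, ℚ/ℤ) / Ann(K) ≃ Hom(K, ℚ/ℤ)` -/
def charQuotAnnEquiv (K : AddSubgroup H) :
    ((H →+ AddCircle (1 : ℚ)) ⧸ charAnn K) ≃+ (K →+ AddCircle (1 : ℚ)) :=
  (QuotientAddGroup.quotientAddEquivOfEq (charRes_ker K).symm).trans
    (QuotientAddGroup.quotientKerEquivOfSurjective (charRes K) (charRes_surjective K))

/-- **`|Hom(H, ℚ/ℤ) / Ann(K)| = |K|`** for `H` finite killed by `p` -/
theorem card_char_quot_charAnn (p : ℕ) [Fact p.Prime] [Finite H] (hH : ∀ x : H, p • x = 0)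
    (K : AddSubgroup H) :
    Nat.card ((H →+ AddCircle (1 : ℚ)) ⧸ charAnn K) = Nat.card K := by
  rw [Nat.card_congr (charQuotAnnEquiv K).toEquiv]
  exact card_addMonoidHom_addCircle p (fun x : K => Subtype.ext (hH x.1))

/-- a character is determined modulo `Ann(K)` by its restriction to `K` -/
theorem charAnn_eq_top_iff (K : AddSubgroup H) : charAnn K = ⊤ ↔ K = ⊥ := by
  constructor
  · intro h
    rw [eq_bot_iff]
    intro x hx
    by_contra hne
    -- a character of `K` not vanishing at `x`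
    obtain ⟨c, hc⟩ := CharacterModule.exists_character_apply_ne_zero_of_ne_zero (a := x) hne
    have : (c : H →+ AddCircle (1 : ℚ)) ∈ charAnn K := by rw [h]; trivial
    exact hc (this x hx)
  · rintro rfl
    rw [eq_top_iff]
    intro χ _ x hx
    rw [AddSubgroup.mem_bot] at hx
    rw [hx, map_zero]

/-- the dual of a homomorphism -/
def charDual {Z : Type*} [AddCommGroup Z] (f : H →+ Z) :
    (Z →+ AddCircle (1 : ℚ)) →+ (H →+ AddCircle (1 : ℚ)) where
  toFun χ := χ.comp f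
  map_zero' := rfl
  map_add' _ _ := rfl

theorem charDual_apply {Z : Type*} [AddCommGroup Z] (f : H →+ Z) (χ : Z →+ AddCircle (1 : ℚ))
    (x : H) : charDual f χ x = χ (f x) := rfl

/-- **`im(f^*) = Ann(ker f)`** -/
theorem range_charDual {Z : Type*} [AddCommGroup Z] (f : H →+ Z) :
    (charDual f).range = charAnn f.ker := by
  ext χ
  rw [mem_charAnn]
  constructor
  · rintro ⟨ψ, rfl⟩ x hx
    rw [charDual_apply, AddMonoidHom.mem_ker.1 hx, map_zero]
  · intro h
    obtain ⟨ψ, hψ⟩ := exists_char_comp_eq f χ (fun y hy => h y (AddMonoidHom.mem_ker.2 hy))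
    exact ⟨ψ, AddMonoidHom.ext fun x => hψ x⟩

/-- `f^*` is injective if `f` is surjective -/
theorem charDual_injective {Z : Type*} [AddCommGroup Z] (f : H →+ Z) (hf : Surjective f) :
    Injective (charDual f) := by
  intro χ χ' h
  apply AddMonoidHom.ext
  intro z
  obtain ⟨x, rfl⟩ := hf z
  exact DFunLike.congr_fun h x

/-- `f^*` is surjective if `f` is injective -/
theorem charDual_surjective {Z : Type*} [AddCommGroup Z] (f : H →+ Z) (hf : Injective f) :
    Surjective (charDual f) := by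
  intro ψ
  obtain ⟨χ, hχ⟩ := exists_char_extension f hf ψ
  exact ⟨χ, AddMonoidHom.ext fun x => hχ x⟩

end Ann

section Sum

variable {H : Type*} [AddCommGroup H] {ι : Type*} [Fintype ι] {Hq : ι → Type*}
  [∀ q, AddCommGroup (Hq q)]

/-- a character of a finite product is the sum of its components -/
theorem char_pi_eq_sum [DecidableEq ι] (χ : (∀ q, Hq q) →+ AddCircle (1 : ℚ)) (y : ∀ q, Hq q) :
    χ y = ∑ q, χ.comp (AddMonoidHom.single Hq q) (y q) := by
  conv_lhs => rw [← Finset.univ_sum_single y]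
  rw [map_sum]
  rfl

/-- **`Σ_q f_q^* Hom(H_q, ℚ/ℤ) ⊇ Ann(⋂_q ker f_q)`** -/
theorem exists_sum_char_comp_eq (f : ∀ q, H →+ Hq q) (χ : H →+ AddCircle (1 : ℚ))
    (h : ∀ x, (∀ q, f q x = 0) → χ x = 0) :
    ∃ ψ : ∀ q, Hq q →+ AddCircle (1 : ℚ), ∀ x, χ x = ∑ q, ψ q (f q x) := by
  classical
  obtain ⟨χ', hχ'⟩ := exists_char_comp_eq (AddMonoidHom.pi f) χ (fun x hx => h x (fun q => by
    have := congrFun hx q
    exact this))
  refine ⟨fun q => χ'.comp (AddMonoidHom.single Hq q), fun x => ?_⟩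
  rw [← hχ' x, char_pi_eq_sum χ']
  rfl

/-- `Σ_q f_q^* Hom(H_q, ℚ/ℤ) = Ann(⋂_q ker f_q)` -/
theorem mem_charAnn_iInf_ker_iff (f : ∀ q, H →+ Hq q) (χ : H →+ AddCircle (1 : ℚ)) :
    χ ∈ charAnn (⨅ q, (f q).ker) ↔
      ∃ ψ : ∀ q, Hq q →+ AddCircle (1 : ℚ), ∀ x, χ x = ∑ q, ψ q (f q x) := by
  constructor
  · intro hχ
    apply exists_sum_char_comp_eq f χ
    intro x hx
    apply hχ x
    rw [AddSubgroup.mem_iInf]
    exact fun q => AddMonoidHom.mem_ker.2 (hx q)
  · rintro ⟨ψ, hψ⟩ x hx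
    rw [AddSubgroup.mem_iInf] at hx
    rw [hψ x]
    apply Finset.sum_eq_zero
    intro q _
    rw [AddMonoidHom.mem_ker.1 (hx q), map_zero]

/-- **the cokernel count**: if the image of `g : X → Hom(H, ℚ/ℤ)` consists exactly of the
characters `Σ_q ψ_q ∘ f_q`, then `|Hom(H, ℚ/ℤ) / im g| = |⋂_q ker f_q|`. -/
theorem card_quot_range_eq_card_iInf_ker (p : ℕ) [Fact p.Prime] [Finite H]
    (hH : ∀ x : H, p • x = 0) (f : ∀ q, H →+ Hq q) {X : Type*} [AddCommGroup X]
    (g : X →+ (H →+ AddCircle (1 : ℚ)))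
    (hg1 : ∀ x h, (∀ q, f q h = 0) → g x h = 0)
    (hg2 : ∀ ψ : ∀ q, Hq q →+ AddCircle (1 : ℚ), ∃ x, ∀ h, g x h = ∑ q, ψ q (f q h)) :
    Nat.card ((H →+ AddCircle (1 : ℚ)) ⧸ g.range) =
      Nat.card (⨅ q, (f q).ker : AddSubgroup H) := by
  have hrange : g.range = charAnn (⨅ q, (f q).ker) := by
    ext χ
    rw [mem_charAnn_iInf_ker_iff]
    constructor
    · rintro ⟨x, rfl⟩
      apply exists_sum_char_comp_eq f (g x)
      exact fun h hh => hg1 x h hh
    · rintro ⟨ψ, hψ⟩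
      obtain ⟨x, hx⟩ := hg2 ψ
      exact ⟨x, AddMonoidHom.ext fun h => by rw [hx h, hψ h]⟩
  rw [Nat.card_congr (QuotientAddGroup.quotientAddEquivOfEq hrange).toEquiv]
  exact card_char_quot_charAnn p hH _

end Sum

end

end Fermat.Agent.CFT.Duality
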