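import Fermat.Agent.Lib.CFT.Duality.ExtLimMap

/-!
# P4 / Layer D : maps between `ExtLim` groups of different towers

For towers `T₁`, `T₂`, a monotone map `u : T₁.ι → T₂.ι` of level sets and a family of maps
`g i : Ext^r(A_i, B_i) → Ext^r'(A'_{u i}, B'_{u i})` commuting with the transition maps we get
`ExtLim.mapAlong : ExtLim A B r →+ ExtLim A' B' r'`.  It is injective (surjective, bijective) if
the `g i` are and `u` is cofinal.
-/

set_option autoImplicit false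
set_option linter.unusedSectionVars false

open CategoryTheory Abelian

namespace Fermat.Agent.CFT.Duality

noncomputable section

namespace TowerModule

variable {k₁ k₂ : Type} [CommRing k₁] [CommRing k₂] {T₁ T₂ : Tower}
  (A B : TowerModule k₁ T₁) [A.IsCartesian] (r : ℕ)
  (A' B' : TowerModule k₂ T₂) [A'.IsCartesian] (r' : ℕ)
  (u : T₁.ι → T₂.ι) (hu : Monotone u)

lemma ExtLim.mapAlong_aux
    (g : ∀ i, Ext (A.C i) (B.C i) r →+ Ext (A'.C (u i)) (B'.C (u i)) r')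
    (hg : ∀ {i j : T₁.ι} (h : i ≤ j) (ξ : Ext (A.C i) (B.C i) r),
      g j (extTrans A B r h ξ) = extTrans A' B' r' (hu h) (g i ξ)) {i j : T₁.ι} (h : i ≤ j)
    (ξ : Ext (A.C i) (B.C i) r) :
    ((ExtLim.of A' B' r' (u j)).comp (g j)) (extTrans A B r h ξ)
      = ((ExtLim.of A' B' r' (u i)).comp (g i)) ξ := by
  simp only [AddMonoidHom.comp_apply]
  rw [hg h ξ, ExtLim.of_trans]

/-- A family of maps `Ext^r(A_i, B_i) → Ext^r'(A'_{u i}, B'_{u i})` commuting with the transition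
maps induces a map on the colimits. -/
def ExtLim.mapAlong
    (g : ∀ i, Ext (A.C i) (B.C i) r →+ Ext (A'.C (u i)) (B'.C (u i)) r')
    (hg : ∀ {i j : T₁.ι} (h : i ≤ j) (ξ : Ext (A.C i) (B.C i) r),
      g j (extTrans A B r h ξ) = extTrans A' B' r' (hu h) (g i ξ)) :
    ExtLim A B r →+ ExtLim A' B' r' :=
  ExtLim.lift A B r (fun i => (ExtLim.of A' B' r' (u i)).comp (g i))
    (fun h ξ => ExtLim.mapAlong_aux A B r A' B' r' u hu g hg h ξ)

@[simp] lemma ExtLim.mapAlong_of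
    (g : ∀ i, Ext (A.C i) (B.C i) r →+ Ext (A'.C (u i)) (B'.C (u i)) r')
    (hg : ∀ {i j : T₁.ι} (h : i ≤ j) (ξ : Ext (A.C i) (B.C i) r),
      g j (extTrans A B r h ξ) = extTrans A' B' r' (hu h) (g i ξ)) (i : T₁.ι)
    (ξ : Ext (A.C i) (B.C i) r) :
    ExtLim.mapAlong A B r A' B' r' u hu g hg (ExtLim.of A B r i ξ)
      = ExtLim.of A' B' r' (u i) (g i ξ) := by
  unfold ExtLim.mapAlong
  exact ExtLim.lift_of A B r (fun i => (ExtLim.of A' B' r' (u i)).comp (g i))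
    (fun h ξ => ExtLim.mapAlong_aux A B r A' B' r' u hu g hg h ξ) i ξ

lemma ExtLim.mapAlong_injective
    (g : ∀ i, Ext (A.C i) (B.C i) r →+ Ext (A'.C (u i)) (B'.C (u i)) r')
    (hg : ∀ {i j : T₁.ι} (h : i ≤ j) (ξ : Ext (A.C i) (B.C i) r),
      g j (extTrans A B r h ξ) = extTrans A' B' r' (hu h) (g i ξ))
    (hcof : ∀ (i : T₁.ι) (l : T₂.ι), u i ≤ l → ∃ j, i ≤ j ∧ l ≤ u j)
    (hinj : ∀ i, Function.Injective (g i)) :
    Function.Injective (ExtLim.mapAlong A B r A' B' r' u hu g hg) := by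
  rw [injective_iff_map_eq_zero]
  intro x hx
  induction x using ExtLim.induction_on with
  | h i ξ =>
    rw [ExtLim.mapAlong_of] at hx
    obtain ⟨l, hil, hl⟩ := ExtLim.of_eq_zero A' B' r' hx
    obtain ⟨j, hij, hlj⟩ := hcof i l hil
    have h1 : g j (extTrans A B r hij ξ) = 0 := by
      rw [hg hij ξ, ← extTrans_trans A' B' r' hil hlj, hl, map_zero]
    have h2 : extTrans A B r hij ξ = 0 := hinj j (h1.trans (map_zero _).symm)
    rw [← ExtLim.of_trans A B r hij ξ, h2, map_zero]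

lemma ExtLim.mapAlong_surjective
    (g : ∀ i, Ext (A.C i) (B.C i) r →+ Ext (A'.C (u i)) (B'.C (u i)) r')
    (hg : ∀ {i j : T₁.ι} (h : i ≤ j) (ξ : Ext (A.C i) (B.C i) r),
      g j (extTrans A B r h ξ) = extTrans A' B' r' (hu h) (g i ξ))
    (hcof : ∀ l : T₂.ι, ∃ i, l ≤ u i)
    (hsurj : ∀ i, Function.Surjective (g i)) :
    Function.Surjective (ExtLim.mapAlong A B r A' B' r' u hu g hg) := by
  intro y
  induction y using ExtLim.induction_on with
  | h l η =>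
    obtain ⟨i, hli⟩ := hcof l
    obtain ⟨ξ, hξ⟩ := hsurj i (extTrans A' B' r' hli η)
    refine ⟨ExtLim.of A B r i ξ, ?_⟩
    rw [ExtLim.mapAlong_of, hξ, ExtLim.of_trans]

/-- `ExtLim.mapAlong` for a cofinal `u` and levelwise isomorphisms. -/
def ExtLim.mapAlongEquiv
    (g : ∀ i, Ext (A.C i) (B.C i) r ≃+ Ext (A'.C (u i)) (B'.C (u i)) r')
    (hg : ∀ {i j : T₁.ι} (h : i ≤ j) (ξ : Ext (A.C i) (B.C i) r),
      g j (extTrans A B r h ξ) = extTrans A' B' r' (hu h) (g i ξ))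
    (hcof : ∀ l : T₂.ι, ∃ i, l ≤ u i)
    (hcof' : ∀ (i : T₁.ι) (l : T₂.ι), u i ≤ l → ∃ j, i ≤ j ∧ l ≤ u j) :
    ExtLim A B r ≃+ ExtLim A' B' r' :=
  AddEquiv.ofBijective
    (ExtLim.mapAlong A B r A' B' r' u hu (fun i => (g i).toAddMonoidHom) hg)
    ⟨ExtLim.mapAlong_injective A B r A' B' r' u hu _ hg hcof' (fun i => (g i).injective),
      ExtLim.mapAlong_surjective A B r A' B' r' u hu _ hg hcof (fun i => (g i).surjective)⟩

@[simp] lemma ExtLim.mapAlongEquiv_of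
    (g : ∀ i, Ext (A.C i) (B.C i) r ≃+ Ext (A'.C (u i)) (B'.C (u i)) r')
    (hg : ∀ {i j : T₁.ι} (h : i ≤ j) (ξ : Ext (A.C i) (B.C i) r),
      g j (extTrans A B r h ξ) = extTrans A' B' r' (hu h) (g i ξ))
    (hcof : ∀ l : T₂.ι, ∃ i, l ≤ u i)
    (hcof' : ∀ (i : T₁.ι) (l : T₂.ι), u i ≤ l → ∃ j, i ≤ j ∧ l ≤ u j) (i : T₁.ι)
    (ξ : Ext (A.C i) (B.C i) r) :
    ExtLim.mapAlongEquiv A B r A' B' r' u hu g hg hcof hcof' (ExtLim.of A B r i ξ)
      = ExtLim.of A' B' r' (u i) (g i ξ) :=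
  ExtLim.mapAlong_of A B r A' B' r' u hu (fun i => (g i).toAddMonoidHom) hg i ξ

lemma ExtLim.mapAlongEquiv_symm_of
    (g : ∀ i, Ext (A.C i) (B.C i) r ≃+ Ext (A'.C (u i)) (B'.C (u i)) r')
    (hg : ∀ {i j : T₁.ι} (h : i ≤ j) (ξ : Ext (A.C i) (B.C i) r),
      g j (extTrans A B r h ξ) = extTrans A' B' r' (hu h) (g i ξ))
    (hcof : ∀ l : T₂.ι, ∃ i, l ≤ u i)
    (hcof' : ∀ (i : T₁.ι) (l : T₂.ι), u i ≤ l → ∃ j, i ≤ j ∧ l ≤ u j) (i : T₁.ι)
    (η : Ext (A'.C (u i)) (B'.C (u i)) r') :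
    (ExtLim.mapAlongEquiv A B r A' B' r' u hu g hg hcof hcof').symm (ExtLim.of A' B' r' (u i) η)
      = ExtLim.of A B r i ((g i).symm η) := by
  rw [AddEquiv.symm_apply_eq, ExtLim.mapAlongEquiv_of, AddEquiv.apply_symm_apply]

end TowerModule

end

end Fermat.Agent.CFT.Duality
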