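import Fermat.Agent.Lib.CFT.Duality.CoindTower
import Fermat.Agent.Lib.CFT.Duality.ExtLimAlong
import Fermat.Agent.Lib.CFT.Duality.ExtLimPair

/-!
# P4 / Layer D, D-IND : Shapiro's lemma in the limit over a tower

`T` a tower with bottom level `j0`, `U ≤ T.G j0`, `X` a module over the sub-tower `T.sub j0 U`.

* `shapiroHLim : HLim (X.coindUp j0 hbot U) s ≃+ HLim X s` (levelwise `shapiroR⁻¹`);
* `shapiroLLim : ExtLim (X.coindUp j0 hbot U) B r ≃+ ExtLim X (B.sub j0 U) r` for `X` cartesian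
  (levelwise `shapiroL`);
* `comp_eq_extCores_level` : the pairing formula at a common level.
-/

set_option autoImplicit false
set_option linter.unusedSectionVars false

open CategoryTheory Abelian Rep Representation

namespace Fermat.Agent.CFT.Duality

noncomputable section

section Level

variable {k G : Type} [CommRing k] [Group G] (S : Subgroup G) [S.FiniteIndex]

open scoped Classical in
theorem shapiroL_eq_extPull (X : Rep.{0} k S) (Y : Rep.{0} k G) (n : ℕ)
    (ξ : Ext ((Rep.coindFunctor k S.subtype).obj X) Y n) :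
    shapiroL S X Y n ξ =
      extPull S.subtype ((Rep.coindResAdjunction k S).unit.app X) (𝟙 _) n ξ := by
  rw [shapiroL_apply, extPull_apply, Ext.comp_mk₀_id]

theorem shapiroR_symm_eq_extPull (Z : Rep.{0} k G) (X : Rep.{0} k S) (n : ℕ)
    (x : Ext Z ((Rep.coindFunctor k S.subtype).obj X) n) :
    (shapiroR S Z X n).symm x =
      extPull S.subtype (𝟙 _) ((Rep.resCoindAdjunction k S.subtype).counit.app X) n x := by
  rw [shapiroR_symm_apply, extPull_apply, Ext.mk₀_id_comp]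

open scoped Classical in
theorem coindRes_unit_apply_of_mem (X : Rep.{0} k S) (a : X) (g : G) (hg : g ∈ S) :
    (((Rep.coindResAdjunction k S).unit.app X).hom a).1 g = X.ρ ⟨g, hg⟩ a := by
  rw [coindRes_unit_apply]
  have h1 := Rep.indToCoindAux_mul_snd (A := X) (1 : G) (1 : G) a ⟨g, hg⟩
  rw [Rep.indToCoindAux_self] at h1
  rw [← h1]
  simp

open scoped Classical in
theorem coindRes_unit_apply_of_not_mem (X : Rep.{0} k S) (a : X) (g : G) (hg : g ∉ S) :
    (((Rep.coindResAdjunction k S).unit.app X).hom a).1 g = 0 := by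
  rw [coindRes_unit_apply]
  apply Rep.indToCoindAux_of_not_rel
  intro hrel
  apply hg
  rw [QuotientGroup.rightRel_apply] at hrel
  simpa using hrel

end Level

namespace TowerModule

variable {k : Type} [CommRing k] {T : Tower} (j0 : T.ι) (hbot : ∀ i, j0 ≤ i)
  (U : Subgroup (T.G j0))

/-- the level of the sub-tower attached to a level of `T` -/
abbrev subLevel (i : T.ι) : (T.sub j0 U).ι := ⟨i, hbot i⟩

lemma subLevel_mono : Monotone (subLevel j0 hbot U) := fun _ _ h => h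

variable (X : TowerModule k (T.sub j0 U))

/-- levelwise Shapiro map for `HLim` -/
def shapiroHLevel (s : ℕ) (i : T.ι) :
    Ext ((triv k T).C i) ((X.coindUp j0 hbot U).C i) s ≃+
      Ext ((triv k (T.sub j0 U)).C ⟨i, hbot i⟩) (X.C ⟨i, hbot i⟩) s :=
  (shapiroR (T.pre (hbot i) U) (Rep.trivial k (T.G i) k) (X.C ⟨i, hbot i⟩) s).symm

theorem shapiroHLevel_trans (s : ℕ) {i j : T.ι} (h : i ≤ j)
    (ξ : Ext ((triv k T).C i) ((X.coindUp j0 hbot U).C i) s) :
    shapiroHLevel j0 hbot U X s j (extTrans (triv k T) (X.coindUp j0 hbot U) s h ξ) =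
      extTrans (triv k (T.sub j0 U)) X s (subLevel_mono j0 hbot U h)
        (shapiroHLevel j0 hbot U X s i ξ) := by
  have e1 := shapiroR_symm_eq_extPull (T.pre (hbot j) U) (Rep.trivial k (T.G j) k)
    (X.C ⟨j, hbot j⟩) s (extTrans (triv k T) (X.coindUp j0 hbot U) s h ξ)
  have e2 := shapiroR_symm_eq_extPull (T.pre (hbot i) U) (Rep.trivial k (T.G i) k)
    (X.C ⟨i, hbot i⟩) s ξ
  refine e1.trans ?_
  have e3 := congrArg (extTrans (triv k (T.sub j0 U)) X s (subLevel_mono j0 hbot U h)) e2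
  refine Eq.trans ?_ e3.symm
  unfold extTrans
  refine (extPull_comp _ _ _ _ _ _ s ξ).trans ?_
  refine Eq.trans ?_ (extPull_comp _ _ _ _ _ _ s ξ).symm
  refine extPull_congr rfl _ _ _ _ ?_ ?_ s ξ
  · intro x
    have h1 : (inv ((triv k T).φ h)).hom x = x := (triv k T).inv_φ_φ h x
    have h2 := (triv k (T.sub j0 U)).inv_φ_φ (i := ⟨i, hbot i⟩) (j := ⟨j, hbot j⟩) h x
    exact h1.trans h2.symm
  · intro F
    change (X.φ (i := ⟨i, hbot i⟩) (j := ⟨j, hbot j⟩) h).hom (F.1 (T.π h 1)) =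
      (X.φ (i := ⟨i, hbot i⟩) (j := ⟨j, hbot j⟩) h).hom (F.1 1)
    rw [map_one]

/-- Shapiro's isomorphism in the limit: `colim H^s(G_i, coind X_i) ≃ colim H^s(U_i, X_i)`. -/
def shapiroHLim (s : ℕ) : HLim (X.coindUp j0 hbot U) s ≃+ HLim X s :=
  ExtLim.mapAlongEquiv (triv k T) (X.coindUp j0 hbot U) s (triv k (T.sub j0 U)) X s
    (subLevel j0 hbot U) (subLevel_mono j0 hbot U) (shapiroHLevel j0 hbot U X s)
    (fun h ξ => shapiroHLevel_trans j0 hbot U X s h ξ)
    (fun l => ⟨l.1, le_refl l.1⟩)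
    (fun _ l hl => ⟨l.1, hl, le_refl l.1⟩)

theorem shapiroHLim_of (s : ℕ) (i : T.ι)
    (ξ : Ext ((triv k T).C i) ((X.coindUp j0 hbot U).C i) s) :
    shapiroHLim j0 hbot U X s (ExtLim.of (triv k T) (X.coindUp j0 hbot U) s i ξ) =
      ExtLim.of (triv k (T.sub j0 U)) X s ⟨i, hbot i⟩ (shapiroHLevel j0 hbot U X s i ξ) :=
  ExtLim.mapAlongEquiv_of _ _ _ _ _ _ _ _ _ _ _ _ i ξ


open scoped Classical in
/-- the transition maps of `coindUp X` are compatible with the units of `coind ⊣ res`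
(extension by zero) -/
theorem coindUp_φ_unit {i j : T.ι} (h : i ≤ j) (x : X.C ⟨i, hbot i⟩) :
    ((X.coindUp j0 hbot U).φ h).hom
        (((Rep.coindResAdjunction k (T.pre (hbot i) U)).unit.app (X.C ⟨i, hbot i⟩)).hom x) =
      ((Rep.coindResAdjunction k (T.pre (hbot j) U)).unit.app (X.C ⟨j, hbot j⟩)).hom
        ((X.φ (i := ⟨i, hbot i⟩) (j := ⟨j, hbot j⟩) h).hom x) := by
  apply Subtype.ext
  funext g
  rw [coindUp_φ_apply]
  by_cases hg : g ∈ T.pre (hbot j) U
  · have hg' : T.π h g ∈ T.pre (hbot i) U := by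
      show T.π (hbot i) (T.π h g) ∈ U
      rw [T.π_comp]
      exact hg
    rw [coindRes_unit_apply_of_mem _ _ _ _ hg, coindRes_unit_apply_of_mem _ _ _ _ hg']
    exact Rep.hom_comm_apply (X.φ (i := ⟨i, hbot i⟩) (j := ⟨j, hbot j⟩) h) ⟨g, hg⟩ x
  · have hg' : T.π h g ∉ T.pre (hbot i) U := by
      intro hmem
      apply hg
      show T.π (hbot j) g ∈ U
      rw [← T.π_comp (hbot i) h]
      exact hmem
    rw [coindRes_unit_apply_of_not_mem _ _ _ _ hg, coindRes_unit_apply_of_not_mem _ _ _ _ hg',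
      map_zero]

variable [X.IsCartesian] (B : TowerModule k T)

open scoped Classical in
/-- levelwise Shapiro map in the first variable -/
def shapiroLLevel (r : ℕ) (i : T.ι) :
    Ext ((X.coindUp j0 hbot U).C i) (B.C i) r ≃+
      Ext (X.C ⟨i, hbot i⟩) ((B.sub j0 U).C ⟨i, hbot i⟩) r :=
  shapiroL (T.pre (hbot i) U) (X.C ⟨i, hbot i⟩) (B.C i) r

open scoped Classical in
theorem shapiroLLevel_trans (r : ℕ) {i j : T.ι} (h : i ≤ j)
    (ξ : Ext ((X.coindUp j0 hbot U).C i) (B.C i) r) :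
    shapiroLLevel j0 hbot U X B r j (extTrans (X.coindUp j0 hbot U) B r h ξ) =
      extTrans X (B.sub j0 U) r (subLevel_mono j0 hbot U h)
        (shapiroLLevel j0 hbot U X B r i ξ) := by
  have e1 := shapiroL_eq_extPull (T.pre (hbot j) U) (X.C ⟨j, hbot j⟩) (B.C j) r
    (extTrans (X.coindUp j0 hbot U) B r h ξ)
  have e2 := shapiroL_eq_extPull (T.pre (hbot i) U) (X.C ⟨i, hbot i⟩) (B.C i) r ξ
  refine e1.trans ?_
  have e3 := congrArg (extTrans X (B.sub j0 U) r (subLevel_mono j0 hbot U h)) e2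
  refine Eq.trans ?_ e3.symm
  unfold extTrans
  refine (extPull_comp _ _ _ _ _ _ r ξ).trans ?_
  refine Eq.trans ?_ (extPull_comp _ _ _ _ _ _ r ξ).symm
  refine extPull_congr rfl _ _ _ _ ?_ ?_ r ξ
  · intro y
    apply (X.coindUp j0 hbot U).φ_injective h
    have h1 := (X.coindUp j0 hbot U).φ_inv_φ h
      (((Rep.coindResAdjunction k (T.pre (hbot j) U)).unit.app (X.C ⟨j, hbot j⟩)).hom y)
    refine h1.trans ?_
    have h' : (⟨i, hbot i⟩ : (T.sub j0 U).ι) ≤ ⟨j, hbot j⟩ := h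
    have hiso : IsIso (X.φ h') := IsCartesian.isIso (A := X) h'
    have h2 := coindUp_φ_unit j0 hbot U X h ((inv (X.φ h')).hom y)
    refine Eq.trans ?_ h2.symm
    exact congrArg _ (X.φ_inv_φ h' y).symm
  · intro b
    rfl

open scoped Classical in
/-- Shapiro's isomorphism in the limit, first variable:
`colim Ext^r_{G_i}(coind X_i, B_i) ≃ colim Ext^r_{U_i}(X_i, B_i)`. -/
def shapiroLLim (r : ℕ) : ExtLim (X.coindUp j0 hbot U) B r ≃+ ExtLim X (B.sub j0 U) r :=
  ExtLim.mapAlongEquiv (X.coindUp j0 hbot U) B r X (B.sub j0 U) r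
    (subLevel j0 hbot U) (subLevel_mono j0 hbot U) (shapiroLLevel j0 hbot U X B r)
    (fun h ξ => shapiroLLevel_trans j0 hbot U X B r h ξ)
    (fun l => ⟨l.1, le_refl l.1⟩)
    (fun _ l hl => ⟨l.1, hl, le_refl l.1⟩)

open scoped Classical in
theorem shapiroLLim_of (r : ℕ) (i : T.ι) (ξ : Ext ((X.coindUp j0 hbot U).C i) (B.C i) r) :
    shapiroLLim j0 hbot U X B r (ExtLim.of (X.coindUp j0 hbot U) B r i ξ) =
      ExtLim.of X (B.sub j0 U) r ⟨i, hbot i⟩ (shapiroLLevel j0 hbot U X B r i ξ) :=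
  ExtLim.mapAlongEquiv_of _ _ _ _ _ _ _ _ _ _ _ _ i ξ

open scoped Classical in
/-- **Pairing formula in the tower**: at a common level `i`, the Yoneda product of
`x ∈ H^s(G_i, coind X_i)` and `ξ ∈ Ext^r(coind X_i, B_i)` is the corestriction of the product of
their Shapiro images. -/
theorem comp_eq_extCores_level {r s t : ℕ} (hsr : s + r = t) (i : T.ι)
    (x : Ext ((triv k T).C i) ((X.coindUp j0 hbot U).C i) s)
    (ξ : Ext ((X.coindUp j0 hbot U).C i) (B.C i) r) :
    x.comp ξ hsr = extCores (T.pre (hbot i) U) (Rep.trivial k (T.G i) k) (B.C i) t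
      ((shapiroHLevel j0 hbot U X s i x).comp (shapiroLLevel j0 hbot U X B r i ξ) hsr) :=
  comp_eq_extCores (T.pre (hbot i) U) x ξ hsr

end TowerModule

end

end Fermat.Agent.CFT.Duality
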