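/-
P4 / D-SUB: the sub-tower `T.sub j U` of a tower `T` for a level `j` and a subgroup `U ≤ T.G j`
(levels `≥ j`, groups = preimages of `U`), the restricted tower module `C.sub j U`, and
`PClassFormation.sub`: the restriction of a `p`-class formation to a sub-tower is a `p`-class
formation.
-/
import Fermat.Agent.Lib.CFT.Duality.Tower

set_option autoImplicit false
set_option linter.unusedSectionVars false

open CategoryTheory

namespace Fermat.Agent.CFT.Duality

noncomputable section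

/-! ## Cohomology of a subgroup of a subgroup -/

section SubSub

variable {k G : Type} [CommRing k] [Group G] (A : Rep.{0} k G)

/-- the image in `G` of a subgroup `V` of a subgroup `W ≤ G` -/
abbrev upSub (W : Subgroup G) (V : Subgroup W) : Subgroup G := V.map W.subtype

/-- `V ≃* V↑` -/
abbrev upEquiv (W : Subgroup G) (V : Subgroup W) : V ≃* upSub W V :=
  V.equivMapOfInjective W.subtype W.subtype_injective

/-- `Hⁿ(V, A|W) ≅ Hⁿ(V↑, A)` for `V ≤ W ≤ G` -/
def subSubIso (W : Subgroup G) (V : Subgroup W) (n : ℕ) :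
    groupCohomology (Rep.res V.subtype (Rep.res W.subtype A)) n ≅
      groupCohomology (Rep.res (upSub W V).subtype A) n :=
  groupCohomology.mapIso (upEquiv W V) (LinearEquiv.refl k A.V) (fun _ => rfl) n

theorem subSubIso_inv (W : Subgroup G) (V : Subgroup W) (n : ℕ) :
    (subSubIso A W V n).inv = groupCohomology.map (upEquiv W V).toMonoidHom
      (𝟙 (Rep.res V.subtype (Rep.res W.subtype A))) n :=
  groupCohomology.map_congr rfl rfl n

theorem subSubIso_inv_res (W : Subgroup G) {V' V : Subgroup W} (h : V' ≤ V) (n : ℕ) :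
    (subSubIso A W V n).inv ≫ groupCohomology.map (Subgroup.inclusion h)
        (𝟙 (Rep.res V'.subtype (Rep.res W.subtype A))) n =
      groupCohomology.map (Subgroup.inclusion (Subgroup.map_mono h))
        (𝟙 (Rep.res (upSub W V').subtype A)) n ≫ (subSubIso A W V' n).inv := by
  rw [subSubIso_inv, subSubIso_inv, ← groupCohomology.map_comp, ← groupCohomology.map_comp]
  exact groupCohomology.map_congr rfl rfl n

theorem subSubIso_hom_res (W : Subgroup G) {V' V : Subgroup W} (h : V' ≤ V) (n : ℕ) :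
    groupCohomology.map (Subgroup.inclusion h)
        (𝟙 (Rep.res V'.subtype (Rep.res W.subtype A))) n ≫ (subSubIso A W V' n).hom =
      (subSubIso A W V n).hom ≫ groupCohomology.map (Subgroup.inclusion (Subgroup.map_mono h))
        (𝟙 (Rep.res (upSub W V').subtype A)) n := by
  rw [← Iso.inv_comp_eq, ← Category.assoc, subSubIso_inv_res, Category.assoc, Iso.inv_hom_id,
    Category.comp_id]

end SubSub

/-! ## The sub-tower -/

namespace Tower

variable (T : Tower) (j : T.ι) (U : Subgroup (T.G j))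

instance isDirected_ge : IsDirected {i : T.ι // j ≤ i} (· ≤ ·) :=
  ⟨fun a b => by
    obtain ⟨c, hac, hbc⟩ := exists_ge_ge a.1 b.1
    exact ⟨⟨c, a.2.trans hac⟩, hac, hbc⟩⟩

/-- the transition maps of the sub-tower -/
def subπ {i i' : T.ι} (hi : j ≤ i) (hi' : j ≤ i') (h : i ≤ i') : T.pre hi' U →* T.pre hi U :=
  ((T.π h).comp (T.pre hi' U).subtype).codRestrict (T.pre hi U) (fun x => by
    show T.π hi (T.π h x.1) ∈ U
    rw [T.π_comp]
    exact x.2)

@[simp] theorem subπ_coe {i i' : T.ι} (hi : j ≤ i) (hi' : j ≤ i') (h : i ≤ i') (x : T.pre hi' U) :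
    (T.subπ j U hi hi' h x : T.G i) = T.π h x.1 := rfl

/-- **the sub-tower** `T|U` for a level `j` and a subgroup `U ≤ T.G j`: the levels are the levels
`≥ j` of `T`, the groups are the preimages of `U`. -/
abbrev sub : Tower where
  ι := {i : T.ι // j ≤ i}
  instNonempty := ⟨⟨j, le_refl j⟩⟩
  G i := T.pre i.2 U
  π {i i'} h := T.subπ j U i.2 i'.2 h
  π_surjective {i i'} h x := by
    obtain ⟨y, hy⟩ := T.π_surjective (show i.1 ≤ i'.1 from h) x.1
    refine ⟨⟨y, ?_⟩, Subtype.ext hy⟩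
    have h1 : T.π i'.2 y = T.π i.2 x.1 := by
      rw [← hy, T.π_comp]
    show T.π i'.2 y ∈ U
    rw [h1]
    exact x.2
  π_refl i g := Subtype.ext (T.π_refl i.1 g.1)
  π_comp h h' g := Subtype.ext (T.π_comp _ _ g.1)

end Tower

namespace TowerModule

variable {k : Type} [CommRing k] {T : Tower} (C : TowerModule k T) (j : T.ι) (U : Subgroup (T.G j))

/-- **the restriction `C|U` of a tower module to the sub-tower `T|U`** -/
abbrev sub : TowerModule k (T.sub j U) where
  C i := C.atSub i.1 (T.pre i.2 U)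
  φ {_ i'} h := (Rep.resFunctor (T.pre i'.2 U).subtype).map (C.φ h)
  φ_refl i x := C.φ_refl i.1 x
  φ_comp h h' x := C.φ_comp h h' x

theorem sub_hasDescent (hC : C.HasDescent) : (C.sub j U).HasDescent where
  injective {i i'} h := hC.injective (show i.1 ≤ i'.1 from h)
  surjective {i i'} h y hy := by
    refine hC.surjective (show i.1 ≤ i'.1 from h) y (fun g hg => ?_)
    have hgU : g ∈ T.pre i'.2 U := by
      have h1 : T.π i'.2 g = T.π i.2 (T.π (show i.1 ≤ i'.1 from h) g) := (T.π_comp _ _ g).symm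
      show T.π i'.2 g ∈ U
      rw [h1, hg, map_one]
      exact U.one_mem
    exact hy ⟨g, hgU⟩ (Subtype.ext hg)

/-- `Hⁿ(V, (C|U)_i) ≃ Hⁿ(V↑, C_i)` for a subgroup `V` of the level-`i` group of the sub-tower -/
def subCohEquiv (i : (T.sub j U).ι) (V : Subgroup ((T.sub j U).G i)) (n : ℕ) :
    groupCohomology ((C.sub j U).atSub i V) n ≃+
      groupCohomology (C.atSub i.1 (upSub (T.pre i.2 U) V)) n :=
  (subSubIso (C.C i.1) (T.pre i.2 U) V n).toLinearEquiv.toAddEquiv

theorem subCohEquiv_resMap (i : (T.sub j U).ι) {V' V : Subgroup ((T.sub j U).G i)} (h : V' ≤ V)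
    (n : ℕ) (x : groupCohomology ((C.sub j U).atSub i V) n) :
    subCohEquiv C j U i V' n ((C.sub j U).resMap i h n x) =
      C.resMap i.1 (Subgroup.map_mono h) n (subCohEquiv C j U i V n x) :=
  congr($(subSubIso_hom_res (C.C i.1) (T.pre i.2 U) h n) x)

theorem upSub_pre_le {i i' : (T.sub j U).ι} (h : i ≤ i') (V : Subgroup ((T.sub j U).G i)) :
    upSub (T.pre i'.2 U) ((T.sub j U).pre h V) ≤
      T.pre (show i.1 ≤ i'.1 from h) (upSub (T.pre i.2 U) V) := by
  rintro x ⟨y, hy, rfl⟩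
  exact ⟨(T.sub j U).π h y, hy, rfl⟩

theorem upSub_pre_eq {i i' : (T.sub j U).ι} (h : i ≤ i') (V : Subgroup ((T.sub j U).G i)) :
    upSub (T.pre i'.2 U) ((T.sub j U).pre h V) =
      T.pre (show i.1 ≤ i'.1 from h) (upSub (T.pre i.2 U) V) := by
  refine le_antisymm (upSub_pre_le j U h V) ?_
  rintro x ⟨v, hv, hvx⟩
  have hx : x ∈ T.pre i'.2 U := by
    have h1 : T.π i'.2 x = T.π i.2 (T.π (show i.1 ≤ i'.1 from h) x) := (T.π_comp _ _ x).symm
    show T.π i'.2 x ∈ U
    rw [h1, ← hvx]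
    exact v.2
  refine ⟨⟨x, hx⟩, ?_, rfl⟩
  have h2 : (T.sub j U).π h ⟨x, hx⟩ = v := Subtype.ext hvx.symm
  show (T.sub j U).π h ⟨x, hx⟩ ∈ V
  rw [h2]
  exact hv

theorem subCohEquiv_inflMap {i i' : (T.sub j U).ι} (h : i ≤ i') (V : Subgroup ((T.sub j U).G i))
    (n : ℕ) (x : groupCohomology ((C.sub j U).atSub i V) n) :
    subCohEquiv C j U i' ((T.sub j U).pre h V) n ((C.sub j U).inflMap h V n x) =
      C.resMap i'.1 (upSub_pre_le j U h V) n
        (C.inflMap (show i.1 ≤ i'.1 from h) (upSub (T.pre i.2 U) V) n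
          (subCohEquiv C j U i V n x)) := by
  obtain ⟨y, rfl⟩ := (subCohEquiv C j U i V n).symm.surjective x
  rw [AddEquiv.apply_symm_apply, ← AddEquiv.eq_symm_apply]
  have key : (subSubIso (C.C i.1) (T.pre i.2 U) V n).inv ≫
      groupCohomology.map ((T.sub j U).πU h V) ((C.sub j U).φU h V) n =
      groupCohomology.map (T.πU (show i.1 ≤ i'.1 from h) (upSub (T.pre i.2 U) V))
        (C.φU (show i.1 ≤ i'.1 from h) (upSub (T.pre i.2 U) V)) n ≫
      groupCohomology.map (Subgroup.inclusion (upSub_pre_le j U h V))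
        (𝟙 (C.atSub i'.1 (upSub (T.pre i'.2 U) ((T.sub j U).pre h V)))) n ≫
      (subSubIso (C.C i'.1) (T.pre i'.2 U) ((T.sub j U).pre h V) n).inv := by
    rw [subSubIso_inv, subSubIso_inv, ← groupCohomology.map_comp, ← groupCohomology.map_comp,
      ← groupCohomology.map_comp]
    exact groupCohomology.map_congr rfl rfl n
  exact congr($key y)

end TowerModule

/-! ## Norm sums over `N ⧸ V` computed in a subgroup -/

section NormSum

variable {G M : Type} [Group G] (ρ : G → M → M) (hρ : ∀ g h x, ρ (g * h) x = ρ g (ρ h x))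

include hρ in
/-- `ρ (q.out) d` does not depend on the representative of the coset `q` if `d` is `V`-fixed -/
theorem rho_out_eq (N V : Subgroup G) (d : M) (hd : ∀ v ∈ V, ρ v d = d) (n : N) :
    ρ (((n : N ⧸ V.subgroupOf N).out : N) : G) d = ρ (n : G) d := by
  obtain ⟨v, hv⟩ := QuotientGroup.mk_out_eq_mul (V.subgroupOf N) n
  rw [hv, Subgroup.coe_mul, hρ]
  exact congrArg _ (hd _ (Subgroup.mem_subgroupOf.1 v.2))

include hρ in
/-- the norm sums `∑_{q ∈ N/V} q d` computed inside a subgroup `W ⊇ N` and inside `G` agree -/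
theorem finsum_rho_out_eq [AddCommMonoid M] (W N V : Subgroup G) (N' V' : Subgroup W)
    (hN : ∀ x : W, x ∈ N' ↔ (x : G) ∈ N) (hV : ∀ x : W, x ∈ V' ↔ (x : G) ∈ V) (hNW : N ≤ W)
    (d : M) (hd : ∀ v ∈ V, ρ v d = d) :
    ∑ᶠ q : N' ⧸ V'.subgroupOf N', ρ (((q.out : N') : W) : G) d =
      ∑ᶠ q : N ⧸ V.subgroupOf N, ρ ((q.out : N) : G) d := by
  let e : N' ≃ N :=
    { toFun := fun x => ⟨x.1.1, (hN x.1).1 x.2⟩
      invFun := fun y => ⟨⟨y.1, hNW y.2⟩, (hN _).2 y.2⟩
      left_inv := fun _ => rfl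
      right_inv := fun _ => rfl }
  have he : ∀ a b : N', (QuotientGroup.leftRel (V'.subgroupOf N')) a b ↔
      (QuotientGroup.leftRel (V.subgroupOf N)) (e a) (e b) := by
    intro a b
    rw [QuotientGroup.leftRel_apply, QuotientGroup.leftRel_apply, Subgroup.mem_subgroupOf,
      Subgroup.mem_subgroupOf, hV]
    rfl
  refine finsum_eq_of_bijective (Quotient.congr e he) (Quotient.congr e he).bijective (fun q => ?_)
  induction q using Quotient.inductionOn' with
  | h x =>
    have h1 := rho_out_eq (fun (w : W) x => ρ w.1 x) (fun g h x => hρ g.1 h.1 x) N' V' d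
      (fun v hv => hd _ ((hV v).1 hv)) x
    have h2 := rho_out_eq ρ hρ N V d hd (e x)
    exact h1.trans h2.symm

end NormSum

/-! ## The restricted `p`-class formation -/

section SubFormation

open TowerModule

variable {p : ℕ} [Fact p.Prime] {T : Tower} {C : TowerModule ℤ T} (cf : PClassFormation p T C)
  (j : T.ι) (U : Subgroup (T.G j))

/-- the invariant maps of the sub-tower -/
def PClassFormation.subInv (i : (T.sub j U).ι) (V : Subgroup ((T.sub j U).G i)) :
    groupCohomology ((C.sub j U).atSub i V) 2 →+ AddCircle (1 : ℚ) :=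
  (cf.inv i.1 (upSub (T.pre i.2 U) V)).comp (subCohEquiv C j U i V 2).toAddMonoidHom

theorem PClassFormation.subInv_apply (i : (T.sub j U).ι) (V : Subgroup ((T.sub j U).G i))
    (x : groupCohomology ((C.sub j U).atSub i V) 2) :
    cf.subInv j U i V x = cf.inv i.1 (upSub (T.pre i.2 U) V) (subCohEquiv C j U i V 2 x) := rfl

theorem card_upSub {G : Type} [Group G] (W : Subgroup G) (V : Subgroup W) :
    Nat.card (upSub W V) = Nat.card V :=
  Subgroup.card_map_of_injective W.subtype_injective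

include cf in
theorem PClassFormation.sub_pinf (i : (T.sub j U).ι) (V : Subgroup ((T.sub j U).G i)) (n : ℕ) :
    ∃ (k : (T.sub j U).ι) (h : i ≤ k), p ^ n ∣ Nat.card ((T.sub j U).pre h V) := by
  obtain ⟨k, h, hk⟩ := cf.pinf i.1 (upSub (T.pre i.2 U) V) n
  refine ⟨⟨k, i.2.trans h⟩, h, ?_⟩
  rw [← card_upSub, upSub_pre_eq j U]
  exact hk

theorem PClassFormation.sub_noPTorsion (n : ℕ)
    (H : ∀ (j : T.ι) (U : Subgroup (T.G j)) (x : groupCohomology (C.atSub j U) n),
      p • x = 0 → x = 0)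
    (i : (T.sub j U).ι) (V : Subgroup ((T.sub j U).G i))
    (x : groupCohomology ((C.sub j U).atSub i V) n) (hx : p • x = 0) : x = 0 := by
  have h1 : subCohEquiv C j U i V n x = 0 := by
    apply H
    rw [← map_nsmul, hx, map_zero]
  exact (subCohEquiv C j U i V n).map_eq_zero_iff.1 h1

theorem PClassFormation.subInv_injective (i : (T.sub j U).ι) (V : Subgroup ((T.sub j U).G i))
    (x : groupCohomology ((C.sub j U).atSub i V) 2) (hx : p • x = 0)
    (hx' : cf.subInv j U i V x = 0) : x = 0 := by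
  have h1 : subCohEquiv C j U i V 2 x = 0 := by
    apply cf.inv_injective _ _ _ _ hx'
    rw [← map_nsmul, hx, map_zero]
  exact (subCohEquiv C j U i V 2).map_eq_zero_iff.1 h1

theorem PClassFormation.subInv_surjective (i : (T.sub j U).ι) (V : Subgroup ((T.sub j U).G i)) :
    ∃ x : groupCohomology ((C.sub j U).atSub i V) 2, p ^ (Nat.card V).factorization p • x = 0 ∧
      cf.subInv j U i V x = ((1 / (p ^ (Nat.card V).factorization p : ℕ) : ℚ) : AddCircle (1 : ℚ)) := by
  obtain ⟨y, hy, hy'⟩ := cf.inv_surjective i.1 (upSub (T.pre i.2 U) V)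
  rw [card_upSub] at hy hy'
  refine ⟨(subCohEquiv C j U i V 2).symm y, ?_, ?_⟩
  · rw [← map_nsmul, hy, map_zero]
  · rw [PClassFormation.subInv_apply, AddEquiv.apply_symm_apply, hy']

theorem PClassFormation.subInv_infl {i i' : (T.sub j U).ι} (h : i ≤ i')
    (V : Subgroup ((T.sub j U).G i)) (x : groupCohomology ((C.sub j U).atSub i V) 2) :
    cf.subInv j U i' ((T.sub j U).pre h V) ((C.sub j U).inflMap h V 2 x) = cf.subInv j U i V x := by
  rw [PClassFormation.subInv_apply, PClassFormation.subInv_apply, subCohEquiv_inflMap, cf.inv_res,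
    cf.inv_infl]
  have h1 : (upSub (T.pre i'.2 U) ((T.sub j U).pre h V)).relIndex
      (T.pre (show i.1 ≤ i'.1 from h) (upSub (T.pre i.2 U) V)) = 1 := by
    rw [Subgroup.relIndex_eq_one, upSub_pre_eq j U]
  rw [h1, one_smul]

theorem PClassFormation.subInv_res (i : (T.sub j U).ι) {V' V : Subgroup ((T.sub j U).G i)}
    (h : V' ≤ V) (x : groupCohomology ((C.sub j U).atSub i V) 2) :
    cf.subInv j U i V' ((C.sub j U).resMap i h 2 x) = V'.relIndex V • cf.subInv j U i V x := by
  rw [PClassFormation.subInv_apply, PClassFormation.subInv_apply, subCohEquiv_resMap, cf.inv_res]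
  congr 1
  exact Subgroup.relIndex_map_map_of_injective V' V (T.pre i.2 U).subtype_injective

include cf in
theorem PClassFormation.sub_finite_mod_p (i : (T.sub j U).ι) (V : Subgroup ((T.sub j U).G i)) :
    ∃ F : Finset ((C.sub j U).C i), ∀ c : (C.sub j U).C i,
      (∀ u ∈ V, ((C.sub j U).C i).ρ u c = c) →
      ∃ f ∈ F, ∃ e : (C.sub j U).C i, (∀ u ∈ V, ((C.sub j U).C i).ρ u e = e) ∧ c = f + p • e := by
  obtain ⟨F, hF⟩ := cf.finite_mod_p i.1 (upSub (T.pre i.2 U) V)
  refine ⟨F, fun c hc => ?_⟩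
  obtain ⟨f, hf, e, he, hce⟩ := hF c (by
    rintro u ⟨v, hv, rfl⟩
    exact hc v hv)
  exact ⟨f, hf, e, fun u hu => he _ ⟨u, hu, rfl⟩, hce⟩

omit [Fact p.Prime] in
theorem PExistence.sub_existence' (ex : PExistence p T C) (j₀ : (T.sub j U).ι) :
    ∃ (k : (T.sub j U).ι) (h : j₀ ≤ k) (V : Subgroup ((T.sub j U).G k)),
    V ≤ ((T.sub j U).π h).ker ∧ (V.subgroupOf ((T.sub j U).π h).ker).Normal ∧
    (∀ g ∈ ((T.sub j U).π h).ker, g ^ p ∈ V) ∧
    (∀ g ∈ ((T.sub j U).π h).ker, ∀ g' ∈ ((T.sub j U).π h).ker, g * g' * g⁻¹ * g'⁻¹ ∈ V) ∧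
    ∀ d : (C.sub j U).C k, (∀ v ∈ V, ((C.sub j U).C k).ρ v d = d) →
      ∃ e : (C.sub j U).C j₀, ((C.sub j U).φ h).hom (p • e) =
      ∑ᶠ q : ((T.sub j U).π h).ker ⧸ V.subgroupOf ((T.sub j U).π h).ker,
        ((C.sub j U).C k).ρ ((q.out : ((T.sub j U).π h).ker) : (T.sub j U).G k) d := by
  obtain ⟨k, h, V, hVk, hVn, hVp, hVc, hnorm⟩ :=
    ex.existence' j₀.1
  have hker : ∀ x : T.pre (j₀.2.trans h) U,
      x ∈ ((T.sub j U).π (show j₀ ≤ ⟨k, j₀.2.trans h⟩ from h)).ker ↔ (x : T.G k) ∈ (T.π h).ker := by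
    intro x
    rw [MonoidHom.mem_ker, MonoidHom.mem_ker]
    exact ⟨fun hx => congrArg Subtype.val hx, fun hx => Subtype.ext hx⟩
  have hkerW : (T.π h).ker ≤ T.pre (j₀.2.trans h) U := by
    intro g hg
    have h1 : T.π (j₀.2.trans h) g = T.π j₀.2 (T.π h g) := (T.π_comp _ _ g).symm
    show T.π (j₀.2.trans h) g ∈ U
    rw [h1, MonoidHom.mem_ker.1 hg, map_one]
    exact U.one_mem
  refine ⟨⟨k, j₀.2.trans h⟩, h, V.subgroupOf (T.pre (j₀.2.trans h) U), ?_, ?_, ?_, ?_, ?_⟩
  · intro x hx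
    exact (hker x).2 (hVk (Subgroup.mem_subgroupOf.1 hx))
  · constructor
    intro n hn g
    have h1 := hVn.conj_mem ⟨n.1.1, (hker n.1).1 n.2⟩ hn ⟨g.1.1, (hker g.1).1 g.2⟩
    exact h1
  · intro g hg
    exact hVp g.1 ((hker g).1 hg)
  · intro g hg g' hg'
    exact hVc g.1 ((hker g).1 hg) g'.1 ((hker g').1 hg')
  · intro d hd
    obtain ⟨e, he⟩ := hnorm d (fun v hv => hd ⟨v, hkerW (hVk hv)⟩ hv)
    refine ⟨e, he.trans ?_⟩
    exact (finsum_rho_out_eq (fun g x => (C.C k).ρ g x) (fun g h x => by rw [map_mul]; rfl)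
      (T.pre (j₀.2.trans h) U) (T.π h).ker V
      ((T.sub j U).π (show j₀ ≤ ⟨k, j₀.2.trans h⟩ from h)).ker
      (V.subgroupOf (T.pre (j₀.2.trans h) U)) hker (fun _ => Iff.rfl) hkerW d
      (fun v hv => hd ⟨v, hkerW (hVk hv)⟩ hv)).symm

/-- **the restriction of a `p`-class formation to a sub-tower is a `p`-class formation** -/
def PClassFormation.sub : PClassFormation p (T.sub j U) (C.sub j U) where
  descent := sub_hasDescent C j U cf.descent
  pinf := cf.sub_pinf j U
  h1 := PClassFormation.sub_noPTorsion j U 1 cf.h1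
  h3 := PClassFormation.sub_noPTorsion j U 3 cf.h3
  inv := cf.subInv j U
  inv_injective := cf.subInv_injective j U
  inv_surjective := cf.subInv_surjective j U
  inv_infl := cf.subInv_infl j U
  inv_res := cf.subInv_res j U
  finite_mod_p := cf.sub_finite_mod_p j U

omit [Fact p.Prime] in
/-- the existence theorem restricts to sub-towers -/
theorem PExistence.sub (ex : PExistence p T C) : PExistence p (T.sub j U) (C.sub j U) :=
  ⟨ex.sub_existence' j U⟩

end SubFormation

end

end Fermat.Agent.CFT.Duality
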