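import Fermat.Agent.Lib.CFT.Duality.InvLim
import Fermat.Agent.Lib.CFT.Duality.SubTower
import Fermat.Agent.Lib.CFT.Duality.ShapiroLim

/-!
# P4 / Layer D, D-IND : invariants and corestriction, `α` for coinduced tower modules

* `PClassFormation.exists_resMap_top_eq` : restriction is surjective on `p`-primary parts of `H²`;
* `PClassFormation.invCoh_cores` : `inv_G ∘ cores = inv_V` on `p`-primary classes;
* `PClassFormation.sub_invCoh`, `PClassFormation.invTop_extCores`;
* `alpha_coindUp` : `α^r(T, coindUp X) = α^r(T.sub j0 U, X)` through the Shapiro isomorphisms,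
  and the bijectivity transfer `alpha_coindUp_bijective_iff`.
-/

set_option autoImplicit false
set_option linter.unusedSectionVars false

open CategoryTheory Abelian

namespace Fermat.Agent.CFT.Duality

open TowerModule Fermat.Agent.CFT.Coh

noncomputable section

theorem pow_factorization_nsmul_eq_zero {M : Type*} [AddCommGroup M] (p : ℕ) [Fact p.Prime]
    (N : ℕ) (hN : N ≠ 0) (m : ℕ) (z : M) (h1 : N • z = 0) (h2 : p ^ m • z = 0) :
    p ^ N.factorization p • z = 0 := by
  have hg : (Nat.gcd N (p ^ m)) • z = 0 := by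
    rw [← natCast_zsmul, Nat.gcd_eq_gcd_ab, add_smul, mul_comm (N : ℤ),
      mul_comm ((p ^ m : ℕ) : ℤ), mul_smul, mul_smul, natCast_zsmul, natCast_zsmul, h1, h2,
      smul_zero, smul_zero, add_zero]
  obtain ⟨e, -, he⟩ := (Nat.dvd_prime_pow (Fact.out : p.Prime)).1 (Nat.gcd_dvd_right N (p ^ m))
  have hle : e ≤ N.factorization p := by
    have : p ^ e ∣ N := he ▸ Nat.gcd_dvd_left N (p ^ m)
    exact (Nat.Prime.pow_dvd_iff_le_factorization Fact.out hN).1 this
  rw [he] at hg
  rw [← Nat.sub_add_cancel hle, pow_add, mul_smul, hg, smul_zero]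

theorem nsmul_one_div_eq_zero (N : ℕ) (hN : N ≠ 0) :
    N • (((1 / (N : ℚ)) : ℚ) : AddCircle (1 : ℚ)) = 0 := by
  have h1 : N • (((1 / (N : ℚ)) : ℚ) : AddCircle (1 : ℚ)) =
      (((N : ℚ) * (1 / (N : ℚ)) : ℚ) : AddCircle (1 : ℚ)) := by
    rw [← nsmul_eq_mul]
    rfl
  rw [h1, AddCircle.coe_eq_zero_iff]
  refine ⟨1, ?_⟩
  have hN' : (N : ℚ) ≠ 0 := Nat.cast_ne_zero.2 hN
  field_simp
  simp

/-- elements of `ℚ/ℤ` killed by `N` are natural multiples of `1/N` -/
theorem exists_nat_div_of_nsmul_eq_zero (N : ℕ) (hN : N ≠ 0) (a : AddCircle (1 : ℚ))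
    (ha : N • a = 0) : ∃ c : ℕ, a = c • (((1 / (N : ℚ)) : ℚ) : AddCircle (1 : ℚ)) := by
  obtain ⟨c, hc⟩ := exists_int_div_of_nsmul_eq_zero N hN a ha
  have hN' : (N : ℤ) ≠ 0 := Int.natCast_ne_zero.2 hN
  refine ⟨(c % N).toNat, ?_⟩
  have h1 : ((c % N).toNat : ℤ) = c % N := Int.toNat_of_nonneg (Int.emod_nonneg c hN')
  rw [hc, ← natCast_zsmul, h1]
  conv_lhs => rw [← Int.emod_add_mul_ediv c N]
  rw [add_smul, mul_smul, natCast_zsmul, smul_comm, nsmul_one_div_eq_zero N hN, smul_zero,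
    add_zero]

theorem exists_nsmul_index_div_eq (p : ℕ) [Fact p.Prime] (idx cV cG : ℕ)
    (hG : cG ≠ 0) (h : idx * cV = cG) :
    ∃ n : ℕ, n • idx • (((1 / (p ^ cG.factorization p : ℕ) : ℚ)) : AddCircle (1 : ℚ)) =
      (((1 / (p ^ cV.factorization p : ℕ) : ℚ)) : AddCircle (1 : ℚ)) := by
  set a := cG.factorization p
  set b := cV.factorization p
  have hcop : Nat.Coprime (p ^ b) (cG / p ^ a) := (Nat.coprime_ordCompl Fact.out hG).pow_left _
  have hVm : p ^ b * (cV / p ^ b) = cV := Nat.ordProj_mul_ordCompl_eq_self cV p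
  have hGm : p ^ a * (cG / p ^ a) = cG := Nat.ordProj_mul_ordCompl_eq_self cG p
  generalize cV / p ^ b = v' at hVm
  generalize cG / p ^ a = g' at hGm hcop
  obtain ⟨s₀, t₀, hst₀⟩ := Nat.isCoprime_iff_coprime.2 hcop
  have hpbZ : ((p ^ b : ℕ) : ℤ) ≠ 0 :=
    Int.natCast_ne_zero.2 (pow_ne_zero _ (Fact.out : p.Prime).ne_zero)
  -- make the Bezout coefficient of `g'` nonnegative
  obtain ⟨s, t, hst⟩ : ∃ (s : ℤ) (t : ℕ), s * ((p ^ b : ℕ) : ℤ) + (t : ℤ) * (g' : ℤ) = 1 := by
    refine ⟨s₀ + (t₀ / ((p ^ b : ℕ) : ℤ)) * g', (t₀ % ((p ^ b : ℕ) : ℤ)).toNat, ?_⟩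
    rw [Int.toNat_of_nonneg (Int.emod_nonneg t₀ hpbZ)]
    have := Int.emod_add_mul_ediv t₀ ((p ^ b : ℕ) : ℤ)
    linear_combination hst₀ + (g' : ℤ) * this
  refine ⟨t * v', ?_⟩
  have hpa : ((p ^ a : ℕ) : ℚ) ≠ 0 :=
    Nat.cast_ne_zero.2 (pow_ne_zero _ (Fact.out : p.Prime).ne_zero)
  have hpb : ((p ^ b : ℕ) : ℚ) ≠ 0 :=
    Nat.cast_ne_zero.2 (pow_ne_zero _ (Fact.out : p.Prime).ne_zero)
  have key : ((t * v' : ℕ) : ℚ) * ((idx : ℚ) * (1 / ((p ^ a : ℕ) : ℚ))) -
      1 / ((p ^ b : ℕ) : ℚ) = ((-s : ℤ) : ℚ) := by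
    have h1 : ((idx : ℚ)) * (v' : ℚ) * ((p ^ b : ℕ) : ℚ) = ((p ^ a : ℕ) : ℚ) * (g' : ℚ) := by
      rw [← Nat.cast_mul, ← Nat.cast_mul, ← Nat.cast_mul, hGm, ← h, mul_assoc, mul_comm v',
        hVm]
    have h2 : (s : ℚ) * ((p ^ b : ℕ) : ℚ) + (t : ℚ) * (g' : ℚ) = 1 := by
      have := congrArg (fun x : ℤ => (x : ℚ)) hst
      push_cast at this ⊢
      exact this
    generalize ((p ^ a : ℕ) : ℚ) = A at *
    generalize ((p ^ b : ℕ) : ℚ) = B at *
    push_cast
    field_simp
    linear_combination (t : ℚ) * h1 + A * h2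
  have e1 : (t * v') • idx • (((1 / (p ^ a : ℕ) : ℚ)) : AddCircle (1 : ℚ)) =
      ((((t * v' : ℕ) : ℚ) * ((idx : ℚ) * (1 / ((p ^ a : ℕ) : ℚ))) : ℚ) :
        AddCircle (1 : ℚ)) := by
    rw [← nsmul_eq_mul, ← nsmul_eq_mul]
    rfl
  rw [e1, ← sub_eq_zero, ← AddCircle.coe_sub, key, AddCircle.coe_eq_zero_iff]
  exact ⟨-s, by simp⟩

variable {T : Tower} {p : ℕ} [Fact p.Prime] {C : TowerModule ℤ T}

/-- `inv` is injective on the `p`-primary part of `H²(V, C_j)` -/
theorem PClassFormation.inv_injective_pow (cf : PClassFormation p T C) (j : T.ι)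
    (V : Subgroup (T.G j)) (m : ℕ) (x : groupCohomology (C.atSub j V) 2) (hx : p ^ m • x = 0)
    (h : cf.inv j V x = 0) : x = 0 := by
  induction m generalizing x with
  | zero => simpa using hx
  | succ m ih =>
    have h1 : p • x = 0 := by
      apply ih (p • x)
      · rw [← mul_smul, ← pow_succ]
        exact hx
      · rw [map_nsmul, h, smul_zero]
    exact cf.inv_injective j V x h1 h

/-- positive degree cohomology of a subgroup is killed by its order -/
theorem card_nsmul_atSub_eq_zero (C : TowerModule ℤ T) (j : T.ι) (V : Subgroup (T.G j)) (n : ℕ)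
    (x : groupCohomology (C.atSub j V) (n + 1)) : Nat.card V • x = 0 := by
  classical
  let _ : Fintype V := Fintype.ofFinite _
  have := card_smul_eq_zero (C.atSub j V) (n + 1) (Nat.succ_pos n) x
  rwa [Nat.cast_smul_eq_nsmul, ← Nat.card_eq_fintype_card] at this

/-- restriction `H²(⊤, C_j) → H²(V, C_j)` is surjective on `p`-primary parts -/
theorem PClassFormation.exists_resMap_top_eq (cf : PClassFormation p T C) (j : T.ι)
    (V : Subgroup (T.G j)) (m : ℕ) (z : groupCohomology (C.atSub j V) 2) (hz : p ^ m • z = 0) :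
    ∃ y : groupCohomology (C.atSub j ⊤) 2, C.resMap j (le_top : V ≤ ⊤) 2 y = z := by
  obtain ⟨xV, hxV1, hxV2⟩ := cf.inv_surjective j V
  obtain ⟨xT, hxT1, hxT2⟩ := cf.inv_surjective j ⊤
  set b := (Nat.card V).factorization p with hb
  set a := (Nat.card (⊤ : Subgroup (T.G j))).factorization p with ha
  -- `z` is killed by `p ^ b`
  have hzb : p ^ b • z = 0 :=
    pow_factorization_nsmul_eq_zero p (Nat.card V) Nat.card_pos.ne' m z
      (card_nsmul_atSub_eq_zero C j V 1 z) hz
  -- `z` is a multiple of `xV`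
  have hpb : p ^ b ≠ 0 := pow_ne_zero _ (Fact.out : p.Prime).ne_zero
  obtain ⟨c, hc⟩ := exists_nat_div_of_nsmul_eq_zero (p ^ b) hpb (cf.inv j V z)
    (by rw [← map_nsmul, hzb, map_zero])
  have hzc : z = c • xV := by
    rw [← sub_eq_zero]
    apply cf.inv_injective_pow j V b
    · rw [smul_sub, hzb, smul_comm, hxV1, smul_zero, sub_zero]
    · rw [map_sub, map_nsmul, hxV2, hc, sub_self]
  -- `xV` is a multiple of the restriction of `xT`
  have hidx : V.index * Nat.card V = Nat.card (⊤ : Subgroup (T.G j)) := by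
    rw [Subgroup.index_mul_card, Subgroup.card_top]
  obtain ⟨n, hn⟩ := exists_nsmul_index_div_eq p V.index (Nat.card V)
    (Nat.card (⊤ : Subgroup (T.G j))) Nat.card_pos.ne' hidx
  have hres : cf.inv j V (C.resMap j (le_top : V ≤ ⊤) 2 xT) =
      V.index • (((1 / (p ^ a : ℕ) : ℚ)) : AddCircle (1 : ℚ)) := by
    rw [cf.inv_res j (le_top : V ≤ ⊤) xT, Subgroup.relIndex_top_right, hxT2]
  have hxVn : xV = n • C.resMap j (le_top : V ≤ ⊤) 2 xT := by
    rw [← sub_eq_zero]
    apply cf.inv_injective_pow j V (a + b)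
    · have h1 : p ^ (a + b) • xV = 0 := by
        rw [pow_add, mul_smul, hxV1, smul_zero]
      have h2 : p ^ (a + b) • C.resMap j (le_top : V ≤ ⊤) 2 xT = 0 := by
        rw [pow_add, mul_comm, mul_smul, ← map_nsmul, hxT1, map_zero, smul_zero]
      rw [smul_sub, h1, smul_comm, h2, smul_zero, sub_zero]
    · rw [map_sub, map_nsmul, hres, hn, hxV2, sub_self]
  refine ⟨(c * n) • xT, ?_⟩
  rw [map_nsmul, mul_smul, ← hxVn, ← hzc]

/-- **`inv_G ∘ cores = inv_V`** on `p`-primary classes. -/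
theorem PClassFormation.invCoh_cores (cf : PClassFormation p T C) (j : T.ι)
    (V : Subgroup (T.G j)) (m : ℕ) (z : groupCohomology (C.atSub j V) 2) (hz : p ^ m • z = 0) :
    cf.invCoh j (coresOfFiniteIndex (C.C j) V 2 z) = cf.inv j V z := by
  obtain ⟨y, hy⟩ := cf.exists_resMap_top_eq j V m z hz
  obtain ⟨y', hy'⟩ := (resTop_bijective C j 2).2 y
  have e1 : (groupCohomology.map V.subtype (𝟙 (C.atSub j V)) 2).hom y' = z := by
    have := congr($(res_comp_resLE (C.C j) (le_top : V ≤ ⊤) 2) y')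
    rw [← hy, ← hy']
    exact this.symm
  have e2 : coresOfFiniteIndex (C.C j) V 2 z = V.index • y' := by
    rw [← e1]
    have := congr($(res_comp_coresOfFiniteIndex (C.C j) V 2) y')
    refine this.trans ?_
    simp only [ModuleCat.hom_smul, LinearMap.smul_apply, ModuleCat.hom_id, LinearMap.id_apply]
    exact Nat.cast_smul_eq_nsmul ℤ _ _
  rw [e2, map_nsmul, ← hy, cf.inv_res j (le_top : V ≤ ⊤) y, Subgroup.relIndex_top_right, ← hy']
  rfl

theorem upSub_top {G : Type} [Group G] (W : Subgroup G) : upSub W (⊤ : Subgroup W) = W := by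
  ext x
  constructor
  · rintro ⟨y, -, rfl⟩
    exact y.2
  · intro hx
    exact ⟨⟨x, hx⟩, Subgroup.mem_top _, rfl⟩

/-- the invariant of the top group of a level of the sub-tower -/
theorem PClassFormation.sub_invCoh (cf : PClassFormation p T C) (j : T.ι)
    (U : Subgroup (T.G j)) (l : (T.sub j U).ι)
    (z : groupCohomology ((C.sub j U).C l) 2) :
    (cf.sub j U).invCoh l z = cf.inv l.1 (T.pre l.2 U) z := by
  have hle : upSub (T.pre l.2 U) (⊤ : Subgroup (T.pre l.2 U)) ≤ T.pre l.2 U :=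
    (upSub_top (T.pre l.2 U)).le
  have h1 : subCohEquiv C j U l ⊤ 2 (resTop (C.sub j U) l 2 z) = C.resMap l.1 hle 2 z := by
    rw [← AddEquiv.eq_symm_apply]
    have key : groupCohomology.map (⊤ : Subgroup (T.pre l.2 U)).subtype
        (𝟙 ((C.sub j U).atSub l ⊤)) 2 =
        groupCohomology.map (Subgroup.inclusion hle)
          (𝟙 (C.atSub l.1 (upSub (T.pre l.2 U) (⊤ : Subgroup (T.pre l.2 U))))) 2 ≫
        (subSubIso (C.C l.1) (T.pre l.2 U) ⊤ 2).inv := by
      rw [subSubIso_inv, ← groupCohomology.map_comp]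
      exact groupCohomology.map_congr rfl rfl 2
    exact congr($key z)
  change cf.inv l.1 (upSub (T.pre l.2 U) ⊤) (subCohEquiv C j U l ⊤ 2 (resTop (C.sub j U) l 2 z)) = _
  rw [h1, cf.inv_res l.1 hle z]
  have h2 : (upSub (T.pre l.2 U) (⊤ : Subgroup (T.pre l.2 U))).relIndex (T.pre l.2 U) = 1 := by
    rw [Subgroup.relIndex_eq_one, upSub_top]
  rw [h2, one_smul]


/-- the invariant of a corestricted class, in `Ext` language -/
theorem PClassFormation.invTop_extCores (cf : PClassFormation p T C) (j : T.ι)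
    (U : Subgroup (T.G j)) (l : (T.sub j U).ι) (m : ℕ)
    (w : Ext ((triv ℤ (T.sub j U)).C l) ((C.sub j U).C l) 2) (hw : p ^ m • w = 0) :
    cf.invTop l.1 (extCores (T.pre l.2 U) (Rep.trivial ℤ (T.G l.1) ℤ) (C.C l.1) 2 w) =
      (cf.sub j U).invTop l w := by
  obtain ⟨z, rfl⟩ := (cohToExt ((C.sub j U).C l) 2).surjective w
  have hz : p ^ m • z = 0 := by
    apply (cohToExt ((C.sub j U).C l) 2).injective
    rw [map_nsmul]
    exact hw.trans (map_zero _).symm
  have h1 := cohToExt_cores (T.pre l.2 U) (C.C l.1) 2 z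
  have h2 : cf.invTop l.1 (extCores (T.pre l.2 U) (Rep.trivial ℤ (T.G l.1) ℤ) (C.C l.1) 2
      (cohToExt ((C.sub j U).C l) 2 z)) =
      cf.invTop l.1 (cohToExt (C.C l.1) 2 (coresOfFiniteIndex (C.C l.1) (T.pre l.2 U) 2 z)) :=
    congrArg (cf.invTop l.1) h1.symm
  rw [h2, cf.invTop_cohToExt, cf.invCoh_cores l.1 (T.pre l.2 U) m z hz,
    (cf.sub j U).invTop_cohToExt, cf.sub_invCoh]

/-- an `Ext` class out of an object killed by `m` is killed by `m` -/
theorem ext_nsmul_eq_zero_of_nsmul_id {k G : Type} [CommRing k] [Group G] {X Y : Rep.{0} k G}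
    (m : ℕ) (hX : m • 𝟙 X = 0) {r : ℕ} (b : Ext X Y r) : m • b = 0 := by
  have h1 : (Ext.mk₀ (m • 𝟙 X)).comp b (zero_add r) = m • b := by
    rw [mk₀_nsmul]
    have := map_nsmul ((Ext.bilinearComp X X Y 0 r r (zero_add r)).flip b) m (Ext.mk₀ (𝟙 X))
    simp only [AddMonoidHom.flip_apply, Ext.bilinearComp_apply_apply, Ext.mk₀_id_comp] at this
    exact this
  rw [← h1, hX, Ext.mk₀_zero, Ext.zero_comp]

theorem nsmul_id_eq_zero_of_forall {k G : Type} [CommRing k] [Group G] (X : Rep.{0} k G) (m : ℕ)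
    (h : ∀ x : X, m • x = 0) : m • 𝟙 X = 0 := by
  refine Rep.hom_ext (Representation.IntertwiningMap.ext (LinearMap.ext fun y => ?_))
  exact h y

theorem ext_comp_nsmul {k G : Type} [CommRing k] [Group G] {X Y Z : Rep.{0} k G} {s r t : ℕ}
    (a : Ext X Y s) (b : Ext Y Z r) (h : s + r = t) (m : ℕ) :
    a.comp (m • b) h = m • a.comp b h :=
  map_nsmul (Ext.bilinearComp X Y Z s r t h a) m b

variable (j0 : T.ι) (hbot : ∀ i, j0 ≤ i) (U : Subgroup (T.G j0))

/-- **`α` for a coinduced module**: through the Shapiro isomorphisms, the duality maps of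
`coindUp X` over `T` are the duality maps of `X` over the sub-tower `T.sub j0 U`. -/
theorem alpha_coindUp (cf : PClassFormation p T C) (X : TowerModule ℤ (T.sub j0 U))
    [X.IsCartesian] (hX : ∀ l (x : X.C l), p • x = 0) (r s : ℕ) (h : s + r = 2)
    (ξ : ExtLim (X.coindUp j0 hbot U) C r) (x : HLim (X.coindUp j0 hbot U) s) :
    cf.limFormation.alpha (X.coindUp j0 hbot U) r s h ξ x =
      (cf.sub j0 U).limFormation.alpha X r s h (shapiroLLim j0 hbot U X C r ξ)
        (shapiroHLim j0 hbot U X s x) := by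
  obtain ⟨i, x₀, ξ₀, rfl, rfl⟩ := ExtLim.exists_of₂ C x ξ
  rw [LimFormation.alpha_apply, LimFormation.alpha_apply, pairing_of, shapiroLLim_of,
    shapiroHLim_of, pairing_of, PClassFormation.limFormation_invLim,
    PClassFormation.limFormation_invLim, PClassFormation.invLim_of, PClassFormation.invLim_of,
    comp_eq_extCores_level]
  refine cf.invTop_extCores j0 U ⟨i, hbot i⟩ 1 _ ?_
  rw [pow_one, ← ext_comp_nsmul]
  have h0 : p • 𝟙 (X.C ⟨i, hbot i⟩) = 0 := nsmul_id_eq_zero_of_forall _ p (hX _)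
  rw [ext_nsmul_eq_zero_of_nsmul_id p h0, Ext.comp_zero]

/-- abstract transfer of injectivity along isomorphisms of both variables of a pairing map -/
theorem injective_of_pairing_equiv {M M' N N' Q : Type*} [AddCommGroup M] [AddCommGroup M']
    [AddCommGroup N] [AddCommGroup N'] [AddCommGroup Q] (a : M →+ (N →+ Q)) (a' : M' →+ (N' →+ Q))
    (eM : M ≃+ M') (eN : N ≃+ N') (h : ∀ ξ x, a ξ x = a' (eM ξ) (eN x))
    (ha' : Function.Injective a') : Function.Injective a := by
  intro ξ ξ' hξ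
  apply eM.injective
  apply ha'
  ext y
  obtain ⟨x, rfl⟩ := eN.surjective y
  rw [← h, ← h, hξ]

/-- abstract transfer of surjectivity along isomorphisms of both variables of a pairing map -/
theorem surjective_of_pairing_equiv {M M' N N' Q : Type*} [AddCommGroup M] [AddCommGroup M']
    [AddCommGroup N] [AddCommGroup N'] [AddCommGroup Q] (a : M →+ (N →+ Q)) (a' : M' →+ (N' →+ Q))
    (eM : M ≃+ M') (eN : N ≃+ N') (h : ∀ ξ x, a ξ x = a' (eM ξ) (eN x))
    (ha' : Function.Surjective a') : Function.Surjective a := by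
  intro f
  obtain ⟨η, hη⟩ := ha' (f.comp eN.symm.toAddMonoidHom)
  refine ⟨eM.symm η, ?_⟩
  ext x
  rw [h, AddEquiv.apply_symm_apply, hη]
  simp

/-- `α^r(T, coindUp X)` is injective iff `α^r(T.sub j0 U, X)` is. -/
theorem alpha_coindUp_injective_iff (cf : PClassFormation p T C)
    (X : TowerModule ℤ (T.sub j0 U)) [X.IsCartesian] (hX : ∀ l (x : X.C l), p • x = 0)
    (r s : ℕ) (h : s + r = 2) :
    Function.Injective (cf.limFormation.alpha (X.coindUp j0 hbot U) r s h) ↔
      Function.Injective ((cf.sub j0 U).limFormation.alpha X r s h) := by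
  constructor
  · intro ha
    refine injective_of_pairing_equiv _ _ (shapiroLLim j0 hbot U X C r).symm
      (shapiroHLim j0 hbot U X s).symm (fun ξ x => ?_) ha
    rw [alpha_coindUp j0 hbot U cf X hX, AddEquiv.apply_symm_apply, AddEquiv.apply_symm_apply]
  · intro ha
    exact injective_of_pairing_equiv _ _ (shapiroLLim j0 hbot U X C r)
      (shapiroHLim j0 hbot U X s) (fun ξ x => alpha_coindUp j0 hbot U cf X hX r s h ξ x) ha

/-- `α^r(T, coindUp X)` is surjective iff `α^r(T.sub j0 U, X)` is. -/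
theorem alpha_coindUp_surjective_iff (cf : PClassFormation p T C)
    (X : TowerModule ℤ (T.sub j0 U)) [X.IsCartesian] (hX : ∀ l (x : X.C l), p • x = 0)
    (r s : ℕ) (h : s + r = 2) :
    Function.Surjective (cf.limFormation.alpha (X.coindUp j0 hbot U) r s h) ↔
      Function.Surjective ((cf.sub j0 U).limFormation.alpha X r s h) := by
  constructor
  · intro ha
    refine surjective_of_pairing_equiv _ _ (shapiroLLim j0 hbot U X C r).symm
      (shapiroHLim j0 hbot U X s).symm (fun ξ x => ?_) ha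
    rw [alpha_coindUp j0 hbot U cf X hX, AddEquiv.apply_symm_apply, AddEquiv.apply_symm_apply]
  · intro ha
    exact surjective_of_pairing_equiv _ _ (shapiroLLim j0 hbot U X C r)
      (shapiroHLim j0 hbot U X s) (fun ξ x => alpha_coindUp j0 hbot U cf X hX r s h ξ x) ha

/-- `α^r(T, coindUp X)` is bijective iff `α^r(T.sub j0 U, X)` is. -/
theorem alpha_coindUp_bijective_iff (cf : PClassFormation p T C)
    (X : TowerModule ℤ (T.sub j0 U)) [X.IsCartesian] (hX : ∀ l (x : X.C l), p • x = 0)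
    (r s : ℕ) (h : s + r = 2) :
    Function.Bijective (cf.limFormation.alpha (X.coindUp j0 hbot U) r s h) ↔
      Function.Bijective ((cf.sub j0 U).limFormation.alpha X r s h) :=
  and_congr (alpha_coindUp_injective_iff j0 hbot U cf X hX r s h)
    (alpha_coindUp_surjective_iff j0 hbot U cf X hX r s h)

/-- `Ext^r(coindUp X, B) = 0` in the limit if `Ext^r(X, B|U) = 0` in the limit over the sub-tower. -/
theorem extLim_coindUp_eq_zero {k : Type} [CommRing k] (X : TowerModule k (T.sub j0 U))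
    [X.IsCartesian] (B : TowerModule k T) (r : ℕ)
    (h0 : ∀ y : ExtLim X (B.sub j0 U) r, y = 0) (x : ExtLim (X.coindUp j0 hbot U) B r) : x = 0 :=
  (shapiroLLim j0 hbot U X B r).injective ((h0 _).trans (map_zero _).symm)

end

end Fermat.Agent.CFT.Duality
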