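import Fermat.Agent.Lib.CFT.Duality.Cartesian
import Fermat.Agent.Lib.CFT.Duality.LimFormation

/-!
# P4 / Layer D : finite `p`-torsion tower modules

`TowerModule.IsFinPTorsion p A` : every level of `A` is finite and killed by `p`.  Instances for
constant tower modules, `FpMod`, restrictions to sub-towers and inflations from the bottom level.
-/

set_option autoImplicit false
set_option linter.unusedSectionVars false

open CategoryTheory Abelian

namespace Fermat.Agent.CFT.Duality

noncomputable section

namespace TowerModule

variable {T : Tower}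

/-- Every level of `A` is finite and killed by `p`. -/
class IsFinPTorsion (p : ℕ) (A : TowerModule ℤ T) : Prop where
  finite : ∀ l, Finite (A.C l)
  torsion : ∀ l (a : A.C l), p • a = 0

attribute [instance] IsFinPTorsion.finite

instance const_isFinPTorsion (p : ℕ) (V : Type) [AddCommGroup V] [Finite V]
    [Fact (∀ v : V, p • v = 0)] : (const (k := ℤ) T V).IsFinPTorsion p where
  finite _ := show Finite V from inferInstance
  torsion _ a := Fact.out (p := ∀ v : V, p • v = 0) a

lemma const_isFinPTorsion' (p : ℕ) (V : Type) [AddCommGroup V] [Finite V]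
    (h : ∀ v : V, p • v = 0) : (const (k := ℤ) T V).IsFinPTorsion p where
  finite _ := show Finite V from inferInstance
  torsion _ a := h a

instance fpMod_isFinPTorsion (p : ℕ) [Fact p.Prime] : (FpMod p T).IsFinPTorsion p :=
  const_isFinPTorsion' p (ZMod p) (fun v => by
    rw [nsmul_eq_mul, ZMod.natCast_self, zero_mul])

instance sub_isFinPTorsion (p : ℕ) (A : TowerModule ℤ T) [A.IsFinPTorsion p] (j : T.ι)
    (U : Subgroup (T.G j)) : (A.sub j U).IsFinPTorsion p where
  finite i := show Finite (A.C i.1) from inferInstance
  torsion i a := IsFinPTorsion.torsion (A := A) i.1 a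

lemma inflB_isFinPTorsion (p : ℕ) {b : T.ι} (hb : ∀ l, b ≤ l) (A₀ : Rep ℤ (T.G b)) [Finite A₀]
    (h : ∀ a : A₀, p • a = 0) : (inflB T b hb A₀).IsFinPTorsion p where
  finite _ := show Finite A₀ from inferInstance
  torsion _ a := h a

/-- Transport along an isomorphism of tower modules. -/
lemma IsFinPTorsion.of_iso (p : ℕ) {A B : TowerModule ℤ T} [A.IsFinPTorsion p] (e : A.Iso B) :
    B.IsFinPTorsion p where
  finite l := by
    refine Finite.of_surjective (fun a : A.C l => (e.hom.f l).hom a) (fun y => ?_)
    exact ⟨(e.inv.f l).hom y, congrArg (fun g => g.hom y) (e.inv_hom_id l)⟩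
  torsion l y := by
    have hy : (e.hom.f l).hom ((e.inv.f l).hom y) = y :=
      congrArg (fun g => g.hom y) (e.inv_hom_id l)
    rw [← hy, ← map_nsmul, IsFinPTorsion.torsion (p := p) (A := A) l, map_zero]

end TowerModule

end

end Fermat.Agent.CFT.Duality
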