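import Fermat.Agent.Lib.CFT.Duality.Cartesian
import Fermat.Agent.Lib.CFT.Coh.AugRep

/-!
# P4 / Layer D (D-TQ): sub- and quotient tower modules, short exact sequences from functions

* `ShortExact.ofFunctions` : a short exact sequence of tower modules from levelwise injectivity,
  surjectivity and exactness of the underlying functions.
* `SubFamily B` : a family of `G`-stable submodules of the levels of `B`, stable under the transition
  maps; `B.subOf W`, `B.quotOf W`, `W.incl`, `W.proj`, `W.shortExact`.
* `Hom.range f`, `Hom.toRange f`.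
-/

set_option autoImplicit false
set_option linter.unusedSectionVars false

open CategoryTheory

namespace Fermat.Agent.CFT.Duality

noncomputable section

namespace TowerModule

variable {k : Type} [CommRing k] {T : Tower}

/-- Build a morphism of tower modules from levelwise morphisms and elementwise commutation. -/
def Hom.mk' {A B : TowerModule k T} (f : ∀ i, A.C i ⟶ B.C i)
    (h : ∀ {i j : T.ι} (hij : i ≤ j) (x : A.C i),
      (f j).hom ((A.φ hij).hom x) = (B.φ hij).hom ((f i).hom x)) : A.Hom B where
  f := f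
  comm hij := Rep.hom_ext (Representation.IntertwiningMap.ext (LinearMap.ext (h hij)))

lemma Hom.comm_apply {A B : TowerModule k T} (f : A.Hom B) {i j : T.ι} (hij : i ≤ j) (x : A.C i) :
    (f.f j).hom ((A.φ hij).hom x) = (B.φ hij).hom ((f.f i).hom x) :=
  congrArg (fun u => u.hom x) (f.comm hij)

/-- A short exact sequence of tower modules from exactness of the underlying functions. -/
def ShortExact.ofFunctions {B₁ B₂ B₃ : TowerModule k T} (f : B₁.Hom B₂) (g : B₂.Hom B₃)
    (hf : ∀ j, Function.Injective (f.f j).hom) (hg : ∀ j, Function.Surjective (g.f j).hom)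
    (hgf : ∀ j (x : B₁.C j), (g.f j).hom ((f.f j).hom x) = 0)
    (hex : ∀ j (y : B₂.C j), (g.f j).hom y = 0 → ∃ x : B₁.C j, (f.f j).hom x = y) :
    ShortExact B₁ B₂ B₃ where
  f := f
  g := g
  zero j := by
    ext x
    exact hgf j x
  exact j := Coh.shortExact_of_functions (X := ShortComplex.mk (f.f j) (g.f j)
    (by ext x; exact hgf j x)) (hf j) (hg j) (hex j)

/-- A family of `G`-stable submodules of the levels of a tower module, stable under the
transition maps. -/
structure SubFamily (B : TowerModule k T) where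
  /-- the submodule at each level -/
  W : ∀ j, Submodule k (B.C j).V
  stable_ρ : ∀ (j : T.ι) (g : T.G j), W j ≤ (W j).comap ((B.C j).ρ g)
  stable_φ : ∀ {i j : T.ι} (h : i ≤ j), W i ≤ (W j).comap (B.φ h).hom.toLinearMap

namespace SubFamily

variable {B : TowerModule k T} (W : B.SubFamily)

/-- The sub tower module. -/
def subOf : TowerModule k T where
  C j := Rep.of ((B.C j).ρ.subrepresentation (W.W j) (W.stable_ρ j))
  φ {i j} h := Rep.ofHom ⟨(B.φ h).hom.toLinearMap.restrict (W.stable_φ h), fun g => by
    ext x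
    exact Rep.hom_comm_apply (B.φ h) g x.1⟩
  φ_refl i x := Subtype.ext (B.φ_refl i x.1)
  φ_comp h h' x := Subtype.ext (B.φ_comp h h' x.1)

/-- The quotient tower module. -/
def quotOf : TowerModule k T where
  C j := Rep.of ((B.C j).ρ.quotient (W.W j) (W.stable_ρ j))
  φ {i j} h := Rep.ofHom ⟨Submodule.mapQ (W.W i) (W.W j) (B.φ h).hom.toLinearMap (W.stable_φ h),
    fun g => by
      apply LinearMap.ext
      intro x
      induction x using Submodule.Quotient.induction_on with
      | H x =>
        exact congrArg (Submodule.Quotient.mk (p := W.W j)) (Rep.hom_comm_apply (B.φ h) g x)⟩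
  φ_refl i x := by
    induction x using Submodule.Quotient.induction_on with
    | H x => exact congrArg (Submodule.Quotient.mk (p := W.W i)) (B.φ_refl i x)
  φ_comp {i j l} h h' x := by
    induction x using Submodule.Quotient.induction_on with
    | H x => exact congrArg (Submodule.Quotient.mk (p := W.W l)) (B.φ_comp h h' x)

/-- The inclusion of the sub tower module. -/
def incl : W.subOf.Hom B :=
  Hom.mk' (fun j => Rep.ofHom ⟨(W.W j).subtype, fun _ => rfl⟩) (fun _ _ => rfl)

/-- The projection onto the quotient tower module. -/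
def proj : B.Hom W.quotOf :=
  Hom.mk' (fun j => Rep.ofHom ⟨(W.W j).mkQ, fun _ => rfl⟩) (fun _ _ => rfl)

@[simp] lemma incl_apply (j : T.ι) (x : W.subOf.C j) :
    (W.incl.f j).hom x = (show W.W j from x).1 := rfl

@[simp] lemma proj_apply (j : T.ι) (x : B.C j) :
    (W.proj.f j).hom x = Submodule.Quotient.mk (p := W.W j) x := rfl

/-- `0 → W → B → B/W → 0`. -/
def shortExact : ShortExact W.subOf B W.quotOf :=
  ShortExact.ofFunctions W.incl W.proj (fun j => Subtype.val_injective)
    (fun j => Submodule.Quotient.mk_surjective (W.W j))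
    (fun j x => (Submodule.Quotient.mk_eq_zero (W.W j)).2 (show W.W j from x).2)
    (fun j y hy => ⟨(⟨y, (Submodule.Quotient.mk_eq_zero (W.W j)).1 hy⟩ : W.W j), rfl⟩)

end SubFamily

/-- The image of a morphism of tower modules. -/
def Hom.range {A B : TowerModule k T} (f : A.Hom B) : B.SubFamily where
  W j := LinearMap.range (f.f j).hom.toLinearMap
  stable_ρ j g := by
    rintro _ ⟨x, rfl⟩
    exact ⟨(A.C j).ρ g x, Rep.hom_comm_apply (f.f j) g x⟩
  stable_φ {i j} h := by
    rintro _ ⟨x, rfl⟩
    exact ⟨(A.φ h).hom x, f.comm_apply h x⟩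

/-- A morphism of tower modules, corestricted to its image. -/
def Hom.toRange {A B : TowerModule k T} (f : A.Hom B) : A.Hom f.range.subOf :=
  Hom.mk' (fun j => Rep.ofHom ⟨(f.f j).hom.toLinearMap.rangeRestrict, fun g => by
      ext x
      exact Rep.hom_comm_apply (f.f j) g x⟩)
    (fun h x => Subtype.ext (f.comm_apply h x))

lemma Hom.toRange_surjective {A B : TowerModule k T} (f : A.Hom B) (j : T.ι) :
    Function.Surjective (f.toRange.f j).hom := by
  rintro ⟨_, x, rfl⟩
  exact ⟨x, rfl⟩

lemma Hom.toRange_apply {A B : TowerModule k T} (f : A.Hom B) (j : T.ι) (x : A.C j) :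
    (f.range.incl.f j).hom ((f.toRange.f j).hom x) = (f.f j).hom x := rfl

/-! ### Finite products of tower modules -/

section Pi

/-- The product of a family of representations. -/
def piRepn {G ι : Type} [Monoid G] {V : ι → Type} [∀ q, AddCommGroup (V q)]
    [∀ q, Module k (V q)] (ρ : ∀ q, Representation k G (V q)) :
    Representation k G (∀ q, V q) where
  toFun g := LinearMap.pi (fun q => (ρ q g) ∘ₗ LinearMap.proj q)
  map_one' := by
    apply LinearMap.ext
    intro x
    funext q
    simp
  map_mul' g h := by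
    apply LinearMap.ext
    intro x
    funext q
    simp

@[simp] lemma piRepn_apply {G ι : Type} [Monoid G] {V : ι → Type} [∀ q, AddCommGroup (V q)]
    [∀ q, Module k (V q)] (ρ : ∀ q, Representation k G (V q)) (g : G) (x : ∀ q, V q) (q : ι) :
    piRepn ρ g x q = ρ q g (x q) := rfl

variable {ι : Type} (B : ι → TowerModule k T)

/-- The product of a family of tower modules. -/
def piT : TowerModule k T where
  C j := Rep.of (piRepn (fun q => ((B q).C j).ρ))
  φ {i j} h := Rep.ofHom ⟨LinearMap.pi (fun q => ((B q).φ h).hom.toLinearMap ∘ₗ LinearMap.proj q),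
    fun g => by
      apply LinearMap.ext
      intro x
      funext q
      exact Rep.hom_comm_apply ((B q).φ h) g (x q)⟩
  φ_refl i x := funext fun q => (B q).φ_refl i (x q)
  φ_comp h h' x := funext fun q => (B q).φ_comp h h' (x q)

/-- The projections of the product. -/
def piProj (q : ι) : (piT B).Hom (B q) :=
  Hom.mk' (fun j => Rep.ofHom ⟨LinearMap.proj q, fun _ => rfl⟩) (fun _ _ => rfl)

@[simp] lemma piProj_apply (q : ι) (j : T.ι) (x : (piT B).C j) :
    ((piProj B q).f j).hom x = (show ∀ q, (B q).C j from x) q := rfl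

/-- The map into a product. -/
def Hom.pi {A : TowerModule k T} (f : ∀ q, A.Hom (B q)) : A.Hom (piT B) :=
  Hom.mk' (fun j => Rep.ofHom ⟨LinearMap.pi (fun q => ((f q).f j).hom.toLinearMap), fun g => by
      apply LinearMap.ext
      intro x
      funext q
      exact Rep.hom_comm_apply ((f q).f j) g x⟩)
    (fun h x => funext fun q => (f q).comm_apply h x)

@[simp] lemma Hom.pi_apply {A : TowerModule k T} (f : ∀ q, A.Hom (B q)) (j : T.ι) (x : A.C j)
    (q : ι) : (show ∀ q, (B q).C j from ((Hom.pi B f).f j).hom x) q = ((f q).f j).hom x := rfl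

variable [DecidableEq ι]

/-- The inclusions into the product. -/
def piIncl (q : ι) : (B q).Hom (piT B) :=
  Hom.mk' (fun j => Rep.ofHom ⟨LinearMap.single k (fun q => ((B q).C j).V) q, fun g => by
      apply LinearMap.ext
      intro x
      funext q'
      change (Pi.single q (((B q).C j).ρ g x) : ∀ q, ((B q).C j).V) q'
        = ((B q').C j).ρ g ((Pi.single q x : ∀ q, ((B q).C j).V) q')
      by_cases h : q' = q
      · subst h; simp
      · simp [Pi.single_eq_of_ne h]⟩)
    (fun {i j} h x => by
      funext q'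
      change (Pi.single q (((B q).φ h).hom x) : ∀ q, ((B q).C j).V) q'
        = ((B q').φ h).hom ((Pi.single q x : ∀ q, ((B q).C i).V) q')
      by_cases hq : q' = q
      · subst hq; simp
      · simp [Pi.single_eq_of_ne hq])

@[simp] lemma piIncl_apply (q : ι) (j : T.ι) (x : (B q).C j) :
    (show ∀ q, (B q).C j from ((piIncl B q).f j).hom x) = Pi.single q x := rfl

variable [Fintype ι]

/-- The map out of a finite product. -/
def Hom.sum {A : TowerModule k T} (g : ∀ q, (B q).Hom A) : (piT B).Hom A :=
  Hom.mk' (fun j => Rep.ofHom ⟨∑ q, ((g q).f j).hom.toLinearMap ∘ₗ LinearMap.proj q, fun γ => by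
      apply LinearMap.ext
      intro x
      simp only [LinearMap.comp_apply, LinearMap.sum_apply, LinearMap.proj_apply, map_sum]
      refine Finset.sum_congr rfl fun q _ => ?_
      exact Rep.hom_comm_apply ((g q).f j) γ (x q)⟩)
    (fun {i j} h x => by
      change (∑ q, ((g q).f j).hom.toLinearMap ∘ₗ LinearMap.proj q) (((piT B).φ h).hom x)
        = (A.φ h).hom ((∑ q, ((g q).f i).hom.toLinearMap ∘ₗ LinearMap.proj q) x)
      simp only [LinearMap.comp_apply, LinearMap.sum_apply, LinearMap.proj_apply, map_sum]
      refine Finset.sum_congr rfl fun q _ => ?_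
      exact (g q).comm_apply h (x q))

lemma Hom.sum_apply {A : TowerModule k T} (g : ∀ q, (B q).Hom A) (j : T.ι) (x : (piT B).C j) :
    ((Hom.sum B g).f j).hom x = ∑ q, ((g q).f j).hom ((show ∀ q, (B q).C j from x) q) := by
  change (∑ q, ((g q).f j).hom.toLinearMap ∘ₗ LinearMap.proj q) x = _
  simp only [LinearMap.comp_apply, LinearMap.sum_apply, LinearMap.proj_apply]
  rfl

end Pi

/-! ### `ExtLim` with values in a finite product -/

section PiExt

open Abelian

variable {ι : Type} [Fintype ι] [DecidableEq ι] (B : ι → TowerModule k T)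
  (A : TowerModule k T) [A.IsCartesian] (r : ℕ)

lemma piIncl_f_comp_piProj_f_self (q : ι) (j : T.ι) :
    (piIncl B q).f j ≫ (piProj B q).f j = 𝟙 ((B q).C j) := by
  ext x
  change (Pi.single q x : ∀ q, ((B q).C j).V) q = x
  simp

lemma piIncl_f_comp_piProj_f_of_ne {q q' : ι} (h : q ≠ q') (j : T.ι) :
    (piIncl B q).f j ≫ (piProj B q').f j = 0 := by
  ext x
  change (Pi.single q x : ∀ q, ((B q).C j).V) q' = 0
  exact Pi.single_eq_of_ne (M := fun q => ((B q).C j).V) (Ne.symm h) x

lemma sum_piProj_f_comp_piIncl_f (j : T.ι) :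
    ∑ q, (piProj B q).f j ≫ (piIncl B q).f j = 𝟙 ((piT B).C j) := by
  apply Rep.hom_ext
  rw [Rep.sum_hom]
  apply Representation.IntertwiningMap.ext
  apply LinearMap.ext
  intro x
  have h1 : ∀ (s : Finset ι),
      (∑ q ∈ s, ((piProj B q).f j ≫ (piIncl B q).f j).hom).toLinearMap x
        = ∑ q ∈ s, (Pi.single q ((show ∀ q, (B q).C j from x) q) : ∀ q, ((B q).C j).V) := by
    intro s
    induction s using Finset.induction_on with
    | empty => rfl
    | insert a s ha ih =>
      rw [Finset.sum_insert ha, Finset.sum_insert ha, ← ih]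
      rfl
  rw [h1]
  exact Finset.univ_sum_single (show ∀ q, (B q).C j from x)

lemma ExtLim.mapRight_piIncl_piProj_self (q : ι) (y : ExtLim A (B q) r) :
    ExtLim.mapRight A (piProj B q) r (ExtLim.mapRight A (piIncl B q) r y) = y := by
  induction y using ExtLim.induction_on with
  | h j ξ =>
    rw [ExtLim.mapRight_of, ExtLim.mapRight_of, Ext.comp_assoc_of_third_deg_zero,
      Ext.mk₀_comp_mk₀, piIncl_f_comp_piProj_f_self, Ext.comp_mk₀_id]

lemma ExtLim.mapRight_piIncl_piProj_of_ne {q q' : ι} (h : q ≠ q') (y : ExtLim A (B q) r) :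
    ExtLim.mapRight A (piProj B q') r (ExtLim.mapRight A (piIncl B q) r y) = 0 := by
  induction y using ExtLim.induction_on with
  | h j ξ =>
    rw [ExtLim.mapRight_of, ExtLim.mapRight_of, Ext.comp_assoc_of_third_deg_zero,
      Ext.mk₀_comp_mk₀, piIncl_f_comp_piProj_f_of_ne B h, Ext.mk₀_zero, Ext.comp_zero, map_zero]

lemma ext_mk₀_sum {C : Type*} [Category C] [Abelian C] [HasExt C] {X Y : C} (s : Finset ι)
    (f : ι → (X ⟶ Y)) : Ext.mk₀ (∑ q ∈ s, f q) = ∑ q ∈ s, Ext.mk₀ (f q) := by
  induction s using Finset.induction_on with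
  | empty => simp [Ext.mk₀_zero]
  | insert a s ha ih => rw [Finset.sum_insert ha, Finset.sum_insert ha, Ext.mk₀_add, ih]

lemma ext_comp_sum {C : Type*} [Category C] [Abelian C] [HasExt C] {X Y Z : C} {n m t : ℕ}
    (ξ : Ext X Y n) (s : Finset ι) (f : ι → Ext Y Z m) (h : n + m = t) :
    ξ.comp (∑ q ∈ s, f q) h = ∑ q ∈ s, ξ.comp (f q) h := by
  induction s using Finset.induction_on with
  | empty => simp
  | insert a s ha ih => rw [Finset.sum_insert ha, Finset.sum_insert ha, Ext.comp_add, ih]

lemma ExtLim.sum_mapRight_piProj_piIncl (x : ExtLim A (piT B) r) :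
    ∑ q, ExtLim.mapRight A (piIncl B q) r (ExtLim.mapRight A (piProj B q) r x) = x := by
  induction x using ExtLim.induction_on with
  | h j ξ =>
    have h1 : ∀ q, ExtLim.mapRight A (piIncl B q) r
        (ExtLim.mapRight A (piProj B q) r (ExtLim.of A (piT B) r j ξ))
        = ExtLim.of A (piT B) r j
            (ξ.comp (Ext.mk₀ ((piProj B q).f j ≫ (piIncl B q).f j)) (add_zero r)) := by
      intro q
      rw [ExtLim.mapRight_of, ExtLim.mapRight_of, Ext.comp_assoc_of_third_deg_zero,
        Ext.mk₀_comp_mk₀]
    simp_rw [h1]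
    rw [← map_sum, ← ext_comp_sum, ← ext_mk₀_sum, sum_piProj_f_comp_piIncl_f, Ext.comp_mk₀_id]

/-- `ExtLim` commutes with finite products in the second variable. -/
def ExtLim.piEquiv : ExtLim A (piT B) r ≃+ (∀ q, ExtLim A (B q) r) where
  toFun x q := ExtLim.mapRight A (piProj B q) r x
  invFun y := ∑ q, ExtLim.mapRight A (piIncl B q) r (y q)
  left_inv x := ExtLim.sum_mapRight_piProj_piIncl B A r x
  right_inv y := by
    funext q'
    change ExtLim.mapRight A (piProj B q') r (∑ q, ExtLim.mapRight A (piIncl B q) r (y q)) = y q'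
    rw [map_sum, Finset.sum_eq_single q']
    · exact ExtLim.mapRight_piIncl_piProj_self B A r q' (y q')
    · intro q _ hq
      exact ExtLim.mapRight_piIncl_piProj_of_ne B A r hq (y q)
    · intro h
      exact absurd (Finset.mem_univ q') h
  map_add' x x' := by
    funext q
    exact map_add _ x x'

@[simp] lemma ExtLim.piEquiv_apply (x : ExtLim A (piT B) r) (q : ι) :
    ExtLim.piEquiv B A r x q = ExtLim.mapRight A (piProj B q) r x := rfl

end PiExt

end TowerModule

end

end Fermat.Agent.CFT.Duality
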