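import Fermat.Agent.Lib.CFT.Duality.CoindTower
import Fermat.Agent.Lib.CFT.Duality.TowerQuot
import Fermat.Agent.Lib.CFT.Duality.FinPTorsion

/-!
# P4 / Layer D, D-SH : the short exact sequence `0 → A → coindUp (A|U) → M₂ → 0`

* `SubFamily.quotOf_isCartesian` : the quotient of a cartesian tower module by a sub-family `W` with
  `W_i = φ⁻¹ W_j` is cartesian; `Hom.range_quotOf_isCartesian` : the cokernel of a morphism of
  cartesian tower modules is cartesian.
* `coindUpCoker j0 hbot U A`, `coindUpSES j0 hbot U A : ShortExact A (coindUp (A|U)) (coindUpCoker A)`.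
* instances `IsCartesian`, `IsFinPTorsion p` for `coindUp X` and `coindUpCoker A`.
-/

set_option autoImplicit false
set_option linter.unusedSectionVars false

open CategoryTheory Abelian Rep Representation

namespace Fermat.Agent.CFT.Duality

noncomputable section

namespace TowerModule

variable {k : Type} [CommRing k] {T : Tower}

/-- bijectivity of the transition maps of a cartesian tower module -/
theorem φ_bijective (A : TowerModule k T) [A.IsCartesian] {i j : T.ι} (h : i ≤ j) :
    Function.Bijective (A.φ h).hom :=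
  ⟨A.φ_injective h, fun y => ⟨(inv (A.φ h)).hom y, A.φ_inv_φ h y⟩⟩

/-- a tower module with bijective transition maps is cartesian -/
theorem isCartesian_of_bijective (A : TowerModule k T)
    (h : ∀ {i j : T.ι} (hij : i ≤ j), Function.Bijective (A.φ hij).hom) : A.IsCartesian :=
  ⟨fun hij => rep_isIso_of_bij _ (h hij)⟩

/-- The quotient of a cartesian tower module by a sub-family with `W_i = φ⁻¹ W_j` is cartesian. -/
theorem SubFamily.quotOf_isCartesian {B : TowerModule k T} [B.IsCartesian] (W : B.SubFamily)
    (hW : ∀ {i j : T.ι} (h : i ≤ j) (x : B.C i), (B.φ h).hom x ∈ W.W j → x ∈ W.W i) :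
    W.quotOf.IsCartesian := by
  refine isCartesian_of_bijective _ (fun {i j} hij => ⟨?_, ?_⟩)
  · rw [injective_iff_map_eq_zero]
    intro x hx
    induction x using Submodule.Quotient.induction_on with
    | H x =>
      have h1 : Submodule.Quotient.mk (p := W.W j) ((B.φ hij).hom x) = 0 := hx
      rw [Submodule.Quotient.mk_eq_zero] at h1
      exact (Submodule.Quotient.mk_eq_zero (W.W i)).2 (hW hij x h1)
  · intro y
    induction y using Submodule.Quotient.induction_on with
    | H y =>
      obtain ⟨x, rfl⟩ := (B.φ_bijective hij).2 y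
      exact ⟨Submodule.Quotient.mk (p := W.W i) x, rfl⟩

/-- The cokernel of a morphism of cartesian tower modules is cartesian. -/
theorem Hom.range_quotOf_isCartesian {A B : TowerModule k T} [A.IsCartesian] [B.IsCartesian]
    (f : A.Hom B) : f.range.quotOf.IsCartesian := by
  refine SubFamily.quotOf_isCartesian f.range (fun {i j} h x hx => ?_)
  obtain ⟨a, ha⟩ := hx
  obtain ⟨a', rfl⟩ := (A.φ_bijective h).2 a
  refine ⟨a', ?_⟩
  apply B.φ_injective h
  exact (f.comm_apply h a').symm.trans ha

/-- `0 → A → B → B / f(A) → 0` for a levelwise injective `f`. -/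
def Hom.rangeSES {A B : TowerModule k T} (f : A.Hom B)
    (hf : ∀ j, Function.Injective (f.f j).hom) : ShortExact A B f.range.quotOf :=
  ShortExact.ofFunctions f f.range.proj hf
    (fun j => Submodule.Quotient.mk_surjective (f.range.W j))
    (fun j x => (Submodule.Quotient.mk_eq_zero (f.range.W j)).2 ⟨x, rfl⟩)
    (fun j _ hy => (Submodule.Quotient.mk_eq_zero (f.range.W j)).1 hy)

@[simp] lemma Hom.rangeSES_f {A B : TowerModule k T} (f : A.Hom B)
    (hf : ∀ j, Function.Injective (f.f j).hom) : (f.rangeSES hf).f = f := rfl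

@[simp] lemma Hom.rangeSES_g {A B : TowerModule k T} (f : A.Hom B)
    (hf : ∀ j, Function.Injective (f.f j).hom) : (f.rangeSES hf).g = f.range.proj := rfl

section Coind

variable (j0 : T.ι) (hbot : ∀ i, j0 ≤ i) (U : Subgroup (T.G j0))

/-- The cokernel `M₂` of the unit `A → coindUp (A|U)`. -/
def coindUpCoker (A : TowerModule k T) : TowerModule k T :=
  (coindUpUnit j0 hbot U A).range.quotOf

/-- The projection `coindUp (A|U) → M₂`. -/
def coindUpProj (A : TowerModule k T) :
    ((A.sub j0 U).coindUp j0 hbot U).Hom (coindUpCoker j0 hbot U A) :=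
  (coindUpUnit j0 hbot U A).range.proj

/-- The short exact sequence `0 → A → coindUp (A|U) → M₂ → 0`. -/
def coindUpSES (A : TowerModule k T) :
    ShortExact A ((A.sub j0 U).coindUp j0 hbot U) (coindUpCoker j0 hbot U A) :=
  (coindUpUnit j0 hbot U A).rangeSES (coindUpUnit_injective j0 hbot U A)

@[simp] lemma coindUpSES_f (A : TowerModule k T) :
    (coindUpSES j0 hbot U A).f = coindUpUnit j0 hbot U A := rfl

@[simp] lemma coindUpSES_g (A : TowerModule k T) :
    (coindUpSES j0 hbot U A).g = coindUpProj j0 hbot U A := rfl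

lemma coindUpProj_surjective (A : TowerModule k T) (i : T.ι) :
    Function.Surjective ((coindUpProj j0 hbot U A).f i).hom :=
  Submodule.Quotient.mk_surjective _

lemma coindUpProj_eq_zero_iff (A : TowerModule k T) (i : T.ι)
    (F : ((A.sub j0 U).coindUp j0 hbot U).C i) :
    ((coindUpProj j0 hbot U A).f i).hom F = 0 ↔
      ∃ a : A.C i, ((coindUpUnit j0 hbot U A).f i).hom a = F :=
  Submodule.Quotient.mk_eq_zero _

instance coindUpCoker_isCartesian (A : TowerModule k T) [A.IsCartesian] :
    (coindUpCoker j0 hbot U A).IsCartesian :=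
  Hom.range_quotOf_isCartesian (coindUpUnit j0 hbot U A)

end Coind

section FinPTorsion

variable {T : Tower} (j0 : T.ι) (hbot : ∀ i, j0 ≤ i) (U : Subgroup (T.G j0)) (p : ℕ)

instance coindUp_isFinPTorsion (X : TowerModule ℤ (T.sub j0 U)) [X.IsFinPTorsion p] :
    (X.coindUp j0 hbot U).IsFinPTorsion p where
  finite i := by
    have : Finite (X.C ⟨i, hbot i⟩) := IsFinPTorsion.finite (p := p) (A := X) ⟨i, hbot i⟩
    have : Finite (T.G i → (X.C ⟨i, hbot i⟩).V) := Pi.finite
    exact Finite.of_injective (fun F : ((X.coindUp j0 hbot U).C i).V => F.1)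
      Subtype.val_injective
  torsion i F := by
    apply Subtype.ext
    funext g
    exact IsFinPTorsion.torsion (p := p) (A := X) ⟨i, hbot i⟩ (F.1 g)

/-- a quotient of a finite `p`-torsion tower module is finite `p`-torsion -/
lemma IsFinPTorsion.of_surjective {A B : TowerModule ℤ T} [A.IsFinPTorsion p] (f : A.Hom B)
    (hf : ∀ l, Function.Surjective (f.f l).hom) : B.IsFinPTorsion p where
  finite l := Finite.of_surjective (fun a : A.C l => (f.f l).hom a) (hf l)
  torsion l y := by
    obtain ⟨a, rfl⟩ := hf l y
    rw [← map_nsmul, IsFinPTorsion.torsion (p := p) (A := A) l, map_zero]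

instance coindUpCoker_isFinPTorsion (A : TowerModule ℤ T) [A.IsFinPTorsion p] :
    (coindUpCoker j0 hbot U A).IsFinPTorsion p :=
  IsFinPTorsion.of_surjective p (coindUpProj j0 hbot U A) (coindUpProj_surjective j0 hbot U A)

end FinPTorsion

end TowerModule

end

end Fermat.Agent.CFT.Duality
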