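import Fermat.Agent.Lib.CFT.Duality.ExtPull
import Fermat.Agent.Lib.CFT.Coh.Cores
import Fermat.Agent.Lib.CFT.Duality.Bridge2

/-!
# P4 / Layer D, D-REP : coinduction, Shapiro and corestriction on `Ext` of representations

`S ≤ G` a subgroup of finite index, `k` a commutative ring, everything in universe `0`.

* exactness instances for `Rep.coindFunctor k S.subtype` (it is both a left and a right adjoint);
* Shapiro isomorphisms in both variables
  `shapiroL S X Y n : Ext_G(coind X, Y) ≃+ Ext_S(X, res Y)` (from `coind ⊣ res`),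
  `shapiroR S Z X n : Ext_S(res Z, X) ≃+ Ext_G(Z, coind X)` (from `res ⊣ coind`),
  with their explicit formulas and naturality in both variables;
* `extCores S Z Y n : Ext_S(res Z, res Y) →+ Ext_G(Z, Y)`, `extCores_res` (`cores ∘ res = index`),
  `ext_index_smul_eq_zero_of_res_eq_zero`, projection formulas `extCores_res_comp`,
  `extCores_comp_res`;
* pairing formula `comp_eq_extCores` : `x ∘ ξ = cores (shapiroR⁻¹ x ∘ shapiroL ξ)`;
* compatibility with group cohomology through `cohToExt` : `cohToExt_shapiroMap`,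
  `cohToExt_shapiroIso_inv`, `cohToExt_cores`;
* `card_nsmul_ext_trivial_eq_zero` : `Ext^{n+1}(k, Y)` is killed by `|G|`.
-/

set_option autoImplicit false
set_option linter.unusedSectionVars false
set_option linter.style.haveILetI false

open CategoryTheory Abelian Limits Rep Representation

namespace Fermat.Agent.CFT.Duality

noncomputable section

section General

universe w v u

variable {C : Type u} [Category.{v} C] [Abelian C] [HasExt.{w} C]

theorem mk₀_nsmul {X Y : C} (m : ℕ) (f : X ⟶ Y) :
    (Ext.mk₀ (m • f) : Ext.{w} X Y 0) = m • Ext.mk₀ f :=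
  map_nsmul (Ext.addEquiv₀ (X := X) (Y := Y)).symm m f

theorem comp_mk₀_nsmul_id {X Y : C} {n : ℕ} (η : Ext.{w} X Y n) (m : ℕ) :
    η.comp (Ext.mk₀ (m • 𝟙 Y)) (add_zero n) = m • η := by
  rw [mk₀_nsmul]
  have := map_nsmul (η.precomp Y (add_zero n)) m (Ext.mk₀ (𝟙 Y))
  simp only [Ext.bilinearComp_apply_apply, Ext.comp_mk₀_id] at this
  exact this

end General

variable {k G : Type} [CommRing k] [Group G] (S : Subgroup G) [S.FiniteIndex]

instance coindFunctor_additive :
    (Rep.coindFunctor k S.subtype : Rep.{0} k S ⥤ Rep.{0} k G).Additive :=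
  (Rep.resCoindAdjunction k S.subtype).right_adjoint_additive

instance coindFunctor_preservesFiniteLimits :
    PreservesFiniteLimits (Rep.coindFunctor k S.subtype : Rep.{0} k S ⥤ Rep.{0} k G) := by
  infer_instance

instance coindFunctor_preservesFiniteColimits :
    PreservesFiniteColimits (Rep.coindFunctor k S.subtype : Rep.{0} k S ⥤ Rep.{0} k G) := by
  infer_instance

open scoped Classical in
/-- Shapiro's isomorphism in the first variable: `Ext_G(coind X, Y) ≃ Ext_S(X, res Y)`. -/
def shapiroL (X : Rep k S) (Y : Rep k G) (n : ℕ) :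
    Ext ((Rep.coindFunctor k S.subtype).obj X) Y n ≃+ Ext X (Rep.res S.subtype Y) n :=
  extAdjEquiv (Rep.coindResAdjunction k S) X Y n

/-- Shapiro's isomorphism in the second variable: `Ext_S(res Z, X) ≃ Ext_G(Z, coind X)`. -/
def shapiroR (Z : Rep k G) (X : Rep k S) (n : ℕ) :
    Ext (Rep.res S.subtype Z) X n ≃+ Ext Z ((Rep.coindFunctor k S.subtype).obj X) n :=
  extAdjEquiv (Rep.resCoindAdjunction k S.subtype) Z X n

open scoped Classical in
theorem shapiroL_apply (X : Rep k S) (Y : Rep k G) (n : ℕ)
    (ξ : Ext ((Rep.coindFunctor k S.subtype).obj X) Y n) :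
    shapiroL S X Y n ξ = (Ext.mk₀ ((Rep.coindResAdjunction k S).unit.app X)).comp
      (ξ.mapExactFunctor (Rep.resFunctor S.subtype)) (zero_add n) := rfl

open scoped Classical in
theorem shapiroL_symm_apply (X : Rep k S) (Y : Rep k G) (n : ℕ)
    (ζ : Ext X (Rep.res S.subtype Y) n) :
    (shapiroL S X Y n).symm ζ = (ζ.mapExactFunctor (Rep.coindFunctor k S.subtype)).comp
      (Ext.mk₀ ((Rep.coindResAdjunction k S).counit.app Y)) (add_zero n) := rfl

theorem shapiroR_apply (Z : Rep k G) (X : Rep k S) (n : ℕ) (z : Ext (Rep.res S.subtype Z) X n) :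
    shapiroR S Z X n z = (Ext.mk₀ ((Rep.resCoindAdjunction k S.subtype).unit.app Z)).comp
      (z.mapExactFunctor (Rep.coindFunctor k S.subtype)) (zero_add n) := rfl

theorem shapiroR_symm_apply (Z : Rep k G) (X : Rep k S) (n : ℕ)
    (x : Ext Z ((Rep.coindFunctor k S.subtype).obj X) n) :
    (shapiroR S Z X n).symm x = (x.mapExactFunctor (Rep.resFunctor S.subtype)).comp
      (Ext.mk₀ ((Rep.resCoindAdjunction k S.subtype).counit.app X)) (add_zero n) := rfl

/-- Naturality of `shapiroR` in the first variable. -/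
theorem shapiroR_comp_left {Z Z' : Rep k G} (X : Rep k S) {n m l : ℕ} (α : Ext Z' Z m)
    (z : Ext (Rep.res S.subtype Z) X n) (h : m + n = l) :
    shapiroR S Z' X l ((α.mapExactFunctor (Rep.resFunctor S.subtype)).comp z h) =
      α.comp (shapiroR S Z X n z) h :=
  extAdjEquiv_comp_left (Rep.resCoindAdjunction k S.subtype) X α z h

/-- Naturality of `shapiroR` in the second variable. -/
theorem shapiroR_comp (Z : Rep k G) {X X' : Rep k S} {n m l : ℕ}
    (z : Ext (Rep.res S.subtype Z) X n) (β : Ext X X' m) (h : n + m = l) :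
    shapiroR S Z X' l (z.comp β h) =
      (shapiroR S Z X n z).comp (β.mapExactFunctor (Rep.coindFunctor k S.subtype)) h :=
  extAdjEquiv_comp (Rep.resCoindAdjunction k S.subtype) Z z β h

open scoped Classical in
/-- Naturality of `shapiroL` in the first variable. -/
theorem shapiroL_comp_left {X X' : Rep k S} (Y : Rep k G) {n m l : ℕ} (α : Ext X' X m)
    (ξ : Ext ((Rep.coindFunctor k S.subtype).obj X) Y n) (h : m + n = l) :
    shapiroL S X' Y l ((α.mapExactFunctor (Rep.coindFunctor k S.subtype)).comp ξ h) =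
      α.comp (shapiroL S X Y n ξ) h :=
  extAdjEquiv_comp_left (Rep.coindResAdjunction k S) Y α ξ h

open scoped Classical in
/-- Naturality of `shapiroL` in the second variable. -/
theorem shapiroL_comp (X : Rep k S) {Y Y' : Rep k G} {n m l : ℕ}
    (ξ : Ext ((Rep.coindFunctor k S.subtype).obj X) Y n) (β : Ext Y Y' m) (h : n + m = l) :
    shapiroL S X Y' l (ξ.comp β h) =
      (shapiroL S X Y n ξ).comp (β.mapExactFunctor (Rep.resFunctor S.subtype)) h :=
  extAdjEquiv_comp (Rep.coindResAdjunction k S) X ξ β h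

/-- Corestriction on `Ext`. -/
def extCores (Z Y : Rep k G) (n : ℕ) :
    Ext (Rep.res S.subtype Z) (Rep.res S.subtype Y) n →+ Ext Z Y n where
  toFun z := (shapiroR S Z (Rep.res S.subtype Y) n z).comp (Ext.mk₀ (Coh.coindTrace Y S))
    (add_zero n)
  map_zero' := by simp
  map_add' x y := by simp

theorem extCores_apply (Z Y : Rep k G) (n : ℕ)
    (z : Ext (Rep.res S.subtype Z) (Rep.res S.subtype Y) n) :
    extCores S Z Y n z = (shapiroR S Z (Rep.res S.subtype Y) n z).comp
      (Ext.mk₀ (Coh.coindTrace Y S)) (add_zero n) := rfl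

theorem resCoindAdjunction_unit_app_eq (Y : Rep k G) :
    (Rep.resCoindAdjunction k S.subtype).unit.app Y = Coh.coindUnit Y S := rfl

theorem traceTerm_naturality {Y Y' : Rep k G} (f : Y ⟶ Y') (q : G ⧸ S)
    (φ : (Rep.coind S.subtype (Rep.res S.subtype Y)).V) :
    Coh.traceTerm Y' S q (((Rep.coindFunctor k S.subtype).map
      ((Rep.resFunctor S.subtype).map f)).hom φ) = f.hom (Coh.traceTerm Y S q φ) := by
  induction q using QuotientGroup.induction_on with | H x =>
  rw [Coh.traceTerm_mk, Coh.traceTerm_mk]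
  exact (Rep.hom_comm_apply f x (φ.1 x⁻¹)).symm

theorem coindTrace_naturality {Y Y' : Rep k G} (f : Y ⟶ Y') :
    (Rep.coindFunctor k S.subtype).map ((Rep.resFunctor S.subtype).map f) ≫ Coh.coindTrace Y' S =
      Coh.coindTrace Y S ≫ f := by
  ext φ
  letI := Fintype.ofFinite (G ⧸ S)
  change Coh.coindTraceLin Y' S (((Rep.coindFunctor k S.subtype).map
      ((Rep.resFunctor S.subtype).map f)).hom φ) = f.hom (Coh.coindTraceLin Y S φ)
  rw [Coh.coindTraceLin_apply, Coh.coindTraceLin_apply, map_sum]
  exact Finset.sum_congr rfl fun q _ => traceTerm_naturality S f q φ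

/-- The trace as a natural transformation `coind ∘ res ⟹ 𝟭`. -/
def coindTraceNat :
    Rep.resFunctor S.subtype ⋙ Rep.coindFunctor k S.subtype ⟶ 𝟭 (Rep.{0} k G) where
  app Y := Coh.coindTrace Y S
  naturality _ _ f := coindTrace_naturality S f

/-- `cores ∘ res = index`. -/
theorem extCores_res {Z Y : Rep k G} {n : ℕ} (η : Ext Z Y n) :
    extCores S Z Y n (η.mapExactFunctor (Rep.resFunctor S.subtype)) = S.index • η := by
  rw [extCores_apply, shapiroR_apply]
  have h := mapExactFunctor_natTrans (𝟭 (Rep.{0} k G))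
    (Rep.resFunctor S.subtype ⋙ Rep.coindFunctor k S.subtype)
    (Rep.resCoindAdjunction k S.subtype).unit η
  rw [mapExactFunctor_id, mapExactFunctor_comp_functor] at h
  erw [← h]
  rw [Ext.comp_assoc_of_third_deg_zero, Ext.mk₀_comp_mk₀]
  have h2 : (Rep.resCoindAdjunction k S.subtype).unit.app Y ≫ Coh.coindTrace Y S
      = S.index • 𝟙 Y :=
    (Coh.coindUnit_comp_coindTrace Y S).trans (Nat.cast_smul_eq_nsmul k _ _)
  erw [h2]
  exact comp_mk₀_nsmul_id η S.index

theorem ext_index_smul_eq_zero_of_res_eq_zero {Z Y : Rep k G} {n : ℕ} (η : Ext Z Y n)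
    (h : η.mapExactFunctor (Rep.resFunctor S.subtype) = 0) : S.index • η = 0 := by
  rw [← extCores_res, h, map_zero]

/-- `cores ∘ res = index`, with the restriction written as `extPull`. -/
theorem extCores_extPull {Z Y : Rep k G} {n : ℕ} (η : Ext Z Y n) :
    extCores S Z Y n (extPull S.subtype (𝟙 _) (𝟙 _) n η) = S.index • η := by
  rw [extPull_apply, Ext.comp_mk₀_id, Ext.mk₀_id_comp]
  exact extCores_res S η

/-- Projection formula, first variable. -/
theorem extCores_res_comp {Z Z' Y : Rep k G} {n m l : ℕ} (x : Ext Z' Z m)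
    (z : Ext (Rep.res S.subtype Z) (Rep.res S.subtype Y) n) (h : m + n = l) :
    extCores S Z' Y l ((x.mapExactFunctor (Rep.resFunctor S.subtype)).comp z h) =
      x.comp (extCores S Z Y n z) h := by
  rw [extCores_apply, extCores_apply, shapiroR_comp_left]
  exact Ext.comp_assoc _ _ _ _ _ (by omega)

/-- Projection formula, second variable. -/
theorem extCores_comp_res {Z Y Y' : Rep k G} {n m l : ℕ}
    (z : Ext (Rep.res S.subtype Z) (Rep.res S.subtype Y) n) (ξ : Ext Y Y' m) (h : n + m = l) :
    extCores S Z Y' l (z.comp (ξ.mapExactFunctor (Rep.resFunctor S.subtype)) h) =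
      (extCores S Z Y n z).comp ξ h := by
  rw [extCores_apply, extCores_apply, shapiroR_comp]
  have h1 := mapExactFunctor_natTrans (Rep.resFunctor S.subtype ⋙ Rep.coindFunctor k S.subtype)
    (𝟭 (Rep.{0} k G)) (coindTraceNat S) ξ
  rw [mapExactFunctor_id, mapExactFunctor_comp_functor] at h1
  rw [Ext.comp_assoc _ _ _ h (add_zero m) (by omega)]
  erw [h1]
  exact (Ext.comp_assoc _ _ _ _ _ (by omega)).symm

open scoped Classical in
theorem indToCoind_mk (X : Rep.{0} k S) (g : G) (a : X) (h : G) :
    (Rep.indToCoind X (IndV.mk S.subtype X.ρ g a)).1 h = Rep.indToCoindAux X g a h := by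
  simp [Rep.indToCoind, IndV.mk]

open scoped Classical in
theorem coindRes_unit_apply (X : Rep.{0} k S) (a : X) (g : G) :
    (((Rep.coindResAdjunction k S).unit.app X).hom a).1 g = Rep.indToCoindAux X 1 a g := by
  rw [Rep.coindResAdjunction_unit_app]
  exact indToCoind_mk S X 1 a g

theorem resCoind_counit_apply (X : Rep.{0} k S)
    (ψ : (Rep.res S.subtype (Rep.coind S.subtype X)).V) :
    ((Rep.resCoindAdjunction k S.subtype).counit.app X).hom ψ = ψ.1 1 := rfl

theorem resCoind_unit_apply (Y : Rep.{0} k G) (y : Y) (g : G) :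
    (((Rep.resCoindAdjunction k S.subtype).unit.app Y).hom y).1 g = Y.ρ g y := rfl

open scoped Classical in
/-- The degree `0` identity behind the pairing formula. -/
theorem unit_comp_coindMap_comp_coindTrace_apply (X : Rep.{0} k S)
    (φ : (Rep.coind S.subtype X).V) :
    (Coh.coindTrace ((Rep.coindFunctor k S.subtype).obj X) S).hom
      (((Rep.coindFunctor k S.subtype).map
        ((Rep.resCoindAdjunction k S.subtype).counit.app X ≫
          (Rep.coindResAdjunction k S).unit.app X)).hom
        (((Rep.resCoindAdjunction k S.subtype).unit.app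
          ((Rep.coindFunctor k S.subtype).obj X)).hom φ)) = φ := by
  letI := Fintype.ofFinite (G ⧸ S)
  set F := (((Rep.coindFunctor k S.subtype).map
        ((Rep.resCoindAdjunction k S.subtype).counit.app X ≫
          (Rep.coindResAdjunction k S).unit.app X)).hom
        (((Rep.resCoindAdjunction k S.subtype).unit.app
          ((Rep.coindFunctor k S.subtype).obj X)).hom φ)) with hF
  have hF1 : ∀ g h : G, (F.1 g).1 h = Rep.indToCoindAux X 1 (φ.1 g) h := by
    intro g h
    have : F.1 g = ((Rep.coindResAdjunction k S).unit.app X).hom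
        (((Rep.resCoindAdjunction k S.subtype).counit.app X).hom
          ((((Rep.resCoindAdjunction k S.subtype).unit.app
            ((Rep.coindFunctor k S.subtype).obj X)).hom φ).1 g)) := rfl
    rw [this, coindRes_unit_apply, resCoind_counit_apply, resCoind_unit_apply]
    have h1 : ((((Rep.coindFunctor k S.subtype).obj X).ρ g) φ).1 1 = φ.1 g := by
      change φ.1 (1 * g) = φ.1 g
      rw [one_mul]
    rw [h1]
  change Coh.coindTraceLin _ S F = φ
  rw [Coh.coindTraceLin_apply]
  apply Subtype.ext
  funext h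
  rw [AddSubmonoidClass.coe_finsetSum, Finset.sum_apply,
    Finset.sum_eq_single ((h⁻¹ : G) : G ⧸ S)]
  · rw [Coh.traceTerm_mk]
    change (F.1 (h⁻¹)⁻¹).1 (h * h⁻¹) = φ.1 h
    rw [hF1, mul_inv_cancel, inv_inv, Rep.indToCoindAux_self]
  · intro q _ hq
    induction q using QuotientGroup.induction_on with | H x =>
    rw [Coh.traceTerm_mk]
    change (F.1 x⁻¹).1 (h * x) = 0
    rw [hF1]
    apply Rep.indToCoindAux_of_not_rel
    intro hrel
    apply hq
    rw [QuotientGroup.rightRel_apply] at hrel
    rw [QuotientGroup.eq]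
    simpa using hrel
  · intro hn
    exact absurd (Finset.mem_univ _) hn


open scoped Classical in
/-- The degree `0` identity behind the pairing formula. -/
theorem unit_comp_coindMap_comp_coindTrace (X : Rep.{0} k S) :
    (Rep.resCoindAdjunction k S.subtype).unit.app ((Rep.coindFunctor k S.subtype).obj X) ≫
      (Rep.coindFunctor k S.subtype).map
        ((Rep.resCoindAdjunction k S.subtype).counit.app X ≫
          (Rep.coindResAdjunction k S).unit.app X) ≫
      Coh.coindTrace ((Rep.coindFunctor k S.subtype).obj X) S =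
        𝟙 ((Rep.coindFunctor k S.subtype).obj X) := by
  ext φ
  exact unit_comp_coindMap_comp_coindTrace_apply S X φ

theorem extCores_mk₀ (Z Y : Rep k G) (θ : Rep.res S.subtype Z ⟶ Rep.res S.subtype Y) :
    extCores S Z Y 0 (Ext.mk₀ θ) = Ext.mk₀ ((Rep.resCoindAdjunction k S.subtype).unit.app Z ≫
      (Rep.coindFunctor k S.subtype).map θ ≫ Coh.coindTrace Y S) := by
  rw [extCores_apply, shapiroR_apply, Ext.mapExactFunctor_mk₀, Ext.mk₀_comp_mk₀,
    Ext.mk₀_comp_mk₀, Category.assoc]

open scoped Classical in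
/-- **Pairing formula**: the Yoneda product through a coinduced module is the corestriction of
the product of the two Shapiro images. -/
theorem comp_eq_extCores {X : Rep k S} {Z Y : Rep k G} {r s t : ℕ}
    (x : Ext Z ((Rep.coindFunctor k S.subtype).obj X) s)
    (ξ : Ext ((Rep.coindFunctor k S.subtype).obj X) Y r) (h : s + r = t) :
    x.comp ξ h =
      extCores S Z Y t (((shapiroR S Z X s).symm x).comp (shapiroL S X Y r ξ) h) := by
  rw [shapiroR_symm_apply, shapiroL_apply, Ext.comp_assoc_of_second_deg_zero,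
    ← Ext.comp_assoc _ _ _ (zero_add 0) (zero_add r) (by omega), Ext.mk₀_comp_mk₀,
    extCores_res_comp, extCores_comp_res, extCores_mk₀, unit_comp_coindMap_comp_coindTrace,
    Ext.mk₀_id_comp]

/-! ### Compatibility with group cohomology -/

theorem cohToExt_shapiroMap (B : Rep.{0} k S) (n : ℕ)
    (y : groupCohomology (Rep.coind S.subtype B) n) :
    cohToExt B n (Coh.shapiroMap S B n y) =
      (shapiroR S (Rep.trivial k G k) B n).symm (cohToExt (Rep.coind S.subtype B) n y) := by
  rw [shapiroR_symm_apply]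
  exact cohToExt_map S.subtype _ _ (Coh.coindEv S B) n y

theorem cohToExt_shapiroIso_inv (B : Rep.{0} k S) (n : ℕ) (x : groupCohomology B n) :
    cohToExt (Rep.coind S.subtype B) n ((Coh.shapiroIso S B n).inv x) =
      shapiroR S (Rep.trivial k G k) B n (cohToExt B n x) := by
  have h1 := cohToExt_shapiroMap S B n ((Coh.shapiroIso S B n).inv x)
  have h2 : Coh.shapiroMap S B n ((Coh.shapiroIso S B n).inv x) = x :=
    congr($((Coh.shapiroIso S B n).inv_hom_id) x)
  rw [h2] at h1
  exact (shapiroR S (Rep.trivial k G k) B n).symm_apply_eq.1 h1.symm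

/-- Corestriction on group cohomology corresponds to `extCores` under the bridge. -/
theorem cohToExt_cores (A : Rep.{0} k G) (n : ℕ)
    (x : groupCohomology (Rep.res S.subtype A) n) :
    cohToExt A n (Coh.coresOfFiniteIndex A S n x) =
      extCores S (Rep.trivial k G k) A n (cohToExt (Rep.res S.subtype A) n x) := by
  have h1 := cohToExt_naturality (Coh.coindTrace A S) n
    ((Coh.shapiroIso S (Rep.res S.subtype A) n).inv x)
  rw [cohToExt_shapiroIso_inv] at h1
  exact h1

/-! ### `Ext` is killed by the order of the group -/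

/-- If `res Z` is projective over the subgroup `S` then `Ext^{n+1}(Z, Y)` is killed by the
index of `S`. -/
theorem index_nsmul_ext_eq_zero_of_projective {Z Y : Rep k G} {n : ℕ}
    [Projective (Rep.res S.subtype Z)] (η : Ext Z Y (n + 1)) : S.index • η = 0 :=
  ext_index_smul_eq_zero_of_res_eq_zero S η (Ext.eq_zero_of_projective _)

/-- `Ext^{n+1}(k, Y)` is killed by the order of `G`. -/
theorem card_nsmul_ext_trivial_eq_zero [Finite G] {Y : Rep k G} {n : ℕ}
    (η : Ext (Rep.trivial k G k) Y (n + 1)) : Nat.card G • η = 0 := by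
  have : Projective (Rep.res (⊥ : Subgroup G).subtype (Rep.trivial k G k)) :=
    (Rep.trivial_projective_of_subsingleton : Projective (Rep.trivial k (⊥ : Subgroup G) k))
  have h := index_nsmul_ext_eq_zero_of_projective (⊥ : Subgroup G) η
  rwa [Subgroup.index_bot] at h

end

end Fermat.Agent.CFT.Duality
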