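/-
P4 / Layer D, task D-SYL: `ExtLim A C r = 0` for all finite `p`-torsion cartesian tower modules `A`
as soon as `ExtLim F_p C r = 0` over all sub-towers: restriction to the sub-tower of a `p`-Sylow
subgroup is injective on `p`-torsion (`cores ∘ res = index`), and over a tower with a least level
whose group is a `p`-group every finite `p`-torsion module is a successive extension of copies
of `F_p` (dévissage).
-/
import Fermat.Agent.Lib.CFT.Duality.InvLim
import Fermat.Agent.Lib.CFT.Duality.FpCase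
import Fermat.Agent.Lib.CFT.Duality.SubTower
import Fermat.Agent.Lib.CFT.Duality.ExtShapiro
import Fermat.Agent.Lib.CFT.Coh.RepDevissage

set_option autoImplicit false
set_option linter.unusedSectionVars false

open CategoryTheory Abelian

namespace Fermat.Agent.CFT.Duality

open TowerModule Fermat.Agent.CFT.Coh

noncomputable section

namespace TowerModule

variable {k : Type} [CommRing k] {T : Tower}

/-! ### Tower modules inflated from a least level -/

section InflFrom

variable (j₀ : T.ι) (hj₀ : ∀ i, j₀ ≤ i)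

/-- the tower module inflated from a representation of the group of a least level -/
def inflFrom (M : Rep.{0} k (T.G j₀)) : TowerModule k T where
  C i := Rep.res (T.π (hj₀ i)) M
  φ {i j} h := Rep.ofHom ⟨LinearMap.id, fun g => by
    ext x
    change M.ρ (T.π (hj₀ i) (T.π h g)) x = M.ρ (T.π (hj₀ j) g) x
    rw [T.π_comp]⟩
  φ_refl _ _ := rfl
  φ_comp _ _ _ := rfl

instance (M : Rep.{0} k (T.G j₀)) : (inflFrom j₀ hj₀ M).IsCartesian :=
  ⟨fun {_ _} _ => isIso_of_bijective _ Function.bijective_id⟩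

/-- functoriality of `inflFrom` -/
def inflFromHom {M M' : Rep.{0} k (T.G j₀)} (f : M ⟶ M') :
    (inflFrom j₀ hj₀ M).Hom (inflFrom j₀ hj₀ M') where
  f i := (Rep.resFunctor (T.π (hj₀ i))).map f
  comm _ := by
    ext x
    rfl

/-- a short exact sequence of representations of the least level inflates to a short exact
sequence of tower modules -/
def inflFromShortExact {M₁ M₂ M₃ : Rep.{0} k (T.G j₀)} (f : M₁ ⟶ M₂) (g : M₂ ⟶ M₃) (w : f ≫ g = 0)
    (h : (ShortComplex.mk f g w).ShortExact) :
    ShortExact (inflFrom j₀ hj₀ M₁) (inflFrom j₀ hj₀ M₂) (inflFrom j₀ hj₀ M₃) where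
  f := inflFromHom j₀ hj₀ f
  g := inflFromHom j₀ hj₀ g
  zero i := by
    change (Rep.resFunctor (T.π (hj₀ i))).map f ≫ (Rep.resFunctor (T.π (hj₀ i))).map g = 0
    rw [← Functor.map_comp, w, Functor.map_zero]
  exact i := (Rep.shortExact_res (T.π (hj₀ i))).2 h

/-- a cartesian tower module is inflated from its least level -/
def fromInfl (A : TowerModule k T) : (inflFrom j₀ hj₀ (A.C j₀)).Hom A where
  f i := A.φ (hj₀ i)
  comm {i j} h := by
    ext x
    exact (A.φ_comp (hj₀ i) h x).symm

instance (A : TowerModule k T) [A.IsCartesian] (i : T.ι) : IsIso ((fromInfl j₀ hj₀ A).f i) :=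
  show IsIso (A.φ (hj₀ i)) from inferInstance

/-- `inflFrom` of a trivial representation is a constant tower module -/
def constToInfl (V : Type) [AddCommGroup V] [Module k V] :
    (const T V).Hom (inflFrom j₀ hj₀ (Rep.trivial k (T.G j₀) V)) where
  f i := Rep.ofHom ⟨LinearMap.id, fun _ => rfl⟩
  comm _ := by
    ext x
    rfl

instance (V : Type) [AddCommGroup V] [Module k V] (i : T.ι) :
    IsIso ((constToInfl (k := k) j₀ hj₀ V).f i) :=
  isIso_of_bijective _ Function.bijective_id

end InflFrom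

/-! ### Invariance under isomorphisms -/

theorem ext_eq_zero_of_mk₀_iso_comp {G : Type} [Group G] {X' X Y : Rep.{0} k G} (f : X' ⟶ X)
    [IsIso f] {r : ℕ} (η : Ext X Y r) (h : (Ext.mk₀ f).comp η (zero_add r) = 0) : η = 0 := by
  have h1 : (Ext.mk₀ (inv f)).comp ((Ext.mk₀ f).comp η (zero_add r)) (zero_add r) = η := by
    rw [Ext.mk₀_comp_mk₀_assoc, IsIso.inv_hom_id, Ext.mk₀_id_comp]
  rw [← h1, h, Ext.comp_zero]

/-- if `ExtLim A' B r = 0` and `A' ≅ A` then `ExtLim A B r = 0` -/
theorem ExtLim.eq_zero_of_hom_iso {A' A : TowerModule k T} [A'.IsCartesian] [A.IsCartesian]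
    (B : TowerModule k T) (r : ℕ) (f : A'.Hom A) [∀ i, IsIso (f.f i)]
    (h : ∀ y : ExtLim A' B r, y = 0) (x : ExtLim A B r) : x = 0 := by
  induction x using ExtLim.induction_on with
  | h j ξ =>
    have h1 := h (ExtLim.mapLeft B f r (ExtLim.of A B r j ξ))
    rw [ExtLim.mapLeft_of] at h1
    obtain ⟨l, hjl, hl⟩ := ExtLim.of_eq_zero A' B r h1
    have h2 := extTrans_family_comp B (ExtFamily.ofHom f) (zero_add r) hjl ξ
    rw [← ExtLim.of_trans A B r hjl ξ]
    have h3 : extTrans A B r hjl ξ = 0 := by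
      apply ext_eq_zero_of_mk₀_iso_comp (f.f l)
      exact h2.symm.trans hl
    rw [h3, map_zero]

/-! ### Dévissage over a tower whose least level is a `p`-group -/

theorem ext_eq_zero_of_subsingleton {G : Type} [Group G] {X Y : Rep.{0} k G} [Subsingleton X]
    {r : ℕ} (η : Ext X Y r) : η = 0 := by
  have h0 : 𝟙 X = 0 := by
    ext x
    exact Subsingleton.elim _ _
  rw [← Ext.mk₀_id_comp η, h0, Ext.mk₀_zero, Ext.zero_comp]

/-- over a tower with a least level `j₀` whose group is a `p`-group, `ExtLim F_p B r = 0` implies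
`ExtLim A B r = 0` for all finite `p`-torsion cartesian tower modules `A` -/
theorem extLim_eq_zero_of_pGroup {p : ℕ} [Fact p.Prime] (j₀ : T.ι) (hj₀ : ∀ i, j₀ ≤ i)
    (hG : IsPGroup p (T.G j₀)) {F : Type} [AddCommGroup F] [Module k F] (hF : IsLineModel k p F)
    (B : TowerModule k T) (r : ℕ) (hFp : ∀ y : ExtLim (const T F) B r, y = 0)
    (A : TowerModule k T) [A.IsCartesian] (hfin : Finite (A.C j₀))
    (hp : ∀ x : A.C j₀, p • x = 0) (x : ExtLim A B r) : x = 0 := by
  refine ExtLim.eq_zero_of_hom_iso B r (fromInfl j₀ hj₀ A) ?_ x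
  refine rep_induction_pGroup hG hF
    (fun M => ∀ y : ExtLim (inflFrom j₀ hj₀ M) B r, y = 0) ?_ ?_ (A.C j₀) hfin hp
  · intro M hM y
    induction y using ExtLim.induction_on with
    | h j ξ =>
      have : Subsingleton ((inflFrom j₀ hj₀ M).C j) := hM
      rw [ext_eq_zero_of_subsingleton ξ, map_zero]
  · intro M M'' f g w hex hQ y
    have h1 : ExtLim.mapLeft B (inflFromShortExact j₀ hj₀ f g w hex).f r y = 0 :=
      ExtLim.eq_zero_of_hom_iso B r (constToInfl j₀ hj₀ F) hFp _
    obtain ⟨y₃, rfl⟩ := (inflFromShortExact j₀ hj₀ f g w hex).contravariant_exact₂ B r y h1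
    rw [hQ y₃, map_zero]

/-! ### Restriction to a sub-tower, levelwise -/

section Sub

variable (A C : TowerModule k T) [A.IsCartesian] (j : T.ι) (U : Subgroup (T.G j))

instance : (A.sub j U).IsCartesian :=
  ⟨fun {i i'} h => by
    have h1 : IsIso (A.φ (show i.1 ≤ i'.1 from h)) := IsCartesian.isIso _
    exact Functor.map_isIso (Rep.resFunctor (T.pre i'.2 U).subtype) (A.φ (show i.1 ≤ i'.1 from h))⟩

/-- restriction `Ext^r_{G_i}(A_i, C_i) → Ext^r_{U_i}(A_i, C_i)` at a level of the sub-tower -/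
def resSubLevel (r : ℕ) (i : (T.sub j U).ι) :
    Ext (A.C i.1) (C.C i.1) r →+ Ext ((A.sub j U).C i) ((C.sub j U).C i) r :=
  extPull (T.pre i.2 U).subtype (𝟙 _) (𝟙 _) r

theorem extTrans_resSubLevel (r : ℕ) {i l : (T.sub j U).ι} (h : i ≤ l)
    (ξ : Ext (A.C i.1) (C.C i.1) r) :
    extTrans (A.sub j U) (C.sub j U) r h (resSubLevel A C j U r i ξ) =
      resSubLevel A C j U r l (extTrans A C r (show i.1 ≤ l.1 from h) ξ) := by
  unfold extTrans resSubLevel
  rw [extPull_comp, extPull_comp]
  refine extPull_congr rfl _ _ _ _ ?_ ?_ r ξ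
  · intro x
    have h0 : IsIso (A.φ (show i.1 ≤ l.1 from h)) := IsCartesian.isIso _
    have h0' : IsIso ((A.sub j U).φ h) := IsCartesian.isIso (A := A.sub j U) h
    have h1 : inv ((A.sub j U).φ h) =
        (Rep.resFunctor (T.pre l.2 U).subtype).map (inv (A.φ (show i.1 ≤ l.1 from h))) :=
      (Functor.map_inv (Rep.resFunctor (T.pre l.2 U).subtype)
        (A.φ (show i.1 ≤ l.1 from h))).symm
    rw [h1]
    rfl
  · intro x
    rfl

end Sub

/-! ### Reduction to Sylow sub-towers -/

/-- `Ext` groups out of a module killed by `p` are killed by `p` -/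
theorem nsmul_ext_eq_zero {G : Type} [Group G] {X Y : Rep.{0} k G} (p : ℕ)
    (hX : ∀ x : X, p • x = 0) {r : ℕ} (η : Ext X Y r) : p • η = 0 := by
  have h0 : p • 𝟙 X = 0 := by
    ext x
    exact hX x
  have h1 : (Ext.mk₀ (p • 𝟙 X)).comp η (zero_add r) = p • η := by
    rw [mk₀_nsmul]
    have : (p • Ext.mk₀ (𝟙 X)).comp η (zero_add r) =
        p • (Ext.mk₀ (𝟙 X)).comp η (zero_add r) :=
      map_nsmul (η.postcomp X (zero_add r)) p (Ext.mk₀ (𝟙 X))
    rw [this, Ext.mk₀_id_comp]
  rw [← h1, h0, Ext.mk₀_zero, Ext.zero_comp]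

theorem index_pre_eq {i l : T.ι} (h : i ≤ l) (U : Subgroup (T.G i)) :
    (T.pre h U).index = U.index :=
  Subgroup.index_comap_of_surjective U (T.π_surjective h)

/-- **Sylow reduction**: if `ExtLim (A|P) (C|P) r = 0` for the sub-towers of all `p`-Sylow subgroups
of all levels, and `A` is killed by `p`, then `ExtLim A C r = 0` -/
theorem extLim_eq_zero_of_sylow {p : ℕ} [Fact p.Prime] (A C : TowerModule k T) [A.IsCartesian]
    (r : ℕ) (hp : ∀ j (x : A.C j), p • x = 0)
    (hsub : ∀ (j : T.ι) (P : Sylow p (T.G j)) (y : ExtLim (A.sub j (P : Subgroup (T.G j)))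
      (C.sub j (P : Subgroup (T.G j))) r), y = 0)
    (x : ExtLim A C r) : x = 0 := by
  induction x using ExtLim.induction_on with
  | h j ξ =>
    obtain ⟨P⟩ : Nonempty (Sylow p (T.G j)) := inferInstance
    set U : Subgroup (T.G j) := (P : Subgroup (T.G j)) with hU
    let j' : (T.sub j U).ι := ⟨j, le_refl j⟩
    have h1 := hsub j P (ExtLim.of (A.sub j U) (C.sub j U) r j' (resSubLevel A C j U r j' ξ))
    obtain ⟨l, hjl, hl⟩ := ExtLim.of_eq_zero (A.sub j U) (C.sub j U) r h1
    rw [extTrans_resSubLevel] at hl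
    have hjl' : j ≤ l.1 := hjl
    set η := extTrans A C r hjl' ξ with hη
    have h2 : (T.pre l.2 U).index • η = 0 := by
      rw [← extCores_extPull (T.pre l.2 U) η]
      have : extPull (T.pre l.2 U).subtype (𝟙 _) (𝟙 _) r η = 0 := hl
      rw [this, map_zero]
    have h3 : p • η = 0 := nsmul_ext_eq_zero p (hp l.1) η
    have hcop : Nat.Coprime p (T.pre l.2 U).index := by
      rw [index_pre_eq]
      exact (Nat.Prime.coprime_iff_not_dvd Fact.out).2 P.not_dvd_index
    obtain ⟨a, b, hab⟩ := Nat.isCoprime_iff_coprime.2 hcop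
    have h4 : η = 0 := by
      calc η = (1 : ℤ) • η := (one_smul _ _).symm
        _ = (a * p + b * (T.pre l.2 U).index) • η := by rw [hab]
        _ = 0 := by
          rw [add_smul, mul_smul, mul_smul, natCast_zsmul, natCast_zsmul, h2, h3, smul_zero,
            smul_zero, add_zero]
    rw [← ExtLim.of_trans A C r hjl' ξ, ← hη, h4, map_zero]

/-! ### Assembly -/

theorem isPGroup_sub_base {p : ℕ} (j : T.ι) (U : Subgroup (T.G j)) (hU : IsPGroup p U) :
    IsPGroup p ((T.sub j U).G ⟨j, le_refl j⟩) := by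
  refine hU.comap_of_injective (T.π (le_refl j)) ?_
  intro a b hab
  rwa [T.π_refl, T.π_refl] at hab

/-- if `ExtLim F_p (C|U) r = 0` over all sub-towers then `ExtLim A C r = 0` for every finite
`p`-torsion cartesian tower module `A` -/
theorem extLim_eq_zero_of_forall_sub {p : ℕ} [Fact p.Prime] {F : Type} [AddCommGroup F]
    [Module k F] (hF : IsLineModel k p F) (C : TowerModule k T) (r : ℕ)
    (hFp : ∀ (j : T.ι) (U : Subgroup (T.G j)) (y : ExtLim (const (T.sub j U) F) (C.sub j U) r),
      y = 0)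
    (A : TowerModule k T) [A.IsCartesian] (hfin : ∀ j, Finite (A.C j))
    (hp : ∀ j (x : A.C j), p • x = 0) (x : ExtLim A C r) : x = 0 := by
  refine extLim_eq_zero_of_sylow A C r hp (fun j P y => ?_) x
  exact extLim_eq_zero_of_pGroup (T := T.sub j (P : Subgroup (T.G j))) ⟨j, le_refl j⟩ (fun i => i.2)
    (isPGroup_sub_base j _ P.isPGroup') hF (C.sub j (P : Subgroup (T.G j))) r (hFp j _)
    (A.sub j (P : Subgroup (T.G j))) (hfin j) (hp j) y

end TowerModule

/-- **`Ext³(A, C) = 0` in the limit** for every finite `p`-torsion cartesian tower module `A` over a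
`p`-class formation tower -/
theorem PClassFormation.extLim_three_eq_zero {p : ℕ} [Fact p.Prime] {T : Tower}
    {C : TowerModule ℤ T} (cf : PClassFormation p T C) (A : TowerModule ℤ T) [A.IsCartesian]
    (hfin : ∀ j, Finite (A.C j)) (hp : ∀ j (x : A.C j), p • x = 0) (x : ExtLim A C 3) : x = 0 :=
  extLim_eq_zero_of_forall_sub (isLineModel_int_zmod p) C 3
    (fun j U y => (cf.sub j U).limFormation.extLim_Fp_three y) A hfin hp x

end

end Fermat.Agent.CFT.Duality
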