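import Fermat.Agent.Lib.CFT.Duality.TowerQuot
import Fermat.Agent.Lib.CFT.Duality.Sylow

/-!
# P4 / Layer D (D-TQ, part 2): tower modules which vanish in the limit

* `ExtLim.eq_zero_of_capitulation` : if `p • A = 0` and for every level `j` there are `m` prime to
  `p` and a higher level `j'` with `φ_{jj'} ∘ (m • ·) = 0` on `B_j`, then `ExtLim A B r = 0`.
* `ShortExact.mapRight_f_bijective`, `ShortExact.mapRight_g_bijective` : consequences for the long
  exact sequence.
* `TowerModule.IsPDiv p B` : `B` is `p`-divisible in the limit.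
-/

set_option autoImplicit false
set_option linter.unusedSectionVars false

open CategoryTheory Abelian

namespace Fermat.Agent.CFT.Duality

noncomputable section

namespace TowerModule

variable {k : Type} [CommRing k] {T : Tower}

/-- `p • x = 0` in `ExtLim A B r` if `p • A = 0`. -/
theorem ExtLim.nsmul_eq_zero_of_torsion (A B : TowerModule k T) [A.IsCartesian] (r : ℕ) (p : ℕ)
    (hA : ∀ j (a : A.C j), p • a = 0) (x : ExtLim A B r) : p • x = 0 := by
  induction x using ExtLim.induction_on with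
  | h j ξ => rw [← map_nsmul, nsmul_ext_eq_zero p (hA j) ξ, map_zero]

/-- The transition map of `ExtLim A B r` kills `m • ξ` if `φ ∘ (m • ·) = 0` on `B`. -/
theorem extTrans_nsmul_eq_zero (A B : TowerModule k T) [A.IsCartesian] (r : ℕ) {i j : T.ι}
    (h : i ≤ j) (m : ℕ) (hm : ∀ b : B.C i, (B.φ h).hom (m • b) = 0) (ξ : Ext (A.C i) (B.C i) r) :
    extTrans A B r h (m • ξ) = 0 := by
  have h0 : m • B.φ h = 0 := by
    ext b
    have := hm b
    rw [map_nsmul] at this
    exact this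
  rw [map_nsmul]
  unfold extTrans
  rw [extPull_apply]
  have h1 : m • ((ξ.mapExactFunctor (Rep.resFunctor (T.π h))).comp (Ext.mk₀ (B.φ h)) (add_zero r))
      = (ξ.mapExactFunctor (Rep.resFunctor (T.π h))).comp (Ext.mk₀ (m • B.φ h)) (add_zero r) := by
    rw [mk₀_nsmul]
    exact (map_nsmul ((ξ.mapExactFunctor (Rep.resFunctor (T.π h))).precomp (B.C j) (add_zero r)) m
      (Ext.mk₀ (B.φ h))).symm
  have h2 : m • ((Ext.mk₀ (inv (A.φ h))).comp
      ((ξ.mapExactFunctor (Rep.resFunctor (T.π h))).comp (Ext.mk₀ (B.φ h)) (add_zero r))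
        (zero_add r))
      = (Ext.mk₀ (inv (A.φ h))).comp
        (m • ((ξ.mapExactFunctor (Rep.resFunctor (T.π h))).comp (Ext.mk₀ (B.φ h)) (add_zero r)))
        (zero_add r) :=
    (map_nsmul ((Ext.mk₀ (inv (A.φ h))).precomp (B.C j) (zero_add r)) m _).symm
  rw [h2, h1, h0, Ext.mk₀_zero, Ext.comp_zero, Ext.comp_zero]

/-- **Vanishing in the limit**: if `p • A = 0` and every level of `B` is killed, up to a factor prime
to `p`, by a transition map, then `ExtLim A B r = 0`. -/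
theorem ExtLim.eq_zero_of_capitulation (A B : TowerModule k T) [A.IsCartesian] (r : ℕ) (p : ℕ)
    (hA : ∀ j (a : A.C j), p • a = 0)
    (hB : ∀ j, ∃ (m : ℕ) (j' : T.ι) (h : j ≤ j'), m.Coprime p ∧
      ∀ b : B.C j, (B.φ h).hom (m • b) = 0)
    (x : ExtLim A B r) : x = 0 := by
  have hp := ExtLim.nsmul_eq_zero_of_torsion A B r p hA x
  induction x using ExtLim.induction_on with
  | h j ξ =>
    obtain ⟨m, j', h, hmp, hm⟩ := hB j
    have h1 : m • ExtLim.of A B r j ξ = 0 := by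
      rw [← map_nsmul, ← ExtLim.of_trans A B r h, extTrans_nsmul_eq_zero A B r h m hm ξ, map_zero]
    have h2 : addOrderOf (ExtLim.of A B r j ξ) ∣ Nat.gcd m p :=
      Nat.dvd_gcd (addOrderOf_dvd_of_nsmul_eq_zero h1) (addOrderOf_dvd_of_nsmul_eq_zero hp)
    rw [hmp.gcd_eq_one, Nat.dvd_one] at h2
    exact AddMonoid.addOrderOf_eq_one_iff.mp h2

namespace ShortExact

variable {B₁ B₂ B₃ : TowerModule k T} (S : ShortExact B₁ B₂ B₃) (A : TowerModule k T)
  [A.IsCartesian]

/-- If `ExtLim A B₃` vanishes in degrees `n₀` and `n₀ + 1`, then `ExtLim A B₁ (n₀+1) → ExtLim A B₂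
(n₀+1)` is bijective. -/
theorem mapRight_f_bijective {n₀ n₁ : ℕ} (h : n₀ + 1 = n₁) (h0 : ∀ x : ExtLim A B₃ n₀, x = 0)
    (h1 : ∀ x : ExtLim A B₃ n₁, x = 0) : Function.Bijective (ExtLim.mapRight A S.f n₁) := by
  constructor
  · rw [injective_iff_map_eq_zero]
    intro x hx
    obtain ⟨x₃, rfl⟩ := S.covariant_exact₁ A h x hx
    rw [h0 x₃, map_zero]
  · intro y
    exact S.covariant_exact₂ A n₁ y (h1 _)

/-- If `ExtLim A B₁` vanishes in degrees `n₀` and `n₀ + 1`, then `ExtLim A B₂ n₀ → ExtLim A B₃ n₀`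
is bijective. -/
theorem mapRight_g_bijective {n₀ n₁ : ℕ} (h : n₀ + 1 = n₁) (h0 : ∀ x : ExtLim A B₁ n₀, x = 0)
    (h1 : ∀ x : ExtLim A B₁ n₁, x = 0) : Function.Bijective (ExtLim.mapRight A S.g n₀) := by
  constructor
  · rw [injective_iff_map_eq_zero]
    intro x hx
    obtain ⟨x₁, rfl⟩ := S.covariant_exact₂ A n₀ x hx
    rw [h0 x₁, map_zero]
  · intro y
    exact S.covariant_exact₃ A h y (h1 _)

/-- If `ExtLim A B₂` vanishes in degrees `n₀` and `n₀ + 1`, then the connecting map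
`ExtLim A B₃ n₀ → ExtLim A B₁ (n₀+1)` is bijective. -/
theorem compRight_δ_bijective {n₀ n₁ : ℕ} (h : n₀ + 1 = n₁) (h0 : ∀ x : ExtLim A B₂ n₀, x = 0)
    (h1 : ∀ x : ExtLim A B₂ n₁, x = 0) :
    Function.Bijective (ExtLim.compRight A S.δ n₀ n₁ h) := by
  constructor
  · rw [injective_iff_map_eq_zero]
    intro x hx
    obtain ⟨x₂, rfl⟩ := S.covariant_exact₃ A h x hx
    rw [h0 x₂, map_zero]
  · intro y
    exact S.covariant_exact₁ A h y (h1 _)

end ShortExact

/-- `B` is `p`-divisible in the limit. -/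
def IsPDiv (p : ℕ) (B : TowerModule k T) : Prop :=
  ∀ (j : T.ι) (b : B.C j), ∃ (j' : T.ι) (h : j ≤ j') (b' : B.C j'), p • b' = (B.φ h).hom b

/-- Finitely many elements of a level become `p`-divisible at a common higher level. -/
theorem IsPDiv.exists_finset {p : ℕ} {B : TowerModule k T} (hB : B.IsPDiv p) (j : T.ι)
    (Φ : Finset (B.C j)) :
    ∃ (j' : T.ι) (h : j ≤ j'), ∀ b ∈ Φ, ∃ b' : B.C j', p • b' = (B.φ h).hom b := by
  classical
  induction Φ using Finset.induction_on with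
  | empty => exact ⟨j, le_refl j, fun b hb => absurd hb (Finset.notMem_empty b)⟩
  | insert a s ha ih =>
    obtain ⟨j₁, h₁, hs⟩ := ih
    obtain ⟨j₂, h₂, a', ha'⟩ := hB j a
    obtain ⟨l, h₁l, h₂l⟩ := exists_ge_ge j₁ j₂
    refine ⟨l, h₁.trans h₁l, fun b hb => ?_⟩
    rcases Finset.mem_insert.mp hb with rfl | hb
    · refine ⟨(B.φ h₂l).hom a', ?_⟩
      rw [← map_nsmul, ha', B.φ_comp]
    · obtain ⟨b', hb'⟩ := hs b hb
      refine ⟨(B.φ h₁l).hom b', ?_⟩
      rw [← map_nsmul, hb', B.φ_comp]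

end TowerModule

end

end Fermat.Agent.CFT.Duality
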