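import Fermat.Agent.Lib.CFT.Duality.Alpha
import Fermat.Agent.Lib.CFT.Duality.CoindAlpha
import Fermat.Agent.Lib.CFT.Duality.CoindSES
import Fermat.Agent.Lib.CFT.Duality.FinDual
import Fermat.Agent.Lib.CFT.Duality.LimZero

/-!
# P4 / Layer D, D-D1 part 2 : `H⁰`, surjectivity of `α²`, the four-lemma chase, bijectivity of `α²`
-/

set_option autoImplicit false
set_option linter.unusedSectionVars false
set_option linter.unusedVariables false
set_option linter.style.haveILetI false

open CategoryTheory Abelian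

namespace Fermat.Agent.CFT.Duality

noncomputable section

open TowerModule

/-! ### `H⁰` of a cartesian tower module -/

section HZero

variable {k : Type} [CommRing k] {T : Tower} (A : TowerModule k T) [A.IsCartesian]

/-- `extTrans` on `Ext⁰(k, A_i)` in terms of morphisms. -/
lemma extTrans_triv_mk₀ {i j : T.ι} (h : i ≤ j) (f : (triv k T).C i ⟶ A.C i) (c : k) :
    ∃ f' : (triv k T).C j ⟶ A.C j, extTrans (triv k T) A 0 h (Ext.mk₀ f) = Ext.mk₀ f' ∧
      ∀ c : k, f'.hom c = (A.φ h).hom (f.hom c) := by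
  refine ⟨inv ((triv k T).φ h) ≫ (Rep.resFunctor (T.π h)).map f ≫ A.φ h, ?_, ?_⟩
  · unfold extTrans
    rw [extPull_apply, Ext.mapExactFunctor_mk₀, Ext.mk₀_comp_mk₀, Ext.mk₀_comp_mk₀]
  · intro c
    have h1 : (inv ((triv k T).φ h)).hom c = c := by
      have := (triv k T).inv_φ_φ h c
      exact this
    show (A.φ h).hom (f.hom ((inv ((triv k T).φ h)).hom c)) = _
    rw [h1]

/-- Classes in `H⁰(A)` living on the level `i` are detected on the level `i` (the transition maps of a
cartesian module are injective). -/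
lemma hzero_of_eq_zero (i : T.ι) (f : (triv k T).C i ⟶ A.C i)
    (h0 : ExtLim.of (triv k T) A 0 i (Ext.mk₀ f) = 0) : f = 0 := by
  obtain ⟨j, hij, hj⟩ := ExtLim.of_eq_zero (triv k T) A 0 h0
  obtain ⟨f', hf', hf'c⟩ := extTrans_triv_mk₀ A hij f 1
  rw [hf'] at hj
  have h1 : f' = 0 := (Ext.mk₀_bijective _ _).1 (hj.trans (Ext.mk₀_zero _ _).symm)
  subst h1
  apply trivial_hom_ext
  apply A.φ_injective hij
  have e1 := hf'c 1
  have e2 : (A.φ hij).hom ((0 : (triv k T).C i ⟶ A.C i).hom (1 : k)) = 0 := map_zero _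
  exact e1.symm.trans e2.symm

variable {b : T.ι} (hb : ∀ l, b ≤ l)

include hb in
/-- Every class in `H⁰(A)` lives on the bottom level. -/
lemma hzero_of_bottom_surjective (x : HLim A 0) :
    ∃ f : (triv k T).C b ⟶ A.C b, ExtLim.of (triv k T) A 0 b (Ext.mk₀ f) = x := by
  obtain ⟨l, ξ, rfl⟩ := ExtLim.exists_of (triv k T) A 0 x
  obtain ⟨f, rfl⟩ := (Ext.mk₀_bijective _ _).2 ξ
  -- the invariant vector `f 1` descends to the bottom level
  have hfix : ∀ g : T.G b, (A.C b).ρ g ((A.φInv (hb l)).hom (f.hom (1 : k))) =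
      (A.φInv (hb l)).hom (f.hom (1 : k)) := by
    intro g
    obtain ⟨g', rfl⟩ := T.π_surjective (hb l) g
    have h1 := Rep.hom_comm_apply (A.φInv (hb l)) g' (f.hom (1 : k))
    have h2 : (A.C l).ρ g' (f.hom (1 : k)) = f.hom (1 : k) :=
      (Rep.hom_comm_apply f g' (1 : k)).symm
    rw [h2] at h1
    exact h1.symm
  let f₀ : (triv k T).C b ⟶ A.C b :=
    fixedHom (A.C b) (LinearMap.toSpanSingleton k (A.C b).V ((A.φInv (hb l)).hom (f.hom (1 : k))))
      (fun g c => by
        rw [LinearMap.toSpanSingleton_apply, map_smul, hfix g])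
  refine ⟨f₀, ?_⟩
  obtain ⟨f', hf', hf'c⟩ := extTrans_triv_mk₀ A (hb l) f₀ 1
  rw [← ExtLim.of_trans (triv k T) A 0 (hb l), hf']
  congr 2
  apply trivial_hom_ext
  refine (hf'c 1).trans ?_
  have e1 : f₀.hom (1 : k) = (A.φInv (hb l)).hom (f.hom (1 : k)) :=
    one_smul k _
  have e2 : (A.φ (hb l)).hom (f₀.hom (1 : k)) =
      (A.φ (hb l)).hom ((A.φInv (hb l)).hom (f.hom (1 : k))) := congrArg _ e1
  exact e2.trans (A.φ_φInv (hb l) _)

include hb in
/-- `H⁰(A)` is finite for a cartesian tower module with finite levels. -/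
lemma finite_hlim_zero [Finite (A.C b)] : Finite (HLim A 0) := by
  have h1 : Finite ((triv k T).C b ⟶ A.C b) := by
    refine Finite.of_injective (fun f : (triv k T).C b ⟶ A.C b => f.hom (1 : k)) ?_
    intro f g hfg
    exact trivial_hom_ext f g hfg
  exact Finite.of_surjective (fun f : (triv k T).C b ⟶ A.C b =>
    ExtLim.of (triv k T) A 0 b (Ext.mk₀ f)) (hzero_of_bottom_surjective A hb)

/-- If the bottom group is trivial, `|A_b| ≤ |H⁰(A)|`. -/
lemma card_le_card_hlim_zero [Subsingleton (T.G b)] [Finite (HLim A 0)] :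
    Nat.card (A.C b) ≤ Nat.card (HLim A 0) := by
  have hfix : ∀ (a : (A.C b).V) (g : T.G b) (c : k),
      (A.C b).ρ g (LinearMap.toSpanSingleton k (A.C b).V a c) =
        LinearMap.toSpanSingleton k (A.C b).V a c := by
    intro a g c
    rw [Subsingleton.elim g 1, map_one]
    rfl
  refine Nat.card_le_card_of_injective (fun a : (A.C b).V =>
    ExtLim.of (triv k T) A 0 b (Ext.mk₀ (fixedHom (A.C b)
      (LinearMap.toSpanSingleton k (A.C b).V a) (hfix a)))) ?_
  intro a a' haa'
  obtain ⟨l, hl, hl', h1⟩ := ExtLim.of_eq_of (triv k T) A 0 haa'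
  obtain ⟨f₁, hf₁, hf₁c⟩ := extTrans_triv_mk₀ A hl (fixedHom (A.C b)
      (LinearMap.toSpanSingleton k (A.C b).V a) (hfix a)) 1
  obtain ⟨f₂, hf₂, hf₂c⟩ := extTrans_triv_mk₀ A hl' (fixedHom (A.C b)
      (LinearMap.toSpanSingleton k (A.C b).V a') (hfix a')) 1
  rw [hf₁, hf₂] at h1
  have h2 : f₁ = f₂ := (Ext.mk₀_bijective _ _).1 h1
  have h3 : (A.φ hl).hom ((1 : k) • a) = (A.φ hl).hom ((1 : k) • a') := by
    have e1 := hf₁c 1
    have e2 := hf₂c 1
    rw [h2] at e1
    exact e1.symm.trans e2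
  have h4 := A.φ_injective hl h3
  rwa [one_smul, one_smul] at h4

end HZero

/-- `p • x = 0` in `ExtLim A' A s` if `p • A = 0` (second variable). -/
lemma ExtLim.nsmul_eq_zero_of_torsion_right {k : Type} [CommRing k] {T : Tower}
    (A' A : TowerModule k T) [A'.IsCartesian] (s : ℕ) (p : ℕ) (hA : ∀ j (a : A.C j), p • a = 0)
    (x : ExtLim A' A s) : p • x = 0 := by
  induction x using ExtLim.induction_on with
  | h j ξ =>
    rw [← map_nsmul]
    have h1 : p • ξ = ξ.comp (Ext.mk₀ (p • 𝟙 (A.C j))) (add_zero s) := by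
      rw [mk₀_nsmul, ext_comp_nsmul, Ext.comp_mk₀_id]
    rw [h1, nsmul_id_eq_zero_of_forall (A.C j) p (hA j), Ext.mk₀_zero, Ext.comp_zero, map_zero]

/-! ### Surjectivity of `α²` -/

section Alpha

variable {p : ℕ} [Fact p.Prime] {T : Tower} {C : TowerModule ℤ T} (cf : PClassFormation p T C)
  (A : TowerModule ℤ T) [A.IsCartesian] [A.IsFinPTorsion p]

lemma hlim_torsion (s : ℕ) (x : HLim A s) : p • x = 0 :=
  ExtLim.nsmul_eq_zero_of_torsion_right (triv ℤ T) A s p
    (fun j => IsFinPTorsion.torsion (p := p) (A := A) j) x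

lemma extLim_torsion (B : TowerModule ℤ T) (r : ℕ) (ξ : ExtLim A B r) : p • ξ = 0 :=
  ExtLim.nsmul_eq_zero_of_torsion A B r p (fun j => IsFinPTorsion.torsion (p := p) (A := A) j) ξ

/-- A non-zero value of the pairing has a non-zero invariant. -/
lemma alpha_ne_zero_of_pairing_ne_zero (r s : ℕ) (h : s + r = 2) (ξ : ExtLim A C r) (x : HLim A s)
    (hne : pairing A C r s 2 h ξ x ≠ 0) : cf.limFormation.alpha A r s h ξ x ≠ 0 := by
  rw [LimFormation.alpha_apply]
  intro h0
  apply hne
  refine cf.limFormation.inv_injective _ ?_ h0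
  rw [← AddMonoidHom.nsmul_apply, ← map_nsmul, extLim_torsion (p := p) A C r ξ, map_zero]
  rfl

/-- `α` is right-nondegenerate as soon as the pairing is. -/
lemma alpha_right_nondeg (r s : ℕ) (h : s + r = 2)
    (H : ∀ x : HLim A s, x ≠ 0 → ∃ ξ : ExtLim A C r, pairing A C r s 2 h ξ x ≠ 0)
    (x : HLim A s) (hx : x ≠ 0) : ∃ ξ, cf.limFormation.alpha A r s h ξ x ≠ 0 := by
  obtain ⟨ξ, hξ⟩ := H x hx
  exact ⟨ξ, alpha_ne_zero_of_pairing_ne_zero cf A r s h ξ x hξ⟩

variable {b : T.ι} (hb : ∀ l, b ≤ l)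

include hb in
/-- **`α²(A)` is surjective.** -/
theorem alpha2_surjective : Function.Surjective (cf.limFormation.alpha A 2 0 rfl) := by
  have : Finite (HLim A 0) := finite_hlim_zero A hb
  exact surjective_of_right_nondeg p _ (hlim_torsion (p := p) A 0)
    (alpha_right_nondeg cf A 2 0 rfl (exists_pairing_two_ne_zero cf A))

end Alpha

theorem ext_eq_zero_of_subsingleton_right {k G : Type} [CommRing k] [Group G] {X Y : Rep.{0} k G}
    [Subsingleton Y] {r : ℕ} (η : Ext X Y r) : η = 0 := by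
  have h0 : 𝟙 Y = 0 := by
    ext x
    exact Subsingleton.elim _ _
  rw [← Ext.comp_mk₀_id η, h0, Ext.mk₀_zero, Ext.comp_zero]

/-! ### Counting by dévissage over a tower whose bottom group is a `p`-group -/

section Devissage

variable {p : ℕ} [Fact p.Prime] {T : Tower} {b : T.ι} (hb : ∀ l, b ≤ l)

/-- elementwise description of a short exact sequence of representations -/
lemma shortExact_functions' {k G : Type} [CommRing k] [Group G] {S : ShortComplex (Rep.{0} k G)}
    (hS : S.ShortExact) : Function.Injective S.f.hom ∧ Function.Surjective S.g.hom ∧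
      ∀ y : S.X₂.V, S.g.hom y = 0 → ∃ x : S.X₁.V, S.f.hom x = y := by
  refine ⟨(Rep.mono_iff_injective S.f).1 hS.mono_f, (Rep.epi_iff_surjective S.g).1 hS.epi_g, ?_⟩
  have h1 := hS.exact
  rw [← ShortComplex.exact_map_iff_of_faithful S (forget₂ (Rep k G) (ModuleCat k)),
    ShortComplex.moduleCat_exact_iff] at h1
  exact h1

/-- `|M| = |M'| · |M''|` for a short exact sequence of finite representations -/
lemma card_of_shortExact {k G : Type} [CommRing k] [Group G] {S : ShortComplex (Rep.{0} k G)}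
    (hS : S.ShortExact) [Finite S.X₂.V] :
    Nat.card S.X₂.V = Nat.card S.X₁.V * Nat.card S.X₃.V := by
  obtain ⟨hinj, hsurj, hex⟩ := shortExact_functions' hS
  let g : S.X₂.V →+ S.X₃.V := S.g.hom.toLinearMap.toAddMonoidHom
  rw [card_eq_card_ker_mul_card_range g]
  congr 1
  · symm
    refine Nat.card_congr (Equiv.ofBijective (fun x : S.X₁.V => (⟨S.f.hom x, ?_⟩ : g.ker)) ⟨?_, ?_⟩)
    · exact congrArg (fun φ => φ.hom x) S.zero
    · intro x y hxy
      exact hinj (congrArg Subtype.val hxy)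
    · rintro ⟨y, hy⟩
      obtain ⟨x, hx⟩ := hex y hy
      exact ⟨x, Subtype.ext hx⟩
  · have : g.range = ⊤ := AddMonoidHom.range_eq_top.2 hsurj
    rw [this, AddSubgroup.card_top]

/-- **Counting by dévissage (contravariant)**: over a tower whose bottom group is a `p`-group, if
`|ExtLim 𝔽_p B r| ≤ c` then `|ExtLim X B r| ≤ c ^ d` for every cartesian `X` with `|X_b| = p ^ d`;
we state it as: `ExtLim X B r` is finite and `|ExtLim X B r| ^ 1 ≤ …` through the invariant
`N(M) = c ^ (log_p |M|)`. -/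
theorem finite_extLim_of_pGroup (hG : IsPGroup p (T.G b)) (B : TowerModule ℤ T) (r : ℕ)
    (hFp : Finite (ExtLim (FpMod p T) B r)) (c : ℕ) (hc : Nat.card (ExtLim (FpMod p T) B r) ≤ c)
    (M : Rep.{0} ℤ (T.G b)) (hfin : Finite M) (hM : ∀ m : M, p • m = 0) :
    Finite (ExtLim (inflB T b hb M) B r) ∧
      Nat.card (ExtLim (inflB T b hb M) B r) ≤ c ^ (Nat.log p (Nat.card M)) := by
  have hp : 1 < p := (Fact.out : p.Prime).one_lt
  refine Coh.rep_induction_pGroup hG (Coh.isLineModel_int_zmod p)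
    (fun M => Finite M → Finite (ExtLim (inflB T b hb M) B r) ∧
      Nat.card (ExtLim (inflB T b hb M) B r) ≤ c ^ (Nat.log p (Nat.card M))) ?_ ?_ M hfin hM hfin
  · intro M hM _
    have h0 : ∀ x : ExtLim (inflB T b hb M) B r, x = 0 := by
      intro x
      induction x using ExtLim.induction_on with
      | h j ξ =>
        haveI : Subsingleton ((inflB T b hb M).C j) := hM
        rw [ext_eq_zero_of_subsingleton ξ, map_zero]
    haveI : Subsingleton (ExtLim (inflB T b hb M) B r) := ⟨fun x y => (h0 x).trans (h0 y).symm⟩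
    refine ⟨inferInstance, ?_⟩
    rw [Nat.card_unique]
    exact Nat.one_le_pow _ _ (Nat.pos_of_ne_zero (fun h => by
      rw [h] at hc
      have : 0 < Nat.card (ExtLim (FpMod p T) B r) := Nat.card_pos
      omega))
  · intro M M'' f g w hS ih hfinM
    obtain ⟨hinj, hsurj, hex⟩ := shortExact_functions' hS
    have hfin'' : Finite M'' := Finite.of_surjective _ hsurj
    obtain ⟨ih1, ih2⟩ := ih hfin''
    let S := inflShortExact hb hS
    -- `ExtLim (inflB 𝔽_p) B r ≃ ExtLim 𝔽_p B r`
    let e := ExtLim.congrLeft (inflBTrivialIso (k := ℤ) b hb (ZMod p)).symm B r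
    haveI : Finite (ExtLim (inflB T b hb (Rep.trivial ℤ (T.G b) (ZMod p))) B r) :=
      Finite.of_equiv _ e.symm.toEquiv
    have hcard : Nat.card (ExtLim (inflB T b hb (Rep.trivial ℤ (T.G b) (ZMod p))) B r) ≤ c := by
      rw [Nat.card_congr e.toEquiv]
      exact hc
    obtain ⟨h1, h2⟩ := finite_and_card_le_of_exact (ExtLim.mapLeft B S.g r) (ExtLim.mapLeft B S.f r)
      (fun y hy => S.contravariant_exact₂ B r y hy)
    refine ⟨h1, h2.trans ?_⟩
    have hcM : Nat.card M = p * Nat.card M'' := by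
      have := card_of_shortExact hS
      rw [this]
      congr 1
      exact Nat.card_zmod p
    have hpos : 0 < Nat.card M'' := Nat.card_pos
    have hlog : Nat.log p (Nat.card M) = Nat.log p (Nat.card M'') + 1 := by
      rw [hcM, mul_comm, Nat.log_mul_base hp hpos.ne']
    rw [hlog, pow_succ]
    exact Nat.mul_le_mul ih2 hcard

/-- **Counting by dévissage (covariant)**. -/
theorem finite_extLim_right_of_pGroup (hG : IsPGroup p (T.G b)) (A' : TowerModule ℤ T)
    [A'.IsCartesian] (s : ℕ) (hFp : Finite (ExtLim A' (FpMod p T) s)) (c : ℕ)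
    (hc : Nat.card (ExtLim A' (FpMod p T) s) ≤ c)
    (M : Rep.{0} ℤ (T.G b)) (hfin : Finite M) (hM : ∀ m : M, p • m = 0) :
    Finite (ExtLim A' (inflB T b hb M) s) ∧
      Nat.card (ExtLim A' (inflB T b hb M) s) ≤ c ^ (Nat.log p (Nat.card M)) := by
  have hp : 1 < p := (Fact.out : p.Prime).one_lt
  refine Coh.rep_induction_pGroup hG (Coh.isLineModel_int_zmod p)
    (fun M => Finite M → Finite (ExtLim A' (inflB T b hb M) s) ∧
      Nat.card (ExtLim A' (inflB T b hb M) s) ≤ c ^ (Nat.log p (Nat.card M))) ?_ ?_ M hfin hM hfin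
  · intro M hM _
    have h0 : ∀ x : ExtLim A' (inflB T b hb M) s, x = 0 := by
      intro x
      induction x using ExtLim.induction_on with
      | h j ξ =>
        haveI : Subsingleton ((inflB T b hb M).C j) := hM
        rw [ext_eq_zero_of_subsingleton_right ξ, map_zero]
    haveI : Subsingleton (ExtLim A' (inflB T b hb M) s) := ⟨fun x y => (h0 x).trans (h0 y).symm⟩
    refine ⟨inferInstance, ?_⟩
    rw [Nat.card_unique]
    exact Nat.one_le_pow _ _ (Nat.pos_of_ne_zero (fun h => by
      rw [h] at hc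
      have : 0 < Nat.card (ExtLim A' (FpMod p T) s) := Nat.card_pos
      omega))
  · intro M M'' f g w hS ih hfinM
    obtain ⟨hinj, hsurj, hex⟩ := shortExact_functions' hS
    have hfin'' : Finite M'' := Finite.of_surjective _ hsurj
    obtain ⟨ih1, ih2⟩ := ih hfin''
    let S := inflShortExact hb hS
    let e := ExtLim.congrRight A' (inflBTrivialIso (k := ℤ) b hb (ZMod p)) s
    haveI : Finite (ExtLim A' (inflB T b hb (Rep.trivial ℤ (T.G b) (ZMod p))) s) :=
      Finite.of_equiv _ e.symm.toEquiv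
    have hcard : Nat.card (ExtLim A' (inflB T b hb (Rep.trivial ℤ (T.G b) (ZMod p))) s) ≤ c := by
      rw [Nat.card_congr e.toEquiv]
      exact hc
    obtain ⟨h1, h2⟩ := finite_and_card_le_of_exact (ExtLim.mapRight A' S.f s)
      (ExtLim.mapRight A' S.g s) (fun y hy => S.covariant_exact₂ A' s y hy)
    refine ⟨h1, h2.trans ?_⟩
    have hcM : Nat.card M = p * Nat.card M'' := by
      have := card_of_shortExact hS
      rw [this]
      congr 1
      exact Nat.card_zmod p
    have hpos : 0 < Nat.card M'' := Nat.card_pos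
    have hlog : Nat.log p (Nat.card M) = Nat.log p (Nat.card M'') + 1 := by
      rw [hcM, mul_comm, Nat.log_mul_base hp hpos.ne']
    rw [hlog, pow_succ, mul_comm]
    exact Nat.mul_le_mul ih2 hcard

end Devissage

/-! ### `α²` over a tower with trivial bottom group -/

section TrivialBottom

variable {p : ℕ} [Fact p.Prime] {T : Tower} {C : TowerModule ℤ T} (cf : PClassFormation p T C)
  {b : T.ι} (hb : ∀ l, b ≤ l)

/-- `H⁰(𝔽_p)` has at most `p` elements. -/
lemma card_hlim_Fp_zero_le : Finite (HLim (FpMod p T) 0) ∧ Nat.card (HLim (FpMod p T) 0) ≤ p := by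
  have hp : 0 < p := (Fact.out : p.Prime).pos
  have hsurj : Function.Surjective (fun n : Fin p => (n : ℕ) • qClass p T) := by
    intro x
    obtain ⟨m, rfl⟩ := exists_nsmul_qClass x
    refine ⟨⟨m % p, Nat.mod_lt m hp⟩, ?_⟩
    show (m % p) • qClass p T = m • qClass p T
    conv_rhs => rw [← Nat.div_add_mod m p, add_smul, mul_comm, mul_smul, p_smul_qClass, smul_zero,
      zero_add]
  refine ⟨Finite.of_surjective _ hsurj, ?_⟩
  have := Nat.card_le_card_of_surjective _ hsurj
  rwa [Nat.card_fin] at this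

include cf in
/-- `ExtLim 𝔽_p C 2` has at most `p` elements. -/
lemma card_extLim_Fp_two_le :
    Finite (ExtLim (FpMod p T) C 2) ∧ Nat.card (ExtLim (FpMod p T) C 2) ≤ p := by
  obtain ⟨h1, h2⟩ := card_hlim_Fp_zero_le (p := p) (T := T)
  have hbij := cf.limFormation.alpha2_Fp_bijective
  have htors : ∀ x : HLim (FpMod p T) 0, p • x = 0 := hlim_torsion (p := p) (FpMod p T) 0
  haveI := finite_char p htors
  refine ⟨Finite.of_injective _ hbij.1, ?_⟩
  rw [Nat.card_congr (Equiv.ofBijective _ hbij), card_addMonoidHom_addCircle p htors]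
  exact h2

include hb in
/-- **(K2)** over a tower with trivial bottom group, `α²(X)` is bijective. -/
theorem alpha2_bijective_of_subsingleton [Subsingleton (T.G b)] (X : TowerModule ℤ T)
    [X.IsCartesian] [X.IsFinPTorsion p] :
    Function.Bijective (cf.limFormation.alpha X 2 0 rfl) := by
  have hG : IsPGroup p (T.G b) := fun g => ⟨0, by rw [Subsingleton.elim g 1, one_pow]⟩
  obtain ⟨hF1, hF2⟩ := card_extLim_Fp_two_le cf
  obtain ⟨h1, h2⟩ := finite_extLim_of_pGroup hb hG C 2 hF1 p hF2 (X.C b)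
    (IsFinPTorsion.finite (p := p) b) (IsFinPTorsion.torsion (p := p) (A := X) b)
  let e := ExtLim.congrLeft (isoInflB hb X).symm C 2
  haveI : Finite (ExtLim X C 2) := Finite.of_equiv _ e.symm.toEquiv
  haveI : Finite (HLim X 0) := finite_hlim_zero X hb
  refine bijective_of_surjective_of_card_le p _ (hlim_torsion (p := p) X 0)
    (alpha2_surjective cf X hb) ?_
  rw [Nat.card_congr e.toEquiv]
  refine h2.trans ((Nat.pow_log_le_self p Nat.card_pos.ne').trans ?_)
  exact card_le_card_hlim_zero X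

end TrivialBottom

/-! ### The four-lemma chase -/

section Chase

variable {p : ℕ} [Fact p.Prime] {T : Tower} {C : TowerModule ℤ T} (L : LimFormation p T C)

/-- Naturality of `α` in the first variable. -/
lemma LimFormation.alpha_mapLeft {A' A : TowerModule ℤ T} [A'.IsCartesian] [A.IsCartesian]
    (F : A'.Hom A) (r s : ℕ) (h : s + r = 2) (ξ : ExtLim A C r) (x' : HLim A' s) :
    L.alpha A' r s h (ExtLim.mapLeft C F r ξ) x' =
      L.alpha A r s h ξ (ExtLim.mapRight (triv ℤ T) F s x') := by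
  rw [LimFormation.alpha_apply, LimFormation.alpha_apply, pairing_mapLeft]

/-- Compatibility of `α` with the connecting maps. -/
lemma LimFormation.alpha_compRight_δ {A₁ A₂ A₃ : TowerModule ℤ T} [A₁.IsCartesian]
    [A₂.IsCartesian] [A₃.IsCartesian] (S : ShortExact A₁ A₂ A₃) (r s : ℕ) (h : s + 1 + r = 2)
    (ξ : ExtLim A₁ C r) (x : HLim A₃ s) :
    L.alpha A₁ r (s + 1) h ξ (ExtLim.compRight (triv ℤ T) S.δ s (s + 1) rfl x) =
      L.alpha A₃ (1 + r) s (by omega) (ExtLim.compLeft C S.δ r (1 + r) rfl ξ) x := by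
  rw [LimFormation.alpha_apply, LimFormation.alpha_apply, pairing_compRight_δ]

/-- **The four-lemma chase**: for a short exact sequence `0 → A → M₀ → M₂ → 0`, `α^r(A)` is
injective if `α^r(M₀)` is injective, `α^r(M₂)` is surjective and every class in the kernel of
`α^r(A)` lifts to `M₀`. -/
theorem LimFormation.alpha_injective_of_chase {A M0 M2 : TowerModule ℤ T} [A.IsCartesian]
    [M0.IsCartesian] [M2.IsCartesian] (S : ShortExact A M0 M2) (r s : ℕ) (h : s + r = 2)
    (hlift : ∀ ξ : ExtLim A C r, L.alpha A r s h ξ = 0 →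
      ∃ ξ₀ : ExtLim M0 C r, ExtLim.mapLeft C S.f r ξ₀ = ξ)
    (h0 : Function.Injective (L.alpha M0 r s h))
    (h2 : Function.Surjective (L.alpha M2 r s h)) :
    Function.Injective (L.alpha A r s h) := by
  rw [injective_iff_map_eq_zero]
  intro ξ hξ
  obtain ⟨ξ₀, rfl⟩ := hlift ξ hξ
  -- the character `α(M₀)(ξ₀)` vanishes on the kernel of `H^s(M₀) → H^s(M₂)`
  have hker : ∀ y : HLim M0 s, ExtLim.mapRight (triv ℤ T) S.g s y = 0 →
      L.alpha M0 r s h ξ₀ y = 0 := by
    intro y hy
    obtain ⟨x, rfl⟩ := S.covariant_exact₂ (triv ℤ T) s y hy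
    rw [← L.alpha_mapLeft, hξ]
    rfl
  obtain ⟨χ, hχ⟩ := exists_char_comp_eq (ExtLim.mapRight (triv ℤ T) S.g s) (L.alpha M0 r s h ξ₀) hker
  obtain ⟨ξ₂, hξ₂⟩ := h2 χ
  have h3 : ExtLim.mapLeft C S.g r ξ₂ = ξ₀ := by
    apply h0
    ext y
    rw [L.alpha_mapLeft, hξ₂, hχ]
  rw [← h3]
  exact S.mapLeft_f_mapLeft_g C r ξ₂

end Chase

/-! ### (W2) `α²` is bijective -/

section W2

variable {p : ℕ} [Fact p.Prime] {T : Tower} {C : TowerModule ℤ T} (cf : PClassFormation p T C)
  {b : T.ι} (hb : ∀ l, b ≤ l)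

/-- the bottom group of the kernel tower `T.sub b ⊥` is trivial -/
instance subsingleton_sub_bot : Subsingleton ((T.sub b ⊥).G ⟨b, le_refl b⟩) := by
  constructor
  rintro ⟨x, hx⟩ ⟨y, hy⟩
  apply Subtype.ext
  have hx' : T.π (le_refl b) x = 1 := Subgroup.mem_bot.1 hx
  have hy' : T.π (le_refl b) y = 1 := Subgroup.mem_bot.1 hy
  rw [T.π_refl] at hx' hy'
  exact hx'.trans hy'.symm

include hb in
/-- **(W2)** `α²(A)` is bijective for every finite `p`-torsion cartesian tower module `A` over a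
`p`-class formation tower with a bottom level. -/
theorem alpha2_bijective (A : TowerModule ℤ T) [A.IsCartesian] [A.IsFinPTorsion p] :
    Function.Bijective (cf.limFormation.alpha A 2 0 rfl) := by
  refine ⟨?_, alpha2_surjective cf A hb⟩
  have hbot' : ∀ l : (T.sub b ⊥).ι, (⟨b, le_refl b⟩ : (T.sub b ⊥).ι) ≤ l := fun l => l.2
  refine cf.limFormation.alpha_injective_of_chase (coindUpSES b hb ⊥ A) 2 0 rfl ?_ ?_ ?_
  · intro ξ _
    exact (coindUpSES b hb ⊥ A).contravariant_exact₁ C (n₀ := 2) (n₁ := 3) rfl ξ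
      (cf.extLim_three_eq_zero _ (fun j => IsFinPTorsion.finite (p := p) j)
        (fun j => IsFinPTorsion.torsion (p := p) j) _)
  · exact ((alpha_coindUp_bijective_iff b hb ⊥ cf (A.sub b ⊥)
      (fun l => IsFinPTorsion.torsion (p := p) (A := A.sub b ⊥) l) 2 0 rfl).2
      (alpha2_bijective_of_subsingleton (cf.sub b ⊥) hbot' (A.sub b ⊥))).1
  · exact alpha2_surjective cf _ hb

end W2

end

end Fermat.Agent.CFT.Duality
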