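import Fermat.Agent.Lib.CFT.Duality.JShapiroLevel
import Fermat.Agent.Lib.CFT.Duality.PTData
import Fermat.Agent.Lib.CFT.Duality.LocInj

/-!
# P4 / Layer D, D-JSH : Shapiro's lemma for the semi-local modules `J_q`, in the limit

Abstract setting: a tower `T` (all levels), a directed set of levels `P` (the `S`-levels), a family
of subgroups `D` (decomposition groups).  `T.filter P` is the global `S`-tower,
`(T.subTower D).filter P` the local `S`-tower.  For `A` over `T` (cartesian), `B` over `T.filter P`,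
`B'` over `(T.subTower D).filter P` and `D_L`-morphisms `β_L : B_L|_{D_L} → B'_L` commuting with the
transition maps:

* `locSLim : ExtLim (A|_P) B r →+ ExtLim (A|_{D,P}) B' r` (restriction to `D_L`, then `β_L`);
  `locSLim_of`, `locSLim_bijective`/`locSEquiv` (if `β_L` identifies `B_L` with
  `coind_{D_L}^{G_L} B'_L`, in the elementary form of `PTData.pr_injective/pr_surjective`);
* `locSRes` (the case `β = 𝟙`: pure localisation; for a trivial first variable it is helper4's
  `locLimFilter`, `locSRes_triv_eq_locLimFilter`), `locSHLim` (first variable trivial);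
* compatibilities: `locSLim_comp` (Yoneda product), `locSHLim_pairing`, `locSLim_mapRight`,
  `locSLim_compRight` (connecting homomorphisms);
* `invLim_locSHLim`, `alpha_locSLim` : compatibility of the global and local duality pairings, from
  the hypothesis `PTData.inv_compat`;
* `PTData.jSh`, `PTData.alpha_jSh` : the specialisation to `PTData`.
-/

set_option autoImplicit false
set_option linter.unusedSectionVars false

open CategoryTheory Abelian Rep Representation

namespace Fermat.Agent.CFT.Duality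

noncomputable section

namespace TowerModule

variable {k : Type} [CommRing k] {T : Tower} (P : T.ι → Prop) (hne : ∃ i, P i)
  (hdir : ∀ i j, P i → P j → ∃ l, P l ∧ i ≤ l ∧ j ≤ l) (D : T.SubgroupFamily)

/-- the Yoneda product commutes with functoriality in the last variable -/
theorem ExtLim.comp_mapRight {A' A : TowerModule k T} [A'.IsCartesian] [A.IsCartesian]
    {B B' : TowerModule k T} (f : B.Hom B') (s r t : ℕ) (h : s + r = t) (x : ExtLim A' A s)
    (ξ : ExtLim A B r) :
    ExtLim.comp B' s r t h x (ExtLim.mapRight A f r ξ) =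
      ExtLim.mapRight A' f t (ExtLim.comp B s r t h x ξ) := by
  obtain ⟨L, x₀, ξ₀, rfl, rfl⟩ := ExtLim.exists_of₂ B x ξ
  rw [ExtLim.mapRight_of, ExtLim.comp_of, ExtLim.comp_of, ExtLim.mapRight_of]
  congr 1
  exact (Ext.comp_assoc_of_third_deg_zero x₀ ξ₀ (Ext.mk₀ (f.f L)) h).symm

/-- the pairing commutes with functoriality in the last variable -/
theorem pairing_mapRight {A : TowerModule k T} [A.IsCartesian] {B B' : TowerModule k T}
    (f : B.Hom B') (r s t : ℕ) (h : s + r = t) (ξ : ExtLim A B r) (x : HLim A s) :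
    pairing A B' r s t h (ExtLim.mapRight A f r ξ) x =
      ExtLim.mapRight (triv k T) f t (pairing A B r s t h ξ x) :=
  ExtLim.comp_mapRight f s r t h x ξ

section LocS

variable (A : TowerModule k T) [A.IsCartesian]
  (B : TowerModule k (T.filter P hne hdir))
  (B' : TowerModule k ((T.subTower D).filter P hne hdir))
  (β : ∀ L : (T.filter P hne hdir).ι, Rep.res (D.D L.1).subtype (B.C L) ⟶ B'.C L)

/-- the level map `Ext^r_{G_L}(A_L, B_L) → Ext^r_{D_L}(A_L, B'_L)`: restriction to `D_L` followed by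
`β_L : B_L|_{D_L} → B'_L` -/
def locSLevel (r : ℕ) (L : (T.filter P hne hdir).ι) :
    Ext ((A.filter P hne hdir).C L) (B.C L) r →+
      Ext (((A.resSub D).filter P hne hdir).C L) (B'.C L) r :=
  extPull (D.D L.1).subtype (𝟙 (Rep.res (D.D L.1).subtype (A.C L.1))) (β L) r

variable (hβ : ∀ {L L' : (T.filter P hne hdir).ι} (h : L ≤ L') (x : B.C L),
  (β L').hom ((B.φ h).hom x) = (B'.φ (i := L) (j := L') h).hom ((β L).hom x))

include hβ in
theorem locSLevel_trans (r : ℕ) {L L' : (T.filter P hne hdir).ι} (h : L ≤ L')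
    (ξ : Ext ((A.filter P hne hdir).C L) (B.C L) r) :
    locSLevel P hne hdir D A B B' β r L' (extTrans (A.filter P hne hdir) B r h ξ) =
      extTrans ((A.resSub D).filter P hne hdir) B' r (i := L) (j := L') h
        (locSLevel P hne hdir D A B B' β r L ξ) := by
  unfold locSLevel extTrans
  refine (extPull_comp _ _ _ _ _ _ r ξ).trans ?_
  refine Eq.trans ?_ (extPull_comp _ _ _ _ _ _ r ξ).symm
  refine extPull_congr rfl _ _ _ _ ?_ ?_ r ξ
  · intro x
    have h1 : (inv ((A.filter P hne hdir).φ h)).hom x =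
        (inv (((A.resSub D).filter P hne hdir).φ (i := L) (j := L') h)).hom x := by
      apply (A.filter P hne hdir).φ_injective h
      rw [(A.filter P hne hdir).φ_inv_φ h x]
      exact (((A.resSub D).filter P hne hdir).φ_inv_φ (i := L) (j := L') h x).symm
    exact h1
  · intro x
    exact hβ h x

/-- **Localisation at `D` inside the `P`-levels**: the map
`colim_L Ext^r_{G_L}(A_L, B_L) → colim_L Ext^r_{D_L}(A_L, B'_L)` (limits over the `P`-levels) induced by
restriction to the subgroups `D_L` and `β_L : B_L|_{D_L} → B'_L`. -/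
def locSLim (r : ℕ) : ExtLim (A.filter P hne hdir) B r →+
    ExtLim ((A.resSub D).filter P hne hdir) B' r :=
  ExtLim.mapAlong (A.filter P hne hdir) B r ((A.resSub D).filter P hne hdir) B' r
    (fun L => L) (fun _ _ h => h) (locSLevel P hne hdir D A B B' β r)
    (fun h ξ => locSLevel_trans P hne hdir D A B B' β hβ r h ξ)

theorem locSLim_of (r : ℕ) (L : (T.filter P hne hdir).ι)
    (ξ : Ext ((A.filter P hne hdir).C L) (B.C L) r) :
    locSLim P hne hdir D A B B' β hβ r (ExtLim.of (A.filter P hne hdir) B r L ξ) =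
      ExtLim.of ((A.resSub D).filter P hne hdir) B' r L
        (locSLevel P hne hdir D A B B' β r L ξ) :=
  ExtLim.mapAlong_of (A.filter P hne hdir) B r ((A.resSub D).filter P hne hdir) B' r
    (fun L => L) (fun _ _ h => h) (locSLevel P hne hdir D A B B' β r)
    (fun h ξ => locSLevel_trans P hne hdir D A B B' β hβ r h ξ) L ξ

/-- **Shapiro in the limit, elementary form**: if `β_L` identifies `B_L` with
`coind_{D_L}^{G_L} B'_L` at every level then `locSLim` is bijective. -/
theorem locSLim_bijective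
    (hinj : ∀ (L : (T.filter P hne hdir).ι) (y : B.C L),
      (∀ g : T.G L.1, (β L).hom ((B.C L).ρ g y) = 0) → y = 0)
    (hsurj : ∀ (L : (T.filter P hne hdir).ι) (f : T.G L.1 → B'.C L),
      (∀ (s : D.D L.1) (g : T.G L.1), f ((s : T.G L.1) * g) = (B'.C L).ρ s (f g)) →
      ∃ y : B.C L, ∀ g : T.G L.1, (β L).hom ((B.C L).ρ g y) = f g) (r : ℕ) :
    Function.Bijective (locSLim P hne hdir D A B B' β hβ r) := by
  have hb : ∀ L, Function.Bijective (locSLevel P hne hdir D A B B' β r L) := fun L =>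
    extPull_subtype_bijective (D.D L.1) (β L) (hinj L) (hsurj L) r
  exact ⟨ExtLim.mapAlong_injective (A.filter P hne hdir) B r ((A.resSub D).filter P hne hdir) B' r
      (fun L => L) (fun _ _ h => h) (locSLevel P hne hdir D A B B' β r)
      (fun h ξ => locSLevel_trans P hne hdir D A B B' β hβ r h ξ)
      (fun i l hl => ⟨l, hl, le_refl _⟩) (fun L => (hb L).1),
    ExtLim.mapAlong_surjective (A.filter P hne hdir) B r ((A.resSub D).filter P hne hdir) B' r
      (fun L => L) (fun _ _ h => h) (locSLevel P hne hdir D A B B' β r)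
      (fun h ξ => locSLevel_trans P hne hdir D A B B' β hβ r h ξ) (fun l => ⟨l, le_refl _⟩)
      (fun L => (hb L).2)⟩

/-- `locSLim` as an isomorphism -/
def locSEquiv
    (hinj : ∀ (L : (T.filter P hne hdir).ι) (y : B.C L),
      (∀ g : T.G L.1, (β L).hom ((B.C L).ρ g y) = 0) → y = 0)
    (hsurj : ∀ (L : (T.filter P hne hdir).ι) (f : T.G L.1 → B'.C L),
      (∀ (s : D.D L.1) (g : T.G L.1), f ((s : T.G L.1) * g) = (B'.C L).ρ s (f g)) →
      ∃ y : B.C L, ∀ g : T.G L.1, (β L).hom ((B.C L).ρ g y) = f g) (r : ℕ) :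
    ExtLim (A.filter P hne hdir) B r ≃+ ExtLim ((A.resSub D).filter P hne hdir) B' r :=
  AddEquiv.ofBijective (locSLim P hne hdir D A B B' β hβ r)
    (locSLim_bijective P hne hdir D A B B' β hβ hinj hsurj r)

@[simp] theorem locSEquiv_apply
    (hinj : ∀ (L : (T.filter P hne hdir).ι) (y : B.C L),
      (∀ g : T.G L.1, (β L).hom ((B.C L).ρ g y) = 0) → y = 0)
    (hsurj : ∀ (L : (T.filter P hne hdir).ι) (f : T.G L.1 → B'.C L),
      (∀ (s : D.D L.1) (g : T.G L.1), f ((s : T.G L.1) * g) = (B'.C L).ρ s (f g)) →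
      ∃ y : B.C L, ∀ g : T.G L.1, (β L).hom ((B.C L).ρ g y) = f g) (r : ℕ)
    (ξ : ExtLim (A.filter P hne hdir) B r) :
    locSEquiv P hne hdir D A B B' β hβ hinj hsurj r ξ = locSLim P hne hdir D A B B' β hβ r ξ :=
  rfl

end LocS

section Compat

variable (A' : TowerModule k T) [A'.IsCartesian] (A : TowerModule k T)

/-- localisation `ExtLim (A'|_P) (A|_P) s → ExtLim (A'|_{D,P}) (A|_{D,P}) s` (pure restriction) -/
def locSRes (s : ℕ) : ExtLim (A'.filter P hne hdir) (A.filter P hne hdir) s →+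
    ExtLim ((A'.resSub D).filter P hne hdir) ((A.resSub D).filter P hne hdir) s :=
  locSLim P hne hdir D A' (A.filter P hne hdir) ((A.resSub D).filter P hne hdir)
    (fun L => 𝟙 (Rep.res (D.D L.1).subtype (A.C L.1))) (fun _ _ => rfl) s

theorem locSRes_of (s : ℕ) (L : (T.filter P hne hdir).ι)
    (x : Ext ((A'.filter P hne hdir).C L) ((A.filter P hne hdir).C L) s) :
    locSRes P hne hdir D A' A s (ExtLim.of (A'.filter P hne hdir) (A.filter P hne hdir) s L x) =
      ExtLim.of ((A'.resSub D).filter P hne hdir) ((A.resSub D).filter P hne hdir) s L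
        (extPull (D.D L.1).subtype (𝟙 (Rep.res (D.D L.1).subtype (A'.C L.1)))
          (𝟙 (Rep.res (D.D L.1).subtype (A.C L.1))) s x) :=
  locSLim_of P hne hdir D A' (A.filter P hne hdir) ((A.resSub D).filter P hne hdir)
    (fun L => 𝟙 (Rep.res (D.D L.1).subtype (A.C L.1))) (fun _ _ => rfl) s L x

variable [A.IsCartesian] (B : TowerModule k (T.filter P hne hdir))
  (B' : TowerModule k ((T.subTower D).filter P hne hdir))
  (β : ∀ L : (T.filter P hne hdir).ι, Rep.res (D.D L.1).subtype (B.C L) ⟶ B'.C L)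
  (hβ : ∀ {L L' : (T.filter P hne hdir).ι} (h : L ≤ L') (x : B.C L),
    (β L').hom ((B.φ h).hom x) = (B'.φ (i := L) (j := L') h).hom ((β L).hom x))

/-- `locSLim` is compatible with the Yoneda product. -/
theorem locSLim_comp (s r t : ℕ) (h : s + r = t)
    (x : ExtLim (A'.filter P hne hdir) (A.filter P hne hdir) s)
    (ξ : ExtLim (A.filter P hne hdir) B r) :
    locSLim P hne hdir D A' B B' β hβ t (ExtLim.comp B s r t h x ξ) =
      ExtLim.comp B' s r t h (locSRes P hne hdir D A' A s x)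
        (locSLim P hne hdir D A B B' β hβ r ξ) := by
  obtain ⟨L, x₀, ξ₀, rfl, rfl⟩ := ExtLim.exists_of₂ B x ξ
  rw [ExtLim.comp_of, locSLim_of, locSRes_of, locSLim_of, ExtLim.comp_of]
  congr 1
  exact (extPull_comp_ext (D.D L.1).subtype (𝟙 (Rep.res (D.D L.1).subtype (A'.C L.1)))
    (𝟙 (Rep.res (D.D L.1).subtype (A.C L.1))) (𝟙 (Rep.res (D.D L.1).subtype (A.C L.1)))
    (Category.comp_id _) (β L) x₀ ξ₀ h).symm

end Compat

section MapRight

variable (A : TowerModule k T) [A.IsCartesian]
  {B₁ B₂ : TowerModule k (T.filter P hne hdir)}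
  {B₁' B₂' : TowerModule k ((T.subTower D).filter P hne hdir)}
  (β₁ : ∀ L : (T.filter P hne hdir).ι, Rep.res (D.D L.1).subtype (B₁.C L) ⟶ B₁'.C L)
  (hβ₁ : ∀ {L L' : (T.filter P hne hdir).ι} (h : L ≤ L') (x : B₁.C L),
    (β₁ L').hom ((B₁.φ h).hom x) = (B₁'.φ (i := L) (j := L') h).hom ((β₁ L).hom x))
  (β₂ : ∀ L : (T.filter P hne hdir).ι, Rep.res (D.D L.1).subtype (B₂.C L) ⟶ B₂'.C L)
  (hβ₂ : ∀ {L L' : (T.filter P hne hdir).ι} (h : L ≤ L') (x : B₂.C L),
    (β₂ L').hom ((B₂.φ h).hom x) = (B₂'.φ (i := L) (j := L') h).hom ((β₂ L).hom x))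

/-- `locSLim` is natural in the second variable. -/
theorem locSLim_mapRight (f : B₁.Hom B₂) (f' : B₁'.Hom B₂')
    (hf : ∀ (L : (T.filter P hne hdir).ι) (x : B₁.C L),
      (β₂ L).hom ((f.f L).hom x) = (f'.f L).hom ((β₁ L).hom x)) (r : ℕ)
    (ξ : ExtLim (A.filter P hne hdir) B₁ r) :
    locSLim P hne hdir D A B₂ B₂' β₂ hβ₂ r (ExtLim.mapRight (A.filter P hne hdir) f r ξ) =
      ExtLim.mapRight ((A.resSub D).filter P hne hdir) f' r
        (locSLim P hne hdir D A B₁ B₁' β₁ hβ₁ r ξ) := by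
  induction ξ using ExtLim.induction_on with
  | h L ξ₀ =>
    rw [ExtLim.mapRight_of, locSLim_of, locSLim_of, ExtLim.mapRight_of]
    congr 1
    have e1 := extPull_comp_mk₀ (D.D L.1).subtype (𝟙 (Rep.res (D.D L.1).subtype (A.C L.1)))
      (β₂ L) (f.f L) r ξ₀
    have e2 := extPull_postcomp_mk₀ (D.D L.1).subtype (𝟙 (Rep.res (D.D L.1).subtype (A.C L.1)))
      (β₁ L) (f'.f L) r ξ₀
    refine e1.trans (Eq.trans ?_ e2.symm)
    refine extPull_congr rfl _ _ _ _ (fun _ => rfl) (fun x => ?_) r ξ₀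
    exact hf L x

/-- `locSLim` is compatible with the Yoneda product on the right with compatible families of `Ext`
classes (e.g. connecting homomorphisms). -/
theorem locSLim_compRight {s : ℕ} (c : ExtFamily B₁ B₂ s) (c' : ExtFamily B₁' B₂' s)
    (hc : ∀ L : (T.filter P hne hdir).ι,
      (Ext.mk₀ (β₁ L)).comp (c'.c L) (zero_add s) =
        extPull (D.D L.1).subtype (𝟙 (Rep.res (D.D L.1).subtype (B₁.C L))) (β₂ L) s (c.c L))
    (r t : ℕ) (h : r + s = t) (ξ : ExtLim (A.filter P hne hdir) B₁ r) :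
    locSLim P hne hdir D A B₂ B₂' β₂ hβ₂ t (ExtLim.compRight (A.filter P hne hdir) c r t h ξ) =
      ExtLim.compRight ((A.resSub D).filter P hne hdir) c' r t h
        (locSLim P hne hdir D A B₁ B₁' β₁ hβ₁ r ξ) := by
  induction ξ using ExtLim.induction_on with
  | h L ξ₀ =>
    rw [ExtLim.compRight_of, locSLim_of, locSLim_of, ExtLim.compRight_of]
    congr 1
    have e1 := extPull_comp_ext (D.D L.1).subtype (𝟙 (Rep.res (D.D L.1).subtype (A.C L.1)))
      (𝟙 (Rep.res (D.D L.1).subtype (B₁.C L))) (𝟙 (Rep.res (D.D L.1).subtype (B₁.C L)))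
      (Category.comp_id _) (β₂ L) ξ₀ (c.c L) h
    have e2 := extPull_postcomp_mk₀ (D.D L.1).subtype (𝟙 (Rep.res (D.D L.1).subtype (A.C L.1)))
      (𝟙 (Rep.res (D.D L.1).subtype (B₁.C L))) (β₁ L) r ξ₀
    rw [Category.id_comp] at e2
    refine e1.symm.trans ?_
    rw [← hc L, ← Ext.comp_assoc _ _ _ (add_zero r) (zero_add s) (by omega)]
    exact congrArg (fun e => Ext.comp e (c'.c L) h) e2

end MapRight

section HLim

variable (B : TowerModule k (T.filter P hne hdir))
  (B' : TowerModule k ((T.subTower D).filter P hne hdir))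
  (β : ∀ L : (T.filter P hne hdir).ι, Rep.res (D.D L.1).subtype (B.C L) ⟶ B'.C L)
  (hβ : ∀ {L L' : (T.filter P hne hdir).ι} (h : L ≤ L') (x : B.C L),
    (β L').hom ((B.φ h).hom x) = (B'.φ (i := L) (j := L') h).hom ((β L).hom x))

/-- `locSLim` on cohomology: `colim_L H^s(G_L, B_L) → colim_L H^s(D_L, B'_L)` -/
def locSHLim (s : ℕ) : HLim B s →+ HLim B' s :=
  locSLim P hne hdir D (triv k T) B B' β hβ s

theorem locSHLim_of (s : ℕ) (L : (T.filter P hne hdir).ι)
    (x : Ext ((triv k (T.filter P hne hdir)).C L) (B.C L) s) :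
    locSHLim P hne hdir D B B' β hβ s (ExtLim.of (triv k (T.filter P hne hdir)) B s L x) =
      ExtLim.of (triv k ((T.subTower D).filter P hne hdir)) B' s L
        (extPull (D.D L.1).subtype (𝟙 (Rep.trivial k (D.D L.1) k)) (β L) s x) :=
  locSLim_of P hne hdir D (triv k T) B B' β hβ s L x

/-- Shapiro in the limit for cohomology: `colim_L H^s(G_L, B_L) ≃ colim_L H^s(D_L, B'_L)` if `β_L`
identifies `B_L` with `coind_{D_L}^{G_L} B'_L`. -/
theorem locSHLim_bijective
    (hinj : ∀ (L : (T.filter P hne hdir).ι) (y : B.C L),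
      (∀ g : T.G L.1, (β L).hom ((B.C L).ρ g y) = 0) → y = 0)
    (hsurj : ∀ (L : (T.filter P hne hdir).ι) (f : T.G L.1 → B'.C L),
      (∀ (s : D.D L.1) (g : T.G L.1), f ((s : T.G L.1) * g) = (B'.C L).ρ s (f g)) →
      ∃ y : B.C L, ∀ g : T.G L.1, (β L).hom ((B.C L).ρ g y) = f g) (s : ℕ) :
    Function.Bijective (locSHLim P hne hdir D B B' β hβ s) :=
  locSLim_bijective P hne hdir D (triv k T) B B' β hβ hinj hsurj s

/-- the pure localisation `locSRes` with trivial first variable is `locLimFilter` -/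
theorem locSRes_triv_eq_locLimFilter (A : TowerModule k T) (s : ℕ)
    (x : HLim (A.filter P hne hdir) s) :
    locSRes P hne hdir D (triv k T) A s x = locLimFilter P hne hdir D A s x := by
  induction x using ExtLim.induction_on with
  | h L x₀ =>
    exact (locSRes_of P hne hdir D (triv k T) A s L x₀).trans
      (locLimFilter_of P hne hdir D A s L x₀).symm

/-- the pairing is compatible with localisation -/
theorem locSHLim_pairing (A : TowerModule k T) [A.IsCartesian] (r s t : ℕ) (h : s + r = t)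
    (ξ : ExtLim (A.filter P hne hdir) B r) (x : HLim (A.filter P hne hdir) s) :
    locSHLim P hne hdir D B B' β hβ t (pairing (A.filter P hne hdir) B r s t h ξ x) =
      pairing ((A.resSub D).filter P hne hdir) B' r s t h
        (locSLim P hne hdir D A B B' β hβ r ξ) (locLimFilter P hne hdir D A s x) := by
  rw [← locSRes_triv_eq_locLimFilter]
  exact locSLim_comp P hne hdir D (triv k T) A B B' β hβ s r t h x ξ

end HLim

end TowerModule

section Inv

open TowerModule

variable {p : ℕ} [Fact p.Prime] {T : Tower} (P : T.ι → Prop) (hne : ∃ i, P i)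
  (hdir : ∀ i j, P i → P j → ∃ l, P l ∧ i ≤ l ∧ j ≤ l) (D : T.SubgroupFamily)
  {C J : TowerModule ℤ (T.filter P hne hdir)} (cf : PClassFormation p (T.filter P hne hdir) C)
  (jC : J.Hom C)
  {Lq : TowerModule ℤ ((T.subTower D).filter P hne hdir)}
  (cfLoc : PClassFormation p ((T.subTower D).filter P hne hdir) Lq)
  (pr : ∀ L : (T.filter P hne hdir).ι, Rep.res (D.D L.1).subtype (J.C L) ⟶ Lq.C L)
  (hpr : ∀ {L L' : (T.filter P hne hdir).ι} (h : L ≤ L') (x : J.C L),
    (pr L').hom ((J.φ h).hom x) = (Lq.φ (i := L) (j := L') h).hom ((pr L).hom x))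
  (hinv : ∀ (L : (T.filter P hne hdir).ι) (z : groupCohomology (J.C L) 2), p • z = 0 →
    cf.inv L ⊤ ((groupCohomology.map (⊤ : Subgroup ((T.filter P hne hdir).G L)).subtype
        (𝟙 (C.atSub L ⊤)) 2).hom
        ((groupCohomology.map (MonoidHom.id ((T.filter P hne hdir).G L)) (jC.f L) 2).hom z)) =
      cfLoc.inv L ⊤ ((groupCohomology.map
        (⊤ : Subgroup (((T.subTower D).filter P hne hdir).G L)).subtype
        (𝟙 (Lq.atSub L ⊤)) 2).hom ((groupCohomology.map (D.D L.1).subtype (pr L) 2).hom z)))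

include hinv in
/-- the global invariant of the image in `C` of a `p`-torsion class in `colim H²(G_L, J_L)` is the
local invariant of its Shapiro image -/
theorem invLim_locSHLim (z : HLim J 2) (hz : p • z = 0) :
    cf.invLim (ExtLim.mapRight (triv ℤ (T.filter P hne hdir)) jC 2 z) =
      cfLoc.invLim (locSHLim P hne hdir D J Lq pr hpr 2 z) := by
  obtain ⟨L₁, ζ₁, rfl⟩ := ExtLim.exists_of (triv ℤ (T.filter P hne hdir)) J 2 z
  rw [← map_nsmul] at hz
  obtain ⟨L, hL, hζ⟩ := ExtLim.of_eq_zero (triv ℤ (T.filter P hne hdir)) J 2 hz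
  rw [map_nsmul] at hζ
  rw [← ExtLim.of_trans (triv ℤ (T.filter P hne hdir)) J 2 hL ζ₁]
  generalize extTrans (triv ℤ (T.filter P hne hdir)) J 2 hL ζ₁ = ζ at hζ
  obtain ⟨z₀, rfl⟩ := (cohToExt (J.C L) 2).surjective ζ
  have hz₀ : p • z₀ = 0 := by
    apply (cohToExt (J.C L) 2).injective
    exact (map_nsmul (cohToExt (J.C L) 2) p z₀).trans (hζ.trans (map_zero _).symm)
  rw [ExtLim.mapRight_of, locSHLim_of, cf.invLim_of, cfLoc.invLim_of]
  have e1 : (cohToExt (J.C L) 2 z₀).comp (Ext.mk₀ (jC.f L)) (add_zero 2) =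
      cohToExt (C.C L) 2 (groupCohomology.map (MonoidHom.id _) (jC.f L) 2 z₀) :=
    (cohToExt_naturality (jC.f L) 2 z₀).symm
  have e2 : extPull (D.D L.1).subtype (𝟙 (Rep.trivial ℤ (D.D L.1) ℤ)) (pr L) 2
      (cohToExt (J.C L) 2 z₀) =
      cohToExt (Lq.C L) 2 (groupCohomology.map (D.D L.1).subtype (pr L) 2 z₀) := by
    rw [extPull_apply]
    refine (Ext.mk₀_id_comp _).trans ?_
    exact (cohToExt_map (D.D L.1).subtype (J.C L) (Lq.C L) (pr L) 2 z₀).symm
  refine (congrArg (cf.invTop L) e1).trans ?_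
  refine Eq.trans ?_ (congrArg (cfLoc.invTop L) e2).symm
  refine (cf.invTop_cohToExt L _).trans ?_
  refine Eq.trans ?_ (cfLoc.invTop_cohToExt L _).symm
  exact hinv L z₀ hz₀

include hinv in
/-- **Compatibility of the global and local duality pairings** (`p • A = 0`, `s + r = 2`): for
`ξ ∈ ExtLim A_P J r` and `x ∈ HLim A_P s`,
`α_glob(jC_* ξ)(x) = α_loc(Sh ξ)(loc x)` where `Sh = locSLim` and `loc = locLimFilter`. -/
theorem alpha_locSLim (A : TowerModule ℤ T) [A.IsCartesian] (hA : ∀ j (a : A.C j), p • a = 0)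
    (r s : ℕ) (h : s + r = 2) (ξ : ExtLim (A.filter P hne hdir) J r)
    (x : HLim (A.filter P hne hdir) s) :
    cf.limFormation.alpha (A.filter P hne hdir) r s h
        (ExtLim.mapRight (A.filter P hne hdir) jC r ξ) x =
      cfLoc.limFormation.alpha ((A.resSub D).filter P hne hdir) r s h
        (locSLim P hne hdir D A J Lq pr hpr r ξ) (locLimFilter P hne hdir D A s x) := by
  rw [LimFormation.alpha_apply, LimFormation.alpha_apply, pairing_mapRight,
    ← locSHLim_pairing P hne hdir D J Lq pr hpr A r s 2 h ξ x]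
  refine invLim_locSHLim P hne hdir D cf jC cfLoc pr hpr hinv _ ?_
  have h1 : p • ξ = 0 :=
    ExtLim.nsmul_eq_zero_of_torsion (A.filter P hne hdir) J r p (fun j a => hA j.1 a) ξ
  rw [← AddMonoidHom.nsmul_apply, ← map_nsmul, h1, map_zero, AddMonoidHom.zero_apply]

end Inv

/-! ### Specialisation to `PTData` -/

namespace PTData

open TowerModule

variable {p : ℕ} [Fact p.Prime] {S : Finset Nat.Primes} {L₀ : Level} {h₀ : L₀.IsS S}
  (d : PTData p S L₀ h₀) (q : ↥S) (A : TowerModule ℤ (levelTower L₀)) [A.IsCartesian]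

/-- the local multiplicative groups over the local `S`-tower -/
abbrev LqS : TowerModule ℤ (towerLocS S q.1 L₀ h₀) :=
  (d.Lq q).filter (isSPred S L₀) (isSPred_nonempty h₀) (isSPred_directed S L₀)

/-- **Shapiro for `J_q`**: `Sh_q = (pr_q)_* ∘ res_{D_q} :
ExtLim A_S J_q r ≃ ExtLim_{T_q^S} A_q^S Lq^S r`. -/
def jSh (r : ℕ) :
    ExtLim (A.filter (isSPred S L₀) (isSPred_nonempty h₀) (isSPred_directed S L₀)) (d.J q) r ≃+
      ExtLim ((A.resSub (decompFamily q.1 L₀)).filter (isSPred S L₀) (isSPred_nonempty h₀)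
        (isSPred_directed S L₀)) (d.LqS q) r :=
  locSEquiv (isSPred S L₀) (isSPred_nonempty h₀) (isSPred_directed S L₀) (decompFamily q.1 L₀) A
    (d.J q) (d.LqS q) (d.pr q) (fun h x => d.pr_comm q h x) (d.pr_injective q)
    (d.pr_surjective q) r

theorem jSh_apply (r : ℕ)
    (ξ : ExtLim (A.filter (isSPred S L₀) (isSPred_nonempty h₀) (isSPred_directed S L₀))
      (d.J q) r) :
    d.jSh q A r ξ =
      locSLim (isSPred S L₀) (isSPred_nonempty h₀) (isSPred_directed S L₀) (decompFamily q.1 L₀) A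
        (d.J q) (d.LqS q) (d.pr q) (fun h x => d.pr_comm q h x) r ξ := rfl

theorem jSh_of (r : ℕ) (j : (towerS S L₀ h₀).ι) (ξ : Ext (A.C j.1) ((d.J q).C j) r) :
    d.jSh q A r (ExtLim.of (A.filter (isSPred S L₀) (isSPred_nonempty h₀) (isSPred_directed S L₀))
        (d.J q) r j ξ) =
      ExtLim.of ((A.resSub (decompFamily q.1 L₀)).filter (isSPred S L₀) (isSPred_nonempty h₀)
        (isSPred_directed S L₀)) (d.LqS q) r j
        (extPull (decomp q.1 j.1.1).subtype
          (𝟙 (Rep.res (decomp q.1 j.1.1).subtype (A.C j.1))) (d.pr q j) r ξ) :=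
  locSLim_of (isSPred S L₀) (isSPred_nonempty h₀) (isSPred_directed S L₀) (decompFamily q.1 L₀) A
    (d.J q) (d.LqS q) (d.pr q) (fun h x => d.pr_comm q h x) r j ξ

/-- **Compatibility of the global and the local pairings** under Shapiro:
`inv_glob(x · jC_* ξ) = inv_loc(loc_q x · Sh_q ξ)`. -/
theorem alpha_jSh (hA : ∀ j (a : A.C j), p • a = 0) (r s : ℕ) (h : s + r = 2)
    (ξ : ExtLim (A.filter (isSPred S L₀) (isSPred_nonempty h₀) (isSPred_directed S L₀))
      (d.J q) r)
    (x : HLim (A.filter (isSPred S L₀) (isSPred_nonempty h₀) (isSPred_directed S L₀)) s) :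
    d.cf.limFormation.alpha
        (A.filter (isSPred S L₀) (isSPred_nonempty h₀) (isSPred_directed S L₀)) r s h
        (ExtLim.mapRight (A.filter (isSPred S L₀) (isSPred_nonempty h₀) (isSPred_directed S L₀))
          (d.jC q) r ξ) x =
      (d.cfLoc q).limFormation.alpha
        ((A.resSub (decompFamily q.1 L₀)).filter (isSPred S L₀) (isSPred_nonempty h₀)
          (isSPred_directed S L₀)) r s h (d.jSh q A r ξ)
        (locLimFilter (isSPred S L₀) (isSPred_nonempty h₀) (isSPred_directed S L₀)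
          (decompFamily q.1 L₀) A s x) :=
  alpha_locSLim (isSPred S L₀) (isSPred_nonempty h₀) (isSPred_directed S L₀) (decompFamily q.1 L₀)
    d.cf (d.jC q) (d.cfLoc q) (d.pr q) (fun h x => d.pr_comm q h x) (d.inv_compat q) A hA r s h ξ x

end PTData

end

end Fermat.Agent.CFT.Duality
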