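import Fermat.Agent.Lib.CFT.Duality.ClassGroup
import Fermat.Agent.Lib.CFT.Duality.JShapiro
import Fermat.Agent.Lib.CFT.Duality.CharDual
import Fermat.Agent.Lib.CFT.Duality.D1Core

/-!
# P4 / Layer D, D-STEPC: Step C of the Poitou–Tate count

For the class field theory data `d : PTData p S L₀ h₀` and a finite `p`-torsion cartesian module
`A` over the levels above `L₀`, let `A_S` be its restriction to the `S`-levels and
`K₂ := ⋂_q ker (ExtLim A_S E 2 → ExtLim A_S J_q 2)`.  Then, assuming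

* `α¹ : ExtLim A_S C 1 → Hom(H¹_S(A), ℚ/ℤ)` bijective, `H¹_S(A) := HLim A_S 1` finite,
* the local `α¹_q : ExtLim A_{q,S} L_q 1 → Hom(H¹(A_{q,S}), ℚ/ℤ)` surjective for all `q ∈ S`,

`K₂` and `Ш¹_S(A)` are finite of the same cardinality (`PTData.card_kerEJ_eq_card_shaLim_one`).

The proof: `K₂ = im δ`, `δ : ExtLim A_S C 1 → ExtLim A_S E 2` the connecting map of
`0 → E → ⊕ J_q → C → Cl_S → 0` (D-CL), `ker δ = Σ_q im (ExtLim A_S J_q 1)`, so that
`K₂ ≃ Hom(H, ℚ/ℤ) / im g`, `g y = α¹(Σ_q jC_* y_q) = Σ_q α¹_q(Sh_q y_q) ∘ loc_q` (helper8's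
`alpha_jSh`), and the cokernel count of `CharDual.lean` gives `|⋂_q ker loc_q| = |Ш¹_S(A)|`
(helper4's `locLimAt_one_eq_zero_iff`).
-/

set_option autoImplicit false
set_option linter.unusedSectionVars false

open CategoryTheory

namespace Fermat.Agent.CFT.Duality

noncomputable section

namespace PTData

open TowerModule

variable {p : ℕ} [Fact p.Prime] {S : Finset Nat.Primes} {L₀ : Level} {h₀ : L₀.IsS S}
  (d : PTData p S L₀ h₀) (A : TowerModule ℤ (levelTower L₀)) [A.IsCartesian]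

set_option quotPrecheck false

local notation "AS" =>
  A.filter (isSPred S L₀) (isSPred_nonempty h₀) (isSPred_directed S L₀)

local notation "AqS(" q ")" =>
  (A.resSub (decompFamily (Subtype.val q) L₀)).filter (isSPred S L₀) (isSPred_nonempty h₀)
    (isSPred_directed S L₀)

/-- `K₂ = ⋂_q ker (ExtLim A_S E 2 → ExtLim A_S J_q 2)` -/
def kerEJ : AddSubgroup (ExtLim AS d.E 2) :=
  ⨅ q : ↥S, (ExtLim.mapRight AS (d.eJ q) 2).ker

lemma mem_kerEJ_iff (z : ExtLim AS d.E 2) :
    z ∈ d.kerEJ A ↔ ∀ q : ↥S, ExtLim.mapRight AS (d.eJ q) 2 z = 0 := by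
  simp only [kerEJ, AddSubgroup.mem_iInf, AddMonoidHom.mem_ker]

/-- the sum of the maps `ExtLim A_S J_q 1 → ExtLim A_S C 1` -/
def jCSumOne : (∀ q : ↥S, ExtLim AS (d.J q) 1) →+ ExtLim AS d.C 1 where
  toFun y := ∑ q, ExtLim.mapRight AS (d.jC q) 1 (y q)
  map_zero' := by simp
  map_add' y y' := by simp [Finset.sum_add_distrib]

lemma jCSumOne_apply (y : ∀ q : ↥S, ExtLim AS (d.J q) 1) :
    d.jCSumOne A y = ∑ q, ExtLim.mapRight AS (d.jC q) 1 (y q) := rfl

variable (hA : ∀ j (a : A.C j), p • a = 0)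

include hA in
lemma filter_torsion (j : (towerS S L₀ h₀).ι) (a : (AS).C j) : p • a = 0 := hA j.1 a

/-- the connecting map `ExtLim A_S C 1 → ExtLim A_S E 2` -/
def δCEOne : ExtLim AS d.C 1 →+ ExtLim AS d.E 2 :=
  d.δCE AS (filter_torsion A hA) 1

lemma range_δCEOne : (d.δCEOne A hA).range = d.kerEJ A := by
  ext z
  rw [mem_kerEJ_iff, AddMonoidHom.mem_range]
  exact d.exists_δCE_eq_iff AS (filter_torsion A hA) 1 z

lemma ker_δCEOne : (d.δCEOne A hA).ker = (d.jCSumOne A).range := by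
  ext x
  rw [AddMonoidHom.mem_ker, AddMonoidHom.mem_range]
  refine (d.δCE_eq_zero_iff AS (filter_torsion A hA) 1 x).trans ?_
  constructor
  · rintro ⟨y, rfl⟩
    exact ⟨y, rfl⟩
  · rintro ⟨y, rfl⟩
    exact ⟨y, rfl⟩

/-- `K₂ ≃ ExtLim A_S C 1 / Σ_q im (ExtLim A_S J_q 1)` -/
def kerEJEquiv : (ExtLim AS d.C 1 ⧸ (d.jCSumOne A).range) ≃+ d.kerEJ A :=
  ((QuotientAddGroup.quotientAddEquivOfEq (d.ker_δCEOne A hA).symm).trans
    (QuotientAddGroup.quotientKerEquivRange (d.δCEOne A hA))).trans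
    (AddEquiv.addSubgroupCongr (d.range_δCEOne A hA))

/-- the global `α¹` over the `S`-levels -/
abbrev alphaOne : ExtLim AS d.C 1 →+ (HLim AS 1 →+ AddCircle (1 : ℚ)) :=
  d.cf.limFormation.alpha AS 1 1 rfl

/-- the local `α¹` over the `S`-levels of the local tower at `q` -/
abbrev alphaLocOne (q : ↥S) :
    ExtLim AqS(q) (d.LqS q) 1 →+ (HLim AqS(q) 1 →+ AddCircle (1 : ℚ)) :=
  (d.cfLoc q).limFormation.alpha AqS(q) 1 1 rfl

/-- the localisation maps `H¹_S(A) → H¹(A_{q,S})` -/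
abbrev locOne (_d : PTData p S L₀ h₀) (q : ↥S) : HLim AS 1 →+ HLim AqS(q) 1 :=
  locLimFilter (isSPred S L₀) (isSPred_nonempty h₀) (isSPred_directed S L₀)
    (decompFamily q.1 L₀) A 1

/-- `g y = α¹(Σ_q jC_* y_q)` -/
def gOne : (∀ q : ↥S, ExtLim AS (d.J q) 1) →+ (HLim AS 1 →+ AddCircle (1 : ℚ)) :=
  (d.alphaOne A).comp (d.jCSumOne A)

include hA in
lemma gOne_apply (y : ∀ q : ↥S, ExtLim AS (d.J q) 1) (x : HLim AS 1) :
    d.gOne A y x = ∑ q, d.alphaLocOne A q (d.jSh q A 1 (y q)) (d.locOne A q x) := by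
  change d.alphaOne A (d.jCSumOne A y) x = _
  rw [jCSumOne_apply, map_sum, AddMonoidHom.finsetSum_apply]
  refine Finset.sum_congr rfl (fun q _ => ?_)
  exact d.alpha_jSh q A hA 1 1 rfl (y q) x

/-- `⋂_q ker loc_q = Ш¹_S(A)` -/
lemma iInf_ker_locOne :
    (⨅ q : ↥S, (d.locOne A q).ker) =
      ShaLim (isSPred S L₀) (isSPred_nonempty h₀) (isSPred_directed S L₀)
        (fun q : ↥S => decompFamily q.1 L₀) A 1 := by
  ext x
  simp only [ShaLim, AddSubgroup.mem_iInf, AddMonoidHom.mem_ker]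
  refine forall_congr' (fun q => ?_)
  exact (locLimAt_one_eq_zero_iff (isSPred S L₀) (isSPred_nonempty h₀) (isSPred_directed S L₀)
    (decompFamily q.1 L₀) A x).symm

include hA in
/-- **Step C**: `K₂ = ⋂_q ker (ExtLim A_S E 2 → ExtLim A_S J_q 2)` and `Ш¹_S(A)` are finite of the
same cardinality, given the duality statements `α¹` bijective (global), surjective (local) and
the finiteness of `H¹_S(A)`. -/
theorem card_kerEJ_eq_card_shaLim_one
    (hα : Function.Bijective (d.cf.limFormation.alpha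
      (A.filter (isSPred S L₀) (isSPred_nonempty h₀) (isSPred_directed S L₀)) 1 1 rfl))
    (hH : Finite (HLim (A.filter (isSPred S L₀) (isSPred_nonempty h₀) (isSPred_directed S L₀)) 1))
    (hαloc : ∀ q : ↥S, Function.Surjective ((d.cfLoc q).limFormation.alpha
      ((A.resSub (decompFamily q.1 L₀)).filter (isSPred S L₀) (isSPred_nonempty h₀)
        (isSPred_directed S L₀)) 1 1 rfl)) :
    Finite (⨅ q : ↥S, (ExtLim.mapRight
        (A.filter (isSPred S L₀) (isSPred_nonempty h₀) (isSPred_directed S L₀))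
        (d.eJ q) 2).ker : AddSubgroup (ExtLim
        (A.filter (isSPred S L₀) (isSPred_nonempty h₀) (isSPred_directed S L₀)) d.E 2)) ∧
    Finite (ShaLim (isSPred S L₀) (isSPred_nonempty h₀) (isSPred_directed S L₀)
      (fun q : ↥S => decompFamily q.1 L₀) A 1) ∧
    Nat.card (⨅ q : ↥S, (ExtLim.mapRight
        (A.filter (isSPred S L₀) (isSPred_nonempty h₀) (isSPred_directed S L₀))
        (d.eJ q) 2).ker : AddSubgroup (ExtLim
        (A.filter (isSPred S L₀) (isSPred_nonempty h₀) (isSPred_directed S L₀)) d.E 2)) =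
      Nat.card (ShaLim (isSPred S L₀) (isSPred_nonempty h₀) (isSPred_directed S L₀)
        (fun q : ↥S => decompFamily q.1 L₀) A 1) := by
  have hHtors : ∀ x : HLim AS 1, p • x = 0 := fun x =>
    ExtLim.nsmul_eq_zero_of_torsion_right (triv ℤ (towerS S L₀ h₀)) AS 1 p
      (filter_torsion A hA) x
  -- the cokernel count
  have hcount : Nat.card ((HLim AS 1 →+ AddCircle (1 : ℚ)) ⧸ (d.gOne A).range) =
      Nat.card (⨅ q : ↥S, (d.locOne A q).ker : AddSubgroup (HLim AS 1)) := by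
    refine card_quot_range_eq_card_iInf_ker p hHtors (fun q : ↥S => d.locOne A q) (d.gOne A)
      ?_ ?_
    · intro y x hx
      rw [d.gOne_apply A hA y x]
      refine Finset.sum_eq_zero (fun q _ => ?_)
      rw [hx q, map_zero]
    · intro ψ
      choose η hη using fun q => hαloc q (ψ q)
      refine ⟨fun q => (d.jSh q A 1).symm (η q), fun x => ?_⟩
      rw [d.gOne_apply A hA]
      refine Finset.sum_congr rfl (fun q _ => ?_)
      rw [AddEquiv.apply_symm_apply]
      exact DFunLike.congr_fun (hη q) _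
  -- transport along `α¹`
  let e : ExtLim AS d.C 1 ≃+ (HLim AS 1 →+ AddCircle (1 : ℚ)) :=
    AddEquiv.ofBijective (d.alphaOne A) hα
  have he : (d.jCSumOne A).range.map (e : ExtLim AS d.C 1 →+ _) = (d.gOne A).range := by
    rw [AddMonoidHom.map_range]
    rfl
  have hcard : Nat.card (d.kerEJ A) =
      Nat.card (ShaLim (isSPred S L₀) (isSPred_nonempty h₀) (isSPred_directed S L₀)
        (fun q : ↥S => decompFamily q.1 L₀) A 1) := by
    rw [← Nat.card_congr (d.kerEJEquiv A hA).toEquiv,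
      Nat.card_congr (QuotientAddGroup.congr _ _ e he).toEquiv, hcount, d.iInf_ker_locOne A]
  have hfinSha : Finite (ShaLim (isSPred S L₀) (isSPred_nonempty h₀) (isSPred_directed S L₀)
      (fun q : ↥S => decompFamily q.1 L₀) A 1) := inferInstance
  refine ⟨?_, hfinSha, hcard⟩
  apply Nat.finite_of_card_ne_zero
  change Nat.card (d.kerEJ A) ≠ 0
  rw [hcard]
  exact Nat.card_pos.ne'

end PTData

end

end Fermat.Agent.CFT.Duality
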