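import Fermat.Agent.Lib.CFT.Duality.TowerMor
import Fermat.Agent.Lib.CFT.Duality.HLimCoh
import Fermat.Agent.Lib.CFT.Duality.Rebase

/-!
# P4 / Layer D (D-TM, part 2): the standard morphisms of towers

* `TowerMor.unfilter : T.filter P ⇢ T` (inclusion of the level sets),
* `TowerMor.sub : T ⇢ T.subTower D` (inclusion of the subgroups),
* `TowerMor.filterSub : T.filter P ⇢ T.subTower D`, their composite; helper8's localisation map
  `locLim` is the `pull` along it.
-/

set_option autoImplicit false
set_option linter.unusedSectionVars false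
set_option linter.style.haveILetI false

open CategoryTheory Abelian

namespace Fermat.Agent.CFT.Duality

noncomputable section

namespace TowerMor

variable (T : Tower) (P : T.ι → Prop) (hne : ∃ i, P i)
  (hdir : ∀ i j, P i → P j → ∃ l, P l ∧ i ≤ l ∧ j ≤ l) (D : T.SubgroupFamily)

/-- Inclusion of the level sets `T.filter P ⇢ T`. -/
def unfilter : TowerMor (T.filter P hne hdir) T where
  u := Subtype.val
  mono _ _ h := h
  ψ i := MonoidHom.id (T.G i.1)
  comm _ _ := rfl

/-- Inclusion of the subgroups `T ⇢ T.subTower D`. -/
def sub : TowerMor T (T.subTower D) where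
  u := _root_.id
  mono := monotone_id
  ψ i := (D.D i).subtype
  comm _ _ := rfl

/-- `T.filter P ⇢ T.subTower D`. -/
def filterSub : TowerMor (T.filter P hne hdir) (T.subTower D) :=
  (unfilter T P hne hdir).comp (sub T D)

end TowerMor

namespace TowerModule

variable {k : Type} [CommRing k] {T : Tower} (P : T.ι → Prop) (hne : ∃ i, P i)
  (hdir : ∀ i j, P i → P j → ∃ l, P l ∧ i ≤ l ∧ j ≤ l) (D : T.SubgroupFamily)

instance isCartesian_resSub (A : TowerModule k T) [A.IsCartesian] : (A.resSub D).IsCartesian where
  isIso := @fun (i j : T.ι) h => by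
    haveI : IsIso (A.φ (show i ≤ j from h)) := IsCartesian.isIso (show i ≤ j from h)
    exact Functor.map_isIso (Rep.resFunctor (D.D j).subtype) (A.φ (show i ≤ j from h))

/-- `B.filter P → B` along the inclusion of level sets. -/
def HomAlong.unfilter (B : TowerModule k T) :
    HomAlong (TowerMor.unfilter T P hne hdir) (B.filter P hne hdir) B where
  f i := 𝟙 (B.C i.1)
  comm _ _ := rfl

/-- `A → A.filter P` contravariantly along the inclusion of level sets. -/
def CoHomAlong.unfilter (A : TowerModule k T) :
    CoHomAlong (TowerMor.unfilter T P hne hdir) (A.filter P hne hdir) A where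
  f i := 𝟙 (A.C i.1)
  comm _ _ := rfl

/-- `B → B.resSub D` along the inclusion of the subgroups. -/
def HomAlong.resSub (B : TowerModule k T) : HomAlong (TowerMor.sub T D) B (B.resSub D) where
  f i := 𝟙 (Rep.res (D.D i).subtype (B.C i))
  comm _ _ := rfl

/-- `A.resSub D → A` contravariantly along the inclusion of the subgroups. -/
def CoHomAlong.resSub (A : TowerModule k T) : CoHomAlong (TowerMor.sub T D) A (A.resSub D) where
  f i := 𝟙 (Rep.res (D.D i).subtype (A.C i))
  comm _ _ := rfl

/-- `B.filter P → B.resSub D` along `T.filter P ⇢ T.subTower D`. -/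
def HomAlong.filterSub (B : TowerModule k T) :
    HomAlong (TowerMor.filterSub T P hne hdir D) (B.filter P hne hdir) (B.resSub D) :=
  (HomAlong.unfilter P hne hdir B).comp (HomAlong.resSub D B)

/-- `A.resSub D → A.filter P` contravariantly along `T.filter P ⇢ T.subTower D`. -/
def CoHomAlong.filterSub (A : TowerModule k T) :
    CoHomAlong (TowerMor.filterSub T P hne hdir D) (A.filter P hne hdir) (A.resSub D) :=
  (CoHomAlong.unfilter P hne hdir A).comp (CoHomAlong.resSub D A)

/-- helper8's localisation map is the `pull` along `T.filter P ⇢ T.subTower D`. -/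
theorem locLimAt_eq_pull (A : TowerModule k T) (n : ℕ) (z : HLim (A.filter P hne hdir) n) :
    locLimAt P hne hdir D A n z =
      ExtLim.pull (CoHomAlong.triv (TowerMor.filterSub T P hne hdir D))
        (HomAlong.filterSub P hne hdir D A) n z := by
  induction z using ExtLim.induction_on with
  | h j ξ =>
    refine (locLimAt_of P hne hdir D A n j ξ).trans ?_
    refine Eq.trans ?_ (ExtLim.pull_of (CoHomAlong.triv (TowerMor.filterSub T P hne hdir D))
      (HomAlong.filterSub P hne hdir D A) n j ξ).symm
    rfl

end TowerModule

end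

end Fermat.Agent.CFT.Duality
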