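import Fermat.Agent.Lib.CFT.Duality.JShapiro
import Fermat.Agent.Lib.CFT.Duality.TowerMorLoc

/-!
# P4 / Layer D, D-JSH (part 2): `locSLim` / `PTData.jSh` in the language of `TowerMor` / `ExtLim.pull`

* `HomAlong.ofLoc` : a family `β_L : B_L|_{D_L} → Lq_L` as a morphism along `T.filter P ⇢ T.subTower D`;
* `filterMap_locSLim` : `filterMap ∘ locSLim = ExtLim.pull` along `T.filter P ⇢ T.subTower D`;
* `PTData.prAlong`, `PTData.filterMap_jSh`, `PTData.filterMap_jSh_mapRight_eJ` : the composite
  `X^r(E) → X^r(J_q) ≃ ExtLim_{T_q^S}(A_q^S, Lq^S) r → ExtLim_{T_q}(A_q, Lq) r` is the `pull` of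
  `pr_q ∘ eJ_q` along `towerS ⇢ towerLoc q`.
-/

set_option autoImplicit false
set_option linter.unusedSectionVars false

open CategoryTheory Abelian Rep Representation

namespace Fermat.Agent.CFT.Duality

noncomputable section

namespace TowerModule

variable {k : Type} [CommRing k] {T : Tower} (P : T.ι → Prop) (hne : ∃ i, P i)
  (hdir : ∀ i j, P i → P j → ∃ l, P l ∧ i ≤ l ∧ j ≤ l) (D : T.SubgroupFamily)

section Pull

variable (A : TowerModule k T) [A.IsCartesian] (B : TowerModule k (T.filter P hne hdir))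
  (Lq : TowerModule k (T.subTower D))
  (β : ∀ L : (T.filter P hne hdir).ι, Rep.res (D.D L.1).subtype (B.C L) ⟶ Lq.C L.1)
  (hβ : ∀ {L L' : (T.filter P hne hdir).ι} (h : L ≤ L') (x : B.C L),
    (β L').hom ((B.φ h).hom x) = (Lq.φ (i := L.1) (j := L'.1) h).hom ((β L).hom x))

/-- a family `β_L : B_L|_{D_L} → Lq_L` (`L` in `P`) commuting with the transition maps, as a
morphism of tower modules along `T.filter P ⇢ T.subTower D` -/
def HomAlong.ofLoc : HomAlong (TowerMor.filterSub T P hne hdir D) B Lq where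
  f L := β L
  comm h x := hβ h x

/-- `locSLim` followed by the passage to the full local tower is the `pull` along
`T.filter P ⇢ T.subTower D`. -/
theorem filterMap_locSLim (r : ℕ) (ξ : ExtLim (A.filter P hne hdir) B r) :
    filterMap (T := T.subTower D) P hne hdir (A.resSub D) Lq r
        (locSLim P hne hdir D A B (Lq.filter (T := T.subTower D) P hne hdir) β hβ r ξ) =
      ExtLim.pull (CoHomAlong.filterSub P hne hdir D A) (HomAlong.ofLoc P hne hdir D B Lq β hβ)
        r ξ := by
  induction ξ using ExtLim.induction_on with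
  | h L ξ₀ =>
    have h1 := locSLim_of P hne hdir D A B (Lq.filter (T := T.subTower D) P hne hdir) β hβ r L ξ₀
    have h2 := congrArg (filterMap (T := T.subTower D) P hne hdir (A.resSub D) Lq r) h1
    refine h2.trans ?_
    refine Eq.trans ?_ (ExtLim.pull_of (CoHomAlong.filterSub P hne hdir D A)
      (HomAlong.ofLoc P hne hdir D B Lq β hβ) r L ξ₀).symm
    refine (filterMap_of (T := T.subTower D) P hne hdir (A.resSub D) Lq r L _).trans ?_
    refine congrArg (ExtLim.of (A.resSub D) Lq r L.1) ?_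
    exact extPull_congr rfl _ _ _ _ (fun _ => rfl) (fun _ => rfl) r ξ₀

end Pull

end TowerModule

namespace PTData

open TowerModule

variable {p : ℕ} [Fact p.Prime] {S : Finset Nat.Primes} {L₀ : Level} {h₀ : L₀.IsS S}
  (d : PTData p S L₀ h₀) (q : ↥S) (A : TowerModule ℤ (levelTower L₀)) [A.IsCartesian]

/-- `pr_q : J_q → Lq` as a morphism of tower modules along `towerS ⇢ towerLoc q` -/
def prAlong : HomAlong (TowerMor.filterSub (levelTower L₀) (isSPred S L₀) (isSPred_nonempty h₀)
    (isSPred_directed S L₀) (decompFamily q.1 L₀)) (d.J q) (d.Lq q) :=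
  HomAlong.ofLoc (isSPred S L₀) (isSPred_nonempty h₀) (isSPred_directed S L₀)
    (decompFamily q.1 L₀) (d.J q) (d.Lq q) (d.pr q) (fun h x => d.pr_comm q h x)

/-- Shapiro followed by the passage to the full local tower is the `pull` of `pr_q` along
`towerS ⇢ towerLoc q`. -/
theorem filterMap_jSh (r : ℕ)
    (ξ : ExtLim (A.filter (isSPred S L₀) (isSPred_nonempty h₀) (isSPred_directed S L₀))
      (d.J q) r) :
    filterMap (T := towerLoc q.1 L₀) (isSPred S L₀) (isSPred_nonempty h₀) (isSPred_directed S L₀)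
        (A.resSub (decompFamily q.1 L₀)) (d.Lq q) r (d.jSh q A r ξ) =
      ExtLim.pull (CoHomAlong.filterSub (isSPred S L₀) (isSPred_nonempty h₀)
        (isSPred_directed S L₀) (decompFamily q.1 L₀) A) (d.prAlong q) r ξ :=
  filterMap_locSLim (isSPred S L₀) (isSPred_nonempty h₀) (isSPred_directed S L₀)
    (decompFamily q.1 L₀) A (d.J q) (d.Lq q) (d.pr q) (fun h x => d.pr_comm q h x) r ξ

/-- the composite `X^r(E) → X^r(J_q) ≃ ExtLim_{T_q^S}(A_q^S, Lq^S) r → ExtLim_{T_q}(A_q, Lq) r` is
the `pull` of `pr_q ∘ eJ_q` along `towerS ⇢ towerLoc q` -/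
theorem filterMap_jSh_mapRight_eJ (r : ℕ)
    (z : ExtLim (A.filter (isSPred S L₀) (isSPred_nonempty h₀) (isSPred_directed S L₀)) d.E r) :
    filterMap (T := towerLoc q.1 L₀) (isSPred S L₀) (isSPred_nonempty h₀) (isSPred_directed S L₀)
        (A.resSub (decompFamily q.1 L₀)) (d.Lq q) r
        (d.jSh q A r (ExtLim.mapRight
          (A.filter (isSPred S L₀) (isSPred_nonempty h₀) (isSPred_directed S L₀)) (d.eJ q) r z)) =
      ExtLim.pull (CoHomAlong.filterSub (isSPred S L₀) (isSPred_nonempty h₀)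
        (isSPred_directed S L₀) (decompFamily q.1 L₀) A) ((d.prAlong q).precomp (d.eJ q)) r z := by
  rw [filterMap_jSh]
  exact ExtLim.pull_mapRight _ (d.eJ q) (d.prAlong q) r z

end PTData

end

end Fermat.Agent.CFT.Duality
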