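import Fermat.Agent.Lib.CFT.Duality.CoindT
import Fermat.Agent.Lib.CFT.Duality.ExtShapiro
import Mathlib.LinearAlgebra.FreeModule.PID

/-!
# P4 / Layer D (D-PDIV-V): vanishing of `Ext^r(A, Fun(G, B))`

For a finite `p`-torsion module `A` over a principal ideal domain `k`:

* `Ext^r_G(A, Fun(G, B)) = 0` for `r ≥ 2` (Shapiro + `k` has global dimension `≤ 1`);
* every class in `Ext^1_G(A, Fun(G, B))` dies as soon as finitely many elements of `B` become
  divisible by `p`; hence `ExtLim A (coindT B) r = 0` for all `r ≥ 1` when `B` is `p`-divisible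
  in the limit.
-/

set_option autoImplicit false
set_option linter.style.haveILetI false

open CategoryTheory Abelian Rep Limits

namespace Fermat.Agent.CFT.Duality

noncomputable section

section Triv

variable {k : Type} [CommRing k] {Γ : Type} [Group Γ] [Subsingleton Γ]

/-- Over a trivial group every linear map is a morphism of representations. -/
def trivHom {X Y : Rep.{0} k Γ} (f : X.V →ₗ[k] Y.V) : X ⟶ Y :=
  Rep.ofHom ⟨f, fun g => by
    have hg : g = 1 := Subsingleton.elim g 1
    rw [hg, map_one, map_one]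
    rfl⟩

@[simp] lemma trivHom_apply {X Y : Rep.{0} k Γ} (f : X.V →ₗ[k] Y.V) (x : X.V) :
    (trivHom f).hom x = f x := rfl

/-- Over a trivial group, a representation with free underlying module is projective. -/
theorem projective_of_free_of_subsingleton (X : Rep.{0} k Γ) [Module.Free k X.V] : Projective X := by
  refine ⟨fun {E Z} f e _ => ?_⟩
  have he : Function.Surjective e.hom := (Rep.epi_iff_surjective e).1 inferInstance
  let b := Module.Free.chooseBasis k X.V
  choose y hy using fun i => he (f.hom (b i))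
  refine ⟨trivHom (b.constr k y), ?_⟩
  have key : e.hom.toLinearMap ∘ₗ (b.constr k y) = f.hom.toLinearMap := b.ext fun i => by
    rw [LinearMap.comp_apply, Module.Basis.constr_basis]
    exact hy i
  ext x
  exact LinearMap.congr_fun key x

section PID

variable [IsDomain k] [IsPrincipalIdealRing k]

/-- A finite free presentation `0 → F₁ → F₀ → X → 0` over a trivial group and a principal ideal
domain, with a basis of `F₁` and, if `q • X = 0`, division `q • F₀ ⊆ F₁`. -/
theorem exists_free_presentation (q : ℕ) (X : Rep.{0} k Γ) [Module.Finite k X.V]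
    (hX : ∀ x : X.V, q • x = 0) :
    ∃ (F₁ F₀ : Rep.{0} k Γ) (i : F₁ ⟶ F₀) (π : F₀ ⟶ X) (w : i ≫ π = 0)
      (_ : (ShortComplex.mk i π w).ShortExact) (ι : Type) (_ : Fintype ι)
      (_ : Module.Basis ι k F₁.V) (dv : F₀.V →ₗ[k] F₁.V),
      Module.Free k F₀.V ∧ Module.Free k F₁.V ∧ ∀ y, i.hom (dv y) = q • y := by
  obtain ⟨n, π, hπ⟩ := Module.Finite.exists_fin' k X.V
  let K : Submodule k (Fin n → k) := LinearMap.ker π
  let F₀ : Rep.{0} k Γ := Rep.trivial k Γ (Fin n → k)
  let F₁ : Rep.{0} k Γ := Rep.trivial k Γ K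
  let i : F₁ ⟶ F₀ := trivHom K.subtype
  let π' : F₀ ⟶ X := trivHom π
  have w : i ≫ π' = 0 := by
    ext x
    exact x.2
  have hS : (ShortComplex.mk i π' w).ShortExact := by
    refine Coh.shortExact_of_functions ?_ ?_ ?_
    · exact Subtype.val_injective
    · exact hπ
    · intro y hy
      exact ⟨⟨y, hy⟩, rfl⟩
  have hfree : Module.Free k K := inferInstance
  have hfin : Module.Finite k K := inferInstance
  let dv : (Fin n → k) →ₗ[k] K := LinearMap.codRestrict K (q • LinearMap.id) fun y => by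
    change π (q • y) = 0
    rw [map_nsmul, hX]
  refine ⟨F₁, F₀, i, π', w, hS, Module.Free.ChooseBasisIndex k K, inferInstance,
    Module.Free.chooseBasis k K, dv, ?_, hfree, fun y => rfl⟩
  exact (inferInstance : Module.Free k (Fin n → k))

/-- Over a trivial group and a principal ideal domain, `Ext^r(X, Y) = 0` for `r ≥ 2`
(`X` finitely generated). -/
theorem ext_eq_zero_of_trivial_group (X Y : Rep.{0} k Γ) [Module.Finite k X.V] (r : ℕ)
    (ξ : Ext X Y (r + 2)) : ξ = 0 := by
  obtain ⟨F₁, F₀, i, π, w, hS, ι, _, c, dv, hF₀, hF₁, -⟩ :=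
    exists_free_presentation 0 X (fun x => zero_nsmul x)
  haveI := projective_of_free_of_subsingleton F₀
  haveI := projective_of_free_of_subsingleton F₁
  obtain ⟨x₁, rfl⟩ := Ext.contravariant_sequence_exact₃ hS Y ξ (Ext.eq_zero_of_projective _)
    (show 1 + (r + 1) = r + 2 by omega)
  rw [Ext.eq_zero_of_projective x₁, Ext.comp_zero]

end PID

end Triv

section CoindLin

variable {k : Type} [CommRing k] {G H : Type} [Group G] [Group H]

/-- For a linear map `l : F → B'`, where `F` is a representation of the trivial subgroup of `G`,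
the map `Fun(G, F) → Fun(H, B')`, `Ψ ↦ (h ↦ l (Ψ (f h)))`. -/
def coindBotLin (f : H →* G) (F : Rep.{0} k (⊥ : Subgroup G)) (B' : Rep.{0} k H)
    (l : F.V →ₗ[k] B'.V) :
    Rep.res f (Rep.coind (⊥ : Subgroup G).subtype F) ⟶ Coh.coindBot B' :=
  Rep.ofHom ⟨{ toFun := fun Ψ => coindBotMk B' (fun h => l (Ψ.1 (f h)))
               map_add' := fun x y => coindBot_ext B' fun g => map_add l (x.1 (f g)) (y.1 (f g))
               map_smul' := fun r x => coindBot_ext B' fun g => map_smul l r (x.1 (f g)) },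
    fun h' => by
      apply LinearMap.ext
      intro Ψ
      refine coindBot_ext B' fun h => ?_
      change l (Ψ.1 (f h * f h')) = l (Ψ.1 (f (h * h')))
      rw [map_mul]⟩

@[simp] lemma coindBotLin_apply (f : H →* G) (F : Rep.{0} k (⊥ : Subgroup G)) (B' : Rep.{0} k H)
    (l : F.V →ₗ[k] B'.V) (Ψ : Rep.coind (⊥ : Subgroup G).subtype F) (h : H) :
    ((coindBotLin f F B' l).hom Ψ).1 h = l (Ψ.1 (f h)) := rfl

end CoindLin

section FiniteLevel

variable {k : Type} [CommRing k] [IsDomain k] [IsPrincipalIdealRing k] {G : Type} [Group G]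
  [Finite G]

/-- **(V1)** `Ext^r_G(A, Fun(G, B)) = 0` for `r ≥ 2`, `A` finitely generated over the principal
ideal domain `k`. -/
theorem ext_coindBot_eq_zero (A B : Rep.{0} k G) [Module.Finite k A.V] (r : ℕ)
    (ξ : Ext A (Coh.coindBot B) (r + 2)) : ξ = 0 := by
  obtain ⟨ξ₀, rfl⟩ := (shapiroR (⊥ : Subgroup G) A (Rep.res (⊥ : Subgroup G).subtype B)
    (r + 2)).surjective ξ
  haveI : Module.Finite k (Rep.res (⊥ : Subgroup G).subtype A).V :=
    inferInstanceAs (Module.Finite k A.V)
  rw [ext_eq_zero_of_trivial_group _ _ r ξ₀, map_zero]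

/-- **(V2)** Every class in `Ext^1_G(A, Fun(G, B))` (`p • A = 0`) is killed by any map
`Fun(G, B) → Fun(H, B')` induced by `f : H → G` and `β : B → B'` making finitely many prescribed
elements of `B` divisible by `p`. -/
theorem ext_one_coindBot_eq_zero (p : ℕ) (A B : Rep.{0} k G) [Module.Finite k A.V]
    (hA : ∀ a : A.V, p • a = 0) (ξ : Ext A (Coh.coindBot B) 1) :
    ∃ Φ : Finset B.V, ∀ {H : Type} [Group H] (f : H →* G) (B' : Rep.{0} k H)
      (β : Rep.res f B ⟶ B'), (∀ b ∈ Φ, ∃ b' : B'.V, β.hom b = p • b') →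
      (ξ.mapExactFunctor (Rep.resFunctor f)).comp
        (Ext.mk₀ (coindBotComp f B ≫ coindBotMap β)) (add_zero 1) = 0 := by
  classical
  obtain ⟨ξ₀, rfl⟩ := (shapiroR (⊥ : Subgroup G) A (Rep.res (⊥ : Subgroup G).subtype B)
    1).surjective ξ
  haveI : Module.Finite k (Rep.res (⊥ : Subgroup G).subtype A).V :=
    inferInstanceAs (Module.Finite k A.V)
  obtain ⟨F₁, F₀, i, π, w, hS, ι, _, c, dv, hF₀, hF₁, hdv⟩ :=
    exists_free_presentation p (Rep.res (⊥ : Subgroup G).subtype A) hA
  haveI := projective_of_free_of_subsingleton F₀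
  obtain ⟨x₁, rfl⟩ := Ext.contravariant_sequence_exact₃ hS _ ξ₀ (Ext.eq_zero_of_projective _)
    (show 1 + 0 = 1 by rfl)
  obtain ⟨g, rfl⟩ := (Ext.mk₀_bijective _ _).2 x₁
  refine ⟨Finset.univ.image (fun l => (g.hom (c l) : B.V)), ?_⟩
  intro H _ f B' β hΦ
  have hΦ' : ∀ l : ι, ∃ b' : B'.V, β.hom (g.hom (c l)) = p • b' := fun l =>
    hΦ _ (Finset.mem_image_of_mem _ (Finset.mem_univ l))
  choose b' hb' using hΦ'
  let g'' : F₁.V →ₗ[k] B'.V := c.constr k b'
  have hg'' : ∀ x : F₁.V, p • g'' x = β.hom (g.hom x) := by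
    have : p • g'' = β.hom.toLinearMap ∘ₗ g.hom.toLinearMap := c.ext fun l => by
      rw [LinearMap.smul_apply, Module.Basis.constr_basis, LinearMap.comp_apply]
      exact (hb' l).symm
    intro x
    exact LinearMap.congr_fun this x
  let g' : F₀.V →ₗ[k] B'.V := g'' ∘ₗ dv
  have hi : Function.Injective i.hom := (Rep.mono_iff_injective i).1 hS.mono_f
  have hg' : ∀ x : F₁.V, g' (i.hom x) = β.hom (g.hom x) := by
    intro x
    have : dv (i.hom x) = p • x := hi (by rw [hdv, map_nsmul])
    change g'' (dv (i.hom x)) = _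
    rw [this, map_nsmul, hg'']
  have hfac : (Rep.resFunctor f).map ((Rep.coindFunctor k (⊥ : Subgroup G).subtype).map g) ≫
      coindBotComp f B ≫ coindBotMap β
      = (Rep.resFunctor f).map ((Rep.coindFunctor k (⊥ : Subgroup G).subtype).map i) ≫
        coindBotLin f F₀ B' g' := by
    ext Ψ h
    exact (hg' (Ψ.1 (f h))).symm
  have h0 : ((hS.extClass.mapExactFunctor (Rep.coindFunctor k (⊥ : Subgroup G).subtype)).mapExactFunctor
      (Rep.resFunctor f)).comp (Ext.mk₀ ((Rep.resFunctor f).map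
        ((Rep.coindFunctor k (⊥ : Subgroup G).subtype).map i))) (add_zero 1) = 0 := by
    rw [← Ext.mapExactFunctor_mk₀, ← Ext.mapExactFunctor_mk₀, ← Ext.mapExactFunctor_comp,
      ← Ext.mapExactFunctor_comp, hS.extClass_comp, Ext.mapExactFunctor_zero,
      Ext.mapExactFunctor_zero]
  rw [shapiroR_apply, Ext.mapExactFunctor_comp, Ext.mapExactFunctor_comp,
    Ext.mapExactFunctor_comp, Ext.mapExactFunctor_mk₀, Ext.mapExactFunctor_mk₀,
    Ext.mapExactFunctor_mk₀]
  rw [Ext.comp_assoc_of_third_deg_zero, Ext.comp_assoc_of_third_deg_zero, Ext.mk₀_comp_mk₀, hfac,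
    ← Ext.mk₀_comp_mk₀, ← Ext.comp_assoc_of_third_deg_zero
      ((hS.extClass.mapExactFunctor (Rep.coindFunctor k (⊥ : Subgroup G).subtype)).mapExactFunctor
        (Rep.resFunctor f)), h0, Ext.zero_comp, Ext.comp_zero]

end FiniteLevel

namespace TowerModule

variable {k : Type} [CommRing k] [IsDomain k] [IsPrincipalIdealRing k] {T : Tower}

/-- **Vanishing for the coinduced tower module**: `ExtLim A (coindT B) r = 0` for `r ≥ 1`, when `A`
is finite and killed by `p` and `B` is `p`-divisible in the limit. -/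
theorem ExtLim.coindT_eq_zero (A B : TowerModule k T) [A.IsCartesian] (p : ℕ)
    (hfin : ∀ j, Module.Finite k (A.C j).V) (hA : ∀ j (a : A.C j), p • a = 0) (hB : B.IsPDiv p)
    (r : ℕ) (x : ExtLim A (coindT B) (r + 1)) : x = 0 := by
  induction x using ExtLim.induction_on with
  | h j ξ =>
    haveI := hfin j
    rcases r with _ | r
    · obtain ⟨Φ, hΦ⟩ := ext_one_coindBot_eq_zero p (A.C j) (B.C j) (hA j) ξ
      obtain ⟨j', h, hdiv⟩ := hB.exists_finset j Φ
      rw [← ExtLim.of_trans A (coindT B) 1 h]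
      have h0 : extTrans A (coindT B) 1 h ξ = 0 := by
        unfold extTrans
        rw [extPull_apply]
        have h1 := hΦ (T.π h) (B.C j') (B.φ h) (fun b hb => by
          obtain ⟨b', hb'⟩ := hdiv b hb
          exact ⟨b', hb'.symm⟩)
        erw [h1]
        exact Ext.comp_zero (Ext.mk₀ (inv (A.φ h))) _ _ _ _
      rw [h0, map_zero]
    · rw [ext_coindBot_eq_zero (A.C j) (B.C j) r ξ]
      exact map_zero _

end TowerModule

end

end Fermat.Agent.CFT.Duality
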