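import Fermat.Agent.Lib.CFT.Coh.Shapiro

/-!
# P4 / Layer D (D-PDIV): the coinduced module `Fun(G, B)` at finite level

Functoriality of helper1's `Coh.coindBot B = Fun(G, B)` in `B` (`coindBotMap`) and in the group
(`coindBotComp f B : res f (Fun(G, B)) ⟶ Fun(H, res f B)`, `F ↦ F ∘ f`), compatibility with the unit
`Coh.toCoindBot`, and the `k`-linear retraction "evaluation at `1`".
-/

set_option autoImplicit false

open CategoryTheory Rep

namespace Fermat.Agent.CFT.Duality

noncomputable section

variable {k : Type} [CommRing k] {G H K : Type} [Group G] [Group H] [Group K]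

/-- An element of `Fun(G, B)` from an arbitrary function. -/
def coindBotMk (B : Rep k G) (F : G → B.V) : Coh.coindBot B :=
  ⟨F, fun g h => by
    have hg : (g : G) = 1 := Subgroup.mem_bot.mp g.2
    change F ((g : G) * h) = B.ρ (g : G) (F h)
    rw [hg, one_mul, map_one]
    rfl⟩

@[simp] lemma coindBotMk_apply (B : Rep k G) (F : G → B.V) (g : G) :
    (coindBotMk B F).1 g = F g := rfl

lemma coindBot_ext (B : Rep k G) {x y : Coh.coindBot B} (h : ∀ g, x.1 g = y.1 g) : x = y :=
  Subtype.ext (funext h)

lemma coindBot_ρ_apply (B : Rep k G) (g x : G) (F : Coh.coindBot B) :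
    ((Coh.coindBot B).ρ g F).1 x = F.1 (x * g) := rfl

/-- Functoriality of `Fun(G, B)` in `B`. -/
def coindBotMap {B B' : Rep k G} (β : B ⟶ B') : Coh.coindBot B ⟶ Coh.coindBot B' :=
  Rep.coindMap (⊥ : Subgroup G).subtype ((resFunctor (⊥ : Subgroup G).subtype).map β)

@[simp] lemma coindBotMap_apply {B B' : Rep k G} (β : B ⟶ B') (x : Coh.coindBot B) (g : G) :
    ((coindBotMap β).hom x).1 g = β.hom (x.1 g) := rfl

lemma coindBotMap_id (B : Rep k G) : coindBotMap (𝟙 B) = 𝟙 (Coh.coindBot B) := by
  ext x g
  rfl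

lemma coindBotMap_comp {B B' B'' : Rep k G} (β : B ⟶ B') (β' : B' ⟶ B'') :
    coindBotMap (β ≫ β') = coindBotMap β ≫ coindBotMap β' := by
  ext x g
  rfl

/-- The unit `B → Fun(G, B)` is natural in `B`. -/
lemma toCoindBot_naturality {B B' : Rep k G} (β : B ⟶ B') :
    Coh.toCoindBot B ≫ coindBotMap β = β ≫ Coh.toCoindBot B' := by
  ext b g
  exact Rep.hom_comm_apply β g b

/-- Restriction of functions along a group homomorphism `f : H → G`:
`res f (Fun(G, B)) ⟶ Fun(H, res f B)`, `F ↦ F ∘ f`. -/
def coindBotComp (f : H →* G) (B : Rep k G) :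
    Rep.res f (Coh.coindBot B) ⟶ Coh.coindBot (Rep.res f B) :=
  Rep.ofHom ⟨{ toFun := fun x => coindBotMk (Rep.res f B) (fun h => x.1 (f h))
               map_add' := fun x y => coindBot_ext (Rep.res f B) fun g => rfl
               map_smul' := fun r x => coindBot_ext (Rep.res f B) fun g => rfl }, fun h' => by
    apply LinearMap.ext
    intro x
    refine coindBot_ext (Rep.res f B) fun h => ?_
    change x.1 (f h * f h') = x.1 (f (h * h'))
    rw [map_mul]⟩

@[simp] lemma coindBotComp_apply (f : H →* G) (B : Rep k G) (x : Coh.coindBot B) (h : H) :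
    ((coindBotComp f B).hom x).1 h = x.1 (f h) := rfl

/-- Compatibility of `coindBotComp` with the units. -/
lemma toCoindBot_comp_coindBotComp (f : H →* G) (B : Rep k G) :
    (resFunctor f).map (Coh.toCoindBot B) ≫ coindBotComp f B = Coh.toCoindBot (Rep.res f B) := by
  ext b h
  rfl

/-- `coindBotComp` is natural in `B`. -/
lemma coindBotComp_naturality (f : H →* G) {B B' : Rep k G} (β : B ⟶ B') :
    (resFunctor f).map (coindBotMap β) ≫ coindBotComp f B'
      = coindBotComp f B ≫ coindBotMap ((resFunctor f).map β) := by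
  ext x h
  rfl

/-- `coindBotComp` for a composite of group homomorphisms. -/
lemma coindBotComp_comp (f : H →* G) (g : K →* H) (B : Rep k G) (x : Coh.coindBot B) (c : K) :
    ((coindBotComp g (Rep.res f B)).hom ((coindBotComp f B).hom x)).1 c
      = ((coindBotComp (f.comp g) B).hom x).1 c := rfl

/-- Evaluation at `1`, a `k`-linear retraction of the unit. -/
def coindBotEv (B : Rep k G) : (Coh.coindBot B).V →ₗ[k] B.V where
  toFun x := x.1 1
  map_add' _ _ := rfl
  map_smul' _ _ := rfl

@[simp] lemma coindBotEv_apply (B : Rep k G) (x : Coh.coindBot B) : coindBotEv B x = x.1 1 := rfl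

lemma coindBotEv_toCoindBot (B : Rep k G) (b : B.V) :
    coindBotEv B ((Coh.toCoindBot B).hom b) = b := by
  change B.ρ 1 b = b
  rw [map_one]
  rfl

lemma toCoindBot_injective (B : Rep k G) : Function.Injective (Coh.toCoindBot B).hom := by
  intro b b' h
  rw [← coindBotEv_toCoindBot B b, ← coindBotEv_toCoindBot B b', h]

/-- `F ↦ F - η (F 1)`, a `k`-linear projection of `Fun(G, B)` killing the image of the unit. -/
def coindBotSec (B : Rep k G) : (Coh.coindBot B).V →ₗ[k] (Coh.coindBot B).V :=
  LinearMap.id - (Coh.toCoindBot B).hom.toLinearMap ∘ₗ coindBotEv B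

lemma coindBotSec_apply (B : Rep k G) (F : Coh.coindBot B) :
    coindBotSec B F = F - (Coh.toCoindBot B).hom (coindBotEv B F) := rfl

lemma coindBotSec_toCoindBot (B : Rep k G) (b : B.V) :
    coindBotSec B ((Coh.toCoindBot B).hom b) = 0 := by
  rw [coindBotSec_apply, coindBotEv_toCoindBot, sub_self]

end

end Fermat.Agent.CFT.Duality
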