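import Fermat.Agent.Lib.CFT.Duality.ExtLimMap

/-!
# P4 / Layer D : compatible families of `Ext` classes, long exact sequences in the limit

* `ExtFamily B B' s`   : a family of classes `c_j ∈ Ext^s(B_j, B'_j)` compatible with the transition maps.
* `ExtLim.compRight`   : `ExtLim A B r → ExtLim A B' t`, `ξ ↦ ξ ∘ c`   (`r + s = t`).
* `ExtLim.compLeft`    : `ExtLim A B r → ExtLim A' B t`, `ξ ↦ c ∘ ξ`   (`s + r = t`).
* `ShortExact B₁ B₂ B₃`: short exact sequences of tower modules, the family `δ` of their `Ext¹` classes,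
  and the six exactness statements of the long exact `ExtLim` sequences (covariant and contravariant).
-/

set_option autoImplicit false
set_option linter.unusedSectionVars false

open CategoryTheory Abelian

namespace Fermat.Agent.CFT.Duality

noncomputable section

namespace TowerModule

variable {k : Type} [CommRing k] {T : Tower}

/-- A compatible family of `Ext` classes `B_j → B'_j` of degree `s`. -/
structure ExtFamily (B B' : TowerModule k T) (s : ℕ) where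
  /-- the class at each level -/
  c : ∀ j, Ext (B.C j) (B'.C j) s
  comm : ∀ {i j : T.ι} (h : i ≤ j),
    ((c i).mapExactFunctor (Rep.resFunctor (T.π h))).comp (Ext.mk₀ (B'.φ h)) (add_zero s)
      = (Ext.mk₀ (B.φ h)).comp (c j) (zero_add s)

/-- A morphism of tower modules as a compatible family of degree `0`. -/
def ExtFamily.ofHom {B B' : TowerModule k T} (f : B.Hom B') : ExtFamily B B' 0 where
  c j := Ext.mk₀ (f.f j)
  comm h := by
    rw [Ext.mapExactFunctor_mk₀, Ext.mk₀_comp_mk₀, Ext.mk₀_comp_mk₀, f.comm h]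

section CompRight

variable (A : TowerModule k T) [A.IsCartesian] {B B' : TowerModule k T} {s : ℕ}

lemma extTrans_comp_family (c : ExtFamily B B' s) {r t : ℕ} (hrs : r + s = t) {i j : T.ι}
    (h : i ≤ j) (ξ : Ext (A.C i) (B.C i) r) :
    extTrans A B' t h (ξ.comp (c.c i) hrs) = (extTrans A B r h ξ).comp (c.c j) hrs := by
  subst hrs
  unfold extTrans
  simp only [extPull_apply, Ext.mapExactFunctor_comp]
  rw [Ext.comp_assoc _ _ _ rfl (add_zero s) (by omega), c.comm h,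
    Ext.comp_assoc _ _ _ (zero_add r) rfl (by omega),
    Ext.comp_assoc _ _ _ (add_zero r) (zero_add s) (by omega)]

/-- Composition on the right with a compatible family. -/
def ExtLim.compRight (c : ExtFamily B B' s) (r t : ℕ) (hrs : r + s = t) :
    ExtLim A B r →+ ExtLim A B' t :=
  ExtLim.map A B r A B' t (fun j => (c.c j).postcomp (A.C j) hrs)
    (fun h ξ => (extTrans_comp_family A c hrs h ξ).symm)

@[simp] lemma ExtLim.compRight_of (c : ExtFamily B B' s) (r t : ℕ) (hrs : r + s = t) (j : T.ι)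
    (ξ : Ext (A.C j) (B.C j) r) :
    ExtLim.compRight A c r t hrs (ExtLim.of A B r j ξ) = ExtLim.of A B' t j (ξ.comp (c.c j) hrs) :=
  ExtLim.map_of A B r A B' t (fun j => (c.c j).postcomp (A.C j) hrs)
    (fun h ξ => (extTrans_comp_family A c hrs h ξ).symm) j ξ

/-- Functoriality in the second variable. -/
def ExtLim.mapRight (f : B.Hom B') (r : ℕ) : ExtLim A B r →+ ExtLim A B' r :=
  ExtLim.compRight A (ExtFamily.ofHom f) r r (add_zero r)

@[simp] lemma ExtLim.mapRight_of (f : B.Hom B') (r : ℕ) (j : T.ι) (ξ : Ext (A.C j) (B.C j) r) :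
    ExtLim.mapRight A f r (ExtLim.of A B r j ξ)
      = ExtLim.of A B' r j (ξ.comp (Ext.mk₀ (f.f j)) (add_zero r)) :=
  ExtLim.compRight_of A (ExtFamily.ofHom f) r r (add_zero r) j ξ

end CompRight

section CompLeft

variable {A A' : TowerModule k T} [A.IsCartesian] [A'.IsCartesian] (B : TowerModule k T) {s : ℕ}

lemma ExtFamily.comm_inv (c : ExtFamily A' A s) {i j : T.ι} (h : i ≤ j) :
    (Ext.mk₀ (inv (A'.φ h))).comp
        ((c.c i).mapExactFunctor (Rep.resFunctor (T.π h))) (zero_add s)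
      = (c.c j).comp (Ext.mk₀ (inv (A.φ h))) (add_zero s) := by
  have h1 := c.comm h
  have h2 : (Ext.mk₀ (inv (A'.φ h))).comp
      ((((c.c i).mapExactFunctor (Rep.resFunctor (T.π h))).comp (Ext.mk₀ (A.φ h))
        (add_zero s)).comp (Ext.mk₀ (inv (A.φ h))) (add_zero s)) (zero_add s) =
      (Ext.mk₀ (inv (A'.φ h))).comp
      (((Ext.mk₀ (A'.φ h)).comp (c.c j) (zero_add s)).comp (Ext.mk₀ (inv (A.φ h)))
        (add_zero s)) (zero_add s) := by rw [h1]
  rw [Ext.comp_assoc_of_third_deg_zero, Ext.mk₀_comp_mk₀, IsIso.hom_inv_id,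
    Ext.comp_mk₀_id] at h2
  rw [h2, Ext.comp_assoc_of_third_deg_zero,
    ← Ext.comp_assoc (Ext.mk₀ (inv (A'.φ h))) (Ext.mk₀ (A'.φ h)) _ (zero_add 0) (zero_add s)
      (by omega), Ext.mk₀_comp_mk₀, IsIso.inv_hom_id, Ext.mk₀_id_comp]

lemma extTrans_family_comp (c : ExtFamily A' A s) {r t : ℕ} (hsr : s + r = t) {i j : T.ι}
    (h : i ≤ j) (ξ : Ext (A.C i) (B.C i) r) :
    extTrans A' B t h ((c.c i).comp ξ hsr) = (c.c j).comp (extTrans A B r h ξ) hsr := by
  subst hsr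
  unfold extTrans
  simp only [extPull_apply, Ext.mapExactFunctor_comp]
  rw [Ext.comp_assoc _ _ _ rfl (add_zero r) (by omega),
    ← Ext.comp_assoc (Ext.mk₀ (inv (A'.φ h))) _ _ (zero_add s) rfl (by omega),
    c.comm_inv h, Ext.comp_assoc _ _ _ (add_zero s) (zero_add r) (by omega)]

/-- Composition on the left with a compatible family. -/
def ExtLim.compLeft (c : ExtFamily A' A s) (r t : ℕ) (hsr : s + r = t) :
    ExtLim A B r →+ ExtLim A' B t :=
  ExtLim.map A B r A' B t (fun j => (c.c j).precomp (B.C j) hsr)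
    (fun h ξ => (extTrans_family_comp B c hsr h ξ).symm)

@[simp] lemma ExtLim.compLeft_of (c : ExtFamily A' A s) (r t : ℕ) (hsr : s + r = t) (j : T.ι)
    (ξ : Ext (A.C j) (B.C j) r) :
    ExtLim.compLeft B c r t hsr (ExtLim.of A B r j ξ) = ExtLim.of A' B t j ((c.c j).comp ξ hsr) :=
  ExtLim.map_of A B r A' B t (fun j => (c.c j).precomp (B.C j) hsr)
    (fun h ξ => (extTrans_family_comp B c hsr h ξ).symm) j ξ

/-- Functoriality in the first variable. -/
def ExtLim.mapLeft (f : A'.Hom A) (r : ℕ) : ExtLim A B r →+ ExtLim A' B r :=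
  ExtLim.compLeft B (ExtFamily.ofHom f) r r (zero_add r)

@[simp] lemma ExtLim.mapLeft_of (f : A'.Hom A) (r : ℕ) (j : T.ι) (ξ : Ext (A.C j) (B.C j) r) :
    ExtLim.mapLeft B f r (ExtLim.of A B r j ξ)
      = ExtLim.of A' B r j ((Ext.mk₀ (f.f j)).comp ξ (zero_add r)) :=
  ExtLim.compLeft_of B (ExtFamily.ofHom f) r r (zero_add r) j ξ

end CompLeft

/-- A short exact sequence of tower modules. -/
structure ShortExact (B₁ B₂ B₃ : TowerModule k T) where
  /-- the injection -/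
  f : B₁.Hom B₂
  /-- the surjection -/
  g : B₂.Hom B₃
  zero : ∀ j, f.f j ≫ g.f j = 0
  exact : ∀ j, (ShortComplex.mk (f.f j) (g.f j) (zero j)).ShortExact

namespace ShortExact

variable {B₁ B₂ B₃ : TowerModule k T} (S : ShortExact B₁ B₂ B₃)

/-- The short complex at level `j`. -/
abbrev sc (j : T.ι) : ShortComplex (Rep k (T.G j)) := ShortComplex.mk (S.f.f j) (S.g.f j) (S.zero j)

/-- The transition morphism of short complexes. -/
def scHom {i j : T.ι} (h : i ≤ j) : (S.sc i).map (Rep.resFunctor (T.π h)) ⟶ S.sc j where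
  τ₁ := B₁.φ h
  τ₂ := B₂.φ h
  τ₃ := B₃.φ h
  comm₁₂ := S.f.comm h
  comm₂₃ := S.g.comm h

/-- The connecting classes form a compatible family. -/
def δ : ExtFamily B₃ B₁ 1 where
  c j := (S.exact j).extClass
  comm {i j} h := by
    rw [Ext.mapExactFunctor_extClass]
    exact ShortComplex.ShortExact.extClass_naturality
      ((S.exact i).map_of_exact (Rep.resFunctor (T.π h))) (S.exact j) (S.scHom h)

section Covariant

variable (A : TowerModule k T) [A.IsCartesian]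

lemma covariant_exact₁ {n₀ n₁ : ℕ} (h : n₀ + 1 = n₁) (x₁ : ExtLim A B₁ n₁)
    (hx₁ : ExtLim.mapRight A S.f n₁ x₁ = 0) :
    ∃ x₃ : ExtLim A B₃ n₀, ExtLim.compRight A S.δ n₀ n₁ h x₃ = x₁ := by
  refine ExtLim.exact_of_levelwise' (ExtLim.compRight A S.δ n₀ n₁ h) (ExtLim.mapRight A S.f n₁)
    (fun j ξ => ξ.comp (S.exact j).extClass h)
    (fun j ξ => ξ.comp (Ext.mk₀ (S.f.f j)) (add_zero n₁)) ?_ ?_ ?_ ?_ x₁ hx₁
  · exact ExtLim.compRight_of A S.δ n₀ n₁ h
  · exact ExtLim.mapRight_of A S.f n₁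
  · exact fun hh ξ => extTrans_comp_family A (ExtFamily.ofHom S.f) (add_zero n₁) hh ξ
  · exact fun j y hy => Ext.covariant_sequence_exact₁ (A.C j) (S.exact j) y hy h

lemma covariant_exact₂ (n : ℕ) (x₂ : ExtLim A B₂ n) (hx₂ : ExtLim.mapRight A S.g n x₂ = 0) :
    ∃ x₁ : ExtLim A B₁ n, ExtLim.mapRight A S.f n x₁ = x₂ := by
  refine ExtLim.exact_of_levelwise' (ExtLim.mapRight A S.f n) (ExtLim.mapRight A S.g n)
    (fun j ξ => ξ.comp (Ext.mk₀ (S.f.f j)) (add_zero n))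
    (fun j ξ => ξ.comp (Ext.mk₀ (S.g.f j)) (add_zero n)) ?_ ?_ ?_ ?_ x₂ hx₂
  · exact ExtLim.mapRight_of A S.f n
  · exact ExtLim.mapRight_of A S.g n
  · exact fun hh ξ => extTrans_comp_family A (ExtFamily.ofHom S.g) (add_zero n) hh ξ
  · exact fun j y hy => Ext.covariant_sequence_exact₂ (A.C j) (S.exact j) y hy

lemma covariant_exact₃ {n₀ n₁ : ℕ} (h : n₀ + 1 = n₁) (x₃ : ExtLim A B₃ n₀)
    (hx₃ : ExtLim.compRight A S.δ n₀ n₁ h x₃ = 0) :
    ∃ x₂ : ExtLim A B₂ n₀, ExtLim.mapRight A S.g n₀ x₂ = x₃ := by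
  refine ExtLim.exact_of_levelwise' (ExtLim.mapRight A S.g n₀) (ExtLim.compRight A S.δ n₀ n₁ h)
    (fun j ξ => ξ.comp (Ext.mk₀ (S.g.f j)) (add_zero n₀))
    (fun j ξ => ξ.comp (S.exact j).extClass h) ?_ ?_ ?_ ?_ x₃ hx₃
  · exact ExtLim.mapRight_of A S.g n₀
  · exact ExtLim.compRight_of A S.δ n₀ n₁ h
  · exact fun hh ξ => extTrans_comp_family A S.δ h hh ξ
  · exact fun j y hy => Ext.covariant_sequence_exact₃ (A.C j) (S.exact j) y h hy

end Covariant

section Contravariant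

variable [B₁.IsCartesian] [B₂.IsCartesian] [B₃.IsCartesian] (Y : TowerModule k T)

lemma contravariant_exact₁ {n₀ n₁ : ℕ} (h : 1 + n₀ = n₁) (x₁ : ExtLim B₁ Y n₀)
    (hx₁ : ExtLim.compLeft Y S.δ n₀ n₁ h x₁ = 0) :
    ∃ x₂ : ExtLim B₂ Y n₀, ExtLim.mapLeft Y S.f n₀ x₂ = x₁ := by
  refine ExtLim.exact_of_levelwise' (ExtLim.mapLeft Y S.f n₀) (ExtLim.compLeft Y S.δ n₀ n₁ h)
    (fun j ξ => (Ext.mk₀ (S.f.f j)).comp ξ (zero_add n₀))
    (fun j ξ => (S.exact j).extClass.comp ξ h) ?_ ?_ ?_ ?_ x₁ hx₁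
  · exact ExtLim.mapLeft_of Y S.f n₀
  · exact ExtLim.compLeft_of Y S.δ n₀ n₁ h
  · exact fun hh ξ => extTrans_family_comp Y S.δ h hh ξ
  · exact fun j y hy => Ext.contravariant_sequence_exact₁ (S.exact j) (Y.C j) y h hy

lemma contravariant_exact₂ (n : ℕ) (x₂ : ExtLim B₂ Y n) (hx₂ : ExtLim.mapLeft Y S.f n x₂ = 0) :
    ∃ x₃ : ExtLim B₃ Y n, ExtLim.mapLeft Y S.g n x₃ = x₂ := by
  refine ExtLim.exact_of_levelwise' (ExtLim.mapLeft Y S.g n) (ExtLim.mapLeft Y S.f n)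
    (fun j ξ => (Ext.mk₀ (S.g.f j)).comp ξ (zero_add n))
    (fun j ξ => (Ext.mk₀ (S.f.f j)).comp ξ (zero_add n)) ?_ ?_ ?_ ?_ x₂ hx₂
  · exact ExtLim.mapLeft_of Y S.g n
  · exact ExtLim.mapLeft_of Y S.f n
  · exact fun hh ξ => extTrans_family_comp Y (ExtFamily.ofHom S.f) (zero_add n) hh ξ
  · exact fun j y hy => Ext.contravariant_sequence_exact₂ (S.exact j) (Y.C j) y hy

lemma contravariant_exact₃ {n₀ n₁ : ℕ} (h : 1 + n₀ = n₁) (x₃ : ExtLim B₃ Y n₁)
    (hx₃ : ExtLim.mapLeft Y S.g n₁ x₃ = 0) :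
    ∃ x₁ : ExtLim B₁ Y n₀, ExtLim.compLeft Y S.δ n₀ n₁ h x₁ = x₃ := by
  refine ExtLim.exact_of_levelwise' (ExtLim.compLeft Y S.δ n₀ n₁ h) (ExtLim.mapLeft Y S.g n₁)
    (fun j ξ => (S.exact j).extClass.comp ξ h)
    (fun j ξ => (Ext.mk₀ (S.g.f j)).comp ξ (zero_add n₁)) ?_ ?_ ?_ ?_ x₃ hx₃
  · exact ExtLim.compLeft_of Y S.δ n₀ n₁ h
  · exact ExtLim.mapLeft_of Y S.g n₁
  · exact fun hh ξ => extTrans_family_comp Y (ExtFamily.ofHom S.g) (zero_add n₁) hh ξ
  · exact fun j y hy => Ext.contravariant_sequence_exact₃ (S.exact j) (Y.C j) y hy h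

end Contravariant

section Zero

variable (A : TowerModule k T) [A.IsCartesian]

lemma mapRight_g_mapRight_f (n : ℕ) (x : ExtLim A B₁ n) :
    ExtLim.mapRight A S.g n (ExtLim.mapRight A S.f n x) = 0 := by
  induction x using ExtLim.induction_on with
  | h j ξ =>
    rw [ExtLim.mapRight_of, ExtLim.mapRight_of, Ext.comp_assoc_of_third_deg_zero,
      Ext.mk₀_comp_mk₀, S.zero j, Ext.mk₀_zero, Ext.comp_zero, map_zero]

lemma compRight_δ_mapRight_g {n₀ n₁ : ℕ} (h : n₀ + 1 = n₁) (x : ExtLim A B₂ n₀) :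
    ExtLim.compRight A S.δ n₀ n₁ h (ExtLim.mapRight A S.g n₀ x) = 0 := by
  induction x using ExtLim.induction_on with
  | h j ξ =>
    rw [ExtLim.mapRight_of, ExtLim.compRight_of,
      Ext.comp_assoc _ _ _ (add_zero n₀) (zero_add 1) (by omega)]
    change ExtLim.of A B₁ n₁ j (ξ.comp ((Ext.mk₀ (S.sc j).g).comp (S.exact j).extClass _) _) = 0
    rw [ShortComplex.ShortExact.comp_extClass, Ext.comp_zero, map_zero]

lemma mapRight_f_compRight_δ {n₀ n₁ : ℕ} (h : n₀ + 1 = n₁) (x : ExtLim A B₃ n₀) :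
    ExtLim.mapRight A S.f n₁ (ExtLim.compRight A S.δ n₀ n₁ h x) = 0 := by
  induction x using ExtLim.induction_on with
  | h j ξ =>
    rw [ExtLim.compRight_of, ExtLim.mapRight_of,
      Ext.comp_assoc _ _ _ h (add_zero 1) (by omega)]
    change ExtLim.of A B₂ n₁ j (ξ.comp ((S.exact j).extClass.comp (Ext.mk₀ (S.sc j).f) _) _) = 0
    rw [ShortComplex.ShortExact.extClass_comp, Ext.comp_zero, map_zero]

variable [B₁.IsCartesian] [B₂.IsCartesian] [B₃.IsCartesian] (Y : TowerModule k T)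

lemma mapLeft_f_mapLeft_g (n : ℕ) (x : ExtLim B₃ Y n) :
    ExtLim.mapLeft Y S.f n (ExtLim.mapLeft Y S.g n x) = 0 := by
  induction x using ExtLim.induction_on with
  | h j ξ =>
    rw [ExtLim.mapLeft_of, ExtLim.mapLeft_of,
      ← Ext.comp_assoc _ _ _ (zero_add 0) (zero_add n) (by omega),
      Ext.mk₀_comp_mk₀, S.zero j, Ext.mk₀_zero, Ext.zero_comp, map_zero]

lemma compLeft_δ_mapLeft_f {n₀ n₁ : ℕ} (h : 1 + n₀ = n₁) (x : ExtLim B₂ Y n₀) :
    ExtLim.compLeft Y S.δ n₀ n₁ h (ExtLim.mapLeft Y S.f n₀ x) = 0 := by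
  induction x using ExtLim.induction_on with
  | h j ξ =>
    rw [ExtLim.mapLeft_of, ExtLim.compLeft_of]
    change ExtLim.of B₃ Y n₁ j ((S.exact j).extClass.comp ((Ext.mk₀ (S.sc j).f).comp ξ _) _) = 0
    rw [ShortComplex.ShortExact.extClass_comp_assoc, map_zero]

lemma mapLeft_g_compLeft_δ {n₀ n₁ : ℕ} (h : 1 + n₀ = n₁) (x : ExtLim B₁ Y n₀) :
    ExtLim.mapLeft Y S.g n₁ (ExtLim.compLeft Y S.δ n₀ n₁ h x) = 0 := by
  induction x using ExtLim.induction_on with
  | h j ξ =>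
    rw [ExtLim.compLeft_of, ExtLim.mapLeft_of]
    change ExtLim.of B₂ Y n₁ j ((Ext.mk₀ (S.sc j).g).comp ((S.exact j).extClass.comp ξ _) _) = 0
    rw [ShortComplex.ShortExact.comp_extClass_assoc, map_zero]

end Zero

end ShortExact

end TowerModule

end

end Fermat.Agent.CFT.Duality
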