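import Fermat.Agent.Lib.CFT.Duality.HomTo
import Fermat.Agent.Lib.CFT.Duality.TowerQuot
import Fermat.Agent.Lib.CFT.Duality.ExtLimPair
import Fermat.Agent.Lib.CFT.Duality.ExtLimSeq
import Fermat.Agent.Lib.CFT.Duality.CoindBot
import Fermat.Agent.Lib.CFT.Duality.Bridge1
import Fermat.Agent.Lib.CFT.Duality.ExtPull
import Fermat.Agent.Lib.CFT.Coh.TraceOne

/-!
# P4 / Layer D, D-PDIV-Y : functoriality and exactness of `Hom(A, -)`

Finite level (`homRep A B = Hom_k(A, B)` with the conjugation action):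
* `homRepMap A β`, `homRepPull f a b` : functoriality in the second variable and under change
  of groups;
* `homRep_shortExact` : `Hom_k(A, -)` is exact on `k`-split short exact sequences;
* `ext_trivial_homRep_coindBot_eq_zero` : `Ext^{n+1}(k, Hom_k(A, Fun(G, B))) = 0`;
* `theta0 A B : Ext A B 0 ≃+ Ext k (homRep A B) 0`, natural in `B` and under `extPull`.

Tower level: `homToMap`, `homTo_shortExact`.
-/

set_option autoImplicit false
set_option linter.unusedSectionVars false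

open CategoryTheory Abelian

namespace Fermat.Agent.CFT.Duality

noncomputable section

section Finite

variable {k : Type} [CommRing k] {G H : Type} [Group G] [Group H]

/-- `Hom_k(A, B)` with the conjugation action -/
abbrev homRep (A B : Rep.{0} k G) : Rep.{0} k G := Rep.of (Representation.linHom A.ρ B.ρ)

lemma homRep_ρ_apply (A B : Rep.{0} k G) (g : G) (u : A.V →ₗ[k] B.V) (x : A.V) :
    (show A.V →ₗ[k] B.V from (homRep A B).ρ g u) x = B.ρ g (u (A.ρ g⁻¹ x)) := rfl

/-- functoriality of `Hom_k(A, B)` in `B` -/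
def homRepMap (A : Rep.{0} k G) {B B' : Rep.{0} k G} (β : B ⟶ B') : homRep A B ⟶ homRep A B' :=
  Rep.ofHom ⟨LinearMap.llcomp k A.V B.V B'.V β.hom.toLinearMap, fun g => by
    apply LinearMap.ext
    intro (u : A.V →ₗ[k] B.V)
    apply LinearMap.ext
    intro x
    change β.hom (B.ρ g (u (A.ρ g⁻¹ x))) = B'.ρ g (β.hom (u (A.ρ g⁻¹ x)))
    exact Rep.hom_comm_apply β g _⟩

@[simp] lemma homRepMap_apply (A : Rep.{0} k G) {B B' : Rep.{0} k G} (β : B ⟶ B')
    (u : A.V →ₗ[k] B.V) (x : A.V) :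
    (show A.V →ₗ[k] B'.V from (homRepMap A β).hom u) x = β.hom (u x) := rfl

lemma homRepMap_id (A B : Rep.{0} k G) : homRepMap A (𝟙 B) = 𝟙 (homRep A B) := by
  apply Rep.hom_ext
  refine DFunLike.ext _ _ (fun (u : A.V →ₗ[k] B.V) => ?_)
  apply LinearMap.ext
  intro x
  rfl

lemma homRepMap_comp (A : Rep.{0} k G) {B B' B'' : Rep.{0} k G} (β : B ⟶ B') (β' : B' ⟶ B'') :
    homRepMap A (β ≫ β') = homRepMap A β ≫ homRepMap A β' := by
  apply Rep.hom_ext
  refine DFunLike.ext _ _ (fun (u : A.V →ₗ[k] B.V) => ?_)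
  apply LinearMap.ext
  intro x
  rfl

lemma homRepMap_zero (A : Rep.{0} k G) (B B' : Rep.{0} k G) :
    homRepMap A (0 : B ⟶ B') = 0 := by
  apply Rep.hom_ext
  refine DFunLike.ext _ _ (fun (u : A.V →ₗ[k] B.V) => ?_)
  apply LinearMap.ext
  intro x
  rfl

/-- functoriality of `Hom_k(A, B)` under a change of groups `f : H → G`, `a : A' → A`,
`b : B → B'` : `u ↦ b ∘ u ∘ a` -/
def homRepPull (f : H →* G) {A B : Rep.{0} k G} {A' B' : Rep.{0} k H} (a : A' ⟶ Rep.res f A)
    (b : Rep.res f B ⟶ B') : Rep.res f (homRep A B) ⟶ homRep A' B' :=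
  Rep.ofHom ⟨{ toFun := fun (u : A.V →ₗ[k] B.V) => b.hom.toLinearMap ∘ₗ u ∘ₗ a.hom.toLinearMap
               map_add' := fun u₁ u₂ => by simp_rw [LinearMap.add_comp, LinearMap.comp_add]
               map_smul' := fun r u => by
                 simp_rw [RingHom.id_apply, LinearMap.smul_comp, LinearMap.comp_smul] },
    fun h => by
      apply LinearMap.ext
      intro (u : A.V →ₗ[k] B.V)
      apply LinearMap.ext
      intro x
      change b.hom (B.ρ (f h) (u (A.ρ (f h)⁻¹ (a.hom x)))) =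
        B'.ρ h (b.hom (u (a.hom (A'.ρ h⁻¹ x))))
      have h1 : a.hom (A'.ρ h⁻¹ x) = A.ρ (f h)⁻¹ (a.hom x) := by
        rw [← map_inv]
        exact Rep.hom_comm_apply a h⁻¹ x
      rw [h1]
      exact Rep.hom_comm_apply b h _⟩

@[simp] lemma homRepPull_apply (f : H →* G) {A B : Rep.{0} k G} {A' B' : Rep.{0} k H}
    (a : A' ⟶ Rep.res f A) (b : Rep.res f B ⟶ B') (u : A.V →ₗ[k] B.V) (x : A'.V) :
    (show A'.V →ₗ[k] B'.V from (homRepPull f a b).hom u) x = b.hom (u (a.hom x)) := rfl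

/-! ### Exactness -/

/-- elementwise exactness of a short exact sequence of representations -/
lemma shortExact_functions {S : ShortComplex (Rep.{0} k G)} (hS : S.ShortExact) :
    Function.Injective S.f.hom ∧ Function.Surjective S.g.hom ∧
      ∀ y : S.X₂.V, S.g.hom y = 0 → ∃ x : S.X₁.V, S.f.hom x = y := by
  refine ⟨(Rep.mono_iff_injective S.f).1 hS.mono_f, (Rep.epi_iff_surjective S.g).1 hS.epi_g, ?_⟩
  have h1 := hS.exact
  rw [← ShortComplex.exact_map_iff_of_faithful S (forget₂ (Rep k G) (ModuleCat k)),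
    ShortComplex.moduleCat_exact_iff] at h1
  exact h1

/-- a `k`-linear retraction of `f` gives a `k`-linear section of `g` -/
lemma exists_section_of_retraction {S : ShortComplex (Rep.{0} k G)} (hS : S.ShortExact)
    (r : S.X₂.V →ₗ[k] S.X₁.V) (hr : ∀ x, r (S.f.hom x) = x) :
    ∃ s : S.X₃.V →ₗ[k] S.X₂.V, ∀ y, S.g.hom (s y) = y := by
  obtain ⟨-, hsurj, hex⟩ := shortExact_functions hS
  have hgf : ∀ x, S.g.hom (S.f.hom x) = 0 := fun x => congrArg (fun u => u.hom x) S.zero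
  let h : S.X₂.V →ₗ[k] S.X₂.V := LinearMap.id - S.f.hom.toLinearMap ∘ₗ r
  have hle : LinearMap.ker S.g.hom.toLinearMap ≤ LinearMap.ker h := by
    intro y hy
    obtain ⟨x, rfl⟩ := hex y hy
    change S.f.hom x - S.f.hom (r (S.f.hom x)) = 0
    rw [hr, sub_self]
  let e := LinearMap.quotKerEquivOfSurjective S.g.hom.toLinearMap hsurj
  refine ⟨((LinearMap.ker S.g.hom.toLinearMap).liftQ h hle) ∘ₗ e.symm.toLinearMap, fun y => ?_⟩
  obtain ⟨x, rfl⟩ := hsurj y
  have h1 : e.symm (S.g.hom x) = Submodule.Quotient.mk x := by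
    rw [LinearEquiv.symm_apply_eq]
    rfl
  change S.g.hom (((LinearMap.ker S.g.hom.toLinearMap).liftQ h hle) (e.symm (S.g.hom x))) = _
  rw [h1, Submodule.liftQ_apply]
  change S.g.hom (x - S.f.hom (r x)) = S.g.hom x
  rw [map_sub, hgf, sub_zero]

/-- `Hom_k(A, -)` of a short complex -/
abbrev homRepSC (A : Rep.{0} k G) (S : ShortComplex (Rep.{0} k G)) : ShortComplex (Rep.{0} k G) :=
  ShortComplex.mk (homRepMap A S.f) (homRepMap A S.g)
    (by rw [← homRepMap_comp, S.zero, homRepMap_zero])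

/-- `Hom_k(A, -)` is exact on `k`-split short exact sequences -/
theorem homRep_shortExact (A : Rep.{0} k G) {S : ShortComplex (Rep.{0} k G)} (hS : S.ShortExact)
    (s : S.X₃.V →ₗ[k] S.X₂.V) (hs : ∀ y, S.g.hom (s y) = y) : (homRepSC A S).ShortExact := by
  obtain ⟨hinj, -, hex⟩ := shortExact_functions hS
  refine Coh.shortExact_of_functions ?_ ?_ ?_
  · intro (u : A.V →ₗ[k] S.X₁.V) (u' : A.V →ₗ[k] S.X₁.V) huu'
    apply LinearMap.ext
    intro x
    apply hinj
    exact congrArg (fun (w : A.V →ₗ[k] S.X₂.V) => w x) huu'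
  · intro (w : A.V →ₗ[k] S.X₃.V)
    refine ⟨(s ∘ₗ w : A.V →ₗ[k] S.X₂.V), ?_⟩
    apply LinearMap.ext
    intro x
    exact hs (w x)
  · intro (u : A.V →ₗ[k] S.X₂.V) hu
    have hu' : ∀ x, S.g.hom (u x) = 0 := fun x =>
      congrArg (fun (w : A.V →ₗ[k] S.X₃.V) => w x) hu
    have hmem : ∀ x, u x ∈ LinearMap.range S.f.hom.toLinearMap := fun x => hex (u x) (hu' x)
    let e := LinearEquiv.ofInjective S.f.hom.toLinearMap hinj
    refine ⟨(e.symm.toLinearMap ∘ₗ u.codRestrict _ hmem : A.V →ₗ[k] S.X₁.V), ?_⟩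
    apply LinearMap.ext
    intro x
    change S.f.hom (e.symm ⟨u x, hmem x⟩) = u x
    have h1 := e.apply_symm_apply ⟨u x, hmem x⟩
    exact congrArg Subtype.val h1

/-! ### Vanishing for coinduced modules -/

section Vanishing

variable [Finite G]

/-- `H^{n+1}(G, Hom_k(A, Fun(G, B))) = 0` -/
theorem isZero_groupCohomology_homRep_coindBot (A B : Rep.{0} k G) (n : ℕ) :
    Limits.IsZero (groupCohomology (homRep A (Coh.coindBot B)) (n + 1)) := by
  let _ : Fintype G := Fintype.ofFinite G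
  exact ((Coh.traceOne_coindBot B).linHom A).isZero_groupCohomology n

/-- `Ext^{n+1}(k, Hom_k(A, Fun(G, B))) = 0` -/
theorem ext_trivial_homRep_coindBot_eq_zero (A B : Rep.{0} k G) (n : ℕ)
    (ξ : Ext (Rep.trivial k G k) (homRep A (Coh.coindBot B)) (n + 1)) : ξ = 0 := by
  obtain ⟨x, rfl⟩ := (cohToExt (homRep A (Coh.coindBot B)) (n + 1)).surjective ξ
  have hx : x = 0 := by
    have := ModuleCat.isZero_iff_subsingleton.1 (isZero_groupCohomology_homRep_coindBot A B n)
    exact Subsingleton.elim _ _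
  rw [hx, map_zero]

/-- `Ext^{n+1}(k, Hom_k(A, B)) = 0` if `B ≅ Fun(G, B₀)` -/
theorem ext_trivial_homRep_eq_zero_of_iso (A : Rep.{0} k G) {B B₀ : Rep.{0} k G}
    (e : B ≅ Coh.coindBot B₀) (n : ℕ) (ξ : Ext (Rep.trivial k G k) (homRep A B) (n + 1)) :
    ξ = 0 := by
  have h1 : ξ.comp (Ext.mk₀ (homRepMap A e.hom)) (add_zero (n + 1)) = 0 :=
    ext_trivial_homRep_coindBot_eq_zero A B₀ n _
  have h2 : ξ = (ξ.comp (Ext.mk₀ (homRepMap A e.hom)) (add_zero (n + 1))).comp
      (Ext.mk₀ (homRepMap A e.inv)) (add_zero (n + 1)) := by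
    rw [Ext.comp_assoc_of_third_deg_zero, Ext.mk₀_comp_mk₀, ← homRepMap_comp, e.hom_inv_id,
      homRepMap_id, Ext.comp_mk₀_id]
  rw [h2, h1, Ext.zero_comp]

end Vanishing

/-! ### Degree `0` : `Hom_G(A, B) = Hom_G(k, Hom_k(A, B))` -/

/-- the morphism `k ⟶ Hom_k(A, B)`, `c ↦ c • u`, attached to an equivariant `u` -/
def toHomRep {A B : Rep.{0} k G} (u : A ⟶ B) : Rep.trivial k G k ⟶ homRep A B :=
  Rep.ofHom ⟨LinearMap.toSpanSingleton k (A.V →ₗ[k] B.V) u.hom.toLinearMap, fun g => by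
    apply LinearMap.ext
    intro (c : k)
    apply LinearMap.ext
    intro x
    change (c • u.hom.toLinearMap) x = B.ρ g ((c • u.hom.toLinearMap) (A.ρ g⁻¹ x))
    rw [LinearMap.smul_apply, LinearMap.smul_apply, map_smul]
    congr 1
    exact ((Rep.hom_comm_apply u g _).symm.trans (by
      change u.hom ((A.ρ g * A.ρ g⁻¹) x) = u.hom x
      rw [← map_mul, mul_inv_cancel, map_one]
      rfl)).symm⟩

@[simp] lemma toHomRep_apply {A B : Rep.{0} k G} (u : A ⟶ B) (c : k) (x : A.V) :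
    (show A.V →ₗ[k] B.V from (toHomRep u).hom c) x = c • u.hom x := rfl

/-- the equivariant map `A ⟶ B` attached to `φ : k ⟶ Hom_k(A, B)`, namely `φ 1` -/
def ofHomRep {A B : Rep.{0} k G} (φ : Rep.trivial k G k ⟶ homRep A B) : A ⟶ B :=
  Rep.ofHom ⟨(show A.V →ₗ[k] B.V from φ.hom (1 : k)), fun g => by
    apply LinearMap.ext
    intro x
    have h1 := Rep.hom_comm_apply φ g (1 : k)
    have h2 := congrArg (fun (w : A.V →ₗ[k] B.V) => w (A.ρ g x)) h1
    change (show A.V →ₗ[k] B.V from φ.hom (1 : k)) (A.ρ g x) =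
      B.ρ g ((show A.V →ₗ[k] B.V from φ.hom (1 : k)) (A.ρ g⁻¹ (A.ρ g x))) at h2
    have h3 : A.ρ g⁻¹ (A.ρ g x) = x := by
      change (A.ρ g⁻¹ * A.ρ g) x = x
      rw [← map_mul, inv_mul_cancel, map_one]
      rfl
    rw [h3] at h2
    exact h2⟩

@[simp] lemma ofHomRep_apply {A B : Rep.{0} k G} (φ : Rep.trivial k G k ⟶ homRep A B)
    (x : A.V) : (ofHomRep φ).hom x = (show A.V →ₗ[k] B.V from φ.hom (1 : k)) x := rfl

/-- `Hom_G(A, B) ≃ Hom_G(k, Hom_k(A, B))` -/
def homEquivHomRep (A B : Rep.{0} k G) : (A ⟶ B) ≃+ (Rep.trivial k G k ⟶ homRep A B) where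
  toFun := toHomRep
  invFun := ofHomRep
  left_inv u := by
    ext x
    change (1 : k) • u.hom x = u.hom x
    rw [one_smul]
  right_inv φ := by
    apply Rep.hom_ext
    refine DFunLike.ext _ _ (fun (c : k) => ?_)
    apply LinearMap.ext
    intro x
    change c • (show A.V →ₗ[k] B.V from φ.hom (1 : k)) x = (show A.V →ₗ[k] B.V from φ.hom c) x
    rw [← LinearMap.smul_apply, ← map_smul]
    congr 2
    exact mul_one c
  map_add' u u' := by
    apply Rep.hom_ext
    refine DFunLike.ext _ _ (fun (c : k) => ?_)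
    apply LinearMap.ext
    intro x
    change c • (u + u').hom x = c • u.hom x + c • u'.hom x
    rw [← smul_add]
    rfl

/-- `θ⁰ : Ext⁰(A, B) ≃ Ext⁰(k, Hom_k(A, B))` -/
def theta0 (A B : Rep.{0} k G) : Ext A B 0 ≃+ Ext (Rep.trivial k G k) (homRep A B) 0 :=
  Ext.addEquiv₀.trans ((homEquivHomRep A B).trans Ext.addEquiv₀.symm)

lemma theta0_mk₀ {A B : Rep.{0} k G} (u : A ⟶ B) :
    theta0 A B (Ext.mk₀ u) = Ext.mk₀ (toHomRep u) := by
  change Ext.addEquiv₀.symm (homEquivHomRep A B (Ext.addEquiv₀ (Ext.mk₀ u))) = _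
  have h1 : Ext.addEquiv₀ (Ext.mk₀ u) = u := Ext.addEquiv₀.apply_symm_apply u
  rw [h1]
  rfl

/-- `θ⁰` is natural in the second variable -/
lemma theta0_comp_mk₀ {A B B' : Rep.{0} k G} (β : B ⟶ B') (x : Ext A B 0) :
    theta0 A B' (x.comp (Ext.mk₀ β) (add_zero 0)) =
      (theta0 A B x).comp (Ext.mk₀ (homRepMap A β)) (add_zero 0) := by
  obtain ⟨u, rfl⟩ := (Ext.mk₀_bijective _ _).2 x
  rw [Ext.mk₀_comp_mk₀, theta0_mk₀, theta0_mk₀, Ext.mk₀_comp_mk₀]
  congr 1
  apply Rep.hom_ext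
  refine DFunLike.ext _ _ (fun (c : k) => ?_)
  apply LinearMap.ext
  intro y
  change c • β.hom (u.hom y) = β.hom (c • u.hom y)
  rw [map_smul]

/-- `θ⁰` commutes with change of groups -/
lemma theta0_extPull (f : H →* G) {A B : Rep.{0} k G} {A' B' : Rep.{0} k H}
    (a : A' ⟶ Rep.res f A) (b : Rep.res f B ⟶ B') (x : Ext A B 0) :
    theta0 A' B' (extPull f a b 0 x) =
      extPull f (𝟙 (Rep.trivial k H k)) (homRepPull f a b) 0 (theta0 A B x) := by
  obtain ⟨u, rfl⟩ := (Ext.mk₀_bijective _ _).2 x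
  rw [theta0_mk₀, extPull_apply, extPull_apply, Ext.mapExactFunctor_mk₀, Ext.mapExactFunctor_mk₀,
    Ext.mk₀_comp_mk₀, Ext.mk₀_comp_mk₀, Ext.mk₀_comp_mk₀, Ext.mk₀_comp_mk₀, theta0_mk₀]
  congr 1
  apply Rep.hom_ext
  refine DFunLike.ext _ _ (fun (c : k) => ?_)
  apply LinearMap.ext
  intro y
  change c • b.hom (u.hom (a.hom y)) = b.hom (c • u.hom (a.hom y))
  rw [map_smul]

end Finite

/-! ### Tower level -/

namespace TowerModule

variable {k : Type} [CommRing k] {T : Tower} (A : TowerModule k T) [A.IsCartesian]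

/-- the transition maps of `A.homTo B` are `homRepPull` -/
lemma homTo_φ_eq (B : TowerModule k T) {i j : T.ι} (h : i ≤ j) :
    (A.homTo B).φ h = homRepPull (T.π h) (inv (A.φ h)) (B.φ h) := by
  apply Rep.hom_ext
  refine DFunLike.ext _ _ (fun (u : (A.C i).V →ₗ[k] (B.C i).V) => ?_)
  apply LinearMap.ext
  intro y
  rfl

/-- functoriality of `A.homTo B` in `B` -/
def homToMap {B B' : TowerModule k T} (f : B.Hom B') : (A.homTo B).Hom (A.homTo B') :=
  Hom.mk' (fun i => homRepMap (A.C i) (f.f i)) (fun {i j} h (u : (A.C i).V →ₗ[k] (B.C i).V) => by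
    apply LinearMap.ext
    intro y
    exact f.comm_apply h _)

@[simp] lemma homToMap_f {B B' : TowerModule k T} (f : B.Hom B') (i : T.ι) :
    (homToMap A f).f i = homRepMap (A.C i) (f.f i) := rfl

lemma homToMap_id (B : TowerModule k T) : homToMap A (Hom.id B) = Hom.id (A.homTo B) :=
  Hom.ext' (fun i => homRepMap_id (A.C i) (B.C i))

lemma homToMap_comp {B B' B'' : TowerModule k T} (f : B.Hom B') (g : B'.Hom B'') :
    homToMap A (f.comp g) = (homToMap A f).comp (homToMap A g) :=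
  Hom.ext' (fun i => homRepMap_comp (A.C i) (f.f i) (g.f i))

/-- `A.homTo -` is exact on levelwise `k`-split short exact sequences -/
def homToShortExact {B₁ B₂ B₃ : TowerModule k T} (S : ShortExact B₁ B₂ B₃)
    (hs : ∀ j, ∃ s : (B₃.C j).V →ₗ[k] (B₂.C j).V, ∀ y, (S.g.f j).hom (s y) = y) :
    ShortExact (A.homTo B₁) (A.homTo B₂) (A.homTo B₃) where
  f := homToMap A S.f
  g := homToMap A S.g
  zero j := (homRepSC (A.C j) (S.sc j)).zero
  exact j := by
    obtain ⟨s, hs⟩ := hs j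
    exact homRep_shortExact (A.C j) (S.exact j) s hs

@[simp] lemma homToShortExact_f {B₁ B₂ B₃ : TowerModule k T} (S : ShortExact B₁ B₂ B₃)
    (hs : ∀ j, ∃ s : (B₃.C j).V →ₗ[k] (B₂.C j).V, ∀ y, (S.g.f j).hom (s y) = y) :
    (homToShortExact A S hs).f = homToMap A S.f := rfl

@[simp] lemma homToShortExact_g {B₁ B₂ B₃ : TowerModule k T} (S : ShortExact B₁ B₂ B₃)
    (hs : ∀ j, ∃ s : (B₃.C j).V →ₗ[k] (B₂.C j).V, ∀ y, (S.g.f j).hom (s y) = y) :
    (homToShortExact A S hs).g = homToMap A S.g := rfl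

/-- variant of `homToShortExact` with levelwise `k`-linear retractions of `S.f` -/
def homToShortExactOfRetraction {B₁ B₂ B₃ : TowerModule k T} (S : ShortExact B₁ B₂ B₃)
    (hr : ∀ j, ∃ r : (B₂.C j).V →ₗ[k] (B₁.C j).V, ∀ x, r ((S.f.f j).hom x) = x) :
    ShortExact (A.homTo B₁) (A.homTo B₂) (A.homTo B₃) :=
  homToShortExact A S (fun j => by
    obtain ⟨r, hr⟩ := hr j
    exact exists_section_of_retraction (S.exact j) r hr)

/-- `HLim (A.homTo B) (n+1) = 0` if every level of `B` is a coinduced module `Fun(G_j, B₀)` -/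
theorem HLim_homTo_eq_zero_of_coindBot (B : TowerModule k T) (B₀ : ∀ j, Rep.{0} k (T.G j))
    (e : ∀ j, B.C j ≅ Coh.coindBot (B₀ j)) (n : ℕ) (x : HLim (A.homTo B) (n + 1)) : x = 0 := by
  induction x using ExtLim.induction_on with
  | h j ξ =>
    have hξ : ξ = 0 := ext_trivial_homRep_eq_zero_of_iso (A.C j) (e j) n ξ
    rw [hξ]
    exact map_zero _

/-- `θ⁰` commutes with the transition maps -/
lemma theta0_extTrans (B : TowerModule k T) {i j : T.ι} (h : i ≤ j)
    (ξ : Ext (A.C i) (B.C i) 0) :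
    theta0 (A.C j) (B.C j) (extTrans A B 0 h ξ) =
      extTrans (triv k T) (A.homTo B) 0 h (theta0 (A.C i) (B.C i) ξ) := by
  unfold extTrans
  rw [theta0_extPull, homTo_φ_eq]
  congr 2
  change 𝟙 (Rep.trivial k (T.G j) k) = inv (𝟙 (Rep.trivial k (T.G j) k))
  rw [IsIso.inv_id]

/-- `θ⁰` in the limit : `ExtLim A B 0 ≃ HLim (A.homTo B) 0` -/
def theta0Lim (B : TowerModule k T) : ExtLim A B 0 ≃+ HLim (A.homTo B) 0 where
  toFun := ExtLim.map A B 0 (triv k T) (A.homTo B) 0
    (fun j => (theta0 (A.C j) (B.C j)).toAddMonoidHom) (fun h ξ => theta0_extTrans A B h ξ)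
  invFun := ExtLim.map (triv k T) (A.homTo B) 0 A B 0
    (fun j => (theta0 (A.C j) (B.C j)).symm.toAddMonoidHom) (fun {i j} h ξ => by
      apply (theta0 (A.C j) (B.C j)).injective
      change theta0 (A.C j) (B.C j) ((theta0 (A.C j) (B.C j)).symm _) =
        theta0 (A.C j) (B.C j) (extTrans A B 0 h ((theta0 (A.C i) (B.C i)).symm ξ))
      rw [AddEquiv.apply_symm_apply, theta0_extTrans, AddEquiv.apply_symm_apply])
  left_inv x := by
    induction x using ExtLim.induction_on with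
    | h j ξ =>
      rw [ExtLim.map_of, ExtLim.map_of]
      congr 1
      exact (theta0 (A.C j) (B.C j)).symm_apply_apply ξ
  right_inv x := by
    induction x using ExtLim.induction_on with
    | h j ξ =>
      rw [ExtLim.map_of, ExtLim.map_of]
      congr 1
      exact (theta0 (A.C j) (B.C j)).apply_symm_apply ξ
  map_add' x y := map_add _ x y

@[simp] lemma theta0Lim_of (B : TowerModule k T) (j : T.ι) (ξ : Ext (A.C j) (B.C j) 0) :
    theta0Lim A B (ExtLim.of A B 0 j ξ) =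
      ExtLim.of (triv k T) (A.homTo B) 0 j (theta0 (A.C j) (B.C j) ξ) :=
  ExtLim.map_of A B 0 (triv k T) (A.homTo B) 0
    (fun j => (theta0 (A.C j) (B.C j)).toAddMonoidHom) (fun h ξ => theta0_extTrans A B h ξ) j ξ

/-- `θ⁰` in the limit is natural in the second variable -/
lemma theta0Lim_mapRight {B B' : TowerModule k T} (f : B.Hom B') (x : ExtLim A B 0) :
    theta0Lim A B' (ExtLim.mapRight A f 0 x) =
      ExtLim.mapRight (triv k T) (homToMap A f) 0 (theta0Lim A B x) := by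
  induction x using ExtLim.induction_on with
  | h j ξ =>
    rw [ExtLim.mapRight_of, theta0Lim_of, theta0Lim_of, ExtLim.mapRight_of, theta0_comp_mk₀]
    rfl

end TowerModule

end

end Fermat.Agent.CFT.Duality
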