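import Fermat.Agent.Lib.CFT.Duality.CoindT
import Fermat.Agent.Lib.CFT.Duality.CoindVanish
import Fermat.Agent.Lib.CFT.Duality.HomToMap

/-!
# P4 / Layer D, D-TH2 : the comparison `ExtLim A B r ≃ HLim (A.homTo B) r` for `r = 1, 2`

For `A` finite, killed by `p`, and `B` `p`-divisible in the limit, by dimension shifting along
`0 → B → coindT B → upT B → 0` :
* `theta1Lim : ExtLim A B 1 ≃+ HLim (A.homTo B) 1`, with `theta1Lim_δ`;
* `theta2Lim : ExtLim A B 2 ≃+ HLim (A.homTo B) 2`, with `theta2Lim_δ`.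
-/

set_option autoImplicit false
set_option linter.unusedSectionVars false

open CategoryTheory Abelian

namespace Fermat.Agent.CFT.Duality

noncomputable section

namespace TowerModule

variable {k : Type} [CommRing k] {T : Tower} (A B : TowerModule k T) [A.IsCartesian]

/-- `0 → Hom(A, B) → Hom(A, coindT B) → Hom(A, upT B) → 0` -/
def upHomSES : ShortExact (A.homTo B) (A.homTo (coindT B)) (A.homTo (upT B)) :=
  homToShortExact A (upSES B) (fun j => ⟨upSection B j, upProj_upSection B j⟩)

@[simp] lemma upHomSES_f : (upHomSES A B).f = homToMap A (etaT B) := rfl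

@[simp] lemma upHomSES_g : (upHomSES A B).g = homToMap A (upProj B) := rfl

/-- `HLim (A.homTo (coindT B)) (r+1) = 0` -/
lemma HLim_homTo_coindT_eq_zero (r : ℕ) (x : HLim (A.homTo (coindT B)) (r + 1)) : x = 0 :=
  HLim_homTo_eq_zero_of_coindBot A (coindT B) (fun j => B.C j) (fun _ => Iso.refl _) r x

/-- the connecting map on the `Ext` side -/
abbrev δX (r : ℕ) : ExtLim A (upT B) r →+ ExtLim A B (r + 1) :=
  ExtLim.compRight A (upSES B).δ r (r + 1) rfl

/-- the connecting map on the cohomology side -/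
abbrev δY (r : ℕ) : HLim (A.homTo (upT B)) r →+ HLim (A.homTo B) (r + 1) :=
  ExtLim.compRight (triv k T) (upHomSES A B).δ r (r + 1) rfl

/-- the connecting map on the cohomology side is surjective -/
lemma δY_surjective (r : ℕ) : Function.Surjective (δY A B r) := fun y =>
  (upHomSES A B).covariant_exact₁ (triv k T) rfl y (HLim_homTo_coindT_eq_zero A B r _)

/-- the connecting map on the cohomology side is bijective in degrees `≥ 1` -/
lemma δY_bijective (r : ℕ) : Function.Bijective (δY A B (r + 1)) :=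
  (upHomSES A B).compRight_δ_bijective (triv k T) rfl (HLim_homTo_coindT_eq_zero A B r)
    (HLim_homTo_coindT_eq_zero A B (r + 1))

lemma δY_eq_zero_iff (r : ℕ) (v : HLim (A.homTo (upT B)) r) :
    δY A B r v = 0 ↔
      ∃ w : HLim (A.homTo (coindT B)) r,
        ExtLim.mapRight (triv k T) (homToMap A (upProj B)) r w = v := by
  constructor
  · intro hv
    exact (upHomSES A B).covariant_exact₃ (triv k T) rfl v hv
  · rintro ⟨w, rfl⟩
    exact (upHomSES A B).compRight_δ_mapRight_g (triv k T) rfl w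

section PDiv

variable [IsDomain k] [IsPrincipalIdealRing k] (p : ℕ)
  (hfin : ∀ j, Module.Finite k (A.C j).V) (hA : ∀ j (a : A.C j), p • a = 0) (hB : B.IsPDiv p)

include hfin hA hB

/-- the connecting map on the `Ext` side is surjective -/
lemma δX_surjective (r : ℕ) : Function.Surjective (δX A B r) := fun x =>
  (upSES B).covariant_exact₁ A rfl x (ExtLim.coindT_eq_zero A B p hfin hA hB r _)

/-- the connecting map on the `Ext` side is bijective in degrees `≥ 1` -/
lemma δX_bijective (r : ℕ) : Function.Bijective (δX A B (r + 1)) :=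
  (upSES B).compRight_δ_bijective A rfl (ExtLim.coindT_eq_zero A B p hfin hA hB r)
    (ExtLim.coindT_eq_zero A B p hfin hA hB (r + 1))

omit hfin hA hB in
lemma δX_eq_zero_iff (r : ℕ) (z : ExtLim A (upT B) r) :
    δX A B r z = 0 ↔ ∃ w : ExtLim A (coindT B) r, ExtLim.mapRight A (upProj B) r w = z := by
  constructor
  · intro hz
    exact (upSES B).covariant_exact₃ A rfl z hz
  · rintro ⟨w, rfl⟩
    exact (upSES B).compRight_δ_mapRight_g A rfl w

/-- `θ¹` as a homomorphism -/
def theta1Hom : ExtLim A B 1 →+ HLim (A.homTo B) 1 :=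
  (δX A B 0).liftOfRightInverse (Function.surjInv (δX_surjective A B p hfin hA hB 0))
    (Function.rightInverse_surjInv (δX_surjective A B p hfin hA hB 0))
    ⟨(δY A B 0).comp (theta0Lim A (upT B)).toAddMonoidHom, by
      intro z hz
      rw [AddMonoidHom.mem_ker] at hz ⊢
      obtain ⟨w, rfl⟩ := (δX_eq_zero_iff A B 0 z).1 hz
      change δY A B 0 (theta0Lim A (upT B) (ExtLim.mapRight A (upProj B) 0 w)) = 0
      rw [theta0Lim_mapRight]
      exact (δY_eq_zero_iff A B 0 _).2 ⟨_, rfl⟩⟩

lemma theta1Hom_δ (z : ExtLim A (upT B) 0) :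
    theta1Hom A B p hfin hA hB (δX A B 0 z) = δY A B 0 (theta0Lim A (upT B) z) :=
  AddMonoidHom.liftOfRightInverse_comp_apply (δX A B 0) _ _ _ z

lemma theta1Hom_bijective : Function.Bijective (theta1Hom A B p hfin hA hB) := by
  constructor
  · rw [injective_iff_map_eq_zero]
    intro x hx
    obtain ⟨z, rfl⟩ := δX_surjective A B p hfin hA hB 0 x
    rw [theta1Hom_δ] at hx
    obtain ⟨w', hw'⟩ := (δY_eq_zero_iff A B 0 _).1 hx
    obtain ⟨w, rfl⟩ := (theta0Lim A (coindT B)).surjective w'
    rw [← theta0Lim_mapRight] at hw'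
    have hz := (theta0Lim A (upT B)).injective hw'
    exact (δX_eq_zero_iff A B 0 z).2 ⟨w, hz⟩
  · intro y
    obtain ⟨v, rfl⟩ := δY_surjective A B 0 y
    obtain ⟨z, rfl⟩ := (theta0Lim A (upT B)).surjective v
    exact ⟨δX A B 0 z, theta1Hom_δ A B p hfin hA hB z⟩

/-- **`θ¹`** : `ExtLim A B 1 ≃ HLim (A.homTo B) 1` -/
def theta1Lim : ExtLim A B 1 ≃+ HLim (A.homTo B) 1 :=
  AddEquiv.ofBijective (theta1Hom A B p hfin hA hB) (theta1Hom_bijective A B p hfin hA hB)

/-- the defining equation of `θ¹` -/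
theorem theta1Lim_δ (z : ExtLim A (upT B) 0) :
    theta1Lim A B p hfin hA hB (ExtLim.compRight A (upSES B).δ 0 1 rfl z) =
      ExtLim.compRight (triv k T) (upHomSES A B).δ 0 1 rfl (theta0Lim A (upT B) z) :=
  theta1Hom_δ A B p hfin hA hB z

/-- **`θ²`** : `ExtLim A B 2 ≃ HLim (A.homTo B) 2` -/
def theta2Lim : ExtLim A B 2 ≃+ HLim (A.homTo B) 2 :=
  (AddEquiv.ofBijective (δX A B 1) (δX_bijective A B p hfin hA hB 0)).symm.trans
    ((theta1Lim A (upT B) p hfin hA hB.upT).trans
      (AddEquiv.ofBijective (δY A B 1) (δY_bijective A B 0)))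

/-- the defining equation of `θ²` -/
theorem theta2Lim_δ (z : ExtLim A (upT B) 1) :
    theta2Lim A B p hfin hA hB (ExtLim.compRight A (upSES B).δ 1 2 rfl z) =
      ExtLim.compRight (triv k T) (upHomSES A B).δ 1 2 rfl
        (theta1Lim A (upT B) p hfin hA hB.upT z) := by
  change δY A B 1 (theta1Lim A (upT B) p hfin hA hB.upT
    ((AddEquiv.ofBijective (δX A B 1) (δX_bijective A B p hfin hA hB 0)).symm (δX A B 1 z))) = _
  have h1 : (AddEquiv.ofBijective (δX A B 1) (δX_bijective A B p hfin hA hB 0)).symm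
      (δX A B 1 z) = z :=
    (AddEquiv.ofBijective (δX A B 1) (δX_bijective A B p hfin hA hB 0)).symm_apply_apply z
  rw [h1]

/-- every class of `ExtLim A B 1` is a coboundary -/
theorem exists_compRight_δ_eq_one (x : ExtLim A B 1) :
    ∃ z : ExtLim A (upT B) 0, ExtLim.compRight A (upSES B).δ 0 1 rfl z = x :=
  δX_surjective A B p hfin hA hB 0 x

/-- every class of `ExtLim A B 2` is a coboundary -/
theorem exists_compRight_δ_eq_two (x : ExtLim A B 2) :
    ∃ z : ExtLim A (upT B) 1, ExtLim.compRight A (upSES B).δ 1 2 rfl z = x :=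
  δX_surjective A B p hfin hA hB 1 x

end PDiv

/-- every class of `HLim (A.homTo B) (r+1)` is a coboundary -/
theorem exists_compRight_δ_homTo_eq (r : ℕ) (y : HLim (A.homTo B) (r + 1)) :
    ∃ v : HLim (A.homTo (upT B)) r,
      ExtLim.compRight (triv k T) (upHomSES A B).δ r (r + 1) rfl v = y :=
  δY_surjective A B r y

end TowerModule

end

end Fermat.Agent.CFT.Duality
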