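import Fermat.Agent.Lib.CFT.Duality.HomToMap
import Fermat.Agent.Lib.CFT.Duality.Rebase
import Fermat.Agent.Lib.CFT.Duality.LocInj
import Fermat.Agent.Lib.CFT.Duality.CohLimMap
import Fermat.Agent.Lib.CFT.Duality.ThetaLim
import Fermat.Agent.Lib.CFT.Duality.PTData

/-!
# P4 / Layer D, D-TH4 : the Kummer identification `Hom(A, μ) = Hom(A, E)` for `p`-torsion `A`

* `ExtLim.mapRight_bijective_of_isIso` : a levelwise isomorphism in the second variable induces
  bijections on `ExtLim`;
* `homToMap_f_bijective`, `mapRight_homToMap_bijective` : for `κ : M → E` levelwise injective with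
  image the `p`-torsion of `E` and `p • A = 0`, `Hom(A, M) → Hom(A, E)` is an isomorphism;
* `homTo_filter`, `homTo_resSub` : `homTo` commutes with `filter` and `resSub`.
-/

set_option autoImplicit false
set_option linter.unusedSectionVars false

open CategoryTheory Abelian

namespace Fermat.Agent.CFT.Duality

noncomputable section

namespace TowerModule

variable {k : Type} [CommRing k] {T : Tower}

/-- a levelwise isomorphism of tower modules is an isomorphism -/
def Hom.toIso {B B' : TowerModule k T} (f : B.Hom B') [∀ i, IsIso (f.f i)] : B.Iso B' where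
  hom := f
  inv :=
    { f := fun i => inv (f.f i)
      comm := fun {i j} h => by
        rw [← cancel_mono (f.f j), Category.assoc, Category.assoc, IsIso.inv_hom_id,
          Category.comp_id, f.comm h, ← Category.assoc, ← CategoryTheory.Functor.map_comp,
          IsIso.inv_hom_id, CategoryTheory.Functor.map_id, Category.id_comp] }
  hom_inv_id l := IsIso.hom_inv_id (f.f l)
  inv_hom_id l := IsIso.inv_hom_id (f.f l)

/-- a levelwise isomorphism in the second variable induces bijections on `ExtLim` -/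
theorem ExtLim.mapRight_bijective_of_isIso (A : TowerModule k T) [A.IsCartesian]
    {B B' : TowerModule k T} (f : B.Hom B') [∀ i, IsIso (f.f i)] (r : ℕ) :
    Function.Bijective (ExtLim.mapRight A f r) :=
  (ExtLim.congrRight A f.toIso r).bijective

section Kummer

variable (A : TowerModule k T) [A.IsCartesian] {M E : TowerModule k T} (κ : M.Hom E) (p : ℕ)
  (hA : ∀ j (a : A.C j), p • a = 0) (hinj : ∀ j, Function.Injective (κ.f j).hom)
  (hsurj : ∀ j (e : E.C j), p • e = 0 → ∃ m : M.C j, (κ.f j).hom m = e)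

include hA hinj hsurj

/-- `Hom(A, M) → Hom(A, E)` is bijective if `M` is the `p`-torsion of `E` and `p • A = 0` -/
theorem homToMap_f_bijective (j : T.ι) : Function.Bijective ((homToMap A κ).f j).hom := by
  constructor
  · intro (u : (A.C j).V →ₗ[k] (M.C j).V) (u' : (A.C j).V →ₗ[k] (M.C j).V) huu'
    apply LinearMap.ext
    intro x
    apply hinj j
    exact congrArg (fun (w : (A.C j).V →ₗ[k] (E.C j).V) => w x) huu'
  · intro (w : (A.C j).V →ₗ[k] (E.C j).V)
    have hmem : ∀ x, w x ∈ LinearMap.range (κ.f j).hom.toLinearMap := fun x => by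
      refine hsurj j (w x) ?_
      rw [← map_nsmul, hA j x, map_zero]
    let e := LinearEquiv.ofInjective (κ.f j).hom.toLinearMap (hinj j)
    refine ⟨(e.symm.toLinearMap ∘ₗ w.codRestrict _ hmem : (A.C j).V →ₗ[k] (M.C j).V), ?_⟩
    apply LinearMap.ext
    intro x
    change (κ.f j).hom (e.symm ⟨w x, hmem x⟩) = w x
    exact congrArg Subtype.val (e.apply_symm_apply ⟨w x, hmem x⟩)

theorem isIso_homToMap_f (j : T.ι) : IsIso ((homToMap A κ).f j) := by
  have hb := homToMap_f_bijective A κ p hA hinj hsurj j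
  have : Mono ((homToMap A κ).f j) := (Rep.mono_iff_injective _).2 hb.1
  have : Epi ((homToMap A κ).f j) := (Rep.epi_iff_surjective _).2 hb.2
  exact isIso_of_mono_of_epi _

/-- `H^r(Hom(A, M)) ≃ H^r(Hom(A, E))` in the limit -/
theorem mapRight_homToMap_bijective (r : ℕ) :
    Function.Bijective (ExtLim.mapRight (triv k T) (homToMap A κ) r) := by
  have : ∀ j, IsIso ((homToMap A κ).f j) := isIso_homToMap_f A κ p hA hinj hsurj
  exact ExtLim.mapRight_bijective_of_isIso (triv k T) (homToMap A κ) r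

end Kummer

/-! ### `homTo` commutes with `filter` and `resSub` -/

section Compare

variable (A μ : TowerModule k T) [A.IsCartesian]

lemma homTo_filter (P : T.ι → Prop) (hne : ∃ i, P i)
    (hdir : ∀ i j, P i → P j → ∃ l, P l ∧ i ≤ l ∧ j ≤ l) :
    (A.filter P hne hdir).homTo (μ.filter P hne hdir) = (A.homTo μ).filter P hne hdir := rfl

lemma homTo_resSub_C (D : T.SubgroupFamily) (i : T.ι) :
    ((A.resSub D).homTo (μ.resSub D)).C i = ((A.homTo μ).resSub D).C i := rfl

lemma inv_resSub_φ_apply (D : T.SubgroupFamily) {i j : T.ι} (h : i ≤ j) (y : A.C j) :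
    (inv ((A.resSub D).φ (i := i) (j := j) h)).hom y = (inv (A.φ h)).hom y := by
  apply A.φ_injective h
  rw [A.φ_inv_φ]
  exact (A.resSub D).φ_inv_φ (i := i) (j := j) h y

/-- `(A.homTo μ)|_D → (A|_D).homTo (μ|_D)`, the identity at each level -/
def homToResSub (D : T.SubgroupFamily) :
    ((A.homTo μ).resSub D).Hom ((A.resSub D).homTo (μ.resSub D)) :=
  Hom.mk' (fun i => 𝟙 (((A.homTo μ).resSub D).C i))
    (fun {i j} h (u : (A.C i).V →ₗ[k] (μ.C i).V) => by
      apply LinearMap.ext
      intro y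
      change (μ.φ h).hom (u ((inv (A.φ h)).hom y)) =
        (μ.φ h).hom (u ((inv ((A.resSub D).φ (i := i) (j := j) h)).hom y))
      rw [inv_resSub_φ_apply])

/-- `(A|_D).homTo (μ|_D) → (A.homTo μ)|_D`, the identity at each level -/
def homToResSubInv (D : T.SubgroupFamily) :
    ((A.resSub D).homTo (μ.resSub D)).Hom ((A.homTo μ).resSub D) :=
  Hom.mk' (fun i => 𝟙 (((A.homTo μ).resSub D).C i))
    (fun {i j} h (u : (A.C i).V →ₗ[k] (μ.C i).V) => by
      apply LinearMap.ext
      intro y
      change (μ.φ h).hom (u ((inv ((A.resSub D).φ (i := i) (j := j) h)).hom y)) =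
        (μ.φ h).hom (u ((inv (A.φ h)).hom y))
      rw [inv_resSub_φ_apply])

/-- `homTo` commutes with `resSub` -/
def homToResSubIso (D : T.SubgroupFamily) :
    ((A.homTo μ).resSub D).Iso ((A.resSub D).homTo (μ.resSub D)) where
  hom := homToResSub A μ D
  inv := homToResSubInv A μ D
  hom_inv_id _ := Category.id_comp _
  inv_hom_id _ := Category.id_comp _

@[simp] lemma homToResSub_f_apply (D : T.SubgroupFamily) (i : T.ι)
    (u : (A.C i).V →ₗ[k] (μ.C i).V) : ((homToResSub A μ D).f i).hom u = u := rfl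

@[simp] lemma homToResSubInv_f_apply (D : T.SubgroupFamily) (i : T.ι)
    (u : (A.C i).V →ₗ[k] (μ.C i).V) : ((homToResSubInv A μ D).f i).hom u = u := rfl

/-- `homToResSub` is natural in the second variable -/
lemma homToResSub_naturality {μ' : TowerModule k T} (f : μ.Hom μ') (D : T.SubgroupFamily) :
    ((homToMap A f).resSub D).comp (homToResSub A μ' D) =
      (homToResSub A μ D).comp (homToMap (A.resSub D) (f.resSub D)) := by
  refine Hom.ext' (fun i => ?_)
  apply Rep.hom_ext
  refine DFunLike.ext _ _ (fun (u : (A.C i).V →ₗ[k] (μ.C i).V) => ?_)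
  rfl

/-- `homTo` commutes with `filter` for morphisms in the second variable -/
lemma homToMap_filter {μ' : TowerModule k T} (f : μ.Hom μ') (P : T.ι → Prop) (hne : ∃ i, P i)
    (hdir : ∀ i j, P i → P j → ∃ l, P l ∧ i ≤ l ∧ j ≤ l) :
    homToMap (A.filter P hne hdir) (f.filter P hne hdir) =
      (homToMap A f).filter P hne hdir := rfl

instance (D : T.SubgroupFamily) (i : T.ι) : IsIso ((homToResSub A μ D).f i) :=
  show IsIso (𝟙 (((A.homTo μ).resSub D).C i)) from inferInstance

/-- the local Kummer morphism `Hom(A, μ)|_D → Hom(A|_D, Lq)`, `v ↦ κloc ∘ v` -/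
def kummerLocHom (D : T.SubgroupFamily) {Lq : TowerModule k (T.subTower D)}
    (κloc : (μ.resSub D).Hom Lq) : ((A.homTo μ).resSub D).Hom ((A.resSub D).homTo Lq) :=
  (homToResSub A μ D).comp (homToMap (A.resSub D) κloc)

lemma kummerLocHom_apply (D : T.SubgroupFamily) {Lq : TowerModule k (T.subTower D)}
    (κloc : (μ.resSub D).Hom Lq) (i : T.ι) (v : (A.C i).V →ₗ[k] (μ.C i).V) (x : (A.C i).V) :
    (show (A.C i).V →ₗ[k] (Lq.C i).V from ((kummerLocHom A μ D κloc).f i).hom v) x =
      (κloc.f i).hom (v x) := rfl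

/-- the local Kummer morphism induces bijections on cohomology in the limit -/
theorem mapRight_kummerLocHom_bijective (D : T.SubgroupFamily)
    {Lq : TowerModule k (T.subTower D)} (κloc : (μ.resSub D).Hom Lq) (p : ℕ)
    (hA : ∀ j (a : A.C j), p • a = 0) (hinj : ∀ j, Function.Injective (κloc.f j).hom)
    (hsurj : ∀ j (e : Lq.C j), p • e = 0 → ∃ m : (μ.resSub D).C j, (κloc.f j).hom m = e)
    (r : ℕ) :
    Function.Bijective
      (ExtLim.mapRight (triv k (T.subTower D)) (kummerLocHom A μ D κloc) r) := by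
  have h1 := ExtLim.mapRight_bijective_of_isIso (triv k (T.subTower D)) (homToResSub A μ D) r
  have h2 := mapRight_homToMap_bijective (A.resSub D) κloc p (fun j a => hA j a) hinj hsurj r
  have h3 : ⇑(ExtLim.mapRight (triv k (T.subTower D)) (kummerLocHom A μ D κloc) r) =
      ⇑(ExtLim.mapRight (triv k (T.subTower D)) (homToMap (A.resSub D) κloc) r) ∘
        ⇑(ExtLim.mapRight (triv k (T.subTower D)) (homToResSub A μ D) r) := by
    funext x
    exact ExtLim.mapRight_comp (triv k (T.subTower D)) _ _ r x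
  rw [h3]
  exact h2.comp h1

/-- the global Kummer morphism `Hom(A, μ)|_P → Hom(A|_P, E)`, `v ↦ κ ∘ v` -/
def kummerGlobHom (P : T.ι → Prop) (hne : ∃ i, P i)
    (hdir : ∀ i j, P i → P j → ∃ l, P l ∧ i ≤ l ∧ j ≤ l)
    {E : TowerModule k (T.filter P hne hdir)} (κ : (μ.filter P hne hdir).Hom E) :
    ((A.homTo μ).filter P hne hdir).Hom ((A.filter P hne hdir).homTo E) :=
  homToMap (A.filter P hne hdir) κ

lemma kummerGlobHom_apply (P : T.ι → Prop) (hne : ∃ i, P i)
    (hdir : ∀ i j, P i → P j → ∃ l, P l ∧ i ≤ l ∧ j ≤ l)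
    {E : TowerModule k (T.filter P hne hdir)} (κ : (μ.filter P hne hdir).Hom E)
    (i : (T.filter P hne hdir).ι) (v : (A.C i.1).V →ₗ[k] (μ.C i.1).V) (x : (A.C i.1).V) :
    (show (A.C i.1).V →ₗ[k] (E.C i).V from ((kummerGlobHom A μ P hne hdir κ).f i).hom v) x =
      (κ.f i).hom (v x) := rfl

/-- the global Kummer morphism induces bijections on cohomology in the limit -/
theorem mapRight_kummerGlobHom_bijective (P : T.ι → Prop) (hne : ∃ i, P i)
    (hdir : ∀ i j, P i → P j → ∃ l, P l ∧ i ≤ l ∧ j ≤ l)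
    {E : TowerModule k (T.filter P hne hdir)} (κ : (μ.filter P hne hdir).Hom E) (p : ℕ)
    (hA : ∀ j (a : A.C j), p • a = 0) (hinj : ∀ j, Function.Injective (κ.f j).hom)
    (hsurj : ∀ j (e : E.C j), p • e = 0 → ∃ m : (μ.filter P hne hdir).C j, (κ.f j).hom m = e)
    (r : ℕ) :
    Function.Bijective
      (ExtLim.mapRight (triv k (T.filter P hne hdir)) (kummerGlobHom A μ P hne hdir κ) r) :=
  mapRight_homToMap_bijective (A.filter P hne hdir) κ p (fun j a => hA j.1 a) hinj hsurj r

end Compare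

end TowerModule

/-- a representation with finite underlying type is a finite module (stated for a generic ring
to avoid the `Module ℤ` diamond) -/
lemma rep_moduleFinite {k : Type} [CommRing k] {G : Type} [Group G] (X : Rep.{0} k G)
    (h : Finite X.V) : Module.Finite k X.V := Module.Finite.of_finite

/-! ### The Kummer comparison for a `PTData` -/

namespace PTData

open TowerModule

variable {p : ℕ} [Fact p.Prime] {S : Finset Nat.Primes} {L₀ : Level} {h₀ : L₀.IsS S}
  (d : PTData p S L₀ h₀)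

lemma E_isPDiv : d.E.IsPDiv p := d.E_pdiv

lemma Lq_isPDiv (q : ↥S) : (d.Lq q).IsPDiv p := d.L_pdiv q

/-- `μ` over the `S`-levels -/
abbrev μS : TowerModule ℤ (towerS S L₀ h₀) :=
  d.μ.filter (isSPred S L₀) (isSPred_nonempty h₀) (isSPred_directed S L₀)

/-- `μ` over the local tower at `q` -/
abbrev μLoc (q : ↥S) : TowerModule ℤ (towerLoc q.1 L₀) := d.μ.resSub (decompFamily q.1 L₀)

section Global

variable (A : TowerModule ℤ (towerS S L₀ h₀)) [A.IsCartesian]
  (hA : ∀ j (a : A.C j), p • a = 0)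

/-- `H^r(G_S, Hom(A, μ)) ≃ H^r(G_S, Hom(A, E))` in the limit -/
def kappaEquiv (r : ℕ) : HLim (A.homTo d.μS) r ≃+ HLim (A.homTo d.E) r :=
  AddEquiv.ofBijective (ExtLim.mapRight (triv ℤ (towerS S L₀ h₀)) (homToMap A d.κ) r)
    (mapRight_homToMap_bijective A d.κ p hA d.κ_injective d.κ_surjective r)

@[simp] lemma kappaEquiv_apply (r : ℕ) (x : HLim (A.homTo d.μS) r) :
    d.kappaEquiv A hA r x =
      ExtLim.mapRight (triv ℤ (towerS S L₀ h₀)) (homToMap A d.κ) r x := rfl

variable (hfin : ∀ j, Finite (A.C j))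

/-- **global Kummer comparison** `ExtLim A E 1 ≃ H¹(G_S, Hom(A, μ))` -/
def thetaE1 : ExtLim A d.E 1 ≃+ HLim (A.homTo d.μS) 1 :=
  (theta1Lim A d.E p (fun j => rep_moduleFinite (A.C j) (hfin j)) hA d.E_isPDiv).trans
    (d.kappaEquiv A hA 1).symm

/-- **global Kummer comparison** `ExtLim A E 2 ≃ H²(G_S, Hom(A, μ))` -/
def thetaE2 : ExtLim A d.E 2 ≃+ HLim (A.homTo d.μS) 2 :=
  (theta2Lim A d.E p (fun j => rep_moduleFinite (A.C j) (hfin j)) hA d.E_isPDiv).trans
    (d.kappaEquiv A hA 2).symm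

lemma kappaEquiv_thetaE2 (x : ExtLim A d.E 2) :
    d.kappaEquiv A hA 2 (d.thetaE2 A hA hfin x) =
      theta2Lim A d.E p (fun j => rep_moduleFinite (A.C j) (hfin j)) hA d.E_isPDiv x :=
  (d.kappaEquiv A hA 2).apply_symm_apply _

end Global

section Local

variable (q : ↥S) (A : TowerModule ℤ (towerLoc q.1 L₀)) [A.IsCartesian]
  (hA : ∀ j (a : A.C j), p • a = 0)

/-- `H^r(G_q, Hom(A, μ)) ≃ H^r(G_q, Hom(A, L_q^×))` in the limit -/
def kappaLocEquiv (r : ℕ) : HLim (A.homTo (d.μLoc q)) r ≃+ HLim (A.homTo (d.Lq q)) r :=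
  AddEquiv.ofBijective (ExtLim.mapRight (triv ℤ (towerLoc q.1 L₀)) (homToMap A (d.κloc q)) r)
    (mapRight_homToMap_bijective A (d.κloc q) p hA (d.κloc_injective q) (d.κloc_surjective q) r)

@[simp] lemma kappaLocEquiv_apply (r : ℕ) (x : HLim (A.homTo (d.μLoc q)) r) :
    d.kappaLocEquiv q A hA r x =
      ExtLim.mapRight (triv ℤ (towerLoc q.1 L₀)) (homToMap A (d.κloc q)) r x := rfl

variable (hfin : ∀ j, Finite (A.C j))

/-- **local Kummer comparison** `ExtLim A L_q^× 2 ≃ H²(G_q, Hom(A, μ))` -/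
def thetaLq2 : ExtLim A (d.Lq q) 2 ≃+ HLim (A.homTo (d.μLoc q)) 2 :=
  (theta2Lim A (d.Lq q) p (fun j => rep_moduleFinite (A.C j) (hfin j)) hA
    (d.Lq_isPDiv q)).trans (d.kappaLocEquiv q A hA 2).symm

/-- **local Kummer comparison** `ExtLim A L_q^× 1 ≃ H¹(G_q, Hom(A, μ))` -/
def thetaLq1 : ExtLim A (d.Lq q) 1 ≃+ HLim (A.homTo (d.μLoc q)) 1 :=
  (theta1Lim A (d.Lq q) p (fun j => rep_moduleFinite (A.C j) (hfin j)) hA
    (d.Lq_isPDiv q)).trans (d.kappaLocEquiv q A hA 1).symm

end Local

end PTData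

end

end Fermat.Agent.CFT.Duality
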