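import Fermat.Agent.Lib.CFT.Duality.StepD
import Fermat.Agent.Lib.CFT.Duality.KummerIso
import Fermat.Agent.Lib.CFT.Duality.JShapiroPull
import Fermat.Agent.Lib.CFT.Duality.LocInj

/-!
# P4 / Layer D (D-STEPD, part 2): Step D for a `PTData`

`d.kTheta A : ExtLim A_S E 2 ≃+ HLim ((A.homTo μ).filter P) 2` identifies
`K₂ = ⨅_q ker (ExtLim A_S E 2 → ExtLim A_S J_q 2)` with `Ш²_S(Hom(A, μ))`.
-/

set_option autoImplicit false
set_option linter.unusedSectionVars false

open CategoryTheory Abelian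

namespace Fermat.Agent.CFT.Duality

noncomputable section

open TowerModule

variable {p : ℕ} [hp : Fact p.Prime] {S : Finset Nat.Primes} {L₀ : Level} {h₀ : L₀.IsS S}
  (d : PTData p S L₀ h₀) (A : TowerModule ℤ (levelTower L₀)) [A.IsCartesian]
  (hfin : ∀ j, Finite (A.C j)) (hA : ∀ j (x : A.C j), p • x = 0)

namespace PTData

/-- The Kummer comparison `ExtLim A_S E 2 ≃ H²(G_S, Hom(A, μ))`. -/
def kTheta : ExtLim (A.filter (isSPred S L₀) (isSPred_nonempty h₀) (isSPred_directed S L₀)) d.E 2 ≃+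
    HLim ((A.homTo d.μ).filter (isSPred S L₀) (isSPred_nonempty h₀) (isSPred_directed S L₀)) 2 :=
  kummerTheta (isSPred S L₀) (isSPred_nonempty h₀) (isSPred_directed S L₀) A d.μ d.E d.κ p
    (fun j => rep_moduleFinite (A.C j) (hfin j)) hA d.E_pdiv
    (mapRight_kummerGlobHom_bijective A d.μ (isSPred S L₀) (isSPred_nonempty h₀)
      (isSPred_directed S L₀) d.κ p hA d.κ_injective d.κ_surjective 2)

/-- **Step D**: `z ∈ ExtLim A_S E 2` dies in `ExtLim A_S J_q 2` iff its Kummer image is locally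
trivial at `q`. -/
theorem mapRight_eJ_eq_zero_iff (q : ↥S)
    (hα2 : Function.Injective ((d.cfLoc q).limFormation.alpha
      ((A.resSub (decompFamily q.1 L₀)).filter (isSPred S L₀) (isSPred_nonempty h₀)
        (isSPred_directed S L₀)) 2 0 rfl))
    (z : ExtLim (A.filter (isSPred S L₀) (isSPred_nonempty h₀) (isSPred_directed S L₀)) d.E 2) :
    ExtLim.mapRight (A.filter (isSPred S L₀) (isSPred_nonempty h₀) (isSPred_directed S L₀))
        (d.eJ q) 2 z = 0 ↔
      locLimAt (isSPred S L₀) (isSPred_nonempty h₀) (isSPred_directed S L₀)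
        (decompFamily q.1 L₀) (A.homTo d.μ) 2 (d.kTheta A hfin hA z) = 0 := by
  have hinj := filterMap_two_injective (T := towerLoc q.1 L₀) (isSPred S L₀) (isSPred_nonempty h₀)
    (isSPred_directed S L₀) (d.Lq q) (d.cfLoc q).limFormation (d.loc_infl_injective q)
    (A.resSub (decompFamily q.1 L₀)) (fun j a => hA j a) hα2
  rw [← (d.jSh q A 2).map_eq_zero_iff, ← map_eq_zero_iff _ hinj, filterMap_jSh_mapRight_eJ]
  exact pull_eq_zero_iff_locLimAt_kummerTheta (isSPred S L₀) (isSPred_nonempty h₀)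
    (isSPred_directed S L₀) (decompFamily q.1 L₀) A d.μ d.E (d.Lq q) d.κ (d.κloc q)
    ((d.prAlong q).precomp (d.eJ q)) (fun i m => d.κ_compat q i m)
    (kummerLocHom A d.μ (decompFamily q.1 L₀) (d.κloc q))
    (fun i v x => kummerLocHom_apply A d.μ (decompFamily q.1 L₀) (d.κloc q) i v x) p
    (fun j => rep_moduleFinite (A.C j) (hfin j)) hA d.E_pdiv (d.L_pdiv q) _
    (mapRight_kummerLocHom_bijective A d.μ (decompFamily q.1 L₀) (d.κloc q) p hA
      (d.κloc_injective q) (d.κloc_surjective q) 2).1 z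

variable (hα2 : ∀ q : ↥S, Function.Injective ((d.cfLoc q).limFormation.alpha
      ((A.resSub (decompFamily q.1 L₀)).filter (isSPred S L₀) (isSPred_nonempty h₀)
        (isSPred_directed S L₀)) 2 0 rfl))

/-- `K₂ = ⨅_q ker (ExtLim A_S E 2 → ExtLim A_S J_q 2)`. -/
def K2 : AddSubgroup
    (ExtLim (A.filter (isSPred S L₀) (isSPred_nonempty h₀) (isSPred_directed S L₀)) d.E 2) :=
  ⨅ q : ↥S, (ExtLim.mapRight
    (A.filter (isSPred S L₀) (isSPred_nonempty h₀) (isSPred_directed S L₀)) (d.eJ q) 2).ker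

include hα2 in
theorem kTheta_mem_shaLim_iff
    (z : ExtLim (A.filter (isSPred S L₀) (isSPred_nonempty h₀) (isSPred_directed S L₀)) d.E 2) :
    z ∈ d.K2 A ↔ d.kTheta A hfin hA z ∈ ShaLim (isSPred S L₀) (isSPred_nonempty h₀)
      (isSPred_directed S L₀) (fun q : ↥S => decompFamily q.1 L₀) (A.homTo d.μ) 2 := by
  unfold K2 ShaLim
  simp only [AddSubgroup.mem_iInf, AddMonoidHom.mem_ker]
  exact forall_congr' fun q => d.mapRight_eJ_eq_zero_iff A hfin hA q (hα2 q) z

/-- `K₂ ≃ Ш²_S(Hom(A, μ))`. -/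
def K2EquivSha : d.K2 A ≃ ShaLim (isSPred S L₀) (isSPred_nonempty h₀)
    (isSPred_directed S L₀) (fun q : ↥S => decompFamily q.1 L₀) (A.homTo d.μ) 2 :=
  (d.kTheta A hfin hA).toEquiv.subtypeEquiv (fun z => d.kTheta_mem_shaLim_iff A hfin hA hα2 z)

end PTData

end

end Fermat.Agent.CFT.Duality
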