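import Fermat.Agent.Lib.CFT.Duality.D2Inputs
import Fermat.Agent.Lib.CFT.Duality.StepC
import Fermat.Agent.Lib.CFT.Duality.StepDFinal
import Fermat.Agent.Lib.CFT.Duality.Assembly

/-!
# P4 / Layer D, D-D2 : abstract Poitou–Tate for a `PTData`

`PTData.shaCard_eq d : ShaCardStatement d` : for every finite `p`-torsion cartesian tower module `A`
over the levels above `L₀`, `Ш¹_S(A)` and `Ш²_S(Hom(A, μ_p))` are finite of the same cardinality.

Assembly of Step C (`card_kerEJ_eq_card_shaLim_one`, helper1), Step D (`K2EquivSha`, lead) and the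
duality theorem D1 (`D2Inputs.lean`).
-/

set_option autoImplicit false
set_option linter.unusedSectionVars false

open CategoryTheory ExtCitation Fermat.Agent.CFT.Pinf

namespace Fermat.Agent.CFT.Duality

noncomputable section

open TowerModule

variable {p : ℕ} [hp : Fact p.Prime] {S : Finset Nat.Primes} {L₀ : Level} {h₀ : L₀.IsS S}

/-- **Abstract Poitou–Tate** (Milne ADT I.4.10, Sha part) for the class field theory data `d`. -/
theorem PTData.shaCard_eq (d : PTData p S L₀ h₀) : ShaCardStatement d := by
  intro A _ hfin hA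
  obtain ⟨hK, hS1, hcard⟩ := d.card_kerEJ_eq_card_shaLim_one A hA
    (d.alpha1_global_bijective A hfin hA) (d.finite_hlim_one_global A hfin hA)
    (fun q => d.alpha1_local_surjective A hfin hA q)
  let e := d.K2EquivSha A hfin hA (fun q => (d.alpha2_local_bijective A hfin hA q).1)
  have : Finite (d.K2 A) := hK
  refine ⟨hS1, Finite.of_equiv _ e, ?_⟩
  rw [← hcard]
  exact Nat.card_congr e

/-- **Contract D → E**: `PoitouTateStatement p S M` for every finite `M` trivial on some `S`-level,
given the class field theory data over every `S`-level containing `μ_p`. -/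
theorem poitouTateStatement_of_ptData (hpS : pPrime p ∈ S)
    (hd : ∀ (L₀ : Level) (h₀ : L₀.IsS S), (∀ s ∈ L₀.N, cycloChar p s = 1) →
      Nonempty (PTData p S L₀ h₀))
    (M : Rep.{0} (ZMod p) GQ) [FiniteDimensional (ZMod p) M.V] (L₁ : Level) (h₁ : L₁.IsS S)
    (hM₁ : TrivialOn M L₁) : PoitouTateStatement p S M :=
  poitouTateStatement_of_shaCard hpS
    (fun L₀ h₀ hχ => let ⟨d⟩ := hd L₀ h₀ hχ; ⟨d, d.shaCard_eq⟩) M L₁ h₁ hM₁

end

end Fermat.Agent.CFT.Duality
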