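import Fermat.Agent.Lib.CFT.Duality.InvOfFundamental
import Fermat.Agent.Lib.CFT.Duality.InvLim
import Fermat.Agent.Lib.CFT.Coh.ShapiroDec
import Fermat.Agent.Lib.CFT.Duality.LevelTower

/-!
# P4 / C5-LOC (abstract part): renormalised local fundamental classes and `inv_compat`

Setting: a tower `T`, a directed set of levels `P`, a family of subgroups `D` (decomposition groups);
`T.filter P` is the global tower, `(T.subTower D).filter P` the local one.  `C`, `J` global tower
modules with `jC : J → C`, `Lq` a local tower module and `pr_L : J_L|_{D_L} → Lq_L` identifying `J_L`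
with `coind_{D_L}^{G_L} Lq_L` (the `PTData` fields `pr`, `pr_comm`, `pr_injective`, `pr_surjective`).

Input: global fundamental `p`-classes `F : PFundamental p (T.filter P) C`, local ones
`FL : PFundamental p ((T.subTower D).filter P) Lq` (any normalisation) and the arithmetic hypothesis
`hINJ`: `jC_*` is injective on the `p`-torsion of `H²(G_L, J_L)`.

Output: `PFundamental.renorm … : PFundamental p ((T.subTower D).filter P) Lq` whose classes are
`u'_L = Sh_L(z_L)`, where `z_L ∈ H²(G_L, J_L)` is the unique `p`-power torsion class with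
`jC_* z_L = [G_L : D_L] • u_L` and `Sh_L = pr_* ∘ res_{D_L}`; and `PFundamental.renorm_inv_compat`:
the `PTData` field `inv_compat` holds for `cf := F.toPClassFormation`,
`cfLoc := (PFundamental.renorm …).toPClassFormation`.

Finite level: `exists_fundLift`, `fundLift`, `eq_fundLift`, `locFund`, `addOrderOf_locFund`,
`invTopOf`, `invTopOf_jCH_eq`; abstract: `eq_zero_of_ptorsion_inj`, `addOrderOf_map_of_ptorsion_inj`,
`mem_zmultiples_of_addOrderOf_eq`.
-/

set_option autoImplicit false
set_option linter.unusedSectionVars false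
set_option linter.style.haveILetI false

open CategoryTheory

namespace Fermat.Agent.CFT.Duality

noncomputable section

/-! ### Abstract lemmas on `p`-primary cyclic groups -/

section Cyclic

variable {X Y : Type*} [AddCommGroup X] [AddCommGroup Y] (p : ℕ)

/-- a homomorphism which is injective on `p`-torsion is injective on `p`-power torsion -/
theorem eq_zero_of_ptorsion_inj (f : X →+ Y) (hf : ∀ x : X, p • x = 0 → f x = 0 → x = 0)
    (k : ℕ) (x : X) (hx : p ^ k • x = 0) (hfx : f x = 0) : x = 0 := by
  induction k generalizing x with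
  | zero => simpa using hx
  | succ k ih =>
    apply hf x _ hfx
    apply ih (p • x)
    · rw [← mul_smul, ← pow_succ]
      exact hx
    · rw [map_nsmul, hfx, smul_zero]

/-- a homomorphism which is injective on `p`-torsion preserves the order of `p`-power torsion
elements -/
theorem addOrderOf_map_of_ptorsion_inj (f : X →+ Y)
    (hf : ∀ x : X, p • x = 0 → f x = 0 → x = 0) (k : ℕ) (x : X) (hx : p ^ k • x = 0) :
    addOrderOf (f x) = addOrderOf x := by
  apply Nat.dvd_antisymm
  · apply addOrderOf_dvd_of_nsmul_eq_zero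
    rw [← map_nsmul, addOrderOf_nsmul_eq_zero, map_zero]
  · apply addOrderOf_dvd_of_nsmul_eq_zero
    apply eq_zero_of_ptorsion_inj p f hf k
    · rw [smul_comm, hx, smul_zero]
    · rw [map_nsmul, addOrderOf_nsmul_eq_zero]

/-- in a cyclic group, the elements killed by `p ^ d` are multiples of any element of order
exactly `p ^ d` -/
theorem mem_zmultiples_of_addOrderOf_eq [hp : Fact p.Prime] (d : ℕ) (u a b : Y)
    (hu : IsOfFinAddOrder u)
    (ha : a ∈ AddSubgroup.zmultiples u) (hb : b ∈ AddSubgroup.zmultiples u)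
    (hoa : addOrderOf a = p ^ d) (hb' : p ^ d • b = 0) : b ∈ AddSubgroup.zmultiples a := by
  classical
  haveI : Finite (AddSubgroup.zmultiples u) := (finite_zmultiples.2 hu).to_subtype
  haveI : Fintype (AddSubgroup.zmultiples u) := Fintype.ofFinite _
  set a' : AddSubgroup.zmultiples u := ⟨a, ha⟩ with ha'
  set b' : AddSubgroup.zmultiples u := ⟨b, hb⟩ with hb''
  have hpos : 0 < p ^ d := pow_pos hp.out.pos d
  have hcard := IsAddCyclic.card_nsmul_eq_zero_le (α := AddSubgroup.zmultiples u) hpos
  have hoa' : addOrderOf a' = p ^ d := by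
    rw [← hoa]
    exact (AddSubgroup.addOrderOf_coe a').symm
  have hfin : Finite (AddSubgroup.zmultiples a') := inferInstance
  haveI : Fintype (AddSubgroup.zmultiples a') := Fintype.ofFinite _
  have hsub : (AddSubgroup.zmultiples a' : Set (AddSubgroup.zmultiples u)).toFinset ⊆
      Finset.univ.filter (fun z : AddSubgroup.zmultiples u => p ^ d • z = 0) := by
    intro z hz
    rw [Set.mem_toFinset] at hz
    rw [Finset.mem_filter]
    refine ⟨Finset.mem_univ _, ?_⟩
    obtain ⟨m, rfl⟩ := AddSubgroup.mem_zmultiples_iff.1 hz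
    rw [smul_comm, ← hoa', addOrderOf_nsmul_eq_zero, smul_zero]
  have hTcard : (AddSubgroup.zmultiples a' : Set (AddSubgroup.zmultiples u)).toFinset.card =
      p ^ d := by
    rw [Set.toFinset_card, ← Nat.card_eq_fintype_card]
    exact (Nat.card_zmultiples a').trans hoa'
  have heq := Finset.eq_of_subset_of_card_le hsub (hcard.trans hTcard.ge)
  have hbmem : b' ∈ Finset.univ.filter (fun z : AddSubgroup.zmultiples u => p ^ d • z = 0) := by
    rw [Finset.mem_filter]
    exact ⟨Finset.mem_univ _, Subtype.ext hb'⟩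
  rw [← heq, Set.mem_toFinset] at hbmem
  obtain ⟨m, hm⟩ := AddSubgroup.mem_zmultiples_iff.1 hbmem
  refine AddSubgroup.mem_zmultiples_iff.2 ⟨m, ?_⟩
  have := congrArg Subtype.val hm
  simpa using this

end Cyclic

/-! ### One finite level -/

section Level

open groupCohomology Fermat.Agent.CFT.Coh Rep

variable {k G : Type} [CommRing k] [Group G] [Finite G] (A : Rep.{0} k G) (p : ℕ)
  [hp : Fact p.Prime]

/-- restriction to the top subgroup, as an additive map -/
def resTopHom (n : ℕ) : groupCohomology A n →+ groupCohomology (res (⊤ : Subgroup G).subtype A) n :=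
  (map (⊤ : Subgroup G).subtype (𝟙 (res (⊤ : Subgroup G).subtype A)) n).hom.toAddMonoidHom

theorem resTopHom_bijective (n : ℕ) : Function.Bijective (resTopHom A n) :=
  res_top_bijective A n

theorem resTopHom_eq_resClass (u : groupCohomology A 2) : resTopHom A 2 u = resClass A u ⊤ := rfl

variable (u : groupCohomology A 2) (hu : addOrderOf u = p ^ (Nat.card G).factorization p)
  (h2P : ∀ P : Subgroup G, IsPGroup p P →
    Finite (groupCohomology (res P.subtype A) 2) ∧
      Nat.card (groupCohomology (res P.subtype A) 2) ≤ Nat.card P)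

/-- the invariant map on `H²(G, A)` attached to a fundamental `p`-class -/
def invTopOf : groupCohomology A 2 →+ AddCircle (1 : ℚ) :=
  (invOf A p u hu h2P ⊤).comp (resTopHom A 2)

theorem invTopOf_self : invTopOf A p u hu h2P u = pPart p (Nat.card G) := by
  change invOf A p u hu h2P ⊤ (resClass A u ⊤) = _
  rw [invOf_resClass, Subgroup.card_top]

include hu h2P in
/-- the `p`-power torsion of `H²(G, A)` is generated by the fundamental class -/
theorem exists_zsmul_fund (x : groupCohomology A 2) (j : ℕ) (hx : p ^ j • x = 0) :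
    ∃ m : ℤ, x = m • u := by
  have hG0 : Nat.card G ≠ 0 := Nat.card_pos.ne'
  -- `x` is killed by `|G|` and by `p ^ j`, hence by `|G|_p`
  have h1 : Nat.card G • x = 0 := by
    have := card_nsmul_cohomology_eq_zero A ⊤ 1 (resTopHom A 2 x)
    rw [Subgroup.card_top, ← map_nsmul] at this
    exact (resTopHom_bijective A 2).1 (this.trans (map_zero _).symm)
  have h2 : p ^ (Nat.card G).factorization p • x = 0 := by
    have hdvd : addOrderOf x ∣ p ^ (Nat.card G).factorization p := by
      have ha := addOrderOf_dvd_of_nsmul_eq_zero h1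
      have hb := addOrderOf_dvd_of_nsmul_eq_zero hx
      obtain ⟨e, -, he⟩ := (Nat.dvd_prime_pow hp.out).1 hb
      rw [he] at ha ⊢
      exact pow_dvd_pow p ((Nat.Prime.pow_dvd_iff_le_factorization hp.out hG0).1 ha)
    obtain ⟨c, hc⟩ := hdvd
    rw [hc, mul_comm, mul_smul, addOrderOf_nsmul_eq_zero, smul_zero]
  have h3 : p ^ (Nat.card (⊤ : Subgroup G)).factorization p • resTopHom A 2 x = 0 := by
    rw [Subgroup.card_top, ← map_nsmul, h2, map_zero]
  obtain ⟨m, hm⟩ := exists_zsmul_resClass A p u hu h2P ⊤ (resTopHom A 2 x) h3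
  refine ⟨m, (resTopHom_bijective A 2).1 ?_⟩
  rw [hm, map_zsmul]
  rfl

include hu h2P in
/-- the invariant map is injective on `p`-power torsion -/
theorem invTopOf_injective (x : groupCohomology A 2) (j : ℕ) (hx : p ^ j • x = 0)
    (h : invTopOf A p u hu h2P x = 0) : x = 0 := by
  refine eq_zero_of_ptorsion_inj p (invTopOf A p u hu h2P) (fun y hy hy0 => ?_) j x hx h
  apply (resTopHom_bijective A 2).1
  rw [map_zero]
  exact invOf_injective A p u hu h2P ⊤ (resTopHom A 2 y) (by rw [← map_nsmul, hy, map_zero]) hy0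

end Level

/-! ### A subgroup `D ≤ G`, a `G`-module `J ≅ coind_D^G Lq` mapping to `C` -/

section Shapiro

open groupCohomology Fermat.Agent.CFT.Coh Rep

variable {k G : Type} [CommRing k] [Group G] [Finite G] (D : Subgroup G) (C J : Rep.{0} k G)
  (Lq : Rep.{0} k D) (jC : J ⟶ C) (pr : Rep.res D.subtype J ⟶ Lq) (p : ℕ) [hp : Fact p.Prime]

/-- `jC_* : H²(G, J) → H²(G, C)` -/
def jCH : groupCohomology J 2 →+ groupCohomology C 2 :=
  (map (MonoidHom.id G) jC 2).hom.toAddMonoidHom

/-- the Shapiro map `pr_* ∘ res_D : H²(G, J) → H²(D, Lq)` -/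
def shH : groupCohomology J 2 →+ groupCohomology Lq 2 :=
  (map D.subtype pr 2).hom.toAddMonoidHom

variable (hSh : Function.Bijective (shH D J Lq pr))
  (u : groupCohomology C 2) (hu : addOrderOf u = p ^ (Nat.card G).factorization p)
  (h2P : ∀ P : Subgroup G, IsPGroup p P →
    Finite (groupCohomology (res P.subtype C) 2) ∧
      Nat.card (groupCohomology (res P.subtype C) 2) ≤ Nat.card P)
  (v : groupCohomology Lq 2) (hv : addOrderOf v = p ^ (Nat.card D).factorization p)
  (hINJ : ∀ z : groupCohomology J 2, p • z = 0 → jCH C J jC z = 0 → z = 0)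

omit [Finite G] in
lemma pow_factorization_card_dvd_mul_index [Finite G] :
    p ^ (Nat.card G).factorization p ∣ p ^ (Nat.card D).factorization p * D.index := by
  have h1 : D.index * Nat.card D = Nat.card G := D.index_mul_card
  have hD0 : Nat.card D ≠ 0 := Nat.card_pos.ne'
  have hi0 : D.index ≠ 0 := D.index_ne_zero_of_finite
  rw [← h1, Nat.factorization_mul hi0 hD0, Finsupp.add_apply, pow_add, mul_comm]
  exact Nat.mul_dvd_mul_left _ (Nat.ordProj_dvd D.index p)

include hSh hu h2P hv hINJ in
/-- **existence of the lift of `[G : D] • u`** to a `p`-power torsion class of `H²(G, J)` -/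
theorem exists_fundLift : ∃ z₀ : groupCohomology J 2,
    p ^ (Nat.card D).factorization p • z₀ = 0 ∧ jCH C J jC z₀ = D.index • u := by
  set d := (Nat.card D).factorization p with hd
  obtain ⟨w, hw⟩ := hSh.2 v
  have hw0 : p ^ d • w = 0 := by
    apply hSh.1
    rw [map_nsmul, hw, map_zero, ← hv, addOrderOf_nsmul_eq_zero]
  have how : addOrderOf w = p ^ d := by
    rw [← hv, ← hw]
    exact (addOrderOf_injective (shH D J Lq pr) hSh.1 w).symm
  have hoa : addOrderOf (jCH C J jC w) = p ^ d := by
    rw [addOrderOf_map_of_ptorsion_inj p (jCH C J jC) hINJ d w hw0, how]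
  have ha0 : p ^ d • jCH C J jC w = 0 := by rw [← map_nsmul, hw0, map_zero]
  obtain ⟨m, hm⟩ := exists_zsmul_fund C p u hu h2P (jCH C J jC w) d ha0
  have hufin : IsOfFinAddOrder u := by
    rw [← addOrderOf_pos_iff, hu]
    exact pow_pos hp.out.pos _
  have hb0 : p ^ d • (D.index • u) = 0 := by
    rw [← mul_smul]
    obtain ⟨c, hc⟩ := pow_factorization_card_dvd_mul_index D p
    rw [hc, ← hu, mul_comm, mul_smul, addOrderOf_nsmul_eq_zero, smul_zero]
  have hmem := mem_zmultiples_of_addOrderOf_eq p d u (jCH C J jC w) (D.index • u) hufin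
    (AddSubgroup.mem_zmultiples_iff.2 ⟨m, hm.symm⟩)
    (AddSubgroup.mem_zmultiples_iff.2 ⟨(D.index : ℤ), by rw [natCast_zsmul]⟩) hoa hb0
  obtain ⟨c, hc⟩ := AddSubgroup.mem_zmultiples_iff.1 hmem
  refine ⟨c • w, ?_, ?_⟩
  · rw [smul_comm, hw0, smul_zero]
  · rw [map_zsmul, hc]

/-- the `p`-power torsion class of `H²(G, J)` lifting `[G : D] • u` -/
def fundLift : groupCohomology J 2 :=
  Classical.choose (exists_fundLift D C J Lq jC pr p hSh u hu h2P v hv hINJ)

theorem fundLift_torsion :
    p ^ (Nat.card D).factorization p • fundLift D C J Lq jC pr p hSh u hu h2P v hv hINJ = 0 :=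
  (Classical.choose_spec (exists_fundLift D C J Lq jC pr p hSh u hu h2P v hv hINJ)).1

theorem jCH_fundLift :
    jCH C J jC (fundLift D C J Lq jC pr p hSh u hu h2P v hv hINJ) = D.index • u :=
  (Classical.choose_spec (exists_fundLift D C J Lq jC pr p hSh u hu h2P v hv hINJ)).2

/-- uniqueness of the lift among `p`-power torsion classes -/
theorem eq_fundLift (z : groupCohomology J 2) (j : ℕ) (hz : p ^ j • z = 0)
    (h : jCH C J jC z = D.index • u) :
    z = fundLift D C J Lq jC pr p hSh u hu h2P v hv hINJ := by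
  rw [← sub_eq_zero]
  refine eq_zero_of_ptorsion_inj p (jCH C J jC) hINJ (j + (Nat.card D).factorization p) _ ?_ ?_
  · rw [smul_sub, pow_add, mul_comm, mul_smul, hz, smul_zero, mul_comm, mul_smul,
      fundLift_torsion, smul_zero, sub_zero]
  · rw [map_sub, h, jCH_fundLift, sub_self]

/-- the renormalised local fundamental class `Sh(z₀) ∈ H²(D, Lq)` -/
def locFund : groupCohomology Lq 2 :=
  shH D J Lq pr (fundLift D C J Lq jC pr p hSh u hu h2P v hv hINJ)

omit [Finite G] hp in
theorem addOrderOf_pPart_eq_locFund [hp : Fact p.Prime] {N : ℕ} (hN : N ≠ 0) :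
    addOrderOf (pPart p N) = p ^ N.factorization p := by
  apply Nat.dvd_antisymm
  · exact addOrderOf_dvd_of_nsmul_eq_zero (pow_factorization_nsmul_pPart p N)
  · have h1 : ((addOrderOf (pPart p N) : ℕ) : ℤ) • pPart p N = 0 := by
      rw [natCast_zsmul, addOrderOf_nsmul_eq_zero]
    exact Int.natCast_dvd_natCast.1 (dvd_of_zsmul_pPart_eq_zero p hN _ h1)

theorem addOrderOf_locFund :
    addOrderOf (locFund D C J Lq jC pr p hSh u hu h2P v hv hINJ) =
      p ^ (Nat.card D).factorization p := by
  have hD0 : Nat.card D ≠ 0 := Nat.card_pos.ne'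
  have hi0 : D.index ≠ 0 := D.index_ne_zero_of_finite
  unfold locFund
  rw [addOrderOf_injective (shH D J Lq pr) hSh.1,
    ← addOrderOf_map_of_ptorsion_inj p (jCH C J jC) hINJ _ _
      (fundLift_torsion D C J Lq jC pr p hSh u hu h2P v hv hINJ), jCH_fundLift]
  have h1 : p ^ (Nat.card D).factorization p • (D.index • u) = 0 := by
    rw [← jCH_fundLift D C J Lq jC pr p hSh u hu h2P v hv hINJ, ← map_nsmul, fundLift_torsion,
      map_zero]
  rw [← addOrderOf_map_of_ptorsion_inj p (invTopOf C p u hu h2P)
      (fun y hy hy0 => invTopOf_injective C p u hu h2P y 1 (by rwa [pow_one]) hy0) _ _ h1,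
    map_nsmul, invTopOf_self, ← D.index_mul_card, nsmul_pPart_mul p hi0 hD0,
    addOrderOf_pPart_eq_locFund p hD0]

variable (h2P' : ∀ P : Subgroup D, IsPGroup p P →
    Finite (groupCohomology (res P.subtype Lq) 2) ∧
      Nat.card (groupCohomology (res P.subtype Lq) 2) ≤ Nat.card P)

/-- **`inv_compat` at one level**: the global invariant of `jC_* z` is the local invariant (for the
renormalised local class) of the Shapiro image of `z`, for `p`-power torsion `z`. -/
theorem invTopOf_jCH_eq (z : groupCohomology J 2) (j : ℕ) (hz : p ^ j • z = 0) :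
    invTopOf C p u hu h2P (jCH C J jC z) =
      invTopOf Lq p (locFund D C J Lq jC pr p hSh u hu h2P v hv hINJ)
        (addOrderOf_locFund D C J Lq jC pr p hSh u hu h2P v hv hINJ) h2P' (shH D J Lq pr z) := by
  have hD0 : Nat.card D ≠ 0 := Nat.card_pos.ne'
  have hi0 : D.index ≠ 0 := D.index_ne_zero_of_finite
  have hx : p ^ j • shH D J Lq pr z = 0 := by rw [← map_nsmul, hz, map_zero]
  obtain ⟨m, hm⟩ := exists_zsmul_fund Lq p (locFund D C J Lq jC pr p hSh u hu h2P v hv hINJ)
    (addOrderOf_locFund D C J Lq jC pr p hSh u hu h2P v hv hINJ) h2P' _ j hx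
  have hz' : z = m • fundLift D C J Lq jC pr p hSh u hu h2P v hv hINJ := by
    apply hSh.1
    rw [hm, map_zsmul]
    rfl
  rw [hm, map_zsmul, invTopOf_self, hz', map_zsmul, jCH_fundLift, map_zsmul, map_nsmul,
    invTopOf_self, ← D.index_mul_card, nsmul_pPart_mul p hi0 hD0]

end Shapiro

/-! ### The tower level: renormalised local fundamental classes -/

section TowerLevel

open groupCohomology Fermat.Agent.CFT.Coh Rep TowerModule

/-- `|G'| = |ker π| · |G|` for a surjection `π : G' → G` of finite groups -/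
theorem card_eq_card_ker_mul {G G' : Type} [Group G] [Group G'] [Finite G'] (π : G' →* G)
    (hπ : Function.Surjective π) : Nat.card G' = Nat.card π.ker * Nat.card G := by
  rw [← π.ker.index_mul_card, mul_comm, Subgroup.index_ker, MonoidHom.range_eq_top.2 hπ,
    Subgroup.card_top]

/-- Shapiro in group cohomology, elementary form -/
theorem shH_bijective {k G : Type} [CommRing k] [Group G] [Finite G] (D : Subgroup G)
    (J : Rep.{0} k G) (Lq : Rep.{0} k D) (pr : Rep.res D.subtype J ⟶ Lq)
    (hinj : ∀ y : J, (∀ g : G, pr.hom (J.ρ g y) = 0) → y = 0)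
    (hsurj : ∀ f : G → Lq, (∀ (s : D) (g : G), f ((s : G) * g) = Lq.ρ s (f g)) →
      ∃ y : J, ∀ g : G, pr.hom (J.ρ g y) = f g) :
    Function.Bijective (shH D J Lq pr) := by
  refine Coh.map_bijective_of_bijective_coindAdj D pr ⟨?_, ?_⟩ 2
  · rw [injective_iff_map_eq_zero]
    intro y hy
    refine hinj y (fun g => ?_)
    have := congrArg (fun F => F.1 g) hy
    exact this
  · intro F
    obtain ⟨y, hy⟩ := hsurj F.1 (fun s g => F.2 s g)
    refine ⟨y, ?_⟩
    apply Subtype.ext
    funext g
    exact hy g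

end TowerLevel

section Infl

open groupCohomology Rep TowerModule

variable {k : Type} [CommRing k] {T : Tower} (P : T.ι → Prop) (hne : ∃ i, P i)
  (hdir : ∀ i j, P i → P j → ∃ l, P l ∧ i ≤ l ∧ j ≤ l) (D : T.SubgroupFamily)
  {C J : TowerModule k (T.filter P hne hdir)} (jC : J.Hom C)
  {Lq : TowerModule k ((T.subTower D).filter P hne hdir)}
  (pr : ∀ L : (T.filter P hne hdir).ι, Rep.res (D.D L.1).subtype (J.C L) ⟶ Lq.C L)
  (hpr : ∀ {L L' : (T.filter P hne hdir).ι} (h : L ≤ L') (x : J.C L),
    (pr L').hom ((J.φ h).hom x) = (Lq.φ (i := L) (j := L') h).hom ((pr L).hom x))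

include hpr in
/-- the Shapiro maps commute with inflation -/
theorem map_pr_infl {L L' : (T.filter P hne hdir).ι} (h : L ≤ L') (n : ℕ) :
    map ((T.filter P hne hdir).π h) (J.φ h) n ≫ map (D.D L'.1).subtype (pr L') n =
      map (D.D L.1).subtype (pr L) n ≫
        map (((T.subTower D).filter P hne hdir).π (i := L) (j := L') h)
          (Lq.φ (i := L) (j := L') h) n := by
  have e1 := map_comp ((T.filter P hne hdir).π h) (D.D L'.1).subtype (J.φ h) (pr L') n
  have e2 := map_comp (D.D L.1).subtype
    (((T.subTower D).filter P hne hdir).π (i := L) (j := L') h) (pr L)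
    (Lq.φ (i := L) (j := L') h) n
  refine e1.symm.trans (Eq.trans ?_ e2)
  refine map_congr rfl ?_ n
  exact LinearMap.ext (fun x => hpr h x)

/-- `jC_*` commutes with inflation -/
theorem map_jC_infl {L L' : (T.filter P hne hdir).ι} (h : L ≤ L') (n : ℕ) :
    map ((T.filter P hne hdir).π h) (J.φ h) n ≫
        map (MonoidHom.id ((T.filter P hne hdir).G L')) (jC.f L') n =
      map (MonoidHom.id ((T.filter P hne hdir).G L)) (jC.f L) n ≫
        map ((T.filter P hne hdir).π h) (C.φ h) n := by
  have e1 := map_comp ((T.filter P hne hdir).π h) (MonoidHom.id ((T.filter P hne hdir).G L'))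
    (J.φ h) (jC.f L') n
  have e2 := map_comp (MonoidHom.id ((T.filter P hne hdir).G L)) ((T.filter P hne hdir).π h)
    (jC.f L) (C.φ h) n
  refine e1.symm.trans (Eq.trans ?_ e2)
  refine map_congr rfl ?_ n
  exact LinearMap.ext (fun x => congrArg (fun u => u.hom x) (jC.comm h))

end Infl

section Renorm

open groupCohomology Fermat.Agent.CFT.Coh Rep TowerModule

variable {p : ℕ} [hp : Fact p.Prime] {T : Tower} (P : T.ι → Prop) (hne : ∃ i, P i)
  (hdir : ∀ i j, P i → P j → ∃ l, P l ∧ i ≤ l ∧ j ≤ l) (D : T.SubgroupFamily)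
  {C J : TowerModule ℤ (T.filter P hne hdir)} (jC : J.Hom C)
  {Lq : TowerModule ℤ ((T.subTower D).filter P hne hdir)}
  (pr : ∀ L : (T.filter P hne hdir).ι, Rep.res (D.D L.1).subtype (J.C L) ⟶ Lq.C L)
  (hpr : ∀ {L L' : (T.filter P hne hdir).ι} (h : L ≤ L') (x : J.C L),
    (pr L').hom ((J.φ h).hom x) = (Lq.φ (i := L) (j := L') h).hom ((pr L).hom x))
  (hprinj : ∀ (L : (T.filter P hne hdir).ι) (y : J.C L),
    (∀ g : T.G L.1, (pr L).hom ((J.C L).ρ g y) = 0) → y = 0)
  (hprsurj : ∀ (L : (T.filter P hne hdir).ι) (f : T.G L.1 → Lq.C L),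
    (∀ (s : D.D L.1) (g : T.G L.1), f ((s : T.G L.1) * g) = (Lq.C L).ρ s (f g)) →
    ∃ y : J.C L, ∀ g : T.G L.1, (pr L).hom ((J.C L).ρ g y) = f g)
  (F : PFundamental p (T.filter P hne hdir) C)
  (FL : PFundamental p ((T.subTower D).filter P hne hdir) Lq)
  (hINJ : ∀ (L : (T.filter P hne hdir).ι) (z : groupCohomology (J.C L) 2), p • z = 0 →
    (groupCohomology.map (MonoidHom.id ((T.filter P hne hdir).G L)) (jC.f L) 2).hom z = 0 → z = 0)

/-- the lift `z_L ∈ H²(G_L, J_L)` of `[G_L : D_L] • u_L` -/
def renormLift (L : (T.filter P hne hdir).ι) : groupCohomology (J.C L) 2 :=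
  fundLift (D.D L.1) (C.C L) (J.C L) (Lq.C L) (jC.f L) (pr L) p
    (shH_bijective (D.D L.1) (J.C L) (Lq.C L) (pr L) (hprinj L) (hprsurj L))
    (F.u L) (F.u_order L) (F.h2P L) (FL.u L) (FL.u_order L) (hINJ L)

/-- the renormalised local fundamental class `u'_L = Sh(z_L) ∈ H²(D_L, Lq_L)` -/
def renormU (L : (T.filter P hne hdir).ι) : groupCohomology (Lq.C L) 2 :=
  locFund (D.D L.1) (C.C L) (J.C L) (Lq.C L) (jC.f L) (pr L) p
    (shH_bijective (D.D L.1) (J.C L) (Lq.C L) (pr L) (hprinj L) (hprsurj L))
    (F.u L) (F.u_order L) (F.h2P L) (FL.u L) (FL.u_order L) (hINJ L)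

theorem renormU_order (L : (T.filter P hne hdir).ι) :
    addOrderOf (renormU P hne hdir D jC pr hprinj hprsurj F FL hINJ L) =
      p ^ (Nat.card (D.D L.1)).factorization p :=
  addOrderOf_locFund (D.D L.1) (C.C L) (J.C L) (Lq.C L) (jC.f L) (pr L) p
    (shH_bijective (D.D L.1) (J.C L) (Lq.C L) (pr L) (hprinj L) (hprsurj L))
    (F.u L) (F.u_order L) (F.h2P L) (FL.u L) (FL.u_order L) (hINJ L)

theorem jCH_renormLift (L : (T.filter P hne hdir).ι) :
    (map (MonoidHom.id ((T.filter P hne hdir).G L)) (jC.f L) 2).hom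
        (renormLift P hne hdir D jC pr hprinj hprsurj F FL hINJ L) = (D.D L.1).index • F.u L :=
  jCH_fundLift (D.D L.1) (C.C L) (J.C L) (Lq.C L) (jC.f L) (pr L) p
    (shH_bijective (D.D L.1) (J.C L) (Lq.C L) (pr L) (hprinj L) (hprsurj L))
    (F.u L) (F.u_order L) (F.h2P L) (FL.u L) (FL.u_order L) (hINJ L)

theorem renormLift_torsion (L : (T.filter P hne hdir).ι) :
    p ^ (Nat.card (D.D L.1)).factorization p •
      renormLift P hne hdir D jC pr hprinj hprsurj F FL hINJ L = 0 :=
  fundLift_torsion (D.D L.1) (C.C L) (J.C L) (Lq.C L) (jC.f L) (pr L) p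
    (shH_bijective (D.D L.1) (J.C L) (Lq.C L) (pr L) (hprinj L) (hprsurj L))
    (F.u L) (F.u_order L) (F.h2P L) (FL.u L) (FL.u_order L) (hINJ L)

theorem renormU_eq (L : (T.filter P hne hdir).ι) :
    renormU P hne hdir D jC pr hprinj hprsurj F FL hINJ L =
      (map (D.D L.1).subtype (pr L) 2).hom
        (renormLift P hne hdir D jC pr hprinj hprsurj F FL hINJ L) := rfl

/-- `[G_L : D_L] · |ker (G_L' → G_L)| = |ker (D_L' → D_L)| · [G_L' : D_L']` -/
theorem index_mul_card_ker {L L' : (T.filter P hne hdir).ι} (h : L ≤ L') :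
    (D.D L.1).index * Nat.card ((T.filter P hne hdir).π h).ker =
      Nat.card (((T.subTower D).filter P hne hdir).π (i := L) (j := L') h).ker *
        (D.D L'.1).index := by
  have h1 := card_eq_card_ker_mul ((T.filter P hne hdir).π h) ((T.filter P hne hdir).π_surjective h)
  have h2 := card_eq_card_ker_mul (((T.subTower D).filter P hne hdir).π (i := L) (j := L') h)
    (((T.subTower D).filter P hne hdir).π_surjective (i := L) (j := L') h)
  have h3 : (D.D L.1).index * Nat.card (D.D L.1) = Nat.card (T.G L.1) := (D.D L.1).index_mul_card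
  have h4 : (D.D L'.1).index * Nat.card (D.D L'.1) = Nat.card (T.G L'.1) :=
    (D.D L'.1).index_mul_card
  have hD0 : 0 < Nat.card (D.D L.1) := Nat.card_pos
  change Nat.card (T.G L'.1) = _ * Nat.card (T.G L.1) at h1
  change Nat.card (D.D L'.1) = _ * Nat.card (D.D L.1) at h2
  apply Nat.eq_of_mul_eq_mul_right hD0
  calc (D.D L.1).index * Nat.card ((T.filter P hne hdir).π h).ker * Nat.card (D.D L.1)
      = Nat.card ((T.filter P hne hdir).π h).ker * ((D.D L.1).index * Nat.card (D.D L.1)) := by
        ring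
    _ = Nat.card (T.G L'.1) := by rw [h3, ← h1]
    _ = (D.D L'.1).index * Nat.card (D.D L'.1) := h4.symm
    _ = _ := by rw [h2]; ring

include hpr in
/-- inflation of the lifts: `infl z_L = |ker (D_L' → D_L)| • z_L'` -/
theorem renormLift_infl {L L' : (T.filter P hne hdir).ι} (h : L ≤ L') :
    (map ((T.filter P hne hdir).π h) (J.φ h) 2).hom
        (renormLift P hne hdir D jC pr hprinj hprsurj F FL hINJ L) =
      Nat.card (((T.subTower D).filter P hne hdir).π (i := L) (j := L') h).ker •
        renormLift P hne hdir D jC pr hprinj hprsurj F FL hINJ L' := by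
  set z := renormLift P hne hdir D jC pr hprinj hprsurj F FL hINJ L with hz
  set z' := renormLift P hne hdir D jC pr hprinj hprsurj F FL hINJ L' with hz'
  set κ := Nat.card (((T.subTower D).filter P hne hdir).π (i := L) (j := L') h).ker with hκ
  rw [← sub_eq_zero]
  refine eq_zero_of_ptorsion_inj p (jCH (C.C L') (J.C L') (jC.f L')) (hINJ L')
    ((Nat.card (D.D L.1)).factorization p + (Nat.card (D.D L'.1)).factorization p) _ ?_ ?_
  · have t1 : p ^ (Nat.card (D.D L.1)).factorization p •
        (map ((T.filter P hne hdir).π h) (J.φ h) 2).hom z = 0 := by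
      have := congrArg (fun y => (map ((T.filter P hne hdir).π h) (J.φ h) 2).hom y)
        (renormLift_torsion P hne hdir D jC pr hprinj hprsurj F FL hINJ L)
      refine (map_nsmul (map ((T.filter P hne hdir).π h) (J.φ h) 2).hom _ z).symm.trans ?_
      exact this.trans (map_zero _)
    have t2 := renormLift_torsion P hne hdir D jC pr hprinj hprsurj F FL hINJ L'
    have t3 : p ^ ((Nat.card (D.D L.1)).factorization p + (Nat.card (D.D L'.1)).factorization p) •
        (map ((T.filter P hne hdir).π h) (J.φ h) 2).hom z = 0 := by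
      rw [pow_add, mul_comm, mul_smul, t1, smul_zero]
    have t4 : p ^ ((Nat.card (D.D L.1)).factorization p + (Nat.card (D.D L'.1)).factorization p) •
        z' = 0 := by
      rw [pow_add, mul_smul, t2, smul_zero]
    rw [smul_sub, t3, smul_comm, t4, smul_zero, sub_zero]
  · have e1 := congr($(map_jC_infl P hne hdir jC h 2) z)
    rw [ConcreteCategory.comp_apply, ConcreteCategory.comp_apply] at e1
    have e2 : (map (MonoidHom.id ((T.filter P hne hdir).G L)) (jC.f L) 2).hom z =
        (D.D L.1).index • F.u L := jCH_renormLift P hne hdir D jC pr hprinj hprsurj F FL hINJ L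
    have e3 : (map (MonoidHom.id ((T.filter P hne hdir).G L')) (jC.f L') 2).hom z' =
        (D.D L'.1).index • F.u L' := jCH_renormLift P hne hdir D jC pr hprinj hprsurj F FL hINJ L'
    have e4 := F.u_infl h
    rw [map_sub, map_nsmul]
    change (map (MonoidHom.id ((T.filter P hne hdir).G L')) (jC.f L') 2).hom
        ((map ((T.filter P hne hdir).π h) (J.φ h) 2).hom z) -
      κ • (map (MonoidHom.id ((T.filter P hne hdir).G L')) (jC.f L') 2).hom z' = 0
    rw [e3]
    refine (congrArg (fun y => y - κ • ((D.D L'.1).index • F.u L')) e1).trans ?_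
    change (map ((T.filter P hne hdir).π h) (C.φ h) 2).hom
        ((map (MonoidHom.id ((T.filter P hne hdir).G L)) (jC.f L) 2).hom z) -
      κ • ((D.D L'.1).index • F.u L') = 0
    rw [e2, map_nsmul, e4, ← mul_smul, ← mul_smul,
      index_mul_card_ker P hne hdir D h, sub_self]

include hpr in
/-- **`u_infl` for the renormalised local classes** -/
theorem renormU_infl {L L' : (T.filter P hne hdir).ι} (h : L ≤ L') :
    (map (((T.subTower D).filter P hne hdir).π (i := L) (j := L') h)
        (Lq.φ (i := L) (j := L') h) 2).hom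
        (renormU P hne hdir D jC pr hprinj hprsurj F FL hINJ L) =
      Nat.card (((T.subTower D).filter P hne hdir).π (i := L) (j := L') h).ker •
        renormU P hne hdir D jC pr hprinj hprsurj F FL hINJ L' := by
  have e1 := congr($(map_pr_infl P hne hdir D pr hpr h 2)
    (renormLift P hne hdir D jC pr hprinj hprsurj F FL hINJ L))
  rw [ConcreteCategory.comp_apply, ConcreteCategory.comp_apply] at e1
  rw [renormU_eq, renormU_eq]
  refine e1.symm.trans ?_
  have e2 := renormLift_infl P hne hdir D jC pr hpr hprinj hprsurj F FL hINJ h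
  refine (congrArg (fun y => (map (D.D L'.1).subtype (pr L') 2).hom y) e2).trans ?_
  exact map_nsmul _ _ _

/-- **Renormalised local fundamental classes** (Option 3): the local tower module `Lq` with the
classes `u'_L = Sh_L(z_L)`, `jC_* z_L = [G_L : D_L] • u_L`; all other fields are those of `FL`. -/
def PFundamental.renorm : PFundamental p ((T.subTower D).filter P hne hdir) Lq where
  descent := FL.descent
  pinf := FL.pinf
  h1P := FL.h1P
  h2P := FL.h2P
  u := renormU P hne hdir D jC pr hprinj hprsurj F FL hINJ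
  u_order L := renormU_order P hne hdir D jC pr hprinj hprsurj F FL hINJ L
  u_infl h := renormU_infl P hne hdir D jC pr hpr hprinj hprsurj F FL hINJ h
  finite_mod_p := FL.finite_mod_p

/-- **`inv_compat` by construction** (the literal `PTData` field shape): for a `p`-torsion class
`z ∈ H²(G_L, J_L)`, the global invariant of `jC_* z` is the local invariant, for the renormalised
local class formation, of the Shapiro image `pr_* (res_{D_L} z)`. -/
theorem PFundamental.renorm_inv_compat (L : (T.filter P hne hdir).ι)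
    (z : groupCohomology (J.C L) 2) (hz : p • z = 0) :
    F.toPClassFormation.inv L ⊤
        ((groupCohomology.map (⊤ : Subgroup ((T.filter P hne hdir).G L)).subtype
          (𝟙 (C.atSub L ⊤)) 2).hom
          ((groupCohomology.map (MonoidHom.id ((T.filter P hne hdir).G L)) (jC.f L) 2).hom z)) =
      (PFundamental.renorm P hne hdir D jC pr hpr hprinj hprsurj F FL hINJ).toPClassFormation.inv
        L ⊤ ((groupCohomology.map
          (⊤ : Subgroup (((T.subTower D).filter P hne hdir).G L)).subtype
          (𝟙 (Lq.atSub L ⊤)) 2).hom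
          ((groupCohomology.map (D.D L.1).subtype (pr L) 2).hom z)) :=
  invTopOf_jCH_eq (D.D L.1) (C.C L) (J.C L) (Lq.C L) (jC.f L) (pr L) p
    (shH_bijective (D.D L.1) (J.C L) (Lq.C L) (pr L) (hprinj L) (hprsurj L))
    (F.u L) (F.u_order L) (F.h2P L) (FL.u L) (FL.u_order L) (hINJ L) (FL.h2P L) z 1
    (by rwa [pow_one])

end Renorm

end

end Fermat.Agent.CFT.Duality
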