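import Fermat.Agent.Lib.CFT.Duality.Bridge1
import Fermat.Agent.Lib.CFT.Coh.AugRep

/-!
# P4 / Layer D, D-AX : every class in `Ext¹(X, A)` is the class of an extension

* `pushoutRep`, `pushoutSC`, `pushoutSC_shortExact`, `extClass_pushout` : the pushout of a short
  exact sequence `0 → K → P → X → 0` of representations along `f : K ⟶ A`, with
  `extClass (pushout) = extClass.comp (mk₀ f)`.
* `exists_shortExact_extClass_eq` : every class in `Ext¹(X, A)` is the class of a short exact
  sequence `0 → A → E → X → 0`.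
-/

set_option autoImplicit false
set_option linter.unusedSectionVars false

open CategoryTheory Abelian Limits

namespace Fermat.Agent.CFT.Duality

noncomputable section

section Pushout

variable {k G : Type} [CommRing k] [Group G]
variable (S : ShortComplex (Rep.{0} k G)) {A : Rep.{0} k G} (f : S.X₁ ⟶ A)

/-- the linear map `κ ↦ (f κ, - i κ)` -/
def pushoutRel : S.X₁.V →ₗ[k] A.V × S.X₂.V :=
  (f.hom.toLinearMap).prod (-(S.f.hom.toLinearMap))

@[simp] lemma pushoutRel_apply (κ : S.X₁.V) :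
    pushoutRel S f κ = (f.hom κ, -(S.f.hom κ)) := rfl

/-- the submodule `{(f κ, - i κ)}` of `A × P` -/
def pushoutSub : Submodule k (A.V × S.X₂.V) := LinearMap.range (pushoutRel S f)

lemma pushoutSub_le_comap (g : G) :
    pushoutSub S f ≤ (pushoutSub S f).comap ((A.ρ.prod S.X₂.ρ) g) := by
  rintro _ ⟨κ, rfl⟩
  refine ⟨S.X₁.ρ g κ, ?_⟩
  rw [pushoutRel_apply, pushoutRel_apply, Rep.hom_comm_apply, Rep.hom_comm_apply]
  simp [Representation.prod]

/-- the pushout `A ⊔_K P` as a representation -/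
def pushoutRep : Rep.{0} k G :=
  Rep.of ((A.ρ.prod S.X₂.ρ).quotient (pushoutSub S f) (pushoutSub_le_comap S f))

/-- `A → A ⊔_K P` -/
def pushoutInr : A ⟶ pushoutRep S f :=
  Rep.ofHom (ρ := A.ρ) ⟨(pushoutSub S f).mkQ ∘ₗ LinearMap.inl k A.V S.X₂.V, fun g => by
    ext a
    simp [Representation.quotient, Representation.prod]⟩

/-- `P → A ⊔_K P` -/
def pushoutInl : S.X₂ ⟶ pushoutRep S f :=
  Rep.ofHom (ρ := S.X₂.ρ) ⟨(pushoutSub S f).mkQ ∘ₗ LinearMap.inr k A.V S.X₂.V, fun g => by
    ext a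
    simp [Representation.quotient, Representation.prod]⟩

lemma pushoutInr_apply (a : A.V) :
    (pushoutInr S f).hom a = (pushoutSub S f).mkQ (a, 0) := rfl

lemma pushoutInl_apply (x : S.X₂.V) :
    (pushoutInl S f).hom x = (pushoutSub S f).mkQ (0, x) := rfl

/-- the linear map `(a, x) ↦ g x` -/
def pushoutDescLin : A.V × S.X₂.V →ₗ[k] S.X₃.V :=
  S.g.hom.toLinearMap ∘ₗ LinearMap.snd k A.V S.X₂.V

lemma pushoutSub_le_ker : pushoutSub S f ≤ LinearMap.ker (pushoutDescLin S (A := A)) := by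
  rintro _ ⟨κ, rfl⟩
  rw [LinearMap.mem_ker]
  show S.g.hom (-(S.f.hom κ)) = 0
  rw [map_neg, neg_eq_zero]
  exact congrArg (fun φ => φ.hom κ) S.zero

/-- `A ⊔_K P → X` -/
def pushoutDesc : pushoutRep S f ⟶ S.X₃ :=
  Rep.ofHom (σ := S.X₃.ρ) ⟨(pushoutSub S f).liftQ (pushoutDescLin S) (pushoutSub_le_ker S f),
    fun g => by
      apply Submodule.linearMap_qext
      ext x
      · simp [Representation.quotient, Representation.prod, pushoutDescLin]
      · simp only [LinearMap.coe_comp, Function.comp_apply, LinearMap.coe_inr,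
          Submodule.mkQ_apply]
        show S.g.hom (S.X₂.ρ g x) = S.X₃.ρ g (S.g.hom x)
        exact Rep.hom_comm_apply S.g g x⟩

lemma pushoutDesc_mk (a : A.V) (x : S.X₂.V) :
    (pushoutDesc S f).hom ((pushoutSub S f).mkQ (a, x)) = S.g.hom x := rfl

lemma pushoutInr_desc : pushoutInr S f ≫ pushoutDesc S f = 0 := by
  ext a
  show S.g.hom (0 : S.X₂.V) = 0
  exact map_zero _

/-- the pushout sequence `0 → A → A ⊔_K P → X → 0` -/
def pushoutSC : ShortComplex (Rep.{0} k G) :=
  ShortComplex.mk (pushoutInr S f) (pushoutDesc S f) (pushoutInr_desc S f)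

variable {S}

theorem pushoutSC_shortExact (hS : S.ShortExact) : (pushoutSC S f).ShortExact := by
  have hinj : Function.Injective S.f.hom := (Rep.mono_iff_injective S.f).1 hS.mono_f
  have hsurj : Function.Surjective S.g.hom := (Rep.epi_iff_surjective S.g).1 hS.epi_g
  have hex : ∀ y : S.X₂.V, S.g.hom y = 0 → ∃ x : S.X₁.V, S.f.hom x = y := by
    have h1 := hS.exact
    rw [← ShortComplex.exact_map_iff_of_faithful S (forget₂ (Rep k G) (ModuleCat k)),
      ShortComplex.moduleCat_exact_iff] at h1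
    exact h1
  refine Coh.shortExact_of_functions ?_ ?_ ?_
  · -- injectivity of `A → A ⊔_K P`
    rw [injective_iff_map_eq_zero]
    intro a ha
    have h1 : ((a, 0) : A.V × S.X₂.V) ∈ pushoutSub S f :=
      (Submodule.Quotient.mk_eq_zero _).1 ha
    obtain ⟨κ, hκ⟩ := h1
    rw [pushoutRel_apply, Prod.mk.injEq, neg_eq_zero] at hκ
    have h2 : κ = 0 := hinj (hκ.2.trans (map_zero _).symm)
    rw [← hκ.1, h2, map_zero]
    rfl
  · intro x
    obtain ⟨y, rfl⟩ := hsurj x
    exact ⟨(pushoutSub S f).mkQ (0, y), rfl⟩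
  · intro y hy
    obtain ⟨⟨a, x⟩, rfl⟩ := (pushoutSub S f).mkQ_surjective y
    have hx : S.g.hom x = 0 := hy
    obtain ⟨κ, rfl⟩ := hex x hx
    refine ⟨a + f.hom κ, ?_⟩
    show (pushoutSub S f).mkQ (a + f.hom κ, 0) = (pushoutSub S f).mkQ (a, S.f.hom κ)
    rw [← sub_eq_zero, ← map_sub, Submodule.mkQ_apply, Submodule.Quotient.mk_eq_zero]
    refine ⟨κ, ?_⟩
    rw [pushoutRel_apply, Prod.mk_sub_mk, add_sub_cancel_left, zero_sub]

/-- the morphism of short complexes from `S` to its pushout -/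
def pushoutSCHom : S ⟶ pushoutSC S f where
  τ₁ := f
  τ₂ := pushoutInl S f
  τ₃ := 𝟙 _
  comm₁₂ := by
    ext κ
    show (pushoutSub S f).mkQ (f.hom κ, 0) = (pushoutSub S f).mkQ (0, S.f.hom κ)
    rw [← sub_eq_zero, ← map_sub, Submodule.mkQ_apply, Submodule.Quotient.mk_eq_zero]
    refine ⟨κ, ?_⟩
    rw [pushoutRel_apply, Prod.mk_sub_mk, sub_zero, zero_sub]
  comm₂₃ := by
    ext x
    rfl

/-- the class of the pushout extension -/
theorem extClass_pushout (hS : S.ShortExact) :
    (pushoutSC_shortExact f hS).extClass = hS.extClass.comp (Ext.mk₀ f) (add_zero 1) := by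
  have h := ShortComplex.ShortExact.extClass_naturality hS (pushoutSC_shortExact f hS)
    (pushoutSCHom f)
  have h2 : (Ext.mk₀ (𝟙 S.X₃)).comp (pushoutSC_shortExact f hS).extClass (zero_add 1) =
      (pushoutSC_shortExact f hS).extClass := Ext.mk₀_id_comp _
  exact h2.symm.trans h.symm

end Pushout

section ExtClass

variable {k G : Type} [CommRing k] [Group G]

/-- **Every class in `Ext¹(X, A)` is the class of an extension.** -/
theorem exists_shortExact_extClass_eq {X A : Rep.{0} k G} (ξ : Ext X A 1) :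
    ∃ (E : Rep.{0} k G) (i : A ⟶ E) (q : E ⟶ X) (w : i ≫ q = 0)
      (hS : (ShortComplex.mk i q w).ShortExact), hS.extClass = ξ := by
  -- a projective presentation of `X`
  let P : ProjectivePresentation X := Classical.choice (EnoughProjectives.presentation X)
  let S : ShortComplex (Rep.{0} k G) := ShortComplex.mk (kernel.ι P.f) P.f (kernel.condition P.f)
  have hS : S.ShortExact :=
    { exact := ShortComplex.exact_of_f_is_kernel _ (kernelIsKernel P.f)
      mono_f := inferInstanceAs (Mono (kernel.ι P.f))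
      epi_g := P.epi }
  have h0 : (Ext.mk₀ S.g).comp ξ (zero_add 1) = 0 :=
    haveI : Projective S.X₂ := P.projective
    Ext.eq_zero_of_projective _
  obtain ⟨x₁, hx₁⟩ := Ext.contravariant_sequence_exact₃ hS A ξ h0 (n₀ := 0) (by rfl)
  obtain ⟨f, rfl⟩ := (Ext.mk₀_bijective _ _).2 x₁
  refine ⟨pushoutRep S f, pushoutInr S f, pushoutDesc S f, pushoutInr_desc S f,
    pushoutSC_shortExact f hS, ?_⟩
  exact (extClass_pushout f hS).trans hx₁

end ExtClass

/-! ### Reduction mod `c` of an extension of `k` by a `c`-torsion module -/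

section ModP

variable {k : Type} [CommRing k] (c : k) {F : Type} [AddCommGroup F] [Module k F] (r : k →ₗ[k] F)
  {G : Type} [Group G]

/-- a linear map `k → F` as a morphism of trivial representations -/
def redHom (G : Type) [Group G] : Rep.trivial k G k ⟶ Rep.trivial k G F :=
  Rep.ofHom ⟨r, fun _ => rfl⟩

@[simp] lemma redHom_apply (n : k) : (redHom r G).hom n = r n := rfl

variable {A E : Rep.{0} k G}

/-- the submodule `c E` -/
def pSub (E : Rep.{0} k G) : Submodule k E.V :=
  LinearMap.range (c • (LinearMap.id : E.V →ₗ[k] E.V))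

lemma mem_pSub {E : Rep.{0} k G} (e : E.V) : e ∈ pSub c E ↔ ∃ e', c • e' = e := Iff.rfl

lemma pSub_le_comap (E : Rep.{0} k G) (g : G) : pSub c E ≤ (pSub c E).comap (E.ρ g) := by
  rintro _ ⟨e, rfl⟩
  exact ⟨E.ρ g e, by simp⟩

/-- `E / cE` -/
def modP (E : Rep.{0} k G) : Rep.{0} k G :=
  Rep.of (E.ρ.quotient (pSub c E) (pSub_le_comap c E))

/-- `E → E / cE` -/
def modPMk (E : Rep.{0} k G) : E ⟶ modP c E :=
  Rep.ofHom (ρ := E.ρ) ⟨(pSub c E).mkQ, fun g => by
    ext e
    simp [Representation.quotient]⟩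

lemma modPMk_surjective (E : Rep.{0} k G) : Function.Surjective (modPMk c E).hom :=
  (pSub c E).mkQ_surjective

lemma modPMk_eq_zero_iff (E : Rep.{0} k G) (e : E.V) :
    (modPMk c E).hom e = 0 ↔ ∃ e', c • e' = e :=
  (Submodule.Quotient.mk_eq_zero _).trans (mem_pSub c e)

lemma modP_torsion (E : Rep.{0} k G) (x : modP c E) : c • x = 0 := by
  obtain ⟨e, rfl⟩ := modPMk_surjective c E x
  rw [← map_smul, modPMk_eq_zero_iff]
  exact ⟨e, rfl⟩

variable (q : E ⟶ Rep.trivial k G k) (hrc : r c = 0)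

/-- the linear map `e ↦ r (q e)` -/
def modPDescLin : E.V →ₗ[k] F := r ∘ₗ q.hom.toLinearMap

include hrc in
lemma pSub_le_ker : pSub c E ≤ LinearMap.ker (modPDescLin r q) := by
  rintro _ ⟨e, rfl⟩
  rw [LinearMap.mem_ker]
  show r (q.hom ((c • (LinearMap.id : E.V →ₗ[k] E.V)) e)) = 0
  rw [LinearMap.smul_apply, LinearMap.id_apply, map_smul, smul_eq_mul, mul_comm, ← smul_eq_mul,
    map_smul, hrc, smul_zero]

/-- `E / cE → F` -/
def modPDesc : modP c E ⟶ Rep.trivial k G F :=
  Rep.ofHom (ρ := E.ρ.quotient (pSub c E) (pSub_le_comap c E))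
    (σ := Representation.trivial k G F)
    ⟨(pSub c E).liftQ (modPDescLin r q) (pSub_le_ker c r q hrc), fun g => by
      apply Submodule.linearMap_qext
      ext e
      show r (q.hom (E.ρ g e)) = r (q.hom e)
      rw [Rep.hom_comm_apply]
      rfl⟩

lemma modPDesc_mk (e : E.V) : (modPDesc c r q hrc).hom ((modPMk c E).hom e) = r (q.hom e) :=
  rfl

variable (i : A ⟶ E) (w : i ≫ q = 0)

include w in
lemma modP_zero : (i ≫ modPMk c E) ≫ modPDesc c r q hrc = 0 := by
  ext a
  show r (q.hom (i.hom a)) = 0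
  have h : q.hom (i.hom a) = 0 := congrArg (fun φ => φ.hom a) w
  rw [h]
  exact map_zero r

/-- the reduced sequence `0 → A → E / cE → F → 0` -/
def modPSC : ShortComplex (Rep.{0} k G) :=
  ShortComplex.mk (i ≫ modPMk c E) (modPDesc c r q hrc) (modP_zero c r q hrc i w)

variable {q i w}

theorem modPSC_shortExact (hS : (ShortComplex.mk i q w).ShortExact) (hA : ∀ a : A.V, c • a = 0)
    (hc : ∀ n : k, c * n = 0 → n = 0) (hr : Function.Surjective r)
    (hker : ∀ n : k, r n = 0 → ∃ m, c * m = n) :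
    (modPSC c r q hrc i w).ShortExact := by
  have hinj : Function.Injective i.hom := (Rep.mono_iff_injective i).1 hS.mono_f
  have hsurj : Function.Surjective q.hom := (Rep.epi_iff_surjective q).1 hS.epi_g
  have hex : ∀ y : E.V, q.hom y = 0 → ∃ x : A.V, i.hom x = y := by
    have h1 := hS.exact
    rw [← ShortComplex.exact_map_iff_of_faithful _ (forget₂ (Rep k G) (ModuleCat k)),
      ShortComplex.moduleCat_exact_iff] at h1
    exact h1
  refine Coh.shortExact_of_functions ?_ ?_ ?_
  · rw [injective_iff_map_eq_zero]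
    intro a ha
    have h1 : (modPMk c E).hom (i.hom a) = 0 := ha
    obtain ⟨e, he⟩ := (modPMk_eq_zero_iff c E _).1 h1
    have h2 : q.hom e = 0 := by
      apply hc
      have h3 : c • q.hom e = 0 := by
        rw [← map_smul, he]
        exact congrArg (fun φ => φ.hom a) w
      exact h3
    obtain ⟨a', rfl⟩ := hex e h2
    apply hinj
    show i.hom a = i.hom (0 : A.V)
    rw [map_zero, ← he, ← map_smul, hA a', map_zero]
  · intro x
    obtain ⟨n, rfl⟩ := hr x
    obtain ⟨e, he⟩ := hsurj n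
    refine ⟨(modPMk c E).hom e, ?_⟩
    show r (q.hom e) = r n
    rw [he]
  · intro y hy
    obtain ⟨e, rfl⟩ := modPMk_surjective c E y
    have h1 : r (q.hom e) = 0 := hy
    obtain ⟨m, hm⟩ := hker _ h1
    obtain ⟨e₀, he₀⟩ := hsurj m
    have h2 : q.hom (e - c • e₀) = 0 := by
      rw [map_sub, map_smul, he₀, ← hm]
      show c * m - c * m = 0
      exact sub_self _
    obtain ⟨a, ha⟩ := hex _ h2
    refine ⟨a, ?_⟩
    show (modPMk c E).hom (i.hom a) = (modPMk c E).hom e
    rw [ha, map_sub, sub_eq_self, modPMk_eq_zero_iff]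
    exact ⟨e₀, rfl⟩

/-- the morphism from an extension of `k` to its reduction mod `c` -/
def modPSCHom : ShortComplex.mk i q w ⟶ modPSC c r q hrc i w where
  τ₁ := 𝟙 _
  τ₂ := modPMk c E
  τ₃ := redHom r G
  comm₁₂ := by
    show 𝟙 A ≫ (i ≫ modPMk c E) = i ≫ modPMk c E
    rw [Category.id_comp]
  comm₂₃ := by
    ext e
    rfl

/-- the class of an extension of `k` by a `c`-torsion module is the pull-back along `k → F` of
the class of its reduction mod `c`. -/
theorem extClass_modP (hS : (ShortComplex.mk i q w).ShortExact)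
    (hSx : (modPSC c r q hrc i w).ShortExact) :
    (Ext.mk₀ (redHom r G)).comp hSx.extClass (zero_add 1) = hS.extClass := by
  have h := ShortComplex.ShortExact.extClass_naturality hS hSx (modPSCHom c r hrc)
  have h2 : hS.extClass.comp (Ext.mk₀ (𝟙 A)) (add_zero 1) = hS.extClass := Ext.comp_mk₀_id _
  exact h.symm.trans h2

theorem modP_finite (hSx : (modPSC c r q hrc i w).ShortExact) [Finite A.V] [Finite F] :
    Finite (modP c E).V := by
  have hex : ∀ y : (modP c E).V, (modPDesc c r q hrc).hom y = 0 →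
      ∃ x : A.V, (i ≫ modPMk c E).hom x = y := by
    have h1 := hSx.exact
    rw [← ShortComplex.exact_map_iff_of_faithful _ (forget₂ (Rep k G) (ModuleCat k)),
      ShortComplex.moduleCat_exact_iff] at h1
    exact h1
  let φ : (modP c E).V →+ F := (modPDesc c r q hrc).hom.toLinearMap.toAddMonoidHom
  rw [φ.finite_iff_finite_ker_range]
  refine ⟨?_, inferInstance⟩
  have : Function.Surjective (fun a : A.V => (⟨(i ≫ modPMk c E).hom a, by
      show φ ((i ≫ modPMk c E).hom a) = 0
      exact congrArg (fun ψ => ψ.hom a) (modP_zero c r q hrc i w)⟩ : φ.ker)) := by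
    rintro ⟨y, hy⟩
    obtain ⟨x, hx⟩ := hex y hy
    exact ⟨x, Subtype.ext hx⟩
  exact Finite.of_surjective _ this

end ModP

/-- reduction `ℤ → 𝔽_p` as a linear map -/
abbrev redLin (p : ℕ) : ℤ →ₗ[ℤ] ZMod p := (Int.castAddHom (ZMod p)).toIntLinearMap

/-- **D-AX**: a class `ξ ∈ H¹(G, A) = Ext¹(ℤ, A)` with `A` finite and killed by `p` is the pull-back
along `ℤ → 𝔽_p` of the class of an extension `0 → A → A_ξ → 𝔽_p → 0` with `A_ξ` finite and killed
by `p`. -/
theorem exists_modP_extension (p : ℕ) [Fact p.Prime] {G : Type} [Group G] (A : Rep.{0} ℤ G)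
    [Finite A.V] (hA : ∀ a : A.V, p • a = 0) (ξ : Ext (Rep.trivial ℤ G ℤ) A 1) :
    ∃ (Ax : Rep.{0} ℤ G) (_ : Finite Ax.V) (_ : ∀ a : Ax.V, p • a = 0) (i : A ⟶ Ax)
      (g : Ax ⟶ Rep.trivial ℤ G (ZMod p)) (w : i ≫ g = 0)
      (hS : (ShortComplex.mk i g w).ShortExact),
      (Ext.mk₀ (redHom (redLin p) G)).comp hS.extClass (zero_add 1) = ξ := by
  obtain ⟨E, i, q, w, hS, rfl⟩ := exists_shortExact_extClass_eq ξ
  have hp : (p : ℤ) ≠ 0 := by exact_mod_cast (Fact.out : p.Prime).ne_zero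
  have hrc : redLin p (p : ℤ) = 0 := by
    show ((p : ℤ) : ZMod p) = 0
    rw [Int.cast_natCast, ZMod.natCast_self]
  have hSx : (modPSC (p : ℤ) (redLin p) q hrc i w).ShortExact := by
    refine modPSC_shortExact (p : ℤ) (redLin p) hrc hS
      (fun a => (int_smul_eq_zsmul A.hV2 (p : ℤ) a).trans ((natCast_zsmul a p).trans (hA a)))
      ?_ ?_ ?_
    · intro n hn
      rcases mul_eq_zero.1 hn with h | h
      · exact absurd h hp
      · exact h
    · intro x
      obtain ⟨n, rfl⟩ := ZMod.intCast_surjective x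
      exact ⟨n, rfl⟩
    · intro n hn
      have h1 : ((n : ℤ) : ZMod p) = 0 := hn
      rw [ZMod.intCast_zmod_eq_zero_iff_dvd] at h1
      obtain ⟨m, rfl⟩ := h1
      exact ⟨m, rfl⟩
  refine ⟨modP (p : ℤ) E, modP_finite (p : ℤ) (redLin p) hrc hSx, ?_, i ≫ modPMk (p : ℤ) E,
    modPDesc (p : ℤ) (redLin p) q hrc, modP_zero (p : ℤ) (redLin p) q hrc i w, hSx,
    extClass_modP (p : ℤ) (redLin p) hrc hS hSx⟩
  intro x
  have h1 := modP_torsion (p : ℤ) E x
  exact ((natCast_zsmul x p).symm.trans (int_smul_eq_zsmul (modP (p : ℤ) E).hV2 (p : ℤ) x).symm).trans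
    h1

end

end Fermat.Agent.CFT.Duality
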