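import Fermat.Agent.Lib.CFT.Duality.LimFormation

/-!
# P4 / Layer D, D-FP : the groups `ExtLim 𝔽_p C r` of a limit formation

From the Bockstein sequence `0 → ℤ → ℤ → 𝔽_p → 0`:
`0 → H^{r-1}(C)/p → ExtLim 𝔽_p C r → H^r(C)[p] → 0`.  Hence `ExtLim 𝔽_p C 3 = 0`,
`ExtLim 𝔽_p C 2 ≃ H²(C)[p]`, `ExtLim 𝔽_p C 1 ≃ H⁰(C)/p`, and `α²(𝔽_p)` is bijective.
-/

set_option autoImplicit false
set_option linter.unusedSectionVars false

open CategoryTheory Abelian

namespace Fermat.Agent.CFT.Duality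

noncomputable section

open TowerModule

variable {p : ℕ} [Fact p.Prime] {T : Tower} {C : TowerModule ℤ T}

lemma bockstein_f_f (j : T.ι) : (bockstein p T).f.f j = (p : ℕ) • 𝟙 ((triv ℤ T).C j) := by
  ext
  change (p : ℤ) * 1 = _
  rw [Rep.nsmul_hom]
  rfl

lemma Ext.mk₀_nsmul_id_comp {k G : Type} [CommRing k] [Group G] {X Y : Rep k G} (m n : ℕ)
    (ξ : Ext X Y n) : (Ext.mk₀ (m • 𝟙 X)).comp ξ (zero_add n) = m • ξ := by
  have h1 : Ext.mk₀ (m • 𝟙 X) = m • Ext.mk₀ (𝟙 X) :=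
    map_nsmul (Ext.addEquiv₀ (X := X) (Y := X)).symm m _
  have h2 := map_nsmul (ξ.postcomp X (zero_add n)) m (Ext.mk₀ (𝟙 X))
  rw [h1]
  refine h2.trans ?_
  congr 1
  exact Ext.mk₀_id_comp ξ

/-- Multiplication by `p` on `ℤ` induces multiplication by `p` on `colim H^n(G_j, C_j)`. -/
lemma mapLeft_bockstein_f (n : ℕ) (x : HLim C n) :
    ExtLim.mapLeft C (bockstein p T).f n x = p • x := by
  induction x using ExtLim.induction_on with
  | h j ξ =>
    rw [ExtLim.mapLeft_of, bockstein_f_f, Ext.mk₀_nsmul_id_comp, map_nsmul]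

variable (p C) in
/-- `ExtLim 𝔽_p C n → H^n(C)`, restriction along `ℤ → 𝔽_p`. -/
abbrev fpToH (n : ℕ) : ExtLim (FpMod p T) C n →+ HLim C n :=
  ExtLim.mapLeft C (bockstein p T).g n

variable (p C) in
/-- `H^{n₀}(C) → ExtLim 𝔽_p C n₁`, the Bockstein (`1 + n₀ = n₁`). -/
abbrev hToFp (n₀ n₁ : ℕ) (h : 1 + n₀ = n₁) : HLim C n₀ →+ ExtLim (FpMod p T) C n₁ :=
  ExtLim.compLeft C (bockstein p T).δ n₀ n₁ h

lemma p_smul_fpToH (n : ℕ) (x : ExtLim (FpMod p T) C n) : p • fpToH p C n x = 0 := by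
  rw [← mapLeft_bockstein_f]
  exact (bockstein p T).mapLeft_f_mapLeft_g C n x

lemma hToFp_p_smul (n₀ n₁ : ℕ) (h : 1 + n₀ = n₁) (x : HLim C n₀) :
    hToFp p C n₀ n₁ h (p • x) = 0 := by
  rw [← mapLeft_bockstein_f]
  exact (bockstein p T).compLeft_δ_mapLeft_f C h x

lemma fpToH_hToFp (n₀ n₁ : ℕ) (h : 1 + n₀ = n₁) (x : HLim C n₀) :
    fpToH p C n₁ (hToFp p C n₀ n₁ h x) = 0 :=
  (bockstein p T).mapLeft_g_compLeft_δ C h x

lemma exists_fpToH_eq (n : ℕ) (y : HLim C n) (hy : p • y = 0) :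
    ∃ x, fpToH p C n x = y := by
  rw [← mapLeft_bockstein_f] at hy
  exact (bockstein p T).contravariant_exact₂ C n y hy

lemma exists_hToFp_eq (n₀ n₁ : ℕ) (h : 1 + n₀ = n₁) (x : ExtLim (FpMod p T) C n₁)
    (hx : fpToH p C n₁ x = 0) : ∃ y, hToFp p C n₀ n₁ h y = x :=
  (bockstein p T).contravariant_exact₃ C h x hx

lemma exists_p_smul_eq (n₀ n₁ : ℕ) (h : 1 + n₀ = n₁) (y : HLim C n₀)
    (hy : hToFp p C n₀ n₁ h y = 0) : ∃ z, p • z = y := by
  obtain ⟨z, hz⟩ := (bockstein p T).contravariant_exact₁ C h y hy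
  exact ⟨z, by rw [← mapLeft_bockstein_f, hz]⟩

section

variable (L : LimFormation p T C)

include L

/-- `ExtLim 𝔽_p C 3 = 0`. -/
theorem LimFormation.extLim_Fp_three (x : ExtLim (FpMod p T) C 3) : x = 0 := by
  have h1 : fpToH p C 3 x = 0 := L.h3 _ (p_smul_fpToH 3 x)
  obtain ⟨y, rfl⟩ := exists_hToFp_eq 2 3 rfl x h1
  obtain ⟨z, rfl⟩ := L.h2_div y
  exact hToFp_p_smul 2 3 rfl z

/-- `ExtLim 𝔽_p C 2 → H²(C)` is injective. -/
theorem LimFormation.fpToH_two_injective : Function.Injective (fpToH p C 2) := by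
  rw [injective_iff_map_eq_zero]
  intro x hx
  obtain ⟨y, rfl⟩ := exists_hToFp_eq 1 2 rfl x hx
  obtain ⟨m, hm, hmy⟩ := L.h1 y
  -- `y = p • z` since `y` is torsion prime to `p`
  obtain ⟨a, b, hab⟩ : ∃ a b : ℤ, a * m + b * p = 1 := by
    have := Nat.isCoprime_iff_coprime.2 hm
    obtain ⟨a, b, h⟩ := this
    exact ⟨a, b, h⟩
  have hy : y = p • (b • y) := by
    have h1 : ((a * m + b * p : ℤ)) • y = y := by rw [hab, one_smul]
    rw [add_smul, mul_smul, mul_smul, natCast_zsmul, hmy, smul_zero, zero_add, natCast_zsmul,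
      smul_comm] at h1
    exact h1.symm
  rw [hy]
  exact hToFp_p_smul 1 2 rfl _

/-- `ExtLim 𝔽_p C 1` is a quotient of `H⁰(C)`. -/
theorem LimFormation.hToFp_zero_surjective : Function.Surjective (hToFp p C 0 1 rfl) := by
  intro x
  have h1 : fpToH p C 1 x = 0 := by
    obtain ⟨m, hm, hmy⟩ := L.h1 (fpToH p C 1 x)
    have hp := p_smul_fpToH 1 x
    obtain ⟨a, b, hab⟩ : ∃ a b : ℤ, a * m + b * p = 1 := by
      have := Nat.isCoprime_iff_coprime.2 hm
      obtain ⟨a, b, h⟩ := this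
      exact ⟨a, b, h⟩
    have h2 : ((a * m + b * p : ℤ)) • fpToH p C 1 x = fpToH p C 1 x := by rw [hab, one_smul]
    rw [add_smul, mul_smul, mul_smul, natCast_zsmul, hmy, smul_zero, zero_add, natCast_zsmul,
      hp, smul_zero] at h2
    exact h2.symm
  exact exists_hToFp_eq 0 1 rfl x h1

omit L in
/-- The kernel of `H⁰(C) → ExtLim 𝔽_p C 1` is `p • H⁰(C)`. -/
theorem hToFp_zero_eq_zero_iff (c : HLim C 0) :
    hToFp p C 0 1 rfl c = 0 ↔ ∃ c', p • c' = c :=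
  ⟨exists_p_smul_eq 0 1 rfl c, fun ⟨c', h⟩ => by rw [← h]; exact hToFp_p_smul 0 1 rfl c'⟩

end

/-! ### `H⁰(𝔽_p)` and `α²(𝔽_p)` -/

variable (p T) in
/-- The canonical generator of `H⁰(𝔽_p) = 𝔽_p`: the class of `ℤ → 𝔽_p`. -/
def qClass : HLim (FpMod p T) 0 := ExtLim.ofFamily (ExtFamily.ofHom (bockstein p T).g)

lemma qClass_eq (j : T.ι) :
    qClass p T = ExtLim.of (triv ℤ T) (FpMod p T) 0 j (Ext.mk₀ ((bockstein p T).g.f j)) :=
  ExtLim.ofFamily_eq _ j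

/-- `H⁰(𝔽_p)` is generated by `qClass`. -/
lemma exists_nsmul_qClass (x : HLim (FpMod p T) 0) : ∃ m : ℕ, x = m • qClass p T := by
  induction x using ExtLim.induction_on with
  | h j ξ =>
    obtain ⟨f, rfl⟩ := (Ext.mk₀_bijective _ _).2 ξ
    refine ⟨(f.hom (1 : ℤ) : ZMod p).val, ?_⟩
    have hf : f = (f.hom (1 : ℤ) : ZMod p).val • (bockstein p T).g.f j := by
      ext
      rw [Rep.nsmul_hom]
      change f.hom (1 : ℤ) = (f.hom (1 : ℤ) : ZMod p).val • ((1 : ℤ) : ZMod p)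
      simp
    rw [qClass_eq j, ← map_nsmul]
    congr 1
    conv_lhs => rw [hf]
    exact map_nsmul (Ext.addEquiv₀ (X := (triv ℤ T).C j) (Y := (FpMod p T).C j)).symm _ _

lemma pairing_qClass (ξ : ExtLim (FpMod p T) C 2) :
    pairing (FpMod p T) C 2 0 2 rfl ξ (qClass p T) = fpToH p C 2 ξ :=
  (ExtLim.compLeft_eq_comp C (ExtFamily.ofHom (bockstein p T).g) 2 2 (zero_add 2) ξ).symm

lemma p_smul_qClass : p • qClass p T = 0 := by
  obtain ⟨j⟩ := T.instNonempty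
  rw [qClass_eq j, ← map_nsmul]
  have : p • Ext.mk₀ ((bockstein p T).g.f j) = 0 := by
    have h0 : p • (bockstein p T).g.f j = 0 := by
      ext
      rw [Rep.nsmul_hom]
      change p • ((1 : ℤ) : ZMod p) = 0
      simp
    have h1 := map_nsmul (Ext.addEquiv₀ (X := (triv ℤ T).C j) (Y := (FpMod p T).C j)).symm p
      ((bockstein p T).g.f j)
    rw [h0, map_zero] at h1
    exact h1.symm
  rw [this, map_zero]

section

variable (L : LimFormation p T C)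

include L

/-- **`α²(𝔽_p)` is bijective.** -/
theorem LimFormation.alpha2_Fp_bijective :
    Function.Bijective (L.alpha (FpMod p T) 2 0 rfl) := by
  constructor
  · rw [injective_iff_map_eq_zero]
    intro ξ hξ
    apply L.fpToH_two_injective
    rw [map_zero]
    apply L.inv_injective _ (p_smul_fpToH 2 ξ)
    rw [← pairing_qClass, ← L.alpha_apply, hξ]
    rfl
  · intro f
    obtain ⟨x₀, hx₀, hinv⟩ := L.inv_surjective
    -- `f (qClass)` is killed by `p`, hence a multiple of `1/p`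
    have hfq : p • f (qClass p T) = 0 := by rw [← map_nsmul, p_smul_qClass, map_zero]
    obtain ⟨m, hm⟩ : ∃ m : ℕ, f (qClass p T) = m • ((1 / p : ℚ) : AddCircle (1 : ℚ)) := by
      have hp : 0 < p := (Fact.out : p.Prime).pos
      obtain ⟨m, -, hm⟩ := (AddCircle.nsmul_eq_zero_iff (p := (1 : ℚ)) hp).1 hfq
      refine ⟨m, ?_⟩
      rw [← hm, AddCircle.natCast_div_mul_eq_nsmul]
    obtain ⟨ξ, hξ⟩ := exists_fpToH_eq 2 (m • x₀) (by rw [smul_comm, hx₀, smul_zero])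
    refine ⟨ξ, ?_⟩
    ext x
    obtain ⟨n, rfl⟩ := exists_nsmul_qClass x
    rw [map_nsmul, map_nsmul, L.alpha_apply, pairing_qClass, hξ, map_nsmul, hinv, hm]

end

end

end Fermat.Agent.CFT.Duality
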