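import Fermat.Agent.Lib.CFT.Duality.Rebase
import Fermat.Agent.Lib.CFT.Duality.FinPTorsion
import Fermat.Agent.Lib.CFT.Duality.FpCase
import Fermat.Agent.Lib.CFT.Duality.Sylow
import Fermat.Agent.Lib.CFT.Duality.ExtOne

/-!
# P4 / Layer D, D-D1 part 1 : general properties of the pairings `ExtLim A B r × HLim A s → HLim B t`

* `pairing_mapLeft` : naturality in `A`;
* `pairing_compRight_δ` : compatibility with the connecting maps of a short exact sequence;
* `ShortExact.ofIso` : transport of short exact sequences along isomorphisms;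
* `constIsoInflB` : `const T V ≅ inflB (trivial V)`;
* `exists_pairing_ne_zero_of_bottom` : a right-nondegeneracy statement may be checked for classes living on
  the bottom level of towers with a bottom level.
-/

set_option autoImplicit false
set_option linter.unusedSectionVars false

open CategoryTheory Abelian

namespace Fermat.Agent.CFT.Duality

noncomputable section

open TowerModule

section General

variable {k : Type} [CommRing k] {T : Tower}

/-- Naturality of the pairing in the first variable. -/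
lemma pairing_mapLeft {A' A : TowerModule k T} [A'.IsCartesian] [A.IsCartesian]
    (B : TowerModule k T) (F : A'.Hom A) (r s t : ℕ) (h : s + r = t) (ξ : ExtLim A B r)
    (x' : HLim A' s) :
    pairing A' B r s t h (ExtLim.mapLeft B F r ξ) x' =
      pairing A B r s t h ξ (ExtLim.mapRight (triv k T) F s x') := by
  obtain ⟨i, x₁, rfl⟩ := ExtLim.exists_of (triv k T) A' s x'
  obtain ⟨l, hil, ξ₀, rfl⟩ := ExtLim.exists_of_ge A B r ξ i
  rw [← ExtLim.of_trans (triv k T) A' s hil x₁, ExtLim.mapLeft_of, ExtLim.mapRight_of, pairing_of,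
    pairing_of, Ext.comp_assoc _ _ _ (add_zero s) (zero_add r) (by omega)]

/-- Compatibility of the pairing with the connecting maps of a short exact sequence:
`(x · δ) · ξ = x · (δ · ξ)`. -/
lemma pairing_compRight_δ {A₁ A₂ A₃ : TowerModule k T} [A₁.IsCartesian] [A₂.IsCartesian]
    [A₃.IsCartesian] (S : ShortExact A₁ A₂ A₃) (B : TowerModule k T) (r s t : ℕ)
    (h : s + 1 + r = t) (ξ : ExtLim A₁ B r) (x : HLim A₃ s) :
    pairing A₁ B r (s + 1) t h ξ (ExtLim.compRight (triv k T) S.δ s (s + 1) rfl x) =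
      pairing A₃ B (1 + r) s t (by omega) (ExtLim.compLeft B S.δ r (1 + r) rfl ξ) x := by
  obtain ⟨i, x₁, rfl⟩ := ExtLim.exists_of (triv k T) A₃ s x
  obtain ⟨l, hil, ξ₀, rfl⟩ := ExtLim.exists_of_ge A₁ B r ξ i
  rw [← ExtLim.of_trans (triv k T) A₃ s hil x₁, ExtLim.compRight_of, ExtLim.compLeft_of,
    pairing_of, pairing_of, Ext.comp_assoc _ _ _ rfl rfl (by omega)]

/-- Transport of a short exact sequence of tower modules along isomorphisms. -/
def TowerModule.ShortExact.ofIso {B₁ B₂ B₃ B₁' B₂' B₃' : TowerModule k T} (S : ShortExact B₁ B₂ B₃)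
    (e₁ : B₁.Iso B₁') (e₂ : B₂.Iso B₂') (e₃ : B₃.Iso B₃') : ShortExact B₁' B₂' B₃' where
  f := (e₁.inv.comp S.f).comp e₂.hom
  g := (e₂.inv.comp S.g).comp e₃.hom
  zero j := by
    show ((e₁.inv.f j ≫ S.f.f j) ≫ e₂.hom.f j) ≫ ((e₂.inv.f j ≫ S.g.f j) ≫ e₃.hom.f j) = 0
    have h1 : e₂.hom.f j ≫ e₂.inv.f j = 𝟙 _ := e₂.hom_inv_id j
    have h2 := S.zero j
    calc ((e₁.inv.f j ≫ S.f.f j) ≫ e₂.hom.f j) ≫ ((e₂.inv.f j ≫ S.g.f j) ≫ e₃.hom.f j)
        = e₁.inv.f j ≫ S.f.f j ≫ (e₂.hom.f j ≫ e₂.inv.f j) ≫ S.g.f j ≫ e₃.hom.f j := by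
          simp only [Category.assoc]
      _ = e₁.inv.f j ≫ (S.f.f j ≫ S.g.f j) ≫ e₃.hom.f j := by
          rw [h1, Category.id_comp, Category.assoc]
      _ = 0 := by rw [h2, Limits.zero_comp, Limits.comp_zero]
  exact j := by
    refine ShortComplex.shortExact_of_iso ?_ (S.exact j)
    refine ShortComplex.isoMk
      ⟨e₁.hom.f j, e₁.inv.f j, e₁.hom_inv_id j, e₁.inv_hom_id j⟩
      ⟨e₂.hom.f j, e₂.inv.f j, e₂.hom_inv_id j, e₂.inv_hom_id j⟩
      ⟨e₃.hom.f j, e₃.inv.f j, e₃.hom_inv_id j, e₃.inv_hom_id j⟩ ?_ ?_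
    · show e₁.hom.f j ≫ ((e₁.inv.f j ≫ S.f.f j) ≫ e₂.hom.f j) = S.f.f j ≫ e₂.hom.f j
      rw [Category.assoc, ← Category.assoc, e₁.hom_inv_id j, Category.id_comp]
    · show e₂.hom.f j ≫ ((e₂.inv.f j ≫ S.g.f j) ≫ e₃.hom.f j) = S.g.f j ≫ e₃.hom.f j
      rw [Category.assoc, ← Category.assoc, e₂.hom_inv_id j, Category.id_comp]

/-- The identity isomorphism. -/
def TowerModule.Iso.refl (A : TowerModule k T) : A.Iso A :=
  ⟨Hom.id A, Hom.id A, fun _ => Category.id_comp _, fun _ => Category.id_comp _⟩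

/-- `inflB (trivial V) ≅ const T V`. -/
def inflBTrivialIso (b : T.ι) (hb : ∀ l, b ≤ l) (V : Type) [AddCommGroup V] [Module k V] :
    (inflB T b hb (Rep.trivial k (T.G b) V)).Iso (const T V) where
  hom := { f := fun l => Rep.ofHom ⟨LinearMap.id, fun _ => rfl⟩
           comm := fun _ => rfl }
  inv := { f := fun l => Rep.ofHom ⟨LinearMap.id, fun _ => rfl⟩
           comm := fun _ => rfl }
  hom_inv_id _ := rfl
  inv_hom_id _ := rfl

instance filter_isFinPTorsion (p : ℕ) {T : Tower} (A : TowerModule ℤ T) [A.IsFinPTorsion p]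
    (P : T.ι → Prop) (hne : ∃ i, P i) (hdir : ∀ i j, P i → P j → ∃ l, P l ∧ i ≤ l ∧ j ≤ l) :
    (A.filter P hne hdir).IsFinPTorsion p where
  finite i := IsFinPTorsion.finite (p := p) (A := A) i.1
  torsion i a := IsFinPTorsion.torsion (A := A) i.1 a

end General

section Reduction

variable {p : ℕ} [Fact p.Prime]

/-- **Reduction to the bottom level**: a right-nondegeneracy statement for the pairing
`ExtLim A C r × HLim A s → HLim C 2` may be checked for classes living on the bottom level of towers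
with a bottom level. -/
theorem exists_pairing_ne_zero_of_bottom (r s t : ℕ) (h : s + r = t)
    (H : ∀ (T' : Tower) (b' : T'.ι) (_ : ∀ l, b' ≤ l) (C' : TowerModule ℤ T')
      (_ : PClassFormation p T' C') (A' : TowerModule ℤ T') [A'.IsCartesian]
      [A'.IsFinPTorsion p] (y₀ : Ext ((triv ℤ T').C b') (A'.C b') s),
      ExtLim.of (triv ℤ T') A' s b' y₀ ≠ 0 →
        ∃ ξ : ExtLim A' C' r, pairing A' C' r s t h ξ (ExtLim.of (triv ℤ T') A' s b' y₀) ≠ 0)
    {T : Tower} {C : TowerModule ℤ T} (cf : PClassFormation p T C) (A : TowerModule ℤ T)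
    [A.IsCartesian] [A.IsFinPTorsion p] (y : HLim A s) (hy : y ≠ 0) :
    ∃ ξ : ExtLim A C r, pairing A C r s t h ξ y ≠ 0 := by
  obtain ⟨l, y₀, rfl⟩ := ExtLim.exists_of (triv ℤ T) A s y
  have hy' : ExtLim.of (triv ℤ (T.above l)) (A.above l) s (T.aboveBot l) y₀ ≠ 0 := by
    intro h0
    apply hy
    have := congrArg (A.aboveHEquiv l s) h0
    rw [map_zero] at this
    exact this
  obtain ⟨ξ', hξ'⟩ := H (T.above l) (T.aboveBot l) (T.aboveBot_le l) (C.above l) (cf.above l)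
    (A.above l) y₀ hy'
  refine ⟨A.aboveEquiv C l r ξ', ?_⟩
  intro h0
  apply hξ'
  apply (C.aboveHEquiv l t).injective
  rw [map_zero, aboveEquiv_pairing]
  exact h0

end Reduction

/-! ### The line spanned by a fixed vector of order `p` -/

section LineGeneral

variable {k G : Type} [CommRing k] [Group G] (M : Rep.{0} k G) {F : Type} [AddCommGroup F]
  [Module k F] (f₀ : F →ₗ[k] M.V) (hfix : ∀ g c, M.ρ g (f₀ c) = f₀ c)

/-- A linear map into the invariants as a morphism from a trivial representation. -/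
def fixedHom : Rep.trivial k G F ⟶ M :=
  Rep.ofHom ⟨f₀, fun g => by
    ext c
    exact (hfix g c).symm⟩

lemma fixedHom_apply (c : F) : (fixedHom M f₀ hfix).hom c = f₀ c := rfl

variable (v : M.V) (hv : ∀ g, M.ρ g v = v)

include hv in
lemma fixed_of_mem_span (y : M.V) (hy : y ∈ Submodule.span k {v}) (g : G) : M.ρ g y = y := by
  obtain ⟨a, rfl⟩ := Submodule.mem_span_singleton.1 hy
  rw [map_smul, hv g]

lemma fixedHom_comp_lineProj (hmem : ∀ c, f₀ c ∈ Submodule.span k {v}) :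
    fixedHom M f₀ hfix ≫ Coh.lineProj M v hv = 0 := by
  ext c
  show (Coh.lineSub M v).mkQ (f₀ c) = 0
  rw [Submodule.mkQ_apply, Submodule.Quotient.mk_eq_zero]
  exact hmem c

theorem fixed_shortExact (hmem : ∀ c, f₀ c ∈ Submodule.span k {v})
    (hinj : Function.Injective f₀) (hsurj : ∀ y ∈ Submodule.span k {v}, ∃ c, f₀ c = y) :
    (ShortComplex.mk (fixedHom M f₀ hfix) (Coh.lineProj M v hv)
      (fixedHom_comp_lineProj M f₀ hfix v hv hmem)).ShortExact := by
  refine Coh.shortExact_of_functions hinj (Submodule.mkQ_surjective _) ?_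
  intro y hy
  have hy' : (Coh.lineSub M v).mkQ y = 0 := hy
  rw [Submodule.mkQ_apply, Submodule.Quotient.mk_eq_zero] at hy'
  exact hsurj y hy'

lemma lineQuot_finite [Finite M.V] : Finite (Coh.lineQuot M v hv).V :=
  Finite.of_surjective (Coh.lineSub M v).mkQ (Submodule.mkQ_surjective _)

lemma lineQuot_torsion (p : ℕ) (hM : ∀ m : M.V, p • m = 0) (x : (Coh.lineQuot M v hv).V) :
    p • x = 0 := by
  obtain ⟨m, rfl⟩ := Submodule.mkQ_surjective (Coh.lineSub M v) x
  have h1 : p • (Coh.lineSub M v).mkQ m = 0 := by rw [← map_nsmul, hM, map_zero]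
  exact h1

end LineGeneral

/-- `𝔽_p → V`, `1 ↦ v`, as a `ℤ`-linear map for an arbitrary `ℤ`-module structure on `V`. -/
def lineLinAux {p : ℕ} {V : Type} [AddCommGroup V] [inst : Module ℤ V] (v : V) (hpv : p • v = 0) :
    ZMod p →ₗ[ℤ] V :=
  { toFun := Coh.lineAddHom v hpv
    map_add' := map_add _
    map_smul' := fun c x =>
      (map_zsmul (Coh.lineAddHom v hpv) c x).trans (int_smul_eq_zsmul inst c _).symm }

lemma lineLinAux_intCast {p : ℕ} {V : Type} [AddCommGroup V] [inst : Module ℤ V] (v : V)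
    (hpv : p • v = 0) (n : ℤ) : lineLinAux v hpv (n : ZMod p) = inst.smul n v :=
  (Coh.lineAddHom_intCast v hpv n).trans (int_smul_eq_zsmul inst n v).symm

lemma lineLinAux_mem {p : ℕ} {V : Type} [AddCommGroup V] [inst : Module ℤ V] (v : V)
    (hpv : p • v = 0) (c : ZMod p) : lineLinAux v hpv c ∈ Submodule.span ℤ {v} := by
  obtain ⟨n, rfl⟩ := ZMod.intCast_surjective c
  rw [lineLinAux_intCast]
  exact Submodule.mem_span_singleton.2 ⟨n, rfl⟩

lemma lineLinAux_surj {p : ℕ} {V : Type} [AddCommGroup V] [inst : Module ℤ V] (v : V)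
    (hpv : p • v = 0) (y : V) (hy : y ∈ Submodule.span ℤ {v}) : ∃ c, lineLinAux v hpv c = y := by
  obtain ⟨n, rfl⟩ := Submodule.mem_span_singleton.1 hy
  exact ⟨(n : ZMod p), lineLinAux_intCast v hpv n⟩

lemma lineLinAux_one {p : ℕ} {V : Type} [AddCommGroup V] [inst : Module ℤ V] (v : V)
    (hpv : p • v = 0) : lineLinAux v hpv (1 : ZMod p) = v := by
  have h := Coh.lineAddHom_intCast v hpv 1
  rw [Int.cast_one, one_zsmul] at h
  exact h


/-! ### (T1) right-nondegeneracy of `α²` -/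

section T1

variable {p : ℕ} [Fact p.Prime] {T : Tower} {C : TowerModule ℤ T}

/-- a morphism from the trivial representation `k` is determined by the image of `1` -/
lemma trivial_hom_ext {k G : Type} [CommRing k] [Group G] {M : Rep.{0} k G}
    (f g : Rep.trivial k G k ⟶ M) (h : f.hom (1 : k) = g.hom (1 : k)) : f = g := by
  apply Rep.hom_ext
  apply Representation.IntertwiningMap.ext
  exact LinearMap.ext_ring h

/-- there is a class in `ExtLim 𝔽_p C 2` with non-zero image in `H²(C)` -/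
lemma LimFormation.exists_fpToH_ne_zero (L : LimFormation p T C) :
    ∃ ζ₀ : ExtLim (FpMod p T) C 2, fpToH p C 2 ζ₀ ≠ 0 := by
  obtain ⟨z, hz, hinv⟩ := L.inv_surjective
  obtain ⟨ζ₀, hζ₀⟩ := exists_fpToH_eq 2 z hz
  refine ⟨ζ₀, ?_⟩
  rw [hζ₀]
  intro h0
  rw [h0, map_zero] at hinv
  have hp : 1 < p := (Fact.out : p.Prime).one_lt
  have h1 := (AddCircle.coe_eq_zero_iff (p := (1 : ℚ)) (x := (1 / p : ℚ))).1 hinv.symm
  obtain ⟨n, hn⟩ := h1
  rw [zsmul_eq_mul, mul_one] at hn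
  have hpq : (p : ℚ) ≠ 0 := by exact_mod_cast (Fact.out : p.Prime).ne_zero
  have h2 : (n : ℚ) * p = 1 := by rw [hn]; field_simp
  have h3 : n * (p : ℤ) = 1 := by exact_mod_cast h2
  have h4 : (p : ℤ) ∣ 1 := Dvd.intro_left n h3
  have h5 : (p : ℤ) ≤ 1 := Int.le_of_dvd one_pos h4
  omega

/-- **(T1) at the bottom level**: a non-zero class `y ∈ H⁰(A)` living on the bottom level pairs
non-trivially with some `ζ ∈ ExtLim A C 2`. -/
theorem exists_pairing_two_ne_zero_bot (b : T.ι) (hb : ∀ l, b ≤ l) (cf : PClassFormation p T C)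
    (A : TowerModule ℤ T) [A.IsCartesian] [A.IsFinPTorsion p]
    (y₀ : Ext ((triv ℤ T).C b) (A.C b) 0) (hy : ExtLim.of (triv ℤ T) A 0 b y₀ ≠ 0) :
    ∃ ζ : ExtLim A C 2, pairing A C 2 0 2 rfl ζ (ExtLim.of (triv ℤ T) A 0 b y₀) ≠ 0 := by
  obtain ⟨f₀, rfl⟩ := (Ext.mk₀_bijective _ _).2 y₀
  have hfix : ∀ g, (A.C b).ρ g (f₀.hom (1 : ℤ)) = f₀.hom (1 : ℤ) := fun g =>
    (Rep.hom_comm_apply f₀ g (1 : ℤ)).symm
  have hpa : p • f₀.hom (1 : ℤ) = 0 := IsFinPTorsion.torsion (p := p) (A := A) b _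
  have ha0 : f₀.hom (1 : ℤ) ≠ 0 := by
    intro h0
    apply hy
    have : f₀ = 0 := trivial_hom_ext f₀ 0 (h0.trans rfl)
    rw [this, Ext.mk₀_zero, map_zero]
  -- the Rep-level short exact sequence `0 → 𝔽_p → A_b → Q₀ → 0`
  have hfix' : ∀ g c, (A.C b).ρ g (lineLinAux (inst := (A.C b).hV2) (f₀.hom (1 : ℤ)) hpa c) =
      lineLinAux (inst := (A.C b).hV2) (f₀.hom (1 : ℤ)) hpa c := by
    intro g c
    exact fixed_of_mem_span (A.C b) _ hfix _
      (lineLinAux_mem (inst := (A.C b).hV2) (f₀.hom (1 : ℤ)) hpa c) g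
  have hS₀ := fixed_shortExact (A.C b) (lineLinAux (inst := (A.C b).hV2) (f₀.hom (1 : ℤ)) hpa)
    hfix' (f₀.hom (1 : ℤ)) hfix (lineLinAux_mem (inst := (A.C b).hV2) _ hpa)
    (Coh.lineAddHom_injective _ hpa ha0) (lineLinAux_surj (inst := (A.C b).hV2) _ hpa)
  have : Finite (Coh.lineQuot (A.C b) (f₀.hom (1 : ℤ)) hfix).V := lineQuot_finite _ _ hfix
  have : (inflB T b hb (Coh.lineQuot (A.C b) (f₀.hom (1 : ℤ)) hfix)).IsFinPTorsion p :=
    inflB_isFinPTorsion p hb _ (lineQuot_torsion _ _ hfix p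
      (IsFinPTorsion.torsion (p := p) (A := A) b))
  -- the tower-level short exact sequence `0 → 𝔽_p → A → Q → 0`
  let S : ShortExact (FpMod p T) A (inflB T b hb (Coh.lineQuot (A.C b) (f₀.hom (1 : ℤ)) hfix)) :=
    (inflShortExact hb hS₀).ofIso (inflBTrivialIso b hb (ZMod p)) (isoInflB hb A).symm (Iso.refl _)
  -- `y = F_* q`
  have hyq : ExtLim.of (triv ℤ T) A 0 b (Ext.mk₀ f₀) =
      ExtLim.mapRight (triv ℤ T) S.f 0 (qClass p T) := by
    rw [qClass_eq b, ExtLim.mapRight_of, Ext.mk₀_comp_mk₀]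
    congr 2
    apply trivial_hom_ext
    have h1 : (A.φ (hb b)).hom (f₀.hom (1 : ℤ)) = f₀.hom (1 : ℤ) := A.φ_refl b _
    have h2 : lineLinAux (inst := (A.C b).hV2) (f₀.hom (1 : ℤ)) hpa (((1 : ℤ) : ZMod p)) =
        f₀.hom (1 : ℤ) := by
      rw [Int.cast_one]
      exact lineLinAux_one (inst := (A.C b).hV2) _ _
    exact h1.symm.trans (congrArg (fun z => (A.φ (hb b)).hom z) h2.symm)
  -- a class `ζ₀ ∈ ExtLim 𝔽_p C 2` with non-zero image in `H²(C)`, lifted to `ζ ∈ ExtLim A C 2`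
  obtain ⟨ζ₀, hζ₀⟩ := cf.limFormation.exists_fpToH_ne_zero
  obtain ⟨ζ, hζ⟩ := S.contravariant_exact₁ C (n₀ := 2) (n₁ := 3) rfl ζ₀
    (cf.extLim_three_eq_zero _ (fun j => IsFinPTorsion.finite (p := p) j)
      (fun j => IsFinPTorsion.torsion (p := p) j) _)
  refine ⟨ζ, ?_⟩
  rw [hyq, ← pairing_mapLeft, hζ, pairing_qClass]
  exact hζ₀

/-- **(T1)** `α²` is right-nondegenerate: every non-zero `y ∈ H⁰(A)` pairs non-trivially with some
`ζ ∈ ExtLim A C 2`. -/
theorem exists_pairing_two_ne_zero (cf : PClassFormation p T C) (A : TowerModule ℤ T)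
    [A.IsCartesian] [A.IsFinPTorsion p] (y : HLim A 0) (hy : y ≠ 0) :
    ∃ ζ : ExtLim A C 2, pairing A C 2 0 2 rfl ζ y ≠ 0 :=
  exists_pairing_ne_zero_of_bottom 2 0 2 rfl
    (fun _ b' hb' _ cf' A' _ _ y₀ hy₀ => exists_pairing_two_ne_zero_bot b' hb' cf' A' y₀ hy₀)
    cf A y hy

end T1

end

end Fermat.Agent.CFT.Duality
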