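import Fermat.Agent.Lib.CFT.Duality.ExtLimPair
import Fermat.Agent.Lib.CFT.Duality.SubTower

/-!
# P4 / Layer D, D-CART : cartesian tower modules over a tower with a bottom level

For a tower `T` with a bottom level `b` (`hb : ∀ l, b ≤ l`):
* `inflB T b hb A₀` : the tower module inflated from `A₀ : Rep k (T.G b)`, cartesian;
* `inflHom`, `inflShortExact` : functoriality and exactness of `inflB`;
* `toInflB`, `ofInflB` : every cartesian tower module is isomorphic to `inflB (A.C b)`;
* morphisms of tower modules: `Hom.id`, `Hom.comp`, functoriality of `ExtLim.mapLeft/mapRight`.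
-/

set_option autoImplicit false
set_option linter.unusedSectionVars false

open CategoryTheory Abelian

namespace Fermat.Agent.CFT.Duality

noncomputable section

namespace TowerModule

variable {k : Type} [CommRing k] {T : Tower}

/-! ### Composition of morphisms of tower modules -/

/-- The identity morphism. -/
def Hom.id (A : TowerModule k T) : A.Hom A where
  f i := 𝟙 (A.C i)
  comm h := by rw [Category.comp_id, CategoryTheory.Functor.map_id, Category.id_comp]

/-- Composition of morphisms of tower modules. -/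
def Hom.comp {A B C : TowerModule k T} (f : A.Hom B) (g : B.Hom C) : A.Hom C where
  f i := f.f i ≫ g.f i
  comm h := by
    rw [← Category.assoc, f.comm h, Category.assoc, g.comm h, CategoryTheory.Functor.map_comp,
      Category.assoc]

section Functoriality

variable (A : TowerModule k T) [A.IsCartesian]

lemma ExtLim.mapRight_id (B : TowerModule k T) (r : ℕ) (x : ExtLim A B r) :
    ExtLim.mapRight A (Hom.id B) r x = x := by
  induction x using ExtLim.induction_on with
  | h j ξ =>
    rw [ExtLim.mapRight_of]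
    congr 1
    exact Ext.comp_mk₀_id ξ

lemma ExtLim.mapRight_comp {B B' B'' : TowerModule k T} (f : B.Hom B') (g : B'.Hom B'') (r : ℕ)
    (x : ExtLim A B r) :
    ExtLim.mapRight A (f.comp g) r x = ExtLim.mapRight A g r (ExtLim.mapRight A f r x) := by
  induction x using ExtLim.induction_on with
  | h j ξ =>
    rw [ExtLim.mapRight_of, ExtLim.mapRight_of, ExtLim.mapRight_of,
      Ext.comp_assoc_of_third_deg_zero, Ext.mk₀_comp_mk₀]
    rfl

variable {A}

lemma ExtLim.mapLeft_id (B : TowerModule k T) (r : ℕ) (x : ExtLim A B r) :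
    ExtLim.mapLeft B (Hom.id A) r x = x := by
  induction x using ExtLim.induction_on with
  | h j ξ =>
    rw [ExtLim.mapLeft_of]
    congr 1
    exact Ext.mk₀_id_comp ξ

lemma ExtLim.mapLeft_comp {A' A'' : TowerModule k T} [A'.IsCartesian] [A''.IsCartesian]
    (f : A''.Hom A') (g : A'.Hom A) (B : TowerModule k T) (r : ℕ) (x : ExtLim A B r) :
    ExtLim.mapLeft B (f.comp g) r x = ExtLim.mapLeft B f r (ExtLim.mapLeft B g r x) := by
  induction x using ExtLim.induction_on with
  | h j ξ =>
    rw [ExtLim.mapLeft_of, ExtLim.mapLeft_of, ExtLim.mapLeft_of,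
      ← Ext.comp_assoc (Ext.mk₀ (f.f j)) (Ext.mk₀ (g.f j)) ξ (zero_add 0) (zero_add r) (by omega),
      Ext.mk₀_comp_mk₀]
    rfl

end Functoriality

/-! ### Inflation from the bottom level -/

section Infl

variable (T) (b : T.ι) (hb : ∀ l, b ≤ l)

/-- The identity map as a morphism `res π_{ij} (res π_{bi} A₀) ⟶ res π_{bj} A₀`. -/
def inflφ (A₀ : Rep k (T.G b)) {i j : T.ι} (h : i ≤ j) :
    Rep.res (T.π h) (Rep.res (T.π (hb i)) A₀) ⟶ Rep.res (T.π (hb j)) A₀ :=
  Rep.ofHom ⟨LinearMap.id, fun g => by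
    ext x
    show A₀.ρ (T.π (hb i) (T.π h g)) x = A₀.ρ (T.π (hb j) g) x
    rw [T.π_comp]⟩

/-- The inverse of `inflφ`. -/
def inflφInv (A₀ : Rep k (T.G b)) {i j : T.ι} (h : i ≤ j) :
    Rep.res (T.π (hb j)) A₀ ⟶ Rep.res (T.π h) (Rep.res (T.π (hb i)) A₀) :=
  Rep.ofHom ⟨LinearMap.id, fun g => by
    ext x
    show A₀.ρ (T.π (hb j) g) x = A₀.ρ (T.π (hb i) (T.π h g)) x
    rw [T.π_comp]⟩

/-- The tower module inflated from a representation of the bottom group. -/
def inflB (A₀ : Rep k (T.G b)) : TowerModule k T where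
  C l := Rep.res (T.π (hb l)) A₀
  φ h := inflφ T b hb A₀ h
  φ_refl _ _ := rfl
  φ_comp _ _ _ := rfl

instance (A₀ : Rep k (T.G b)) : (inflB T b hb A₀).IsCartesian where
  isIso h := ⟨⟨inflφInv T b hb A₀ h, by ext x; rfl, by ext x; rfl⟩⟩

variable {T b}

/-- Functoriality of `inflB`. -/
def inflHom {A₀ B₀ : Rep k (T.G b)} (f : A₀ ⟶ B₀) : (inflB T b hb A₀).Hom (inflB T b hb B₀) where
  f l := (Rep.resFunctor (T.π (hb l))).map f
  comm h := by ext x; rfl

@[simp] lemma inflHom_f_hom {A₀ B₀ : Rep k (T.G b)} (f : A₀ ⟶ B₀) (l : T.ι)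
    (x : A₀) : ((inflHom hb f).f l).hom x = f.hom x := rfl

/-- Exactness of `inflB`. -/
def inflShortExact {S₀ : ShortComplex (Rep k (T.G b))} (hS₀ : S₀.ShortExact) :
    ShortExact (inflB T b hb S₀.X₁) (inflB T b hb S₀.X₂) (inflB T b hb S₀.X₃) where
  f := inflHom hb S₀.f
  g := inflHom hb S₀.g
  zero l := by
    show (Rep.resFunctor (T.π (hb l))).map S₀.f ≫ (Rep.resFunctor (T.π (hb l))).map S₀.g = 0
    rw [← CategoryTheory.Functor.map_comp, S₀.zero, CategoryTheory.Functor.map_zero]
  exact l := (Rep.shortExact_res (T.π (hb l))).2 hS₀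

variable (A : TowerModule k T) [A.IsCartesian]

/-- The inverse transition map of a cartesian tower module, elementwise. -/
def φInv {i j : T.ι} (h : i ≤ j) : A.C j ⟶ Rep.res (T.π h) (A.C i) := inv (A.φ h)

lemma φ_φInv {i j : T.ι} (h : i ≤ j) (y : A.C j) : (A.φ h).hom ((A.φInv h).hom y) = y :=
  A.φ_inv_φ h y

lemma φInv_φ {i j : T.ι} (h : i ≤ j) (x : A.C i) : (A.φInv h).hom ((A.φ h).hom x) = x :=
  A.inv_φ_φ h x

/-- A cartesian tower module is isomorphic to the inflation of its bottom level: `A → inflB (A b)`. -/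
def toInflB : A.Hom (inflB T b hb (A.C b)) where
  f l := A.φInv (hb l)
  comm {i j} h := by
    ext x
    apply A.φ_injective (hb j)
    have e1 : (A.φ (hb j)).hom ((A.φInv (hb j)).hom ((A.φ h).hom x)) = (A.φ h).hom x :=
      A.φ_φInv (hb j) _
    have e2 : (A.φ (hb j)).hom ((A.φInv (hb i)).hom x) = (A.φ h).hom x := by
      rw [← A.φ_comp (hb i) h, A.φ_φInv]
    exact e1.trans e2.symm

/-- `inflB (A b) → A`. -/
def ofInflB : (inflB T b hb (A.C b)).Hom A where
  f l := A.φ (hb l)
  comm {i j} h := by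
    ext x
    exact (A.φ_comp (hb i) h x).symm

lemma toInflB_comp_ofInflB (l : T.ι) : (toInflB hb A).f l ≫ (ofInflB hb A).f l = 𝟙 _ :=
  IsIso.inv_hom_id (A.φ (hb l))

lemma ofInflB_comp_toInflB (l : T.ι) : (ofInflB hb A).f l ≫ (toInflB hb A).f l = 𝟙 _ :=
  IsIso.hom_inv_id (A.φ (hb l))

end Infl

/-! ### Isomorphisms of tower modules and the induced isomorphisms of `ExtLim` -/

/-- An isomorphism of tower modules: a pair of mutually inverse morphisms. -/
structure Iso (A B : TowerModule k T) where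
  /-- the morphism -/
  hom : A.Hom B
  /-- its inverse -/
  inv : B.Hom A
  hom_inv_id : ∀ l, hom.f l ≫ inv.f l = 𝟙 (A.C l)
  inv_hom_id : ∀ l, inv.f l ≫ hom.f l = 𝟙 (B.C l)

/-- The inverse isomorphism. -/
def Iso.symm {A B : TowerModule k T} (e : A.Iso B) : B.Iso A :=
  ⟨e.inv, e.hom, e.inv_hom_id, e.hom_inv_id⟩

lemma Hom.ext' {A B : TowerModule k T} {f g : A.Hom B} (h : ∀ l, f.f l = g.f l) : f = g := by
  cases f; cases g
  congr
  funext l
  exact h l

lemma Iso.hom_comp_inv {A B : TowerModule k T} (e : A.Iso B) : e.hom.comp e.inv = Hom.id A :=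
  Hom.ext' e.hom_inv_id

lemma Iso.inv_comp_hom {A B : TowerModule k T} (e : A.Iso B) : e.inv.comp e.hom = Hom.id B :=
  Hom.ext' e.inv_hom_id

/-- A cartesian tower module over a tower with bottom level `b` is the inflation of its bottom
level. -/
def isoInflB {b : T.ι} (hb : ∀ l, b ≤ l) (A : TowerModule k T) [A.IsCartesian] :
    A.Iso (inflB T b hb (A.C b)) :=
  ⟨toInflB hb A, ofInflB hb A, toInflB_comp_ofInflB hb A, ofInflB_comp_toInflB hb A⟩

/-- Isomorphic second variables give isomorphic `ExtLim`. -/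
def ExtLim.congrRight (A : TowerModule k T) [A.IsCartesian] {B B' : TowerModule k T}
    (e : B.Iso B') (r : ℕ) : ExtLim A B r ≃+ ExtLim A B' r :=
  { ExtLim.mapRight A e.hom r with
    invFun := ExtLim.mapRight A e.inv r
    left_inv := fun x => by
      show ExtLim.mapRight A e.inv r (ExtLim.mapRight A e.hom r x) = x
      rw [← ExtLim.mapRight_comp, e.hom_comp_inv, ExtLim.mapRight_id]
    right_inv := fun x => by
      show ExtLim.mapRight A e.hom r (ExtLim.mapRight A e.inv r x) = x
      rw [← ExtLim.mapRight_comp, e.inv_comp_hom, ExtLim.mapRight_id] }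

@[simp] lemma ExtLim.congrRight_apply (A : TowerModule k T) [A.IsCartesian]
    {B B' : TowerModule k T} (e : B.Iso B') (r : ℕ) (x : ExtLim A B r) :
    ExtLim.congrRight A e r x = ExtLim.mapRight A e.hom r x := rfl

/-- Isomorphic first variables give isomorphic `ExtLim` (contravariantly). -/
def ExtLim.congrLeft {A A' : TowerModule k T} [A.IsCartesian] [A'.IsCartesian]
    (e : A'.Iso A) (B : TowerModule k T) (r : ℕ) : ExtLim A B r ≃+ ExtLim A' B r :=
  { ExtLim.mapLeft B e.hom r with
    invFun := ExtLim.mapLeft B e.inv r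
    left_inv := fun x => by
      show ExtLim.mapLeft B e.inv r (ExtLim.mapLeft B e.hom r x) = x
      rw [← ExtLim.mapLeft_comp, e.inv_comp_hom, ExtLim.mapLeft_id]
    right_inv := fun x => by
      show ExtLim.mapLeft B e.hom r (ExtLim.mapLeft B e.inv r x) = x
      rw [← ExtLim.mapLeft_comp, e.hom_comp_inv, ExtLim.mapLeft_id] }

@[simp] lemma ExtLim.congrLeft_apply {A A' : TowerModule k T} [A.IsCartesian] [A'.IsCartesian]
    (e : A'.Iso A) (B : TowerModule k T) (r : ℕ) (x : ExtLim A B r) :
    ExtLim.congrLeft e B r x = ExtLim.mapLeft B e.hom r x := rfl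

/-! ### Restriction to a sub-tower preserves cartesian modules -/

instance sub_isCartesian (A : TowerModule k T) [A.IsCartesian] (j : T.ι) (U : Subgroup (T.G j)) :
    (A.sub j U).IsCartesian where
  isIso {i i'} h := by
    have : IsIso (A.φ (show i.1 ≤ i'.1 from h)) := IsCartesian.isIso _
    exact Functor.map_isIso (Rep.resFunctor (T.pre i'.2 U).subtype)
      (A.φ (show i.1 ≤ i'.1 from h))

/-- Restriction of a morphism of tower modules to a sub-tower. -/
def Hom.sub {A B : TowerModule k T} (f : A.Hom B) (j : T.ι) (U : Subgroup (T.G j)) :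
    (A.sub j U).Hom (B.sub j U) where
  f i := (Rep.resFunctor (T.pre i.2 U).subtype).map (f.f i.1)
  comm {i i'} h := by
    ext x
    exact congrArg (fun g => g.hom x) (f.comm (show i.1 ≤ i'.1 from h))

/-- Restriction of a short exact sequence of tower modules to a sub-tower. -/
def ShortExact.sub {B₁ B₂ B₃ : TowerModule k T} (S : ShortExact B₁ B₂ B₃) (j : T.ι)
    (U : Subgroup (T.G j)) : ShortExact (B₁.sub j U) (B₂.sub j U) (B₃.sub j U) where
  f := S.f.sub j U
  g := S.g.sub j U
  zero i := by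
    show (Rep.resFunctor (T.pre i.2 U).subtype).map (S.f.f i.1) ≫
      (Rep.resFunctor (T.pre i.2 U).subtype).map (S.g.f i.1) = 0
    rw [← CategoryTheory.Functor.map_comp, S.zero, CategoryTheory.Functor.map_zero]
  exact i := (Rep.shortExact_res (T.pre i.2 U).subtype).2 (S.exact i.1)

end TowerModule

end

end Fermat.Agent.CFT.Duality
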