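import Fermat.Agent.Lib.CFT.Duality.PTData
import Fermat.Agent.Lib.CFT.Duality.Cartesian
import Fermat.Agent.Lib.CFT.Duality.FinPTorsion
import Fermat.Agent.Lib.CFT.Duality.Sylow
import Fermat.Agent.Lib.CFT.Duality.LimZero
import Fermat.Agent.Lib.CFT.Coh.AugRep

/-!
# P4 / Layer D, D-CL : the class group is invisible to `ExtLim A - r`

* finite direct sums and cokernels of tower modules;
* `ExtLim A Q r = 0` for a tower module `Q` with finite levels whose `p`-primary part capitulates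
  (`A` killed by `p`);
* for `d : PTData p S L₀ h₀` : `d.Jsum = ⊕_q J_q`, `d.JmodE = Jsum / E`, the short exact sequences
  `0 → E → Jsum → JmodE → 0`, `0 → JmodE → C → Cl → 0` and
  `ExtLim A JmodE r ≃ ExtLim A C r`.
-/

set_option autoImplicit false
set_option linter.unusedSectionVars false

open CategoryTheory Abelian

namespace Fermat.Agent.CFT.Duality

noncomputable section

/-! ### Cokernels in `Rep k G`, concretely -/

section RepCoker

variable {k : Type} [CommRing k] {G : Type} [Group G]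

/-- the range of a morphism of representations -/
def homRange {X Y : Rep.{0} k G} (f : X ⟶ Y) : Submodule k Y.V :=
  LinearMap.range f.hom.toLinearMap

lemma mem_homRange {X Y : Rep.{0} k G} (f : X ⟶ Y) (y : Y.V) :
    y ∈ homRange f ↔ ∃ x : X.V, f.hom x = y := Iff.rfl

lemma homRange_le_comap {X Y : Rep.{0} k G} (f : X ⟶ Y) (g : G) :
    homRange f ≤ (homRange f).comap (Y.ρ g) := by
  rintro _ ⟨x, rfl⟩
  exact ⟨X.ρ g x, Rep.hom_comm_apply f g x⟩

/-- the cokernel of a morphism of representations, as a quotient module -/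
def cokerRep {X Y : Rep.{0} k G} (f : X ⟶ Y) : Rep.{0} k G :=
  Rep.of (X := Y.V ⧸ homRange f) (Y.ρ.quotient (homRange f) (homRange_le_comap f))

/-- the projection onto the cokernel -/
def cokerProj {X Y : Rep.{0} k G} (f : X ⟶ Y) : Y ⟶ cokerRep f :=
  Rep.ofHom ⟨(homRange f).mkQ, fun _ => rfl⟩

lemma cokerProj_surjective {X Y : Rep.{0} k G} (f : X ⟶ Y) :
    Function.Surjective (cokerProj f).hom := (homRange f).mkQ_surjective

lemma cokerProj_eq_zero_iff {X Y : Rep.{0} k G} (f : X ⟶ Y) (y : Y.V) :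
    (cokerProj f).hom y = 0 ↔ ∃ x : X.V, f.hom x = y := by
  change (homRange f).mkQ y = 0 ↔ _
  rw [Submodule.mkQ_apply, Submodule.Quotient.mk_eq_zero]
  rfl

lemma comp_cokerProj {X Y : Rep.{0} k G} (f : X ⟶ Y) : f ≫ cokerProj f = 0 := by
  ext x
  exact (cokerProj_eq_zero_iff f _).2 ⟨x, rfl⟩

lemma cokerRep_shortExact {X Y : Rep.{0} k G} (f : X ⟶ Y) (hf : Function.Injective f.hom) :
    (ShortComplex.mk f (cokerProj f) (comp_cokerProj f)).ShortExact :=
  Coh.shortExact_of_functions hf (cokerProj_surjective f)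
    (fun y hy => (cokerProj_eq_zero_iff f y).1 hy)

/-- the morphism induced on the cokernel -/
def cokerDesc {X Y Z : Rep.{0} k G} (f : X ⟶ Y) (g : Y ⟶ Z) (w : f ≫ g = 0) : cokerRep f ⟶ Z :=
  Rep.ofHom ⟨(homRange f).liftQ g.hom.toLinearMap (by
      rintro _ ⟨x, rfl⟩
      exact congrArg (fun h => h.hom x) w), fun γ => by
    ext y
    exact Rep.hom_comm_apply g γ y⟩

@[simp] lemma cokerDesc_cokerProj {X Y Z : Rep.{0} k G} (f : X ⟶ Y) (g : Y ⟶ Z) (w : f ≫ g = 0)
    (y : Y.V) : (cokerDesc f g w).hom ((cokerProj f).hom y) = g.hom y := rfl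

lemma cokerProj_comp_cokerDesc {X Y Z : Rep.{0} k G} (f : X ⟶ Y) (g : Y ⟶ Z) (w : f ≫ g = 0) :
    cokerProj f ≫ cokerDesc f g w = g := by
  ext y
  rfl

lemma cokerDesc_injective {X Y Z : Rep.{0} k G} (f : X ⟶ Y) (g : Y ⟶ Z) (w : f ≫ g = 0)
    (hex : ∀ y : Y.V, g.hom y = 0 → ∃ x : X.V, f.hom x = y) :
    Function.Injective (cokerDesc f g w).hom := by
  rw [injective_iff_map_eq_zero]
  intro q hq
  obtain ⟨y, rfl⟩ := cokerProj_surjective f q
  rw [cokerDesc_cokerProj] at hq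
  exact (cokerProj_eq_zero_iff f y).2 (hex y hq)

end RepCoker

/-! ### Cokernels of tower modules -/

namespace TowerModule

variable {k : Type} [CommRing k] {T : Tower}

section Coker

variable {B B' : TowerModule k T} (f : B.Hom B')

/-- transition maps of the cokernel -/
def cokerφ {i j : T.ι} (h : i ≤ j) : Rep.res (T.π h) (cokerRep (f.f i)) ⟶ cokerRep (f.f j) :=
  Rep.ofHom ⟨Submodule.mapQ (homRange (f.f i)) (homRange (f.f j)) (B'.φ h).hom.toLinearMap (by
      rintro _ ⟨x, rfl⟩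
      exact ⟨(B.φ h).hom x, f.comm_apply h x⟩), fun g => by
    ext y
    obtain ⟨y, rfl⟩ := (homRange (f.f i)).mkQ_surjective y
    exact congrArg (homRange (f.f j)).mkQ (Rep.hom_comm_apply (B'.φ h) g y)⟩

lemma cokerφ_cokerProj {i j : T.ι} (h : i ≤ j) (y : B'.C i) :
    (cokerφ f h).hom ((cokerProj (f.f i)).hom y) = (cokerProj (f.f j)).hom ((B'.φ h).hom y) := rfl

/-- the cokernel of a morphism of tower modules -/
def coker : TowerModule k T where
  C i := cokerRep (f.f i)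
  φ h := cokerφ f h
  φ_refl i x := by
    obtain ⟨y, rfl⟩ := cokerProj_surjective (f.f i) x
    rw [cokerφ_cokerProj, B'.φ_refl]
  φ_comp h h' x := by
    obtain ⟨y, rfl⟩ := cokerProj_surjective (f.f _) x
    rw [cokerφ_cokerProj, cokerφ_cokerProj, cokerφ_cokerProj, B'.φ_comp]

/-- the projection onto the cokernel -/
def cokerHom : B'.Hom (coker f) where
  f i := cokerProj (f.f i)
  comm h := by ext y; rfl

@[simp] lemma cokerHom_f (i : T.ι) : (cokerHom f).f i = cokerProj (f.f i) := rfl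

/-- the short exact sequence `0 → B → B' → coker f → 0` for a levelwise injective `f` -/
def cokerSES (hf : ∀ j, Function.Injective (f.f j).hom) : ShortExact B B' (coker f) where
  f := f
  g := cokerHom f
  zero j := comp_cokerProj (f.f j)
  exact j := cokerRep_shortExact (f.f j) (hf j)

/-- the morphism induced on the cokernel -/
def cokerDescHom {C' : TowerModule k T} (g : B'.Hom C') (w : ∀ j, f.f j ≫ g.f j = 0) :
    (coker f).Hom C' where
  f i := cokerDesc (f.f i) (g.f i) (w i)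
  comm h := by
    ext y
    obtain ⟨y, rfl⟩ := cokerProj_surjective (f.f _) y
    exact g.comm_apply h y

@[simp] lemma cokerDescHom_f {C' : TowerModule k T} (g : B'.Hom C')
    (w : ∀ j, f.f j ≫ g.f j = 0) (i : T.ι) :
    (cokerDescHom f g w).f i = cokerDesc (f.f i) (g.f i) (w i) := rfl

lemma cokerHom_comp_cokerDescHom {C' : TowerModule k T} (g : B'.Hom C')
    (w : ∀ j, f.f j ≫ g.f j = 0) : (cokerHom f).comp (cokerDescHom f g w) = g :=
  Hom.ext' (fun i => cokerProj_comp_cokerDesc (f.f i) (g.f i) (w i))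

end Coker

/-! ### Complements on finite products of tower modules -/

section Sum

variable {Q : Type} (B : Q → TowerModule k T)

lemma pi_comp_piProj {E : TowerModule k T} (f : ∀ q, E.Hom (B q)) (q : Q) :
    (Hom.pi B f).comp (piProj B q) = f q :=
  Hom.ext' (fun _ => by ext x; rfl)

variable [Fintype Q] [DecidableEq Q]

lemma piIncl_comp_sum {C' : TowerModule k T} (g : ∀ q, (B q).Hom C') (q : Q) :
    (piIncl B q).comp (Hom.sum B g) = g q := by
  refine Hom.ext' (fun j => ?_)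
  ext y
  change ((Hom.sum B g).f j).hom (((piIncl B q).f j).hom y) = _
  rw [Hom.sum_apply, Finset.sum_eq_single q]
  · change ((g q).f j).hom ((Pi.single q y : ∀ q, ((B q).C j).V) q) = _
    rw [Pi.single_eq_same]
    rfl
  · intro q' _ h
    change ((g q').f j).hom ((Pi.single q y : ∀ q, ((B q).C j).V) q') = 0
    rw [Pi.single_eq_of_ne h, map_zero]
  · intro h
    exact absurd (Finset.mem_univ q) h

end Sum

/-! ### Vanishing and comparison -/

section Vanishing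

variable (A : TowerModule k T) [A.IsCartesian]

/-- if `ExtLim A B₃ r = 0` for all `r` then `ExtLim A B₁ r ≃ ExtLim A B₂ r` -/
theorem ShortExact.mapRight_f_bijective_of_vanishing {B₁ B₂ B₃ : TowerModule k T} (S : ShortExact B₁ B₂ B₃)
    (h0 : ∀ (r : ℕ) (x : ExtLim A B₃ r), x = 0) (r : ℕ) :
    Function.Bijective (ExtLim.mapRight A S.f r) := by
  constructor
  · rw [injective_iff_map_eq_zero]
    intro x hx
    cases r with
    | zero =>
      induction x using ExtLim.induction_on with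
      | h j ξ =>
        rw [ExtLim.mapRight_of] at hx
        obtain ⟨l, hjl, hl⟩ := ExtLim.of_eq_zero A B₂ 0 hx
        have hl' := extTrans_comp_family A (ExtFamily.ofHom S.f) (add_zero 0) hjl ξ
        rw [show (ExtFamily.ofHom S.f).c j = Ext.mk₀ (S.f.f j) from rfl] at hl'
        rw [hl'] at hl
        rw [← ExtLim.of_trans A B₁ 0 hjl ξ]
        obtain ⟨a, ha⟩ := (Ext.mk₀_bijective _ _).2 (extTrans A B₁ 0 hjl ξ)
        rw [← ha] at hl ⊢
        change (Ext.mk₀ a).comp (Ext.mk₀ (S.f.f l)) (add_zero 0) = 0 at hl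
        rw [Ext.mk₀_comp_mk₀, Ext.mk₀_eq_zero_iff] at hl
        have : Mono (S.f.f l) := (S.exact l).mono_f
        have ha0 : a = 0 := by
          rw [← cancel_mono (S.f.f l), hl, Limits.zero_comp]
        rw [ha0, Ext.mk₀_zero, map_zero]
    | succ n =>
      obtain ⟨x₃, hx₃⟩ := S.covariant_exact₁ A (rfl : n + 1 = n + 1) x hx
      rw [← hx₃, h0 n x₃, map_zero]
  · intro x₂
    exact S.covariant_exact₂ A r x₂ (h0 r _)

end Vanishing

end TowerModule

/-! ### The class group of a `PTData` -/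

namespace PTData

open TowerModule

variable {p : ℕ} [Fact p.Prime] {S : Finset Nat.Primes} {L₀ : Level} {h₀ : L₀.IsS S}
  (d : PTData p S L₀ h₀)

/-- `⊕_{q ∈ S} J_q` -/
abbrev Jsum : TowerModule ℤ (towerS S L₀ h₀) := piT d.J

/-- `E → ⊕_q J_q` -/
def eJsum : d.E.Hom d.Jsum := Hom.pi d.J d.eJ

/-- `⊕_q J_q → C` -/
def jCsum : d.Jsum.Hom d.C := Hom.sum d.J d.jC

lemma eJsum_f_hom_apply (L : (towerS S L₀ h₀).ι) (e : d.E.C L) (q : ↥S) :
    (d.eJsum.f L).hom e q = ((d.eJ q).f L).hom e := rfl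

lemma jCsum_f_hom_apply (L : (towerS S L₀ h₀).ι) (x : ∀ q, (d.J q).C L) :
    (d.jCsum.f L).hom x = ∑ q, ((d.jC q).f L).hom (x q) :=
  Hom.sum_apply d.J d.jC L x

lemma eJsum_injective (L : (towerS S L₀ h₀).ι) : Function.Injective (d.eJsum.f L).hom := by
  rw [injective_iff_map_eq_zero]
  intro e he
  exact d.eJ_injective L e (fun q => congrFun he q)

lemma eJsum_comp_jCsum (L : (towerS S L₀ h₀).ι) : d.eJsum.f L ≫ d.jCsum.f L = 0 := by
  apply Rep.hom_ext
  refine DFunLike.ext _ _ (fun e => ?_)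
  change (d.jCsum.f L).hom ((d.eJsum.f L).hom e) = 0
  rw [jCsum_f_hom_apply]
  exact (d.exact_EJC L _).2 ⟨e, fun q => rfl⟩

lemma exact_eJsum_jCsum (L : (towerS S L₀ h₀).ι) (x : (d.Jsum.C L).V)
    (hx : (d.jCsum.f L).hom x = 0) : ∃ e : (d.E.C L).V, (d.eJsum.f L).hom e = x := by
  rw [jCsum_f_hom_apply] at hx
  obtain ⟨e, he⟩ := (d.exact_EJC L x).1 hx
  exact ⟨e, funext he⟩

/-- `(⊕_q J_q) / E` -/
abbrev JmodE : TowerModule ℤ (towerS S L₀ h₀) := coker d.eJsum

/-- `0 → E → ⊕_q J_q → (⊕_q J_q)/E → 0` -/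
def sesEJ : ShortExact d.E d.Jsum d.JmodE := cokerSES d.eJsum d.eJsum_injective

/-- `(⊕_q J_q)/E → C` -/
def jmodEC : d.JmodE.Hom d.C := cokerDescHom d.eJsum d.jCsum d.eJsum_comp_jCsum

lemma sesEJ_g_comp_jmodEC : d.sesEJ.g.comp d.jmodEC = d.jCsum :=
  cokerHom_comp_cokerDescHom d.eJsum d.jCsum d.eJsum_comp_jCsum

lemma jmodEC_injective (L : (towerS S L₀ h₀).ι) : Function.Injective (d.jmodEC.f L).hom :=
  cokerDesc_injective (d.eJsum.f L) (d.jCsum.f L) (d.eJsum_comp_jCsum L) (d.exact_eJsum_jCsum L)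

/-- the `S`-class group `Cl_S = C / im(⊕_q J_q)` -/
abbrev Cl : TowerModule ℤ (towerS S L₀ h₀) := coker d.jmodEC

/-- `0 → (⊕_q J_q)/E → C → Cl_S → 0` -/
def sesCl : ShortExact d.JmodE d.C d.Cl := cokerSES d.jmodEC d.jmodEC_injective

lemma clProj_eq_zero_iff (L : (towerS S L₀ h₀).ι) (c : d.C.C L) :
    (d.sesCl.g.f L).hom c = 0 ↔ ∃ x : ∀ q, (d.J q).C L, c = ∑ q, ((d.jC q).f L).hom (x q) := by
  change (cokerProj (d.jmodEC.f L)).hom c = 0 ↔ _
  rw [cokerProj_eq_zero_iff]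
  constructor
  · rintro ⟨y, rfl⟩
    obtain ⟨x, rfl⟩ := cokerProj_surjective (d.eJsum.f L) y
    exact ⟨x, d.jCsum_f_hom_apply L x⟩
  · rintro ⟨x, rfl⟩
    exact ⟨(cokerProj (d.eJsum.f L)).hom x, d.jCsum_f_hom_apply L x⟩

lemma finite_Cl (L : (towerS S L₀ h₀).ι) : Finite (d.Cl.C L) := by
  obtain ⟨F, hF⟩ := d.cl_finite L
  refine Finite.of_surjective (fun f : F => (d.sesCl.g.f L).hom f.1) ?_
  intro y
  obtain ⟨c, rfl⟩ := cokerProj_surjective (d.jmodEC.f L) y
  obtain ⟨f, hf, x, hx⟩ := hF c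
  refine ⟨⟨f, hf⟩, ?_⟩
  change (d.sesCl.g.f L).hom f = (d.sesCl.g.f L).hom c
  rw [hx, map_add, (d.clProj_eq_zero_iff L _).2 ⟨x, rfl⟩, add_zero]

lemma Cl_capitulation (L : (towerS S L₀ h₀).ι) : ∃ L', ∃ h : L ≤ L', ∀ y : d.Cl.C L,
    (∃ n : ℕ, p ^ n • y = 0) → (d.Cl.φ h).hom y = 0 := by
  obtain ⟨L', h, hL'⟩ := d.cl_capitulation L
  refine ⟨L', h, ?_⟩
  rintro y ⟨n, hn⟩
  obtain ⟨c, rfl⟩ := cokerProj_surjective (d.jmodEC.f L) y
  have h1 : (d.sesCl.g.f L).hom (p ^ n • c) = 0 := by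
    rw [map_nsmul]
    exact hn
  obtain ⟨x, hx⟩ := (d.clProj_eq_zero_iff L _).1 h1
  obtain ⟨x', hx'⟩ := hL' c ⟨n, x, hx⟩
  change (d.sesCl.g.f L').hom ((d.C.φ h).hom c) = 0
  exact (d.clProj_eq_zero_iff L' _).2 ⟨x', hx'⟩

variable (A : TowerModule ℤ (towerS S L₀ h₀)) [A.IsCartesian]

/-- the class group is invisible to `ExtLim A - r` for `A` killed by `p` -/
theorem extLim_Cl_eq_zero (hA : ∀ j (a : A.C j), p • a = 0) (r : ℕ) (x : ExtLim A d.Cl r) :
    x = 0 := by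
  have hp : p.Prime := Fact.out
  refine ExtLim.eq_zero_of_capitulation A d.Cl r p hA (fun j => ?_) x
  obtain ⟨l, h, hl⟩ := d.Cl_capitulation j
  have : Finite (d.Cl.C j) := d.finite_Cl j
  obtain ⟨e, m, hm, hcard⟩ := Nat.exists_eq_pow_mul_and_not_dvd
    (Nat.card_pos (α := d.Cl.C j)).ne' p hp.ne_one
  refine ⟨m, l, h, ((Nat.Prime.coprime_iff_not_dvd hp).2 hm).symm, fun b => hl _ ⟨e, ?_⟩⟩
  rw [← mul_nsmul', ← hcard]
  exact card_nsmul_eq_zero' (G := (d.Cl.C j).V)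

/-- **D-CL** : `ExtLim A ((⊕_q J_q)/E) r ≃ ExtLim A C r` for `A` killed by `p` -/
theorem mapRight_jmodEC_bijective (hA : ∀ j (a : A.C j), p • a = 0) (r : ℕ) :
    Function.Bijective (ExtLim.mapRight A d.jmodEC r) :=
  d.sesCl.mapRight_f_bijective_of_vanishing A (d.extLim_Cl_eq_zero A hA) r

/-- `ExtLim A ((⊕_q J_q)/E) r ≃ ExtLim A C r` as an additive equivalence -/
def jmodECEquiv (hA : ∀ j (a : A.C j), p • a = 0) (r : ℕ) :
    ExtLim A d.JmodE r ≃+ ExtLim A d.C r :=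
  AddEquiv.ofBijective (ExtLim.mapRight A d.jmodEC r) (d.mapRight_jmodEC_bijective A hA r)

@[simp] lemma jmodECEquiv_apply (hA : ∀ j (a : A.C j), p • a = 0) (r : ℕ)
    (x : ExtLim A d.JmodE r) : d.jmodECEquiv A hA r x = ExtLim.mapRight A d.jmodEC r x := rfl

/-- the connecting map `ExtLim A C r → ExtLim A E (r+1)` of
`0 → E → ⊕_q J_q → C → Cl_S → 0` (for `A` killed by `p`) -/
def δCE (hA : ∀ j (a : A.C j), p • a = 0) (r : ℕ) : ExtLim A d.C r →+ ExtLim A d.E (r + 1) :=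
  (ExtLim.compRight A d.sesEJ.δ r (r + 1) rfl).comp (d.jmodECEquiv A hA r).symm.toAddMonoidHom

lemma δCE_apply (hA : ∀ j (a : A.C j), p • a = 0) (r : ℕ) (x : ExtLim A d.C r) :
    d.δCE A hA r x =
      ExtLim.compRight A d.sesEJ.δ r (r + 1) rfl ((d.jmodECEquiv A hA r).symm x) := rfl

lemma mapRight_jCsum_eq (r : ℕ) (y : ExtLim A d.Jsum r) :
    ExtLim.mapRight A d.jCsum r y =
      ∑ q, ExtLim.mapRight A (d.jC q) r (ExtLim.mapRight A (piProj d.J q) r y) := by
  conv_lhs => rw [← ExtLim.sum_mapRight_piProj_piIncl d.J A r y]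
  rw [map_sum]
  refine Finset.sum_congr rfl (fun q _ => ?_)
  rw [← ExtLim.mapRight_comp,
    show (piIncl d.J q).comp d.jCsum = d.jC q from piIncl_comp_sum d.J d.jC q]

lemma mapRight_eJ_eq (q : ↥S) (r : ℕ) (z : ExtLim A d.E r) :
    ExtLim.mapRight A (d.eJ q) r z =
      ExtLim.mapRight A (piProj d.J q) r (ExtLim.mapRight A d.eJsum r z) := by
  rw [← ExtLim.mapRight_comp,
    show d.eJsum.comp (piProj d.J q) = d.eJ q from pi_comp_piProj d.J d.eJ q]

/-- exactness of `⊕_q ExtLim A J_q r → ExtLim A C r → ExtLim A E (r+1)` -/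
theorem δCE_eq_zero_iff (hA : ∀ j (a : A.C j), p • a = 0) (r : ℕ) (x : ExtLim A d.C r) :
    d.δCE A hA r x = 0 ↔
      ∃ y : ∀ q, ExtLim A (d.J q) r, x = ∑ q, ExtLim.mapRight A (d.jC q) r (y q) := by
  constructor
  · intro hx
    rw [δCE_apply] at hx
    obtain ⟨x₂, hx₂⟩ := d.sesEJ.covariant_exact₃ A (rfl : r + 1 = r + 1) _ hx
    refine ⟨fun q => ExtLim.mapRight A (piProj d.J q) r x₂, ?_⟩
    rw [← d.mapRight_jCsum_eq A r x₂, ← d.sesEJ_g_comp_jmodEC, ExtLim.mapRight_comp, hx₂,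
      ← jmodECEquiv_apply d A hA r, AddEquiv.apply_symm_apply]
  · rintro ⟨y, rfl⟩
    have h1 : ∑ q, ExtLim.mapRight A (d.jC q) r (y q) =
        d.jmodECEquiv A hA r (ExtLim.mapRight A d.sesEJ.g r
          (∑ q, ExtLim.mapRight A (piIncl d.J q) r (y q))) := by
      rw [jmodECEquiv_apply, ← ExtLim.mapRight_comp, d.sesEJ_g_comp_jmodEC, map_sum]
      refine Finset.sum_congr rfl (fun q _ => ?_)
      rw [← ExtLim.mapRight_comp,
        show (piIncl d.J q).comp d.jCsum = d.jC q from piIncl_comp_sum d.J d.jC q]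
    rw [h1, δCE_apply, AddEquiv.symm_apply_apply]
    exact d.sesEJ.compRight_δ_mapRight_g A rfl _

/-- exactness of `ExtLim A C r → ExtLim A E (r+1) → ⊕_q ExtLim A J_q (r+1)` -/
theorem exists_δCE_eq_iff (hA : ∀ j (a : A.C j), p • a = 0) (r : ℕ) (z : ExtLim A d.E (r + 1)) :
    (∃ x, d.δCE A hA r x = z) ↔ ∀ q, ExtLim.mapRight A (d.eJ q) (r + 1) z = 0 := by
  constructor
  · rintro ⟨x, rfl⟩ q
    rw [d.mapRight_eJ_eq A q, δCE_apply]
    have h1 := d.sesEJ.mapRight_f_compRight_δ A (rfl : r + 1 = r + 1)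
      ((d.jmodECEquiv A hA r).symm x)
    change ExtLim.mapRight A d.eJsum (r + 1) _ = 0 at h1
    rw [h1, map_zero]
  · intro hz
    have h1 : ExtLim.mapRight A d.sesEJ.f (r + 1) z = 0 := by
      change ExtLim.mapRight A d.eJsum (r + 1) z = 0
      rw [← ExtLim.sum_mapRight_piProj_piIncl d.J A (r + 1) (ExtLim.mapRight A d.eJsum (r + 1) z)]
      refine Finset.sum_eq_zero (fun q _ => ?_)
      rw [← d.mapRight_eJ_eq A q, hz q, map_zero]
    obtain ⟨x₃, hx₃⟩ := d.sesEJ.covariant_exact₁ A (rfl : r + 1 = r + 1) z h1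
    refine ⟨d.jmodECEquiv A hA r x₃, ?_⟩
    rw [δCE_apply, AddEquiv.symm_apply_apply, hx₃]

end PTData

end

end Fermat.Agent.CFT.Duality
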