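import Mathlib

/-!
# P4 / Layer D: direct limits over cofinal subsystems

For a directed system `(G i, f)` of modules over a directed preorder `ι`, and a monotone cofinal map
`u : κ → ι` from a directed preorder `κ`, the direct limit of the pulled back system over `κ` is
isomorphic to the direct limit over `ι` (`cofinalEquiv`).
-/

set_option autoImplicit false

namespace Fermat.Agent.CFT.Duality

section

variable {R : Type*} [Ring R] {ι κ : Type*} [Preorder ι] [Preorder κ] [DecidableEq ι] [DecidableEq κ]
  (G : ι → Type*) [∀ i, AddCommGroup (G i)] [∀ i, Module R (G i)]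
  (f : ∀ i j, i ≤ j → G i →ₗ[R] G j)
  (u : κ → ι) (hu : Monotone u)

/-- The canonical map from the direct limit of the pulled back system. -/
noncomputable def cofinalMap :
    Module.DirectLimit (fun a : κ => G (u a)) (fun a b h => f (u a) (u b) (hu h)) →ₗ[R] Module.DirectLimit G f :=
  Module.DirectLimit.lift R κ (fun a : κ => G (u a)) (fun a b h => f (u a) (u b) (hu h))
    (fun a => Module.DirectLimit.of R ι G f (u a)) (fun a b h x => Module.DirectLimit.of_f)

@[simp] lemma cofinalMap_of (a : κ) (x : G (u a)) :
    cofinalMap G f u hu (Module.DirectLimit.of R κ (fun a : κ => G (u a))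
      (fun a b h => f (u a) (u b) (hu h)) a x) = Module.DirectLimit.of R ι G f (u a) x :=
  Module.DirectLimit.lift_of _ _ _

variable [IsDirectedOrder ι] [IsDirectedOrder κ] [DirectedSystem G (f · · ·)]

lemma cofinalMap_surjective (hcof : ∀ i : ι, ∃ a : κ, i ≤ u a) :
    Function.Surjective (cofinalMap G f u hu) := by
  intro z
  cases isEmpty_or_nonempty ι with
  | inl hι =>
    refine ⟨0, ?_⟩
    rw [map_zero]
    exact Subsingleton.elim _ _
  | inr hι =>
    obtain ⟨i, x, rfl⟩ := Module.DirectLimit.exists_of z
    obtain ⟨a, ha⟩ := hcof i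
    refine ⟨Module.DirectLimit.of R κ (fun a : κ => G (u a)) (fun a b h => f (u a) (u b) (hu h)) a
      (f i (u a) ha x), ?_⟩
    rw [cofinalMap_of, Module.DirectLimit.of_f]

lemma cofinalMap_injective (hcof : ∀ i : ι, ∃ a : κ, i ≤ u a) :
    Function.Injective (cofinalMap G f u hu) := by
  rw [injective_iff_map_eq_zero]
  intro z hz
  cases isEmpty_or_nonempty κ with
  | inl hκ => exact Subsingleton.elim _ _
  | inr hκ =>
    obtain ⟨a, x, rfl⟩ := Module.DirectLimit.exists_of z
    rw [cofinalMap_of] at hz
    obtain ⟨j, hj, hx⟩ := Module.DirectLimit.of.zero_exact hz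
    obtain ⟨b, hb⟩ := hcof j
    obtain ⟨c, hac, hbc⟩ := exists_ge_ge a b
    have h1 : f (u a) (u c) (hu hac) x = 0 := by
      have h2 : f (u a) (u c) (hu hac) x = f j (u c) (hb.trans (hu hbc)) (f (u a) j hj x) :=
        (DirectedSystem.map_map (f := (f · · ·)) hj (hb.trans (hu hbc)) x).symm
      rw [h2, hx, map_zero]
    rw [← Module.DirectLimit.of_f (G := fun a : κ => G (u a)) (f := fun a b h => f (u a) (u b) (hu h))
      (hij := hac), h1, map_zero]

/-- **Cofinality**: the direct limit over a cofinal subsystem. -/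
noncomputable def cofinalEquiv (hcof : ∀ i : ι, ∃ a : κ, i ≤ u a) :
    Module.DirectLimit (fun a : κ => G (u a)) (fun a b h => f (u a) (u b) (hu h)) ≃ₗ[R] Module.DirectLimit G f :=
  LinearEquiv.ofBijective (cofinalMap G f u hu)
    ⟨cofinalMap_injective G f u hu hcof, cofinalMap_surjective G f u hu hcof⟩

@[simp] lemma cofinalEquiv_of (hcof : ∀ i : ι, ∃ a : κ, i ≤ u a) (a : κ) (x : G (u a)) :
    cofinalEquiv G f u hu hcof (Module.DirectLimit.of R κ (fun a : κ => G (u a))
      (fun a b h => f (u a) (u b) (hu h)) a x) = Module.DirectLimit.of R ι G f (u a) x :=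
  cofinalMap_of G f u hu a x

end

/-! ## Mixed coefficient rings -/

section mixed

variable {R R' : Type*} [Ring R] [Ring R'] {ι κ : Type*} [Preorder ι] [Preorder κ]
  [DecidableEq ι] [DecidableEq κ] [IsDirectedOrder ι] [IsDirectedOrder κ] [Nonempty κ]
  (G : ι → Type*) [∀ i, AddCommGroup (G i)] [∀ i, Module R (G i)]
  (f : ∀ i j, i ≤ j → G i →ₗ[R] G j) [DirectedSystem G (f · · ·)]
  (G' : κ → Type*) [∀ a, AddCommGroup (G' a)] [∀ a, Module R' (G' a)]
  (f' : ∀ a b, a ≤ b → G' a →ₗ[R'] G' b) [DirectedSystem G' (f' · · ·)]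
  (u : κ → ι) (hu : Monotone u) (hcof : ∀ i : ι, ∃ a : κ, i ≤ u a)
  (e : ∀ a, G' a ≃+ G (u a))
  (he : ∀ a b (h : a ≤ b) (x : G' a), e b (f' a b h x) = f (u a) (u b) (hu h) (e a x))

/-- The comparison map between direct limits over different coefficient rings, along a monotone
map of index sets and additive isomorphisms of the terms. -/
noncomputable def mixedCofinalFun (z : Module.DirectLimit G' f') : Module.DirectLimit G f :=
  _root_.DirectLimit.lift f' (fun a x => Module.DirectLimit.of R ι G f (u a) (e a x))
    (fun a b h x => by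
      change Module.DirectLimit.of R ι G f (u a) (e a x)
        = Module.DirectLimit.of R ι G f (u b) (e b (f' a b h x))
      rw [he a b h x, Module.DirectLimit.of_f])
    (Module.DirectLimit.linearEquiv G' f' z)

include he in
lemma mixedCofinalFun_of (a : κ) (x : G' a) :
    mixedCofinalFun G f G' f' u hu e he (Module.DirectLimit.of R' κ G' f' a x)
      = Module.DirectLimit.of R ι G f (u a) (e a x) := by
  unfold mixedCofinalFun
  rw [Module.DirectLimit.linearEquiv_of]
  rfl

/-- The comparison map as an additive homomorphism. -/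
noncomputable def mixedCofinalHom : Module.DirectLimit G' f' →+ Module.DirectLimit G f where
  toFun := mixedCofinalFun G f G' f' u hu e he
  map_zero' := by
    obtain ⟨a⟩ := (inferInstance : Nonempty κ)
    have h0 : (0 : Module.DirectLimit G' f') = Module.DirectLimit.of R' κ G' f' a 0 := by
      rw [map_zero]
    rw [h0, mixedCofinalFun_of, map_zero, map_zero]
  map_add' := fun z w => by
    obtain ⟨a, x, y, rfl, rfl⟩ := Module.DirectLimit.exists_of₂ z w
    rw [← map_add, mixedCofinalFun_of, mixedCofinalFun_of, mixedCofinalFun_of, map_add,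
      map_add]

include he in
lemma mixedCofinalHom_of (a : κ) (x : G' a) :
    mixedCofinalHom G f G' f' u hu e he (Module.DirectLimit.of R' κ G' f' a x)
      = Module.DirectLimit.of R ι G f (u a) (e a x) :=
  mixedCofinalFun_of G f G' f' u hu e he a x

include hcof in
lemma mixedCofinalHom_bijective : Function.Bijective (mixedCofinalHom G f G' f' u hu e he) := by
  constructor
  · -- injective
    intro z w hzw
    obtain ⟨a, x, y, rfl, rfl⟩ := Module.DirectLimit.exists_of₂ z w
    rw [mixedCofinalHom_of, mixedCofinalHom_of] at hzw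
    obtain ⟨j, hj, hxy⟩ := Module.DirectLimit.exists_eq_of_of_eq hzw
    obtain ⟨b, hb⟩ := hcof j
    obtain ⟨c, hac, hbc⟩ := exists_ge_ge a b
    have h1 : f (u a) (u c) (hu hac) (e a x) = f (u a) (u c) (hu hac) (e a y) := by
      have hx := (DirectedSystem.map_map (f := (f · · ·)) hj (hb.trans (hu hbc)) (e a x)).symm
      have hy := (DirectedSystem.map_map (f := (f · · ·)) hj (hb.trans (hu hbc)) (e a y)).symm
      rw [hx, hy, hxy]
    rw [← he a c hac x, ← he a c hac y] at h1
    have h2 := (e c).injective h1
    rw [← Module.DirectLimit.of_f (G := G') (f := f') (hij := hac) (x := x),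
      ← Module.DirectLimit.of_f (G := G') (f := f') (hij := hac) (x := y), h2]
  · -- surjective
    intro z
    haveI : Nonempty ι := ⟨u (Classical.arbitrary κ)⟩
    obtain ⟨i, x, rfl⟩ := Module.DirectLimit.exists_of z
    obtain ⟨a, ha⟩ := hcof i
    refine ⟨Module.DirectLimit.of R' κ G' f' a ((e a).symm (f i (u a) ha x)), ?_⟩
    rw [mixedCofinalHom_of, AddEquiv.apply_symm_apply, Module.DirectLimit.of_f]

/-- **Cofinality, mixed coefficient rings.** -/
noncomputable def mixedCofinalEquiv :
    Module.DirectLimit G' f' ≃+ Module.DirectLimit G f :=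
  AddEquiv.ofBijective (mixedCofinalHom G f G' f' u hu e he)
    (mixedCofinalHom_bijective G f G' f' u hu hcof e he)

@[simp] lemma mixedCofinalEquiv_of (a : κ) (x : G' a) :
    mixedCofinalEquiv G f G' f' u hu hcof e he (Module.DirectLimit.of R' κ G' f' a x)
      = Module.DirectLimit.of R ι G f (u a) (e a x) :=
  mixedCofinalFun_of G f G' f' u hu e he a x

end mixed

end Fermat.Agent.CFT.Duality
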