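import Fermat.Agent.Lib.CFT.Duality.CoindBot
import Fermat.Agent.Lib.CFT.Duality.LimZero
import Fermat.Agent.Lib.CFT.Duality.CohLimMap

/-!
# P4 / Layer D (D-PDIV-A): coinduction of tower modules

For a tower module `B`:
* `coindT B` : levels `Fun(G_j, B_j)`, transition maps `F ↦ φ ∘ F ∘ π`;
* `etaT B : B.Hom (coindT B)`, `upT B := coindT B / B`, `upSES B : ShortExact B (coindT B) (upT B)`;
* functoriality in `B`; comparison maps for `resSub`;
* `p`-divisibility in the limit passes to `coindT B` and `upT B`.
-/

set_option autoImplicit false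
set_option linter.unusedSectionVars false

open CategoryTheory

namespace Fermat.Agent.CFT.Duality

noncomputable section

/-! ### Maps between quotient representations -/

section QuotRep

variable {k : Type} [CommRing k] {G H : Type} [Group G] [Group H]

/-- The map induced on quotient representations by an equivariant map (along a group
homomorphism) respecting the submodules. -/
def quotRepMap (f : H →* G) {X : Rep k G} {X' : Rep k H} (u : Rep.res f X ⟶ X')
    (W : Submodule k X.V) (hW : ∀ g, W ≤ W.comap (X.ρ g))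
    (W' : Submodule k X'.V) (hW' : ∀ g, W' ≤ W'.comap (X'.ρ g))
    (hu : W ≤ W'.comap u.hom.toLinearMap) :
    Rep.res f (Rep.of (X.ρ.quotient W hW)) ⟶ Rep.of (X'.ρ.quotient W' hW') :=
  Rep.ofHom ⟨Submodule.mapQ W W' u.hom.toLinearMap hu, fun g => by
    apply LinearMap.ext
    intro x
    induction x using Submodule.Quotient.induction_on with
    | H x => exact congrArg (Submodule.Quotient.mk (p := W')) (Rep.hom_comm_apply u g x)⟩

@[simp] lemma quotRepMap_mk (f : H →* G) {X : Rep k G} {X' : Rep k H} (u : Rep.res f X ⟶ X')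
    (W : Submodule k X.V) (hW : ∀ g, W ≤ W.comap (X.ρ g))
    (W' : Submodule k X'.V) (hW' : ∀ g, W' ≤ W'.comap (X'.ρ g))
    (hu : W ≤ W'.comap u.hom.toLinearMap) (x : X.V) :
    (quotRepMap f u W hW W' hW' hu).hom (Submodule.Quotient.mk (p := W) x)
      = Submodule.Quotient.mk (p := W') (u.hom x) := rfl

end QuotRep

namespace TowerModule

variable {k : Type} [CommRing k] {T : Tower}

/-- The map induced on quotient tower modules. -/
def SubFamily.mapQuot {B B' : TowerModule k T} (W : B.SubFamily) (W' : B'.SubFamily)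
    (f : B.Hom B') (hf : ∀ j, W.W j ≤ (W'.W j).comap (f.f j).hom.toLinearMap) :
    W.quotOf.Hom W'.quotOf :=
  Hom.mk' (fun j => quotRepMap (MonoidHom.id (T.G j)) (f.f j) (W.W j) (W.stable_ρ j) (W'.W j)
      (W'.stable_ρ j) (hf j))
    (fun {i j} h x => by
      induction x using Submodule.Quotient.induction_on with
      | H x => exact congrArg (Submodule.Quotient.mk (p := W'.W j)) (f.comm_apply h x))

@[simp] lemma SubFamily.mapQuot_mk {B B' : TowerModule k T} (W : B.SubFamily) (W' : B'.SubFamily)
    (f : B.Hom B') (hf : ∀ j, W.W j ≤ (W'.W j).comap (f.f j).hom.toLinearMap) (j : T.ι)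
    (x : B.C j) :
    ((W.mapQuot W' f hf).f j).hom (Submodule.Quotient.mk (p := W.W j) x)
      = Submodule.Quotient.mk (p := W'.W j) ((f.f j).hom x) := rfl

/-! ### The coinduced tower module -/

/-- The coinduced tower module: levels `Fun(G_j, B_j)`, transition maps `F ↦ φ ∘ F ∘ π`. -/
def coindT (B : TowerModule k T) : TowerModule k T where
  C j := Coh.coindBot (B.C j)
  φ {i j} h := coindBotComp (T.π h) (B.C i) ≫ coindBotMap (B.φ h)
  φ_refl i x := coindBot_ext _ fun g => by
    change (B.φ (le_refl i)).hom (x.1 (T.π (le_refl i) g)) = x.1 g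
    rw [T.π_refl, B.φ_refl]
  φ_comp {i j l} h h' x := coindBot_ext _ fun g => by
    change (B.φ h').hom ((B.φ h).hom (x.1 (T.π h (T.π h' g)))) = (B.φ (h.trans h')).hom
      (x.1 (T.π (h.trans h') g))
    rw [B.φ_comp, T.π_comp]

lemma coindT_φ_apply (B : TowerModule k T) {i j : T.ι} (h : i ≤ j) (x : (coindT B).C i)
    (g : T.G j) :
    (show Coh.coindBot (B.C j) from ((coindT B).φ h).hom x).1 g
      = (B.φ h).hom ((show Coh.coindBot (B.C i) from x).1 (T.π h g)) := rfl

/-- The unit `B → coindT B`. -/
def etaT (B : TowerModule k T) : B.Hom (coindT B) :=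
  Hom.mk' (fun j => Coh.toCoindBot (B.C j)) (fun {i j} h b => coindBot_ext _ fun g => by
    change (B.C j).ρ g ((B.φ h).hom b) = (B.φ h).hom ((B.C i).ρ (T.π h g) b)
    exact (Rep.hom_comm_apply (B.φ h) g b).symm)

lemma etaT_apply (B : TowerModule k T) (j : T.ι) (b : B.C j) (g : T.G j) :
    (show Coh.coindBot (B.C j) from ((etaT B).f j).hom b).1 g = (B.C j).ρ g b := rfl

lemma etaT_injective (B : TowerModule k T) (j : T.ι) : Function.Injective ((etaT B).f j).hom :=
  toCoindBot_injective (B.C j)

/-- `upT B := coindT B / B`. -/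
def upT (B : TowerModule k T) : TowerModule k T := (etaT B).range.quotOf

/-- The projection `coindT B → upT B`. -/
def upProj (B : TowerModule k T) : (coindT B).Hom (upT B) := (etaT B).range.proj

/-- `0 → B → coindT B → upT B → 0`. -/
def upSES (B : TowerModule k T) : ShortExact B (coindT B) (upT B) :=
  ShortExact.ofFunctions (etaT B) (upProj B) (etaT_injective B)
    (fun j => Submodule.Quotient.mk_surjective _)
    (fun j b => (Submodule.Quotient.mk_eq_zero _).2 ⟨b, rfl⟩)
    (fun j y hy => by
      obtain ⟨b, hb⟩ := (Submodule.Quotient.mk_eq_zero _).1 hy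
      exact ⟨b, hb⟩)

/-- A `k`-linear section of `coindT B → upT B` at each level: `[F] ↦ F - η (F 1)`. -/
def upSection (B : TowerModule k T) (j : T.ι) : ((upT B).C j).V →ₗ[k] ((coindT B).C j).V :=
  Submodule.liftQ _ (coindBotSec (B.C j)) (by
    rintro _ ⟨b, rfl⟩
    exact coindBotSec_toCoindBot (B.C j) b)

lemma upProj_upSection (B : TowerModule k T) (j : T.ι) (y : (upT B).C j) :
    ((upProj B).f j).hom (upSection B j y) = y := by
  have key : ∀ F : Coh.coindBot (B.C j),
      ((upProj B).f j).hom (upSection B j (Submodule.Quotient.mk F))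
        = Submodule.Quotient.mk (p := (etaT B).range.W j) F := by
    intro F
    refine (Submodule.Quotient.eq _).2 ⟨-(coindBotEv (B.C j) F), ?_⟩
    change (Coh.toCoindBot (B.C j)).hom (-(coindBotEv (B.C j) F)) = coindBotSec (B.C j) F - F
    rw [coindBotSec_apply, map_neg]
    abel
  induction y using Submodule.Quotient.induction_on with
  | H F => exact key F

/-! ### Functoriality -/

/-- Functoriality of `coindT`. -/
def coindTMap {B B' : TowerModule k T} (f : B.Hom B') : (coindT B).Hom (coindT B') :=
  Hom.mk' (fun j => coindBotMap (f.f j)) (fun {i j} h x => coindBot_ext _ fun g => by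
    change (f.f j).hom ((B.φ h).hom ((show Coh.coindBot (B.C i) from x).1 (T.π h g)))
      = (B'.φ h).hom ((f.f i).hom ((show Coh.coindBot (B.C i) from x).1 (T.π h g)))
    exact f.comm_apply h _)

lemma etaT_comp_coindTMap {B B' : TowerModule k T} (f : B.Hom B') (j : T.ι) (b : B.C j) :
    ((coindTMap f).f j).hom (((etaT B).f j).hom b) = ((etaT B').f j).hom ((f.f j).hom b) :=
  coindBot_ext _ fun g => Rep.hom_comm_apply (f.f j) g b

/-- Functoriality of `upT`. -/
def upTMap {B B' : TowerModule k T} (f : B.Hom B') : (upT B).Hom (upT B') :=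
  (etaT B).range.mapQuot (etaT B').range (coindTMap f) (fun j => by
    rintro _ ⟨b, rfl⟩
    exact ⟨(f.f j).hom b, (etaT_comp_coindTMap f j b).symm⟩)

lemma upProj_comp_upTMap {B B' : TowerModule k T} (f : B.Hom B') (j : T.ι) (x : (coindT B).C j) :
    ((upTMap f).f j).hom (((upProj B).f j).hom x)
      = ((upProj B').f j).hom (((coindTMap f).f j).hom x) := rfl

/-! ### `p`-divisibility in the limit -/

lemma IsPDiv.of_surjective {p : ℕ} {B B' : TowerModule k T} (hB : B.IsPDiv p) (f : B.Hom B')
    (hf : ∀ j, Function.Surjective (f.f j).hom) : B'.IsPDiv p := by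
  intro j b'
  obtain ⟨b, rfl⟩ := hf j b'
  obtain ⟨j', h, c, hc⟩ := hB j b
  refine ⟨j', h, (f.f j').hom c, ?_⟩
  rw [← map_nsmul, hc, f.comm_apply]

lemma IsPDiv.coindT {p : ℕ} {B : TowerModule k T} (hB : B.IsPDiv p) : (coindT B).IsPDiv p := by
  classical
  intro j F
  haveI : Fintype (T.G j) := Fintype.ofFinite _
  obtain ⟨j', h, hΦ⟩ := hB.exists_finset j
    (Finset.univ.image (fun g : T.G j => (show Coh.coindBot (B.C j) from F).1 g))
  choose! c hc using hΦ
  refine ⟨j', h, coindBotMk (B.C j') (fun g' =>
    c ((show Coh.coindBot (B.C j) from F).1 (T.π h g'))), ?_⟩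
  refine coindBot_ext _ fun g' => ?_
  change p • c ((show Coh.coindBot (B.C j) from F).1 (T.π h g'))
    = (B.φ h).hom ((show Coh.coindBot (B.C j) from F).1 (T.π h g'))
  exact hc _ (Finset.mem_image_of_mem _ (Finset.mem_univ _))

lemma IsPDiv.upT {p : ℕ} {B : TowerModule k T} (hB : B.IsPDiv p) : (upT B).IsPDiv p :=
  hB.coindT.of_surjective (upProj B) (fun j => Submodule.Quotient.mk_surjective _)

/-! ### Comparison with restriction to subgroups and to a set of levels -/

section Compare

variable (B : TowerModule k T) (D : T.SubgroupFamily)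

/-- Restriction of functions to the subgroups: `(coindT B)|_D → coindT (B|_D)`. -/
def coindTResSub : ((coindT B).resSub D).Hom (coindT (B.resSub D)) :=
  Hom.mk' (fun j => coindBotComp (D.D j).subtype (B.C j)) (fun {i j} h x =>
    coindBot_ext _ fun g => rfl)

lemma etaT_resSub_comp_coindTResSub (j : T.ι) (b : B.C j) :
    ((coindTResSub B D).f j).hom ((((etaT B).resSub D).f j).hom b)
      = ((etaT (B.resSub D)).f j).hom b :=
  coindBot_ext _ fun g => rfl

/-- The induced comparison `(upT B)|_D → upT (B|_D)`. -/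
def upTResSub : ((upT B).resSub D).Hom (upT (B.resSub D)) :=
  Hom.mk' (fun j => quotRepMap (D.D j).subtype (coindBotComp (D.D j).subtype (B.C j))
      ((etaT B).range.W j) ((etaT B).range.stable_ρ j) ((etaT (B.resSub D)).range.W j)
      ((etaT (B.resSub D)).range.stable_ρ j) (by
        rintro _ ⟨b, rfl⟩
        exact ⟨b, (etaT_resSub_comp_coindTResSub B D j b).symm⟩))
    (fun {i j} h x => by
      induction x using Submodule.Quotient.induction_on with
      | H x =>
        exact congrArg (Submodule.Quotient.mk (p := (etaT (B.resSub D)).range.W j))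
          ((coindTResSub B D).comm_apply h x))

lemma upProj_resSub_comp_upTResSub (j : T.ι) (x : (coindT B).C j) :
    ((upTResSub B D).f j).hom ((((upProj B).resSub D).f j).hom x)
      = ((upProj (B.resSub D)).f j).hom (((coindTResSub B D).f j).hom x) := rfl

variable (P : T.ι → Prop) (hne : ∃ i, P i) (hdir : ∀ i j, P i → P j → ∃ l, P l ∧ i ≤ l ∧ j ≤ l)

lemma coindT_filter : (coindT B).filter P hne hdir = coindT (B.filter P hne hdir) := rfl

lemma upT_filter : (upT B).filter P hne hdir = upT (B.filter P hne hdir) := rfl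

lemma etaT_filter : (etaT B).filter P hne hdir = etaT (B.filter P hne hdir) := rfl

lemma upProj_filter : (upProj B).filter P hne hdir = upProj (B.filter P hne hdir) := rfl

end Compare

end TowerModule

end

end Fermat.Agent.CFT.Duality
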