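import Fermat.Agent.Lib.CFT.Duality.SubTower
import Fermat.Agent.Lib.CFT.Duality.ExtShapiro
import Fermat.Agent.Lib.CFT.Duality.ExtLimSeq

/-!
# P4 / Layer D, D-IND : coinduced tower modules

* `coindTrans π πU hπU ψ : res_π (coind_U^G X) ⟶ coind_{U'}^{G'} X'`, `f ↦ (g ↦ ψ (f (π g)))`, for
  `π : G' →* G` mapping `U' ≤ G'` to `U ≤ G`; it is an isomorphism if `π` is surjective,
  `U' = π⁻¹ U` and `ψ` is an isomorphism (`coindTrans_isIso`).
* For a tower `T` with a bottom level `j0` (`hbot : ∀ i, j0 ≤ i`), `U ≤ T.G j0` and a module `X` over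
  the sub-tower `T.sub j0 U`: `X.coindUp j0 hbot U : TowerModule k T`, with levels
  `coind_{U_i}^{G_i} X_i` (`U_i` the preimage of `U`); it is cartesian if `X` is.
* `coindUpHom` (functoriality), `coindUpUnit A : A → coindUp (A|U)` (levelwise injective).
-/

set_option autoImplicit false
set_option linter.unusedSectionVars false

open CategoryTheory Abelian Rep Representation

namespace Fermat.Agent.CFT.Duality

noncomputable section

section Generic

variable {k : Type} [CommRing k] {G G' : Type} [Group G] [Group G'] (π : G' →* G)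
  {U : Subgroup G} {U' : Subgroup G'} (πU : U' →* U) (hπU : ∀ x : U', (πU x : G) = π x)
  {X : Rep.{0} k U} {X' : Rep.{0} k U'} (ψ : Rep.res πU X ⟶ X')

/-- The underlying linear map of `coindTrans`. -/
def coindTransLin : (Rep.coind U.subtype X).V →ₗ[k] (Rep.coind U'.subtype X').V :=
  LinearMap.codRestrict (Representation.coindV U'.subtype X'.ρ)
    (LinearMap.pi fun g : G' => ψ.hom.toLinearMap ∘ₗ LinearMap.proj (π g) ∘ₗ
      (Representation.coindV U.subtype X.ρ).subtype)
    (fun f u' g => by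
      simp only [LinearMap.pi_apply, LinearMap.comp_apply, Submodule.subtype_apply,
        LinearMap.proj_apply]
      have h1 : π (U'.subtype u' * g) = U.subtype (πU u') * π g := by
        rw [map_mul]
        congr 1
        exact (hπU u').symm
      rw [h1, f.2 (πU u') (π g)]
      exact Rep.hom_comm_apply ψ u' (f.1 (π g)))

/-- The transition map of coinduced modules: for `π : G' → G` mapping `U'` to `U` and
`ψ : X → X'`, the map `coind_U^G X → coind_{U'}^{G'} X'`, `f ↦ (g ↦ ψ (f (π g)))`. -/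
def coindTrans : Rep.res π (Rep.coind U.subtype X) ⟶ Rep.coind U'.subtype X' :=
  Rep.ofHom ⟨coindTransLin π πU hπU ψ, fun g => by
    ext f x
    change ψ.hom (f.1 (π x * π g)) = ψ.hom (f.1 (π (x * g)))
    rw [map_mul]⟩

theorem coindTrans_apply (f : (Rep.coind U.subtype X).V) (g : G') :
    ((coindTrans π πU hπU ψ).hom f).1 g = ψ.hom (f.1 (π g)) := rfl

/-- A bijective morphism of representations is an isomorphism. -/
theorem rep_isIso_of_bij {H : Type} [Monoid H] {A B : Rep.{0} k H} (f : A ⟶ B)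
    (hf : Function.Bijective f.hom) : IsIso f := by
  have : IsIso ((forget (Rep k H)).map f) := (isIso_iff_bijective _).2 hf
  exact isIso_of_reflects_iso f (forget (Rep k H))

theorem coindTrans_injective (hπ : Function.Surjective π) (hψ : Function.Injective ψ.hom) :
    Function.Injective (coindTrans π πU hπU ψ).hom := by
  intro f f' hff'
  apply Subtype.ext
  funext g
  obtain ⟨g', rfl⟩ := hπ g
  apply hψ
  have := congrArg (fun F => F.1 g') hff'
  exact this

theorem coindTrans_surjective (hπ : Function.Surjective π)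
    (hU' : ∀ x : G', π x ∈ U → x ∈ U') (hψ : Function.Bijective ψ.hom) :
    Function.Surjective (coindTrans π πU hπU ψ).hom := by
  intro F
  -- the kernel of `π` acts trivially on `X'`
  have hker : ∀ (n : U') (y : X'), π n = 1 → X'.ρ n y = y := by
    intro n y hn
    obtain ⟨x, rfl⟩ := hψ.2 y
    have h1 := Rep.hom_comm_apply ψ n x
    rw [← h1]
    congr 1
    have h2 : πU n = 1 := Subtype.ext ((hπU n).trans hn)
    change X.ρ (πU n) x = x
    rw [h2, map_one]
    rfl
  -- `F` is constant on the cosets of the kernel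
  have hF : ∀ g g' : G', π g = π g' → F.1 g = F.1 g' := by
    intro g g' hgg'
    have hn : π (g * g'⁻¹) = 1 := by rw [map_mul, map_inv, hgg', mul_inv_cancel]
    have hnU : g * g'⁻¹ ∈ U' := hU' _ (by rw [hn]; exact U.one_mem)
    have h1 := F.2 ⟨g * g'⁻¹, hnU⟩ g'
    have h2 : U'.subtype ⟨g * g'⁻¹, hnU⟩ * g' = g := by simp
    rw [h2] at h1
    rw [h1]
    exact hker ⟨g * g'⁻¹, hnU⟩ _ hn
  let e := LinearEquiv.ofBijective ψ.hom.toLinearMap hψ
  have he : ∀ y, ψ.hom (e.symm y) = y := fun y => e.apply_symm_apply y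
  have hmem : (fun g : G => e.symm (F.1 (Function.surjInv hπ g))) ∈
      Representation.coindV U.subtype X.ρ := by
    intro u g
    apply hψ.1
    change ψ.hom (e.symm _) = ψ.hom (X.ρ u (e.symm _))
    rw [he]
    obtain ⟨u', hu'⟩ := hπ u
    have hu'U : u' ∈ U' := hU' _ (by rw [hu']; exact u.2)
    have h3 : πU ⟨u', hu'U⟩ = u := Subtype.ext ((hπU _).trans hu')
    have h4 : ψ.hom (X.ρ u (e.symm (F.1 (Function.surjInv hπ g)))) =
        X'.ρ ⟨u', hu'U⟩ (F.1 (Function.surjInv hπ g)) := by
      have := Rep.hom_comm_apply ψ ⟨u', hu'U⟩ (e.symm (F.1 (Function.surjInv hπ g)))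
      rw [he] at this
      rw [← this, ← h3]
      rfl
    rw [h4, ← F.2 ⟨u', hu'U⟩ (Function.surjInv hπ g)]
    apply hF
    rw [Function.surjInv_eq hπ, map_mul, Function.surjInv_eq hπ]
    congr 1
    exact hu'.symm
  refine ⟨⟨_, hmem⟩, ?_⟩
  apply Subtype.ext
  funext g'
  rw [coindTrans_apply]
  change ψ.hom (e.symm _) = _
  rw [he]
  apply hF
  exact Function.surjInv_eq hπ _

theorem coindTrans_isIso (hπ : Function.Surjective π)
    (hU' : ∀ x : G', π x ∈ U → x ∈ U') [IsIso ψ] : IsIso (coindTrans π πU hπU ψ) := by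
  have hψ : Function.Bijective ψ.hom := by
    have : IsIso ((forget (Rep k U')).map ψ) := inferInstance
    exact (isIso_iff_bijective _).1 this
  exact rep_isIso_of_bij _
    ⟨coindTrans_injective π πU hπU ψ hπ hψ.1, coindTrans_surjective π πU hπU ψ hπ hU' hψ⟩

end Generic

namespace TowerModule

variable {k : Type} [CommRing k] {T : Tower} (j0 : T.ι) (hbot : ∀ i, j0 ≤ i)
  (U : Subgroup (T.G j0))

/-- The coinduction of a module over the sub-tower `T.sub j0 U` (`j0` a bottom level) to `T`: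
at level `i` it is `coind_{U_i}^{G_i} X_i`, `U_i` the preimage of `U`. -/
def coindUp (X : TowerModule k (T.sub j0 U)) : TowerModule k T where
  C i := Rep.coind (T.pre (hbot i) U).subtype (X.C ⟨i, hbot i⟩)
  φ {i j} h := coindTrans (T.π h) (T.subπ j0 U (hbot i) (hbot j) h) (fun _ => rfl)
    (X.φ (i := ⟨i, hbot i⟩) (j := ⟨j, hbot j⟩) h)
  φ_refl i f := by
    apply Subtype.ext
    funext g
    rw [coindTrans_apply, X.φ_refl, T.π_refl]
  φ_comp {i j l} h h' f := by
    apply Subtype.ext
    funext g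
    rw [coindTrans_apply, coindTrans_apply, coindTrans_apply, T.π_comp]
    exact X.φ_comp (show (⟨i, hbot i⟩ : (T.sub j0 U).ι) ≤ ⟨j, hbot j⟩ from h)
      (show (⟨j, hbot j⟩ : (T.sub j0 U).ι) ≤ ⟨l, hbot l⟩ from h') _

theorem coindUp_φ_apply (X : TowerModule k (T.sub j0 U)) {i j : T.ι} (h : i ≤ j)
    (f : ((X.coindUp j0 hbot U).C i).V) (g : T.G j) :
    (((X.coindUp j0 hbot U).φ h).hom f).1 g =
      (X.φ (i := ⟨i, hbot i⟩) (j := ⟨j, hbot j⟩) h).hom (f.1 (T.π h g)) := rfl

instance coindUp_isCartesian (X : TowerModule k (T.sub j0 U)) [X.IsCartesian] :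
    (X.coindUp j0 hbot U).IsCartesian :=
  ⟨fun {i j} h => by
    have : IsIso (X.φ (i := ⟨i, hbot i⟩) (j := ⟨j, hbot j⟩) h) :=
      IsCartesian.isIso (A := X) (i := ⟨i, hbot i⟩) (j := ⟨j, hbot j⟩) h
    exact coindTrans_isIso (T.π h) (T.subπ j0 U (hbot i) (hbot j) h) (fun _ => rfl)
      (X.φ (i := ⟨i, hbot i⟩) (j := ⟨j, hbot j⟩) h) (T.π_surjective h) (fun x hx => by
        show T.π (hbot j) x ∈ U
        rw [← T.π_comp (hbot i) h]
        exact hx)⟩

/-- Functoriality of `coindUp`. -/
def coindUpHom {X Y : TowerModule k (T.sub j0 U)} (f : X.Hom Y) :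
    (X.coindUp j0 hbot U).Hom (Y.coindUp j0 hbot U) where
  f i := (Rep.coindFunctor k (T.pre (hbot i) U).subtype).map (f.f ⟨i, hbot i⟩)
  comm {i j} h := by
    ext F
    apply Subtype.ext
    funext g
    have := congrArg (fun φ => φ.hom (F.1 (T.π h g)))
      (f.comm (i := ⟨i, hbot i⟩) (j := ⟨j, hbot j⟩) h)
    exact this

theorem coindUpHom_f_apply {X Y : TowerModule k (T.sub j0 U)} (f : X.Hom Y) (i : T.ι)
    (F : ((X.coindUp j0 hbot U).C i).V) (g : T.G i) :
    (((coindUpHom j0 hbot U f).f i).hom F).1 g = (f.f ⟨i, hbot i⟩).hom (F.1 g) := rfl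

/-- The unit `A → coindUp (A|U)`, `a ↦ (g ↦ g • a)`. -/
def coindUpUnit (A : TowerModule k T) : A.Hom ((A.sub j0 U).coindUp j0 hbot U) where
  f i := Coh.coindUnit (A.C i) (T.pre (hbot i) U)
  comm {i j} h := by
    ext a
    apply Subtype.ext
    funext g
    change (A.C j).ρ g ((A.φ h).hom a) = (A.φ h).hom ((A.C i).ρ (T.π h g) a)
    exact (Rep.hom_comm_apply (A.φ h) g a).symm

theorem coindUpUnit_f_apply (A : TowerModule k T) (i : T.ι) (a : A.C i) (g : T.G i) :
    (((coindUpUnit j0 hbot U A).f i).hom a).1 g = (A.C i).ρ g a := rfl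

theorem coindUpUnit_injective (A : TowerModule k T) (i : T.ι) :
    Function.Injective ((coindUpUnit j0 hbot U A).f i).hom := by
  intro a b hab
  have := congrArg (fun F => F.1 1) hab
  simpa [coindUpUnit_f_apply] using this

end TowerModule

end

end Fermat.Agent.CFT.Duality
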