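/-
P4 / Layer D, task D-NIB (+ COUNT): the norm index bound for the exponent-`p` layer of the existence
theorem and the resulting count `|C_{j₀} / p| ≤ |Hom(ker(G_k → G_{j₀}), 𝔽_p)|`.
-/
import Fermat.Agent.Lib.CFT.Coh.NormBound
import Fermat.Agent.Lib.CFT.Coh.TateH3Torsion
import Fermat.Agent.Lib.CFT.Coh.RelRes
import Fermat.Agent.Lib.CFT.Duality.Tower
import Fermat.Agent.Lib.CFT.Duality.FinDual

set_option autoImplicit false
set_option linter.unusedSectionVars false
set_option linter.style.haveILetI false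

open CategoryTheory

namespace Fermat.Agent.CFT.Duality

open TowerModule Fermat.Agent.CFT.Coh

section ElemAb

/-- a finite abelian group of exponent `p` has at most `|Hom(A, 𝔽_p)|` elements -/
theorem card_le_card_hom_zmod (p : ℕ) [Fact p.Prime] (A : Type) [Group A] [Finite A]
    (hpow : ∀ a : A, a ^ p = 1) (hcomm : ∀ a b : A, a * b = b * a) :
    Nat.card A ≤ Nat.card (Additive A →+ ZMod p) := by
  letI : CommGroup A := { (inferInstance : Group A) with mul_comm := hcomm }
  letI : Module (ZMod p) (Additive A) := AddCommGroup.zmodModule (n := p) (fun x => by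
    change Additive.ofMul (x.toMul ^ p) = 0
    rw [hpow]
    rfl)
  haveI : Finite (Additive A) := ‹Finite A›
  exact (card_addMonoidHom_zmod p (Additive A)).symm.le

/-- `|Hom(N/V, 𝔽_p)| ≤ |Hom(N, 𝔽_p)|` -/
theorem card_hom_quotient_le (p : ℕ) [Fact p.Prime] {N : Type} [Group N] [Finite N]
    (V : Subgroup N) [V.Normal] :
    Nat.card (Additive (N ⧸ V) →+ ZMod p) ≤ Nat.card (Additive N →+ ZMod p) := by
  haveI : Finite (Additive N) := ‹Finite N›
  haveI : Finite (Additive N →+ ZMod p) := DFunLike.finite _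
  apply Nat.card_le_card_of_injective
    (fun l : Additive (N ⧸ V) →+ ZMod p => l.comp (MonoidHom.toAdditive (QuotientGroup.mk' V)))
  intro l l' hll
  apply AddMonoidHom.ext
  intro x
  obtain ⟨y, hy⟩ := QuotientGroup.mk'_surjective V x.toMul
  have := DFunLike.congr_fun hll (Additive.ofMul y)
  have hx : x = (MonoidHom.toAdditive (QuotientGroup.mk' V)) (Additive.ofMul y) := by
    change x = Additive.ofMul ((QuotientGroup.mk' V) y)
    rw [hy]
    rfl
  rw [hx]
  exact this

end ElemAb

section Form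

variable {T : Tower} {p : ℕ} [Fact p.Prime] {C : TowerModule ℤ T}

/-- `H¹(U, C_k) = 0` for `p`-subgroups `U` -/
theorem PClassFormation.h1_pGroup (cf : PClassFormation p T C) (k : T.ι) (U : Subgroup (T.G k))
    (hU : IsPGroup p U) (x : groupCohomology (C.atSub k U) 1) : x = 0 := by
  obtain ⟨a, ha⟩ := IsPGroup.iff_card.1 hU
  have h0 : p ^ a • x = 0 := by
    rw [← ha]
    exact card_nsmul_cohomology_eq_zero (C.C k) U 0 x
  clear ha
  induction a generalizing x with
  | zero => simpa using h0
  | succ a ih =>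
    apply cf.h1 k U x
    apply ih (p • x)
    rw [← mul_smul, ← pow_succ]
    exact h0

/-- `inv` is injective on `H²(U, C_k)` for `p`-subgroups `U` -/
theorem PClassFormation.inv_injective_pGroup (cf : PClassFormation p T C) (k : T.ι)
    (U : Subgroup (T.G k)) (hU : IsPGroup p U) : Function.Injective (cf.inv k U) := by
  rw [injective_iff_map_eq_zero]
  intro x hx
  obtain ⟨a, ha⟩ := IsPGroup.iff_card.1 hU
  have h0 : p ^ a • x = 0 := by
    rw [← ha]
    exact card_nsmul_cohomology_eq_zero (C.C k) U 1 x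
  clear ha
  induction a generalizing x with
  | zero => simpa using h0
  | succ a ih =>
    apply cf.inv_injective k U x _ hx
    apply ih (p • x)
    · rw [map_nsmul, hx, smul_zero]
    · rw [← mul_smul, ← pow_succ]
      exact h0

/-- the formation hypothesis (`H¹ = 0`, `H² ↪ ℚ/ℤ` on all subgroups) for `p`-groups mapping
injectively to a level of the tower -/
theorem PClassFormation.formHyp (cf : PClassFormation p T C) (k : T.ι) {L : Type} [Group L]
    [Finite L] (hL : IsPGroup p L) (g : L →* T.G k) (hg : Function.Injective g) :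
    FormHyp (Rep.res g (C.C k)) := by
  intro L' _ _ f hf E hE
  subst hE
  have hgf : Function.Injective (g.comp f) := hg.comp hf
  have hL' : IsPGroup p L' := IsPGroup.of_injective hL f hf
  have hU : IsPGroup p (g.comp f).range :=
    hL'.of_surjective (g.comp f).rangeRestrict (g.comp f).rangeRestrict_surjective
  refine ⟨?_, ?_⟩
  · haveI : Subsingleton (groupCohomology (C.atSub k (g.comp f).range) 1) :=
      ⟨fun x y => by rw [cf.h1_pGroup k _ hU x, cf.h1_pGroup k _ hU y]⟩
    exact Limits.IsZero.of_iso (ModuleCat.isZero_of_subsingleton _) (rangeIso (C.C k) (g.comp f) hgf 1)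
  · refine ⟨(cf.inv k (g.comp f).range).comp
      (rangeIso (C.C k) (g.comp f) hgf 2).hom.hom.toAddMonoidHom, ?_⟩
    have h1 : Function.Bijective (rangeIso (C.C k) (g.comp f) hgf 2).hom :=
      ConcreteCategory.bijective_of_isIso _
    exact (cf.inv_injective_pGroup k _ hU).comp h1.1

end Form

section Main

variable {T : Tower} {p : ℕ} [Fact p.Prime] {C : TowerModule ℤ T}

/-- **norm index bound**: for `N ≤ G_k` and `V₀ ◁ N` of `p`-power index, the `N`-invariants of
`C_k` are covered by at most `[N : V₀]` classes modulo norms of `V₀`-invariants -/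
theorem PClassFormation.normBound_sub (cf : PClassFormation p T C) (k : T.ι)
    (N : Subgroup (T.G k)) (V₀ : Subgroup N) [V₀.Normal] (hV : ∃ r, V₀.index = p ^ r) :
    NormBound (Rep.res N.subtype (C.C k)) V₀ V₀.index := by
  classical
  obtain ⟨P₀⟩ : Nonempty (Sylow p N) := inferInstance
  have hP : IsPGroup p (P₀ : Subgroup N) := P₀.isPGroup'
  haveI : (V₀.subgroupOf (P₀ : Subgroup N)).Normal := Subgroup.normal_subgroupOf
  have hform : FormHyp (Rep.res (P₀ : Subgroup N).subtype (Rep.res N.subtype (C.C k))) :=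
    cf.formHyp k hP (N.subtype.comp (P₀ : Subgroup N).subtype)
      (N.subtype_injective.comp (Subgroup.subtype_injective _))
  have h1 := normBound_of_formHyp p hP _ hform (V₀.subgroupOf (P₀ : Subgroup N))
  have h2 := NormBound.of_sylow p (Rep.res N.subtype (C.C k)) V₀ hV P₀ h1
  exact h2.mono _ _ (Nat.le_of_dvd (Nat.pos_of_ne_zero Subgroup.index_ne_zero_of_finite)
    (Subgroup.relIndex_dvd_index_of_normal V₀ (P₀ : Subgroup N)))

/-- **D-NIB + COUNT**: `|C_{j₀} / p| ≤ |Hom(ker(G_k → G_{j₀}), 𝔽_p)|` for a suitable level `k` -/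
theorem PClassFormation.exists_card_modP_le (cf : PClassFormation p T C) (ex : PExistence p T C)
    (j₀ : T.ι) : ∃ (k : T.ι) (h : j₀ ≤ k),
      Nat.card (Additive ↥(T.π h).ker →+ ZMod p) ≥
        Nat.card ((C.C j₀) ⧸ (AddMonoidHom.range (nsmulAddMonoidHom (α := (C.C j₀)) p))) ∧
      Finite ((C.C j₀) ⧸ AddMonoidHom.range (nsmulAddMonoidHom (α := (C.C j₀)) p)) := by
  classical
  obtain ⟨k, h, V, hVN, hnorm, hpow, hcomm, hex⟩ := ex.existence' j₀
  refine ⟨k, h, ?_⟩
  haveI : (V.subgroupOf (T.π h).ker).Normal := hnorm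
  -- `N / V` is abelian of exponent `p`
  have hpowQ : ∀ a : (T.π h).ker ⧸ V.subgroupOf (T.π h).ker, a ^ p = 1 := by
    intro a
    obtain ⟨g, rfl⟩ := QuotientGroup.mk_surjective a
    rw [← QuotientGroup.mk_pow, QuotientGroup.eq_one_iff]
    exact Subgroup.mem_subgroupOf.2 (hpow g.1 g.2)
  have hcommQ : ∀ a b : (T.π h).ker ⧸ V.subgroupOf (T.π h).ker, a * b = b * a := by
    intro a b
    obtain ⟨g, rfl⟩ := QuotientGroup.mk_surjective a
    obtain ⟨g', rfl⟩ := QuotientGroup.mk_surjective b
    rw [← QuotientGroup.mk_mul, ← QuotientGroup.mk_mul, QuotientGroup.eq]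
    refine Subgroup.mem_subgroupOf.2 ?_
    have := hcomm g'.1⁻¹ (inv_mem g'.2) g.1⁻¹ (inv_mem g.2)
    simpa [mul_assoc] using this
  have hVidx : ∃ r, (V.subgroupOf (T.π h).ker).index = p ^ r := by
    have hQ : IsPGroup p ((T.π h).ker ⧸ V.subgroupOf (T.π h).ker) :=
      fun a => ⟨1, by rw [pow_one]; exact hpowQ a⟩
    obtain ⟨r, hr⟩ := IsPGroup.iff_card.1 hQ
    exact ⟨r, by rw [Subgroup.index_eq_card]; exact hr⟩
  obtain ⟨F, hF, H⟩ := cf.normBound_sub k (T.π h).ker (V.subgroupOf (T.π h).ker) hVidx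
  -- images of `C_{j₀}` are `N`-invariant
  have hfix : ∀ x : C.C j₀, (C.φ h).hom x ∈ fixS (Rep.res (T.π h).ker.subtype (C.C k)) ⊤ := by
    intro x
    rw [mem_fixS_iff]
    intro s _
    have h1 := Rep.hom_comm_apply (C.φ h) s.1 x
    have h2 : (Rep.res (T.π h) (C.C j₀)).ρ s.1 x = x := by
      change (C.C j₀).ρ (T.π h s.1) x = x
      rw [MonoidHom.mem_ker.1 s.2, map_one]
      rfl
    rw [h2] at h1
    exact h1.symm
  -- the choice of representatives
  let pick : ((C.C j₀) ⧸ (AddMonoidHom.range (nsmulAddMonoidHom (α := (C.C j₀)) p))) → F :=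
    fun q => ⟨(H _ (hfix q.out)).choose, (H _ (hfix q.out)).choose_spec.1⟩
  have hpick : Function.Injective pick := by
    intro q q' hqq
    obtain ⟨d, hd, hqd⟩ := (H _ (hfix q.out)).choose_spec.2
    obtain ⟨d', hd', hqd'⟩ := (H _ (hfix q'.out)).choose_spec.2
    have hff : (H _ (hfix q.out)).choose = (H _ (hfix q'.out)).choose := congrArg Subtype.val hqq
    rw [hff] at hqd
    have hdd : d - d' ∈ fixS (Rep.res (T.π h).ker.subtype (C.C k)) (V.subgroupOf (T.π h).ker) :=
      sub_mem hd hd'
    obtain ⟨e, he⟩ := hex (d - d') (fun v hv =>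
      (mem_fixS_iff _ _ _).1 hdd ⟨v, hVN hv⟩ (Subgroup.mem_subgroupOf.2 hv))
    have h3 : (C.φ h).hom (q.out - q'.out) = (C.φ h).hom (p • e) := by
      have e1 : (C.φ h).hom q.out - (C.φ h).hom q'.out =
          nmAbs (Rep.res (T.π h).ker.subtype (C.C k)) (V.subgroupOf (T.π h).ker) (d - d') := by
        rw [nmAbs_sub]
        have := congrArg₂ (fun a b => a - b) hqd hqd'
        simp only [add_sub_add_left_eq_sub] at this
        exact this
      rw [map_sub, e1, he]
      rfl
    have h4 : q.out - q'.out = p • e := cf.descent.injective h h3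
    rw [← QuotientAddGroup.out_eq' q, ← QuotientAddGroup.out_eq' q']
    apply (QuotientAddGroup.eq).2
    refine ⟨-e, ?_⟩
    change p • (-e) = _
    rw [smul_neg, ← h4]
    abel
  haveI : Finite ((C.C j₀) ⧸ (AddMonoidHom.range (nsmulAddMonoidHom (α := (C.C j₀)) p))) :=
    Finite.of_injective pick hpick
  refine ⟨?_, inferInstance⟩
  calc Nat.card ((C.C j₀) ⧸ (AddMonoidHom.range (nsmulAddMonoidHom (α := (C.C j₀)) p)))
      ≤ Nat.card F := Nat.card_le_card_of_injective pick hpick
    _ = F.card := by rw [Nat.card_eq_fintype_card, Fintype.card_coe]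
    _ ≤ (V.subgroupOf (T.π h).ker).index := hF
    _ = Nat.card ((T.π h).ker ⧸ V.subgroupOf (T.π h).ker) := Subgroup.index_eq_card _
    _ ≤ Nat.card (Additive ((T.π h).ker ⧸ V.subgroupOf (T.π h).ker) →+ ZMod p) :=
      card_le_card_hom_zmod p _ hpowQ hcommQ
    _ ≤ _ := card_hom_quotient_le p _

end Main

end Fermat.Agent.CFT.Duality
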