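import Fermat.Agent.Lib.CFT.Duality.D1Core
import Fermat.Agent.Lib.CFT.Duality.NormIndexBound
import Fermat.Agent.Lib.CFT.Duality.InvLim

/-!
# P4 / Layer D, D-D1 part 3 : the pairing in degree one

* (T3) `exists_pairing_one_ne_zero` : `α¹` is right-nondegenerate;
* finiteness of `ExtLim 𝔽_p C 1`, `H¹(𝔽_p)`, `H¹(A)`;
* (W1) `alpha1_surjective`;
* (K1), (S1) `alpha1_injective` under the existence theorem.
-/

set_option autoImplicit false
set_option linter.unusedSectionVars false
set_option linter.unusedVariables false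
set_option linter.style.haveILetI false

open CategoryTheory Abelian

namespace Fermat.Agent.CFT.Duality

noncomputable section

open TowerModule

/-! ### (T3) right-nondegeneracy of `α¹` -/

section T3

variable {p : ℕ} [Fact p.Prime] {T : Tower} {C : TowerModule ℤ T}

/-- the identity map `M ⟶ res π M` for `π = T.π (le_refl b)` -/
def resReflHom {k : Type} [CommRing k] {b : T.ι} (hbb : b ≤ b) (M : Rep.{0} k (T.G b)) :
    M ⟶ Rep.res (T.π hbb) M :=
  Rep.ofHom ⟨LinearMap.id, fun g => by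
    ext x
    show M.ρ g x = M.ρ (T.π hbb g) x
    rw [T.π_refl]⟩

/-- the connecting class at the bottom level of an inflated short exact sequence, transported to a
cartesian module `A`, is the original class. -/
lemma extClass_inflShortExact_bot {k : Type} [CommRing k] {b : T.ι} (hb : ∀ l, b ≤ l)
    (A : TowerModule k T) [A.IsCartesian] {V : Type} [AddCommGroup V] [Module k V]
    {Ax : Rep.{0} k (T.G b)} (i : A.C b ⟶ Ax) (g : Ax ⟶ Rep.trivial k (T.G b) V) (w : i ≫ g = 0)
    (hS₀ : (ShortComplex.mk i g w).ShortExact) :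
    (((inflShortExact hb hS₀).ofIso (isoInflB hb A).symm (Iso.refl _)
      (inflBTrivialIso b hb V)).exact b).extClass = hS₀.extClass := by
  set S := (inflShortExact hb hS₀).ofIso (isoInflB hb A).symm (Iso.refl _)
      (inflBTrivialIso b hb V) with hSdef
  let φ : ShortComplex.mk i g w ⟶ S.sc b :=
    { τ₁ := 𝟙 _
      τ₂ := resReflHom (hb b) Ax
      τ₃ := 𝟙 _
      comm₁₂ := by
        ext a
        show i.hom ((A.φInv (hb b)).hom a) = i.hom a
        congr 1
        have h1 : (A.φ (hb b)).hom a = a := A.φ_refl b a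
        have h2 := A.φInv_φ (hb b) a
        rw [h1] at h2
        exact h2
      comm₂₃ := by
        ext a
        rfl }
  have h := ShortComplex.ShortExact.extClass_naturality hS₀ (S.exact b) φ
  have h1 : (Ext.mk₀ φ.τ₃).comp (S.exact b).extClass (zero_add 1) = (S.exact b).extClass :=
    Ext.mk₀_id_comp _
  have h2 : hS₀.extClass.comp (Ext.mk₀ φ.τ₁) (add_zero 1) = hS₀.extClass := Ext.comp_mk₀_id _
  exact h1.symm.trans (h.symm.trans h2)

/-- **(T3) at the bottom level**: a non-zero class `x ∈ H¹(A)` living on the bottom level pairs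
non-trivially with some `ξ ∈ ExtLim A C 1`. -/
theorem exists_pairing_one_ne_zero_bot (b : T.ι) (hb : ∀ l, b ≤ l) (cf : PClassFormation p T C)
    (A : TowerModule ℤ T) [A.IsCartesian] [A.IsFinPTorsion p]
    (y₀ : Ext ((triv ℤ T).C b) (A.C b) 1) (hy : ExtLim.of (triv ℤ T) A 1 b y₀ ≠ 0) :
    ∃ ξ : ExtLim A C 1, pairing A C 1 1 2 rfl ξ (ExtLim.of (triv ℤ T) A 1 b y₀) ≠ 0 := by
  haveI : Finite (A.C b).V := IsFinPTorsion.finite (p := p) (A := A) b
  obtain ⟨Ax, hAxfin, hAxtors, i, g, w, hS₀, hy₀⟩ := exists_modP_extension p (A.C b)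
    (IsFinPTorsion.torsion (p := p) (A := A) b) y₀
  haveI : Finite Ax.V := hAxfin
  haveI : (inflB T b hb Ax).IsFinPTorsion p := inflB_isFinPTorsion p hb Ax hAxtors
  -- the tower-level short exact sequence `0 → A → A_ξ → 𝔽_p → 0`
  let S : ShortExact A (inflB T b hb Ax) (FpMod p T) :=
    (inflShortExact hb hS₀).ofIso (isoInflB hb A).symm (Iso.refl _) (inflBTrivialIso b hb (ZMod p))
  have hδ : (S.exact b).extClass = hS₀.extClass := extClass_inflShortExact_bot hb A i g w hS₀
  -- `x = δ q`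
  have hxq : ExtLim.of (triv ℤ T) A 1 b y₀ =
      ExtLim.compRight (triv ℤ T) S.δ 0 1 rfl (qClass p T) := by
    rw [qClass_eq b, ExtLim.compRight_of]
    congr 1
    rw [← hy₀]
    show _ = (Ext.mk₀ ((bockstein p T).g.f b)).comp (S.exact b).extClass _
    rw [hδ]
    rfl
  -- `H⁰(A_ξ) → H⁰(𝔽_p)` is zero
  have hzero : ∀ x : HLim (inflB T b hb Ax) 0, ExtLim.mapRight (triv ℤ T) S.g 0 x = 0 := by
    intro x
    obtain ⟨m, hm⟩ := exists_nsmul_qClass (ExtLim.mapRight (triv ℤ T) S.g 0 x)
    have h1 := S.compRight_δ_mapRight_g (triv ℤ T) (n₀ := 0) (n₁ := 1) rfl x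
    rw [hm, map_nsmul, ← hxq] at h1
    by_cases hpm : (p : ℤ) ∣ (m : ℤ)
    · obtain ⟨c, hc⟩ := Int.natCast_dvd_natCast.1 hpm
      rw [hm, hc, mul_comm, mul_smul, p_smul_qClass, smul_zero]
    · exfalso
      apply hy
      refine Coh.eq_zero_of_zsmul_eq_zero_of_not_dvd (p := p) _ (hlim_torsion (p := p) A 1 _)
        (m : ℤ) ?_ hpm
      rw [natCast_zsmul]
      exact h1
  -- hence `ExtLim 𝔽_p C 2 → ExtLim A_ξ C 2` is zero
  have hzero' : ∀ ζ : ExtLim (FpMod p T) C 2, ExtLim.mapLeft C S.g 2 ζ = 0 := by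
    intro ζ
    apply (alpha2_bijective cf hb (inflB T b hb Ax)).1
    ext x
    rw [cf.limFormation.alpha_mapLeft, hzero x, map_zero, map_zero]
    rfl
  obtain ⟨ζ₀, hζ₀⟩ := cf.limFormation.exists_fpToH_ne_zero
  obtain ⟨ξ, hξ⟩ := S.contravariant_exact₃ C (n₀ := 1) (n₁ := 2) rfl ζ₀ (hzero' ζ₀)
  refine ⟨ξ, ?_⟩
  rw [hxq]
  have h2 := pairing_compRight_δ S C 1 0 2 rfl ξ (qClass p T)
  refine fun h0 => hζ₀ ?_
  rw [← pairing_qClass, ← hξ]
  exact h2.symm.trans h0

/-- **(T3)** `α¹` is right-nondegenerate: every non-zero `x ∈ H¹(A)` pairs non-trivially with some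
`ξ ∈ ExtLim A C 1`. -/
theorem exists_pairing_one_ne_zero (cf : PClassFormation p T C) (A : TowerModule ℤ T)
    [A.IsCartesian] [A.IsFinPTorsion p] (x : HLim A 1) (hx : x ≠ 0) :
    ∃ ξ : ExtLim A C 1, pairing A C 1 1 2 rfl ξ x ≠ 0 :=
  exists_pairing_ne_zero_of_bottom 1 1 2 rfl
    (fun _ b' hb' _ cf' A' _ _ y₀ hy₀ => exists_pairing_one_ne_zero_bot b' hb' cf' A' y₀ hy₀)
    cf A x hx

end T3

/-! ### `H⁰` of a tower module with Galois descent -/

section Descent

variable {k : Type} [CommRing k] {T : Tower} (B : TowerModule k T)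

/-- `extTrans` on `Ext⁰(k, B_i)` in terms of morphisms (no cartesian hypothesis). -/
lemma extTrans_triv_mk₀' {i j : T.ι} (h : i ≤ j) (f : (triv k T).C i ⟶ B.C i) :
    ∃ f' : (triv k T).C j ⟶ B.C j, extTrans (triv k T) B 0 h (Ext.mk₀ f) = Ext.mk₀ f' ∧
      ∀ c : k, f'.hom c = (B.φ h).hom (f.hom c) := by
  refine ⟨inv ((triv k T).φ h) ≫ (Rep.resFunctor (T.π h)).map f ≫ B.φ h, ?_, ?_⟩
  · unfold extTrans
    rw [extPull_apply, Ext.mapExactFunctor_mk₀, Ext.mk₀_comp_mk₀, Ext.mk₀_comp_mk₀]
  · intro c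
    have h1 : (inv ((triv k T).φ h)).hom c = c := by
      have := (triv k T).inv_φ_φ h c
      exact this
    show (B.φ h).hom (f.hom ((inv ((triv k T).φ h)).hom c)) = _
    rw [h1]

/-- the invariant vectors of a representation -/
abbrev invSub {G : Type} [Group G] (M : Rep.{0} k G) : Submodule k M.V := M.ρ.invariants

lemma mem_invSub {G : Type} [Group G] (M : Rep.{0} k G) (x : M.V) :
    x ∈ invSub M ↔ ∀ g, M.ρ g x = x := Iff.rfl

/-- the morphism `k ⟶ M` attached to an invariant vector, additively -/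
def invAddHom {G : Type} [Group G] (M : Rep.{0} k G) :
    invSub M →+ (Rep.trivial k G k ⟶ M) where
  toFun x := fixedHom M (LinearMap.toSpanSingleton k M.V x.1) (fun g c => by
    rw [LinearMap.toSpanSingleton_apply, map_smul, x.2 g])
  map_zero' := by
    apply trivial_hom_ext
    show (1 : k) • (0 : M.V) = 0
    rw [smul_zero]
  map_add' x y := by
    apply trivial_hom_ext
    show (1 : k) • (x.1 + y.1) = (1 : k) • x.1 + (1 : k) • y.1
    rw [smul_add]

lemma invAddHom_apply_one {G : Type} [Group G] (M : Rep.{0} k G) (x : invSub M) :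
    (invAddHom M x).hom (1 : k) = x.1 := one_smul k _

variable {b : T.ι} (hb : ∀ l, b ≤ l)

/-- invariant vectors of the bottom level as classes in `H⁰(B)` -/
def hzeroOfInv : invSub (B.C b) →+ HLim B 0 :=
  (ExtLim.of (triv k T) B 0 b).comp
    ((Ext.addEquiv₀ (X := (triv k T).C b) (Y := B.C b)).symm.toAddMonoidHom.comp
      (invAddHom (B.C b)))

lemma hzeroOfInv_apply (x : invSub (B.C b)) :
    hzeroOfInv B x = ExtLim.of (triv k T) B 0 b (Ext.mk₀ (invAddHom (B.C b) x)) := rfl

include hb in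
/-- With Galois descent, every class in `H⁰(B)` comes from an invariant vector of the bottom
level. -/
lemma hzeroOfInv_surjective (hd : B.HasDescent) : Function.Surjective (hzeroOfInv (b := b) B) := by
  intro y
  obtain ⟨l, ξ, rfl⟩ := ExtLim.exists_of (triv k T) B 0 y
  obtain ⟨f, rfl⟩ := (Ext.mk₀_bijective _ _).2 ξ
  have hinv : ∀ g : T.G l, (B.C l).ρ g (f.hom (1 : k)) = f.hom (1 : k) := fun g =>
    (Rep.hom_comm_apply f g (1 : k)).symm
  obtain ⟨x, hx⟩ := hd.surjective (hb l) (f.hom (1 : k)) (fun g _ => hinv g)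
  have hxinv : x ∈ invSub (B.C b) := by
    intro g
    obtain ⟨g', rfl⟩ := T.π_surjective (hb l) g
    apply hd.injective (hb l)
    have h1 := Rep.hom_comm_apply (B.φ (hb l)) g' x
    rw [hx, hinv g'] at h1
    exact h1.trans hx.symm
  refine ⟨⟨x, hxinv⟩, ?_⟩
  rw [hzeroOfInv_apply]
  obtain ⟨f', hf', hf'c⟩ := extTrans_triv_mk₀' B (hb l) (invAddHom (B.C b) ⟨x, hxinv⟩)
  rw [← ExtLim.of_trans (triv k T) B 0 (hb l), hf']
  congr 2
  apply trivial_hom_ext
  refine (hf'c 1).trans ?_
  have e1 : (invAddHom (B.C b) ⟨x, hxinv⟩).hom (1 : k) = x := invAddHom_apply_one (B.C b) ⟨x, hxinv⟩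
  exact (congrArg (fun z => (B.φ (hb l)).hom z) e1).trans hx

end Descent

/-! ### Finiteness -/

section Finiteness

variable {p : ℕ} [Fact p.Prime] {T : Tower} {C : TowerModule ℤ T} (cf : PClassFormation p T C)
  {b : T.ι} (hb : ∀ l, b ≤ l)

include cf hb in
/-- `ExtLim 𝔽_p C 1` is finite over a tower with a bottom level. -/
theorem finite_extLim_Fp_one : Finite (ExtLim (FpMod p T) C 1) := by
  classical
  obtain ⟨F, hF⟩ := cf.finite_mod_p b ⊤
  let Φ : F → ExtLim (FpMod p T) C 1 := fun f =>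
    if hf : (f : (C.C b).V) ∈ invSub (C.C b) then
      hToFp p C 0 1 rfl (hzeroOfInv (b := b) C ⟨f, hf⟩) else 0
  refine Finite.of_surjective Φ ?_
  intro e
  obtain ⟨y, rfl⟩ := cf.limFormation.hToFp_zero_surjective e
  obtain ⟨c, rfl⟩ := hzeroOfInv_surjective C hb cf.descent y
  obtain ⟨f, hfF, e', he', hc⟩ := hF c.1 (fun u _ => c.2 u)
  have he'inv : e' ∈ invSub (C.C b) := fun g => he' g (Subgroup.mem_top g)
  have hfinv : f ∈ invSub (C.C b) := by
    intro g
    have h1 : f = c.1 - p • e' := by rw [hc]; abel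
    rw [h1, map_sub, map_nsmul, c.2 g, he' g (Subgroup.mem_top g)]
  refine ⟨⟨f, hfF⟩, ?_⟩
  show (if hf : f ∈ invSub (C.C b) then
      hToFp p C 0 1 rfl (hzeroOfInv (b := b) C ⟨f, hf⟩) else 0) = _
  rw [dif_pos hfinv]
  have h2 : c = ⟨f, hfinv⟩ + p • ⟨e', he'inv⟩ := Subtype.ext hc
  rw [h2, map_add, map_add, map_nsmul, hToFp_p_smul]
  exact (add_zero _).symm

include cf hb in
/-- `H¹(𝔽_p)` is finite over a `p`-class formation tower with a bottom level. -/
theorem finite_hlim_Fp_one : Finite (HLim (FpMod p T) 1) := by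
  haveI := finite_extLim_Fp_one cf hb
  exact (finite_of_right_nondeg p (cf.limFormation.alpha (FpMod p T) 1 1 rfl)
    (extLim_torsion (p := p) (FpMod p T) C 1)
    (alpha_right_nondeg cf (FpMod p T) 1 1 rfl (exists_pairing_one_ne_zero cf (FpMod p T)))).1

include cf hb in
/-- `H¹(X)` is finite if the bottom group is a `p`-group. -/
theorem finite_hlim_one_of_pGroup (hG : IsPGroup p (T.G b)) (X : TowerModule ℤ T) [X.IsCartesian]
    [X.IsFinPTorsion p] : Finite (HLim X 1) := by
  haveI := finite_hlim_Fp_one cf hb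
  obtain ⟨h1, -⟩ := finite_extLim_right_of_pGroup hb hG (triv ℤ T) 1 inferInstance _ le_rfl (X.C b)
    (IsFinPTorsion.finite (p := p) b) (IsFinPTorsion.torsion (p := p) (A := X) b)
  exact Finite.of_equiv _ (ExtLim.congrRight (triv ℤ T) (isoInflB hb X) 1).symm.toEquiv

include cf hb in
/-- **(T4)** `H¹(A)` is finite. -/
theorem finite_hlim_one (A : TowerModule ℤ T) [A.IsCartesian] [A.IsFinPTorsion p] :
    Finite (HLim A 1) := by
  have hbot' : ∀ l : (T.sub b ⊥).ι, (⟨b, le_refl b⟩ : (T.sub b ⊥).ι) ≤ l := fun l => l.2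
  have hG : IsPGroup p ((T.sub b ⊥).G ⟨b, le_refl b⟩) :=
    fun g => ⟨0, by rw [Subsingleton.elim g 1, one_pow]⟩
  haveI : Finite (HLim (A.sub b ⊥) 1) :=
    finite_hlim_one_of_pGroup (cf.sub b ⊥) hbot' hG (A.sub b ⊥)
  haveI : Finite (HLim ((A.sub b ⊥).coindUp b hb ⊥) 1) :=
    Finite.of_equiv _ (shapiroHLim b hb ⊥ (A.sub b ⊥) 1).symm.toEquiv
  haveI : Finite ((coindUpCoker b hb ⊥ A).C b) := IsFinPTorsion.finite (p := p) b
  haveI : Finite (HLim (coindUpCoker b hb ⊥ A) 0) := finite_hlim_zero _ hb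
  exact (finite_and_card_le_of_exact
    (ExtLim.compRight (triv ℤ T) (coindUpSES b hb ⊥ A).δ 0 1 rfl)
    (ExtLim.mapRight (triv ℤ T) (coindUpSES b hb ⊥ A).f 1)
    (fun y hy => (coindUpSES b hb ⊥ A).covariant_exact₁ (triv ℤ T) rfl y hy)).1

include hb in
/-- **(W1)** `α¹(A)` is surjective. -/
theorem alpha1_surjective (A : TowerModule ℤ T) [A.IsCartesian] [A.IsFinPTorsion p] :
    Function.Surjective (cf.limFormation.alpha A 1 1 rfl) := by
  haveI := finite_hlim_one cf hb A
  exact surjective_of_right_nondeg p _ (hlim_torsion (p := p) A 1)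
    (alpha_right_nondeg cf A 1 1 rfl (exists_pairing_one_ne_zero cf A))

end Finiteness

/-! ### Counting `H¹(𝔽_p)` and `ExtLim 𝔽_p C 1` over the kernel tower -/

section HomCount

variable (p : ℕ) [Fact p.Prime] (T : Tower)

/-- characters of the level group `G_k` as classes in `H¹(𝔽_p)` -/
def homToHlimFp (k : T.ι) : (Additive (T.G k) →+ ZMod p) →+ HLim (FpMod p T) 1 :=
  (hlimOf (FpMod p T) 1 k).comp
    (groupCohomology.H1IsoOfIsTrivial (Rep.trivial ℤ (T.G k) (ZMod p))).inv.hom.toAddMonoidHom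

lemma homToHlimFp_injective (k : T.ι) : Function.Injective (homToHlimFp p T k) := by
  rw [injective_iff_map_eq_zero]
  intro χ hχ
  obtain ⟨l, hkl, h0⟩ := hlimOf_eq_zero (FpMod p T) 1 hχ
  set z := (groupCohomology.cocycles₁IsoOfIsTrivial (Rep.trivial ℤ (T.G k) (ZMod p))).inv χ
    with hz
  have h2 := groupCohomology.H1π_comp_map_apply (T.π hkl) ((FpMod p T).φ hkl) z
  have h4 : groupCohomology.H1π (Rep.trivial ℤ (T.G l) (ZMod p))
      (groupCohomology.mapCocycles₁ (T.π hkl) ((FpMod p T).φ hkl) z) = 0 := h2.symm.trans h0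
  ext g
  obtain ⟨g', rfl⟩ := T.π_surjective hkl g
  have h3 := groupCohomology.H1IsoOfIsTrivial_H1π_apply_apply
    (A := Rep.trivial ℤ (T.G l) (ZMod p))
    (groupCohomology.mapCocycles₁ (T.π hkl) ((FpMod p T).φ hkl) z)
    (Additive.ofMul g')
  rw [h4, map_zero] at h3
  show χ (Additive.ofMul (T.π hkl g')) = 0
  exact h3.symm

end HomCount

section TrivBottom

variable {k : Type} [CommRing k] {T : Tower} (B : TowerModule k T) {b : T.ι} (hb : ∀ l, b ≤ l)
  [Subsingleton (T.G b)]

/-- if the bottom group is trivial, every vector of the bottom level is invariant -/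
def botToInv : (B.C b).V →+ invSub (B.C b) where
  toFun x := ⟨x, fun g => by rw [Subsingleton.elim g 1, map_one]; rfl⟩
  map_zero' := rfl
  map_add' _ _ := rfl

include hb in
lemma hzeroOfInv_comp_botToInv_surjective (hd : B.HasDescent) :
    Function.Surjective ((hzeroOfInv (b := b) B).comp (botToInv B)) := by
  intro y
  obtain ⟨x, rfl⟩ := hzeroOfInv_surjective B hb hd y
  exact ⟨x.1, rfl⟩

end TrivBottom

section CountE

variable {p : ℕ} [Fact p.Prime] {T : Tower} {C : TowerModule ℤ T} (cf : PClassFormation p T C)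
  {b : T.ι} (hb : ∀ l, b ≤ l) [Subsingleton (T.G b)]

include cf hb in
/-- over a tower with trivial bottom group, `ExtLim 𝔽_p C 1` is a quotient of `C_b / p`. -/
theorem card_extLim_Fp_one_le
    [Finite ((C.C b).V ⧸ AddMonoidHom.range (nsmulAddMonoidHom (α := (C.C b).V) p))] :
    Nat.card (ExtLim (FpMod p T) C 1) ≤
      Nat.card ((C.C b).V ⧸ AddMonoidHom.range (nsmulAddMonoidHom (α := (C.C b).V) p)) := by
  let Ψ : (C.C b).V →+ ExtLim (FpMod p T) C 1 :=
    (hToFp p C 0 1 rfl).comp ((hzeroOfInv (b := b) C).comp (botToInv C))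
  have hΨ : Function.Surjective Ψ := by
    intro e
    obtain ⟨y, rfl⟩ := cf.limFormation.hToFp_zero_surjective e
    obtain ⟨x, rfl⟩ := hzeroOfInv_comp_botToInv_surjective C hb cf.descent y
    exact ⟨x, rfl⟩
  have hker : AddMonoidHom.range (nsmulAddMonoidHom (α := (C.C b).V) p) ≤ Ψ.ker := by
    rintro _ ⟨x, rfl⟩
    rw [AddMonoidHom.mem_ker]
    show hToFp p C 0 1 rfl (((hzeroOfInv (b := b) C).comp (botToInv C)) (p • x)) = 0
    rw [map_nsmul]
    exact hToFp_p_smul (p := p) 0 1 rfl _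
  let Ψ' := QuotientAddGroup.lift _ Ψ hker
  have hΨ' : Function.Surjective Ψ' := by
    intro e
    obtain ⟨x, rfl⟩ := hΨ e
    exact ⟨QuotientAddGroup.mk x, rfl⟩
  exact Nat.card_le_card_of_surjective _ hΨ'

end CountE

section CountSub

variable {p : ℕ} [Fact p.Prime] {T : Tower} {C : TowerModule ℤ T} (cf : PClassFormation p T C)
  (ex : PExistence p T C) {b : T.ι} (hb : ∀ l, b ≤ l)

include cf ex hb in
/-- **the count**: over the kernel tower `T.sub b ⊥`, `|ExtLim 𝔽_p C 1| ≤ |H¹(𝔽_p)|`. -/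
theorem card_extLim_Fp_one_le_card_hlim_Fp_one_sub :
    Nat.card (ExtLim (FpMod p (T.sub b ⊥)) (C.sub b ⊥) 1) ≤
      Nat.card (HLim (FpMod p (T.sub b ⊥)) 1) := by
  obtain ⟨k, h, hcard, hfin⟩ := cf.exists_card_modP_le ex b
  have hbot' : ∀ l : (T.sub b ⊥).ι, (⟨b, le_refl b⟩ : (T.sub b ⊥).ι) ≤ l := fun l => l.2
  haveI : Finite (((C.sub b ⊥).C ⟨b, le_refl b⟩).V ⧸ AddMonoidHom.range
      (nsmulAddMonoidHom (α := ((C.sub b ⊥).C ⟨b, le_refl b⟩).V) p)) := hfin
  have h1 := card_extLim_Fp_one_le (cf.sub b ⊥) hbot'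
  haveI := finite_hlim_Fp_one (cf.sub b ⊥) hbot'
  have h3 : Nat.card (Additive ((T.sub b ⊥).G ⟨k, h⟩) →+ ZMod p) ≤
      Nat.card (HLim (FpMod p (T.sub b ⊥)) 1) :=
    Nat.card_le_card_of_injective _ (homToHlimFp_injective p (T.sub b ⊥) ⟨k, h⟩)
  exact h1.trans (hcard.le.trans h3)

end CountSub

/-! ### splitting over the trivial group -/

section Split

/-- an additive map as a `ℤ`-linear map for arbitrary `ℤ`-module structures -/
def intLinOfAddHom {V W : Type} [AddCommGroup V] [AddCommGroup W] [iV : Module ℤ V]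
    [iW : Module ℤ W] (f : V →+ W) : V →ₗ[ℤ] W :=
  { toFun := f
    map_add' := map_add f
    map_smul' := fun c x =>
      (congrArg f (int_smul_eq_zsmul iV c x)).trans
        ((map_zsmul f c x).trans (int_smul_eq_zsmul iW c (f x)).symm) }

lemma rep_hom_ext_apply {k G : Type} [CommRing k] [Group G] {M N : Rep.{0} k G} (f g : M ⟶ N)
    (h : ∀ x : M.V, f.hom x = g.hom x) : f = g := by
  ext x
  exact h x

/-- over the trivial group, every linear map is a morphism of representations -/
def homOfSubsingleton {k G : Type} [CommRing k] [Group G] [Subsingleton G] (M N : Rep.{0} k G)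
    (f : M.V →ₗ[k] N.V) : M ⟶ N :=
  Rep.ofHom ⟨f, fun g => by
    ext x
    show f (M.ρ g x) = N.ρ g (f x)
    rw [Subsingleton.elim g 1, map_one, map_one]
    rfl⟩

lemma homOfSubsingleton_hom {k G : Type} [CommRing k] [Group G] [Subsingleton G]
    (M N : Rep.{0} k G) (f : M.V →ₗ[k] N.V) (x : M.V) :
    (homOfSubsingleton M N f).hom x = f x := rfl

theorem exists_addHom_section_aux (p : ℕ) [Fact p.Prime] {V W : Type} [AddCommGroup V]
    [AddCommGroup W] [Module (ZMod p) V] [Module (ZMod p) W] (g : V →+ W)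
    (hg : Function.Surjective g) : ∃ h : W →+ V, ∀ w, g (h w) = w := by
  obtain ⟨h, hh⟩ := LinearMap.exists_rightInverse_of_surjective (g.toZModLinearMap p)
    (LinearMap.range_eq_top.2 hg)
  exact ⟨h.toAddMonoidHom, fun w => LinearMap.congr_fun hh w⟩

/-- a surjection of `p`-torsion abelian groups has an additive section -/
theorem exists_addHom_section (p : ℕ) [Fact p.Prime] {V W : Type} [AddCommGroup V]
    [AddCommGroup W] (g : V →+ W) (hg : Function.Surjective g) (hV : ∀ v : V, p • v = 0)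
    (hW : ∀ w : W, p • w = 0) : ∃ h : W →+ V, ∀ w, g (h w) = w :=
  @exists_addHom_section_aux p _ V W _ _ (AddCommGroup.zmodModule hV) (AddCommGroup.zmodModule hW)
    g hg

/-- a surjection of `p`-torsion representations of the trivial group has a section -/
theorem exists_section_of_subsingleton (p : ℕ) [Fact p.Prime] {G : Type} [Group G]
    [Subsingleton G] {M N : Rep.{0} ℤ G} (g : M ⟶ N) (hg : Function.Surjective g.hom)
    (hM : ∀ m : M.V, p • m = 0) (hN : ∀ n : N.V, p • n = 0) :
    ∃ σ : N ⟶ M, σ ≫ g = 𝟙 N := by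
  let gA : M.V →+ N.V := AddMonoidHom.mk' (fun x => g.hom x) (fun a b => map_add g.hom a b)
  obtain ⟨h, hh⟩ := exists_addHom_section p gA hg hM hN
  refine ⟨homOfSubsingleton N M (intLinOfAddHom (iV := N.hV2) (iW := M.hV2) h), ?_⟩
  exact rep_hom_ext_apply _ _ (fun x => hh x)

end Split

/-! ### (K1) `α¹` over a tower with trivial bottom group -/

section K1

variable {p : ℕ} [Fact p.Prime] {T : Tower} {C : TowerModule ℤ T}

/-- transport of the injectivity of `α` along an isomorphism -/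
lemma LimFormation.alpha_injective_of_iso (L : LimFormation p T C) {A' A : TowerModule ℤ T}
    [A'.IsCartesian] [A.IsCartesian] (e : A'.Iso A) (r s : ℕ) (h : s + r = 2)
    (hA : Function.Injective (L.alpha A r s h)) : Function.Injective (L.alpha A' r s h) := by
  rw [injective_iff_map_eq_zero]
  intro ξ' hξ'
  have h1 : ExtLim.mapLeft C e.inv r ξ' = 0 := by
    apply hA
    rw [map_zero]
    ext x
    rw [L.alpha_mapLeft, hξ']
    rfl
  have h2 := (ExtLim.congrLeft e C r).apply_symm_apply ξ'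
  have h3 : ExtLim.mapLeft C e.hom r (ExtLim.mapLeft C e.inv r ξ') = ξ' := h2
  rw [← h3, h1, map_zero]

variable (cf : PClassFormation p T C) {b : T.ι} (hb : ∀ l, b ≤ l)

include hb in
/-- `α¹(𝔽_p)` is bijective as soon as `|ExtLim 𝔽_p C 1| ≤ |H¹(𝔽_p)|`. -/
theorem alpha1_Fp_bijective_of_card_le
    (hcount : Nat.card (ExtLim (FpMod p T) C 1) ≤ Nat.card (HLim (FpMod p T) 1)) :
    Function.Bijective (cf.limFormation.alpha (FpMod p T) 1 1 rfl) := by
  haveI := finite_extLim_Fp_one cf hb
  haveI := finite_hlim_Fp_one cf hb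
  exact bijective_of_surjective_of_card_le p _ (hlim_torsion (p := p) (FpMod p T) 1)
    (alpha1_surjective cf hb (FpMod p T)) hcount

include hb in
/-- **(K1)** over a tower with trivial bottom group, `α¹(X)` is injective for all `X` as soon as
`α¹(𝔽_p)` is. -/
theorem alpha1_injective_of_subsingleton [Subsingleton (T.G b)]
    (hFp : Function.Injective (cf.limFormation.alpha (FpMod p T) 1 1 rfl))
    (X : TowerModule ℤ T) [X.IsCartesian] [X.IsFinPTorsion p] :
    Function.Injective (cf.limFormation.alpha X 1 1 rfl) := by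
  have hG : IsPGroup p (T.G b) := fun g => ⟨0, by rw [Subsingleton.elim g 1, one_pow]⟩
  have hFp' : Function.Injective
      (cf.limFormation.alpha (inflB T b hb (Rep.trivial ℤ (T.G b) (ZMod p))) 1 1 rfl) :=
    cf.limFormation.alpha_injective_of_iso (inflBTrivialIso b hb (ZMod p)) 1 1 rfl hFp
  have key : ∀ M : Rep.{0} ℤ (T.G b), Finite M → (∀ m : M, p • m = 0) →
      Function.Injective (cf.limFormation.alpha (inflB T b hb M) 1 1 rfl) := by
    intro M hfin hM
    refine Coh.rep_induction_pGroup hG (Coh.isLineModel_int_zmod p)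
      (fun M => (∀ m : M, p • m = 0) →
        Function.Injective (cf.limFormation.alpha (inflB T b hb M) 1 1 rfl)) ?_ ?_ M hfin hM hM
    · intro M hM _
      have h0 : ∀ x : ExtLim (inflB T b hb M) C 1, x = 0 := by
        intro x
        induction x using ExtLim.induction_on with
        | h j ξ =>
          haveI : Subsingleton ((inflB T b hb M).C j) := hM
          rw [ext_eq_zero_of_subsingleton ξ, map_zero]
      exact fun x y _ => (h0 x).trans (h0 y).symm
    · intro M M'' f g w hS ih hM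
      obtain ⟨hinj, hsurj, hex⟩ := shortExact_functions' hS
      have hM'' : ∀ m : M'', p • m = 0 := by
        intro m
        obtain ⟨m, rfl⟩ := hsurj m
        have : g.hom (p • m) = p • g.hom m := map_nsmul g.hom p m
        rw [← this, hM, map_zero]
      have ih' := ih hM''
      let S := inflShortExact hb hS
      obtain ⟨σ, hσ⟩ := exists_section_of_subsingleton p g hsurj hM hM''
      have hσ' : (TowerModule.inflHom hb σ).comp S.g = TowerModule.Hom.id _ := by
        apply TowerModule.Hom.ext'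
        intro l
        show (Rep.resFunctor (T.π (hb l))).map σ ≫ (Rep.resFunctor (T.π (hb l))).map g = 𝟙 _
        rw [← CategoryTheory.Functor.map_comp, hσ, CategoryTheory.Functor.map_id]
      rw [injective_iff_map_eq_zero]
      intro ξ hξ
      have h1 : ExtLim.mapLeft C S.f 1 ξ = 0 := by
        apply hFp'
        rw [map_zero]
        ext x
        rw [cf.limFormation.alpha_mapLeft, hξ]
        rfl
      obtain ⟨ξ'', rfl⟩ := S.contravariant_exact₂ C 1 ξ h1
      have h2 : ξ'' = 0 := by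
        apply ih'
        rw [map_zero]
        ext x
        have hx : x = ExtLim.mapRight (triv ℤ T) S.g 1
            (ExtLim.mapRight (triv ℤ T) (TowerModule.inflHom hb σ) 1 x) := by
          rw [← ExtLim.mapRight_comp, hσ', ExtLim.mapRight_id]
        rw [hx, ← cf.limFormation.alpha_mapLeft, hξ]
        rfl
      rw [h2, map_zero]
  exact cf.limFormation.alpha_injective_of_iso (isoInflB hb X) 1 1 rfl
    (key (X.C b) (IsFinPTorsion.finite (p := p) b) (IsFinPTorsion.torsion (p := p) (A := X) b))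

end K1

/-! ### (S1) injectivity of `α¹` under the existence theorem -/

section S1

variable {p : ℕ} [Fact p.Prime] {T : Tower} {C : TowerModule ℤ T} (cf : PClassFormation p T C)
  (ex : PExistence p T C) {b : T.ι} (hb : ∀ l, b ≤ l)

include ex hb in
/-- **(S1)** `α¹(A)` is injective for every finite `p`-torsion cartesian tower module `A` over a
`p`-class formation tower with a bottom level satisfying the existence theorem. -/
theorem alpha1_injective (A : TowerModule ℤ T) [A.IsCartesian] [A.IsFinPTorsion p] :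
    Function.Injective (cf.limFormation.alpha A 1 1 rfl) := by
  have hbot' : ∀ l : (T.sub b ⊥).ι, (⟨b, le_refl b⟩ : (T.sub b ⊥).ι) ≤ l := fun l => l.2
  have hK : Function.Injective ((cf.sub b ⊥).limFormation.alpha (A.sub b ⊥) 1 1 rfl) :=
    alpha1_injective_of_subsingleton (cf.sub b ⊥) hbot'
      (alpha1_Fp_bijective_of_card_le (cf.sub b ⊥) hbot'
        (card_extLim_Fp_one_le_card_hlim_Fp_one_sub cf ex hb)).1 (A.sub b ⊥)
  refine cf.limFormation.alpha_injective_of_chase (coindUpSES b hb ⊥ A) 1 1 rfl ?_ ?_ ?_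
  · intro ξ hξ
    apply (coindUpSES b hb ⊥ A).contravariant_exact₁ C (n₀ := 1) (n₁ := 2) rfl ξ
    apply (alpha2_bijective cf hb (coindUpCoker b hb ⊥ A)).1
    rw [map_zero]
    ext x
    have h1 := cf.limFormation.alpha_compRight_δ (coindUpSES b hb ⊥ A) 1 0 rfl ξ x
    refine h1.symm.trans ?_
    rw [hξ]
    rfl
  · exact (alpha_coindUp_injective_iff b hb ⊥ cf (A.sub b ⊥)
      (fun l => IsFinPTorsion.torsion (p := p) (A := A.sub b ⊥) l) 1 1 rfl).2 hK
  · exact alpha1_surjective cf hb _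

include ex hb in
/-- **`α¹(A)` is bijective.** -/
theorem alpha1_bijective (A : TowerModule ℤ T) [A.IsCartesian] [A.IsFinPTorsion p] :
    Function.Bijective (cf.limFormation.alpha A 1 1 rfl) :=
  ⟨alpha1_injective cf ex hb A, alpha1_surjective cf hb A⟩

end S1

end

end Fermat.Agent.CFT.Duality
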