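import Fermat.Agent.Lib.CFT.Duality.D1One
import Fermat.Agent.Lib.CFT.Duality.PTData
import Fermat.Agent.Lib.CFT.Duality.LocInj

/-!
# P4 / Layer D, D-D2 : the inputs from D1 in the `PTData` setting

For `d : PTData p S L₀ h₀` and a finite `p`-torsion cartesian tower module `A` over `levelTower L₀`:
the global tower `towerS S L₀ h₀` and the local towers `towerLocS S q L₀ h₀` have the bottom level
`L₀`, so the duality theorems of D1 apply to `A_S = A.filter (isSPred S L₀)` and
`A_{q,S} = (A.resSub (decompFamily q L₀)).filter (isSPred S L₀)`.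
-/

set_option autoImplicit false
set_option linter.unusedSectionVars false
set_option linter.unusedVariables false
set_option linter.style.haveILetI false

open CategoryTheory

namespace Fermat.Agent.CFT.Duality

noncomputable section

open TowerModule

variable {p : ℕ} [Fact p.Prime] {S : Finset Nat.Primes} {L₀ : Level} {h₀ : L₀.IsS S}

/-- the bottom level of `towerS S L₀ h₀` -/
def botS (S : Finset Nat.Primes) (L₀ : Level) (h₀ : L₀.IsS S) : (towerS S L₀ h₀).ι :=
  ⟨⟨L₀, le_refl _⟩, h₀⟩

lemma botS_le (L : (towerS S L₀ h₀).ι) : botS S L₀ h₀ ≤ L := L.1.2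

/-- the bottom level of `towerLocS S q L₀ h₀` -/
def botLocS (S : Finset Nat.Primes) (q : Nat.Primes) (L₀ : Level) (h₀ : L₀.IsS S) :
    (towerLocS S q L₀ h₀).ι :=
  ⟨⟨L₀, le_refl _⟩, h₀⟩

lemma botLocS_le (q : Nat.Primes) (L : (towerLocS S q L₀ h₀).ι) : botLocS S q L₀ h₀ ≤ L := L.1.2

namespace PTData

variable (d : PTData p S L₀ h₀) (A : TowerModule ℤ (levelTower L₀)) [A.IsCartesian]
  (hfin : ∀ j, Finite (A.C j)) (hA : ∀ j (x : A.C j), p • x = 0)

/-- the restriction of `A` to the `S`-levels -/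
abbrev AS (S : Finset Nat.Primes) (h₀ : L₀.IsS S) (A : TowerModule ℤ (levelTower L₀)) :
    TowerModule ℤ (towerS S L₀ h₀) :=
  A.filter (isSPred S L₀) (isSPred_nonempty h₀) (isSPred_directed S L₀)

/-- the restriction of `A` to the decomposition groups at `q` in the `S`-levels -/
abbrev AqS (S : Finset Nat.Primes) (h₀ : L₀.IsS S) (q : Nat.Primes)
    (A : TowerModule ℤ (levelTower L₀)) : TowerModule ℤ (towerLocS S q L₀ h₀) :=
  (A.resSub (decompFamily q L₀)).filter (isSPred S L₀) (isSPred_nonempty h₀)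
    (isSPred_directed S L₀)

include hfin hA in
lemma isFinPTorsion_AS : (AS S h₀ A).IsFinPTorsion p :=
  ⟨fun j => hfin j.1, fun j x => hA j.1 x⟩

include hfin hA in
lemma isFinPTorsion_AqS (q : Nat.Primes) : (AqS S h₀ q A).IsFinPTorsion p :=
  ⟨fun j => hfin j.1, fun j x => hA j.1 x⟩

include hfin hA in
/-- global `α¹` is bijective -/
theorem alpha1_global_bijective :
    Function.Bijective (d.cf.limFormation.alpha (AS S h₀ A) 1 1 rfl) := by
  haveI := isFinPTorsion_AS (S := S) (h₀ := h₀) A hfin hA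
  exact alpha1_bijective d.cf d.ex (b := botS S L₀ h₀) botS_le (AS S h₀ A)

include hfin hA in
/-- global `α²` is bijective -/
theorem alpha2_global_bijective :
    Function.Bijective (d.cf.limFormation.alpha (AS S h₀ A) 2 0 rfl) := by
  haveI := isFinPTorsion_AS (S := S) (h₀ := h₀) A hfin hA
  exact alpha2_bijective d.cf (b := botS S L₀ h₀) botS_le (AS S h₀ A)

include d hfin hA in
/-- `H¹_S(A)` is finite -/
theorem finite_hlim_one_global : Finite (HLim (AS S h₀ A) 1) := by
  haveI := isFinPTorsion_AS (S := S) (h₀ := h₀) A hfin hA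
  exact finite_hlim_one d.cf (b := botS S L₀ h₀) botS_le (AS S h₀ A)

include hfin hA in
/-- local `α¹` is surjective -/
theorem alpha1_local_surjective (q : ↥S) :
    Function.Surjective ((d.cfLoc q).limFormation.alpha (AqS S h₀ q.1 A) 1 1 rfl) := by
  haveI := isFinPTorsion_AqS (S := S) (h₀ := h₀) A hfin hA q.1
  exact alpha1_surjective (d.cfLoc q) (b := botLocS S q.1 L₀ h₀) (botLocS_le q.1) (AqS S h₀ q.1 A)

include hfin hA in
/-- local `α²` is bijective -/
theorem alpha2_local_bijective (q : ↥S) :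
    Function.Bijective ((d.cfLoc q).limFormation.alpha (AqS S h₀ q.1 A) 2 0 rfl) := by
  haveI := isFinPTorsion_AqS (S := S) (h₀ := h₀) A hfin hA q.1
  exact alpha2_bijective (d.cfLoc q) (b := botLocS S q.1 L₀ h₀) (botLocS_le q.1) (AqS S h₀ q.1 A)

include d hfin hA in
/-- local `H¹` over the `S`-levels is finite -/
theorem finite_hlim_one_local (q : ↥S) : Finite (HLim (AqS S h₀ q.1 A) 1) := by
  haveI := isFinPTorsion_AqS (S := S) (h₀ := h₀) A hfin hA q.1
  exact finite_hlim_one (d.cfLoc q) (b := botLocS S q.1 L₀ h₀) (botLocS_le q.1) (AqS S h₀ q.1 A)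

end PTData

end

end Fermat.Agent.CFT.Duality
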