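import Fermat.Agent.Lib.CFT.Duality.ExtLim

/-!
# P4 / Layer D : the tower module `Hom(A, μ)`

For tower modules `A` (cartesian) and `μ`, `A.homTo μ` has levels `Hom_k(A_i, μ_i)` with the
conjugation action, and transition maps `f ↦ μ.φ ∘ f ∘ (A.φ)⁻¹`.
-/

set_option autoImplicit false

open CategoryTheory

namespace Fermat.Agent.CFT.Duality

noncomputable section

namespace TowerModule

variable {k : Type} [CommRing k] {T : Tower}

section

variable (A : TowerModule k T) [A.IsCartesian]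

lemma inv_φ_ρ {i j : T.ι} (h : i ≤ j) (g : T.G j) (y : A.C j) :
    (inv (A.φ h)).hom ((A.C j).ρ g y) = (A.C i).ρ (T.π h g) ((inv (A.φ h)).hom y) :=
  (Rep.hom_comm_apply (inv (A.φ h)) g y)

lemma φ_ρ (B : TowerModule k T) {i j : T.ι} (h : i ≤ j) (g : T.G j) (x : B.C i) :
    (B.φ h).hom ((B.C i).ρ (T.π h g) x) = (B.C j).ρ g ((B.φ h).hom x) :=
  (Rep.hom_comm_apply (B.φ h) g x)

lemma inv_φ_refl (i : T.ι) (y : A.C i) : (inv (A.φ (le_refl i))).hom y = y := by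
  apply A.φ_injective (le_refl i)
  rw [A.φ_inv_φ, A.φ_refl]

lemma inv_φ_comp {i j l : T.ι} (h : i ≤ j) (h' : j ≤ l) (z : A.C l) :
    (inv (A.φ h)).hom ((inv (A.φ h')).hom z) = (inv (A.φ (h.trans h'))).hom z := by
  apply A.φ_injective (h.trans h')
  rw [A.φ_inv_φ, ← A.φ_comp h h', A.φ_inv_φ, A.φ_inv_φ]

end

variable (A μ : TowerModule k T) [A.IsCartesian]

/-- The transition map of `homTo`, as a linear map. -/
def homToLin {i j : T.ι} (h : i ≤ j) :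
    ((A.C i).V →ₗ[k] (μ.C i).V) →ₗ[k] ((A.C j).V →ₗ[k] (μ.C j).V) where
  toFun f := (μ.φ h).hom.toLinearMap ∘ₗ f ∘ₗ (inv (A.φ h)).hom.toLinearMap
  map_add' f₁ f₂ := by simp_rw [LinearMap.add_comp, LinearMap.comp_add]
  map_smul' r f := by simp_rw [RingHom.id_apply, LinearMap.smul_comp, LinearMap.comp_smul]

@[simp] lemma homToLin_apply {i j : T.ι} (h : i ≤ j) (f : (A.C i).V →ₗ[k] (μ.C i).V)
    (y : (A.C j).V) :
    homToLin A μ h f y = (μ.φ h).hom (f ((inv (A.φ h)).hom y)) := rfl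

/-- `Hom_k(A, μ)` with the conjugation action, for `A` cartesian. -/
def homTo : TowerModule k T where
  C i := Rep.of (Representation.linHom (A.C i).ρ (μ.C i).ρ)
  φ {i j} h := Rep.ofHom ⟨homToLin A μ h, fun g => by
    ext f y
    change (μ.φ h).hom ((μ.C i).ρ (T.π h g) (f ((A.C i).ρ (T.π h g)⁻¹ ((inv (A.φ h)).hom y))))
      = (μ.C j).ρ g ((μ.φ h).hom (f ((inv (A.φ h)).hom ((A.C j).ρ g⁻¹ y))))
    rw [φ_ρ, inv_φ_ρ, map_inv (T.π h) g]⟩
  φ_refl i f := by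
    apply LinearMap.ext
    intro y
    change (μ.φ (le_refl i)).hom (f ((inv (A.φ (le_refl i))).hom y)) = f y
    rw [μ.φ_refl, inv_φ_refl]
  φ_comp {i j l} h h' f := by
    apply LinearMap.ext
    intro z
    change (μ.φ h').hom ((μ.φ h).hom (f ((inv (A.φ h)).hom ((inv (A.φ h')).hom z))))
      = (μ.φ (h.trans h')).hom (f ((inv (A.φ (h.trans h'))).hom z))
    rw [μ.φ_comp, inv_φ_comp]

@[simp] lemma homTo_φ_apply {i j : T.ι} (h : i ≤ j) (f : (A.C i).V →ₗ[k] (μ.C i).V)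
    (y : (A.C j).V) :
    (show (A.C j).V →ₗ[k] (μ.C j).V from ((A.homTo μ).φ h).hom f) y
      = (μ.φ h).hom (f ((inv (A.φ h)).hom y)) := rfl

@[simp] lemma homTo_ρ_apply (i : T.ι) (g : T.G i) (f : (A.C i).V →ₗ[k] (μ.C i).V)
    (x : (A.C i).V) :
    (show (A.C i).V →ₗ[k] (μ.C i).V from ((A.homTo μ).C i).ρ g f) x
      = (μ.C i).ρ g (f ((A.C i).ρ g⁻¹ x)) := rfl

/-- The inverse of the transition map of `homTo`, as a linear map. -/
def homToLinInv [μ.IsCartesian] {i j : T.ι} (h : i ≤ j) :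
    ((A.C j).V →ₗ[k] (μ.C j).V) →ₗ[k] ((A.C i).V →ₗ[k] (μ.C i).V) where
  toFun f := (inv (μ.φ h)).hom.toLinearMap ∘ₗ f ∘ₗ (A.φ h).hom.toLinearMap
  map_add' f₁ f₂ := by simp_rw [LinearMap.add_comp, LinearMap.comp_add]
  map_smul' r f := by simp_rw [RingHom.id_apply, LinearMap.smul_comp, LinearMap.comp_smul]

instance [μ.IsCartesian] : (A.homTo μ).IsCartesian where
  isIso {i j} h := by
    refine ⟨Rep.ofHom ⟨homToLinInv A μ h, fun g => ?_⟩, ?_, ?_⟩
    · apply LinearMap.ext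
      intro (f : (A.C j).V →ₗ[k] (μ.C j).V)
      apply LinearMap.ext
      intro x
      change (inv (μ.φ h)).hom ((μ.C j).ρ g (f ((A.C j).ρ g⁻¹ ((A.φ h).hom x))))
        = (μ.C i).ρ (T.π h g) ((inv (μ.φ h)).hom (f ((A.φ h).hom ((A.C i).ρ (T.π h g)⁻¹ x))))
      rw [inv_φ_ρ, ← map_inv (T.π h) g, φ_ρ]
    · ext (f : (A.C i).V →ₗ[k] (μ.C i).V)
      apply LinearMap.ext
      intro x
      change (inv (μ.φ h)).hom ((μ.φ h).hom (f ((inv (A.φ h)).hom ((A.φ h).hom x)))) = f x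
      rw [inv_φ_φ, inv_φ_φ]
    · ext (f : (A.C j).V →ₗ[k] (μ.C j).V)
      apply LinearMap.ext
      intro y
      change (μ.φ h).hom ((inv (μ.φ h)).hom (f ((A.φ h).hom ((inv (A.φ h)).hom y)))) = f y
      rw [φ_inv_φ, φ_inv_φ]

end TowerModule

end

end Fermat.Agent.CFT.Duality
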