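import Fermat.Agent.Lib.CFT.Duality.TowerOf
import Fermat.Agent.Lib.CFT.Duality.CohLimMap
import Fermat.Agent.Lib.CFT.Duality.HomTo

/-!
# P4 / Layer D (D-FINAL, part 2): `Hom(M^*(1), μ_p) ≅ M` as tower modules

For `M : Rep (ZMod p) G_ℚ` finite dimensional, `M' = M.dualTwist χ_p`, and a cartesian tower module
`μ` of order `p` on which `G_ℚ` acts through the cyclotomic character, the tower modules
`towerOf M` and `(towerOf M').homTo μ` are levelwise isomorphic; hence their `ShaCoh` agree.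
-/

set_option autoImplicit false

open CategoryTheory ExtCitation

namespace Fermat.Agent.CFT.Duality

noncomputable section

section algebra

variable (p : ℕ) [hp : Fact p.Prime] {V : Type} [AddCommGroup V] [Module (ZMod p) V]
  [FiniteDimensional (ZMod p) V]
  {W : Type} [AddCommGroup W] [Module ℤ W]

/-- Additive maps are `ℤ`-linear for arbitrary `ℤ`-module structures. -/
def addHomToIntLin {X Y : Type*} [AddCommGroup X] [AddCommGroup Y] [Module ℤ X] [Module ℤ Y]
    (f : X →+ Y) : X →ₗ[ℤ] Y where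
  toFun := f
  map_add' := f.map_add
  map_smul' n x := by
    have h1 := int_smul_eq_zsmul (inferInstance : Module ℤ X) n x
    have h2 := int_smul_eq_zsmul (inferInstance : Module ℤ Y) n (f x)
    rw [RingHom.id_apply]
    exact (congrArg f h1).trans ((map_zsmul f n x).trans h2.symm)

@[simp] lemma addHomToIntLin_apply {X Y : Type*} [AddCommGroup X] [AddCommGroup Y] [Module ℤ X]
    [Module ℤ Y] (f : X →+ Y) (x : X) : addHomToIntLin f x = f x := rfl

lemma nsmul_mod_of_nsmul_eq_zero {ζ : W} (hζ : p • ζ = 0) (n : ℕ) : (n % p) • ζ = n • ζ := by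
  conv_rhs => rw [← Nat.mod_add_div n p]
  rw [add_nsmul, mul_comm, mul_nsmul', hζ, nsmul_zero, add_zero]

/-- `a ↦ a.val • ζ` as an additive map `ZMod p → W`, for `ζ` killed by `p`. -/
def valSmul {ζ : W} (hζ : p • ζ = 0) : ZMod p →+ W where
  toFun a := a.val • ζ
  map_zero' := by rw [ZMod.val_zero, zero_nsmul]
  map_add' a b := by
    rw [ZMod.val_add, nsmul_mod_of_nsmul_eq_zero p hζ, add_nsmul]

@[simp] lemma valSmul_apply {ζ : W} (hζ : p • ζ = 0) (a : ZMod p) :
    valSmul p hζ a = a.val • ζ := rfl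

lemma valSmul_injective {ζ : W} (hζ : p • ζ = 0) (hζ0 : ζ ≠ 0) :
    Function.Injective (valSmul p hζ) := by
  rw [injective_iff_map_eq_zero]
  intro a ha
  rw [valSmul_apply] at ha
  by_contra hne
  -- the order of `ζ` is `p`, and `a.val < p`
  have hord : addOrderOf ζ = p := by
    have h1 : addOrderOf ζ ∣ p := addOrderOf_dvd_of_nsmul_eq_zero hζ
    rcases (Nat.dvd_prime hp.out).mp h1 with h | h
    · exact absurd (AddMonoid.addOrderOf_eq_one_iff.mp h) hζ0
    · exact h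
  have h2 : p ∣ a.val := by
    have := addOrderOf_dvd_of_nsmul_eq_zero ha
    rwa [hord] at this
  have h3 : a.val < p := ZMod.val_lt a
  have h4 : a.val = 0 := Nat.eq_zero_of_dvd_of_lt h2 h3
  exact hne ((ZMod.val_eq_zero a).mp h4)

lemma valSmul_surjective {ζ : W} (hζ : p • ζ = 0) (hζ0 : ζ ≠ 0) (hcard : Nat.card W = p) :
    Function.Surjective (valSmul p hζ) := by
  haveI : Finite W := Nat.finite_of_card_ne_zero (hcard ▸ hp.out.ne_zero)
  have hinj := valSmul_injective p hζ hζ0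
  have hc : Nat.card (ZMod p) = Nat.card W := by rw [Nat.card_zmod, hcard]
  exact ((Nat.bijective_iff_injective_and_card _).mpr ⟨hinj, hc⟩).2

variable [Module ℤ (Module.Dual (ZMod p) V)]

/-- `m ↦ (f ↦ f(m) • ζ)` : `V → Hom_ℤ(V^*, W)`. -/
def dualPair {ζ : W} (hζ : p • ζ = 0) : V →+ (Module.Dual (ZMod p) V →ₗ[ℤ] W) where
  toFun m := addHomToIntLin ((valSmul p hζ).comp
    ((LinearMap.applyₗ (R := ZMod p) m : Module.Dual (ZMod p) V →ₗ[ZMod p] ZMod p).toAddMonoidHom))
  map_zero' := by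
    apply LinearMap.ext
    intro f
    change valSmul p hζ (f 0) = 0
    rw [map_zero, map_zero]
  map_add' m m' := by
    apply LinearMap.ext
    intro f
    change valSmul p hζ (f (m + m')) = valSmul p hζ (f m) + valSmul p hζ (f m')
    rw [map_add, map_add]

@[simp] lemma dualPair_apply {ζ : W} (hζ : p • ζ = 0) (m : V) (f : Module.Dual (ZMod p) V) :
    dualPair p hζ m f = (f m).val • ζ := rfl

lemma dualPair_injective {ζ : W} (hζ : p • ζ = 0) (hζ0 : ζ ≠ 0) :
    Function.Injective (dualPair (V := V) p hζ) := by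
  rw [injective_iff_map_eq_zero]
  intro m hm
  rw [← Module.forall_dual_apply_eq_zero_iff (R := ZMod p)]
  intro f
  have h1 : dualPair p hζ m f = 0 := by rw [hm]; rfl
  have h2 : valSmul p hζ (f m) = valSmul p hζ 0 := by rw [map_zero]; exact h1
  exact valSmul_injective p hζ hζ0 h2

lemma dualPair_surjective {ζ : W} (hζ : p • ζ = 0) (hζ0 : ζ ≠ 0) (hcard : Nat.card W = p) :
    Function.Surjective (dualPair (V := V) p hζ) := by
  intro g
  have hbij : Function.Bijective (valSmul p hζ) :=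
    ⟨valSmul_injective p hζ hζ0, valSmul_surjective p hζ hζ0 hcard⟩
  let e : ZMod p ≃+ W := AddEquiv.ofBijective (valSmul p hζ) hbij
  let c : Module.Dual (ZMod p) V →+ ZMod p := e.symm.toAddMonoidHom.comp g.toAddMonoidHom
  let c' : Module.Dual (ZMod p) (Module.Dual (ZMod p) V) := c.toZModLinearMap p
  refine ⟨(Module.evalEquiv (ZMod p) V).symm c', ?_⟩
  apply LinearMap.ext
  intro f
  rw [dualPair_apply]
  have h1 : f ((Module.evalEquiv (ZMod p) V).symm c') = c' f := by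
    have := Module.apply_evalEquiv_symm_apply (R := ZMod p) (M := V) f c'
    exact this
  rw [h1]
  change valSmul p hζ (e.symm (g f)) = g f
  exact e.apply_symm_apply (g f)

end algebra


section algebra2

variable (p : ℕ) [hp : Fact p.Prime] {W : Type} [AddCommGroup W]

lemma val_nsmul_val_nsmul {ζ : W} (hζ : p • ζ = 0) (x y : ZMod p) :
    x.val • (y.val • ζ) = (x * y).val • ζ := by
  rw [← mul_nsmul', ZMod.val_mul]
  have h := nsmul_mod_of_nsmul_eq_zero (W := W) p hζ (x.val * y.val)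
  exact h.symm

end algebra2

/-- A morphism of representations from an equivariant linear map (generic coefficient ring, so that
the module structures are those of the representations). -/
def repHomMk {k G : Type} [CommRing k] [Monoid G] (A B : Rep.{0} k G) (f : A.V →ₗ[k] B.V)
    (h : ∀ (g : G) (x : A.V), f (A.ρ g x) = B.ρ g (f x)) : A ⟶ B :=
  ConcreteCategory.ofHom (C := Rep.{0} k G) (X := A) (Y := B) ⟨f, fun g => LinearMap.ext (h g)⟩

lemma repHomMk_hom_apply {k G : Type} [CommRing k] [Monoid G] (A B : Rep.{0} k G)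
    (f : A.V →ₗ[k] B.V) (h : ∀ (g : G) (x : A.V), f (A.ρ g x) = B.ρ g (f x)) (x : A.V) :
    (repHomMk A B f h).hom x = f x := rfl

/-- Commutation of a family of level maps with the transition maps, checked on elements (generic
coefficient ring). -/
lemma towerHom_comm_of_apply {k : Type} [CommRing k] {T : Tower} {A B : TowerModule k T}
    (f : ∀ i, A.C i ⟶ B.C i) {i j : T.ι} (h : i ≤ j)
    (hx : ∀ x : A.C i, (f j).hom ((A.φ h).hom x) = (B.φ h).hom ((f i).hom x)) :
    A.φ h ≫ f j = (Rep.resFunctor (T.π h)).map (f i) ≫ B.φ h :=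
  Rep.hom_ext (Representation.IntertwiningMap.ext (LinearMap.ext hx))

/-- A bijective morphism of representations is an isomorphism. -/
lemma repIsIso_of_bijective {k G : Type} [CommRing k] [Monoid G] {A B : Rep.{0} k G} (f : A ⟶ B)
    (hf : Function.Bijective f.hom) : IsIso f := by
  have : IsIso ((forget (Rep k G)).map f) := (isIso_iff_bijective _).2 hf
  exact isIso_of_reflects_iso f (forget (Rep k G))

/-! ## The tower modules -/

section tower

variable (p : ℕ) [hp : Fact p.Prime] (M : Rep.{0} (ZMod p) GQ) [FiniteDimensional (ZMod p) M.V]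
  (L₀ : Level) (hM : TrivialOn M L₀) (hM' : TrivialOn (M.dualTwist (cycloChar p)) L₀)
  (μ : TowerModule ℤ (levelTower L₀)) [μ.IsCartesian]
  (hcard : ∀ L, Nat.card (μ.C L) = p)
  (hcyc : ∀ (L : (levelTower L₀).ι) (σ : GQ) (m : μ.C L),
    (μ.C L).ρ (L.1.proj σ) m = ((cycloChar p σ : (ZMod p)ˣ) : ZMod p).val • m)

/-- The base level. -/
def baseLevel : (levelTower L₀).ι := (⟨L₀, le_refl L₀⟩ : {L : Level // L₀ ≤ L})

lemma baseLevel_le (L : (levelTower L₀).ι) : baseLevel L₀ ≤ L := L.2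

include hcard in
lemma nsmul_eq_zero_of_card (L : (levelTower L₀).ι) (x : μ.C L) : p • x = 0 := by
  have := card_nsmul_eq_zero' (G := μ.C L) (x := x)
  rwa [hcard L] at this

include hcard in
lemma exists_ne_zero_of_card : ∃ ζ₀ : μ.C (baseLevel L₀), ζ₀ ≠ 0 := by
  haveI : Finite (μ.C (baseLevel L₀)) :=
    Nat.finite_of_card_ne_zero (by rw [hcard]; exact hp.out.ne_zero)
  haveI : Nontrivial (μ.C (baseLevel L₀)) := by
    rw [← Finite.one_lt_card_iff_nontrivial, hcard]
    exact hp.out.one_lt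
  exact exists_ne 0

/-- The generator of `μ` at level `L`. -/
def zetaAt (ζ₀ : μ.C (baseLevel L₀)) (L : (levelTower L₀).ι) : μ.C L :=
  (μ.φ (baseLevel_le L₀ L)).hom ζ₀

lemma zetaAt_ne_zero {ζ₀ : μ.C (baseLevel L₀)} (h0 : ζ₀ ≠ 0) (L : (levelTower L₀).ι) :
    zetaAt L₀ μ ζ₀ L ≠ 0 := by
  intro h
  apply h0
  apply μ.φ_injective (baseLevel_le L₀ L)
  rw [map_zero]
  exact h

lemma φ_zetaAt (ζ₀ : μ.C (baseLevel L₀)) {L L' : (levelTower L₀).ι} (h : L ≤ L') :
    (μ.φ h).hom (zetaAt L₀ μ ζ₀ L) = zetaAt L₀ μ ζ₀ L' :=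
  μ.φ_comp (baseLevel_le L₀ L) h ζ₀

end tower

section hom

variable (p : ℕ) [hp : Fact p.Prime] (M : Rep.{0} (ZMod p) GQ) [FiniteDimensional (ZMod p) M.V]
  (L₀ : Level) (hM : TrivialOn M L₀) (hM' : TrivialOn (M.dualTwist (cycloChar p)) L₀)
  (μ : TowerModule ℤ (levelTower L₀)) [μ.IsCartesian]
  (hcard : ∀ L, Nat.card (μ.C L) = p)
  (hcyc : ∀ (L : (levelTower L₀).ι) (σ : GQ) (m : μ.C L),
    (μ.C L).ρ (L.1.proj σ) m = ((cycloChar p σ : (ZMod p)ˣ) : ZMod p).val • m)
  (ζ₀ : μ.C (baseLevel L₀))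

/-- The tower module `Hom(M^*(1), μ)`. -/
abbrev homTwistTower : TowerModule ℤ (levelTower L₀) :=
  (towerOf (M.dualTwist (cycloChar p)) L₀ hM').homTo μ

/-- The carrier of `Hom(M^*(1), μ)` at level `L`, with the module structures of the tower
modules. -/
abbrev HomV (L : (levelTower L₀).ι) : Type :=
  @LinearMap ℤ ℤ _ _ (RingHom.id ℤ) (Module.Dual (ZMod p) M.V) (μ.C L).V _ _
    ((towerOf (M.dualTwist (cycloChar p)) L₀ hM').C L).hV2 (μ.C L).hV2

/-- The pairing map at level `L`, as an additive map. -/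
def dualTwistAddAt (L : (levelTower L₀).ι) : M.V →+ HomV p M L₀ hM' μ L :=
  @dualPair p _ M.V _ _ (μ.C L).V _ (μ.C L).hV2
    ((towerOf (M.dualTwist (cycloChar p)) L₀ hM').C L).hV2 (zetaAt L₀ μ ζ₀ L)
    (nsmul_eq_zero_of_card p L₀ μ hcard L (zetaAt L₀ μ ζ₀ L))

lemma dualTwistAddAt_apply (L : (levelTower L₀).ι) (m : M.V) (f : Module.Dual (ZMod p) M.V) :
    dualTwistAddAt p M L₀ hM' μ hcard ζ₀ L m f = (f m).val • zetaAt L₀ μ ζ₀ L := rfl

include hcyc in
lemma dualTwistAddAt_equivariant (L : (levelTower L₀).ι) (σ : GQ) (m : M.V)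
    (f : Module.Dual (ZMod p) M.V) :
    dualTwistAddAt p M L₀ hM' μ hcard ζ₀ L (M.ρ σ m) f
      = (μ.C L).ρ (L.1.proj σ)
          (dualTwistAddAt p M L₀ hM' μ hcard ζ₀ L m ((M.dualTwist (cycloChar p)).ρ σ⁻¹ f)) := by
  have hζ := nsmul_eq_zero_of_card p L₀ μ hcard L (zetaAt L₀ μ ζ₀ L)
  rw [dualTwistAddAt_apply, dualTwistAddAt_apply, map_nsmul, hcyc, Rep.dualTwist_ρ_apply,
    val_nsmul_val_nsmul p hζ]
  congr 1
  rw [LinearMap.smul_apply, LinearMap.comp_apply, inv_inv, smul_eq_mul, mul_comm, ← mul_assoc]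
  have h1 : ((cycloChar p σ : (ZMod p)ˣ) : ZMod p) * ((cycloChar p σ⁻¹ : (ZMod p)ˣ) : ZMod p)
      = 1 := by
    rw [← Units.val_mul, ← map_mul, mul_inv_cancel, map_one, Units.val_one]
  rw [h1, one_mul]

/-- The pairing map at level `L`, as a `ℤ`-linear map between the carriers of the tower modules. -/
def dualTwistLinAt (L : (levelTower L₀).ι) :
    @LinearMap ℤ ℤ _ _ (RingHom.id ℤ) ((towerOf M L₀ hM).C L).V
      ((homTwistTower p M L₀ hM' μ).C L).V _ _ ((towerOf M L₀ hM).C L).hV2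
      ((homTwistTower p M L₀ hM' μ).C L).hV2 :=
  @addHomToIntLin M.V (HomV p M L₀ hM' μ L) _ _ ((towerOf M L₀ hM).C L).hV2
    ((homTwistTower p M L₀ hM' μ).C L).hV2 (dualTwistAddAt p M L₀ hM' μ hcard ζ₀ L)

/-- The pairing map at level `L`, as a morphism of representations. -/
def dualTwistHomAt (L : (levelTower L₀).ι) :
    (towerOf M L₀ hM).C L ⟶ (homTwistTower p M L₀ hM' μ).C L :=
  repHomMk ((towerOf M L₀ hM).C L) ((homTwistTower p M L₀ hM' μ).C L)
    (dualTwistLinAt p M L₀ hM hM' μ hcard ζ₀ L) (fun g m => by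
      obtain ⟨σ, rfl⟩ := L.1.proj_surjective g
      change (_ : HomV p M L₀ hM' μ L) = _
      refine DFunLike.ext _ _ (fun f => ?_)
      exact dualTwistAddAt_equivariant p M L₀ hM' μ hcard hcyc ζ₀ L σ m f)

lemma dualTwistHomAt_apply (L : (levelTower L₀).ι) (m : M.V) (f : Module.Dual (ZMod p) M.V) :
    (show HomV p M L₀ hM' μ L from (dualTwistHomAt p M L₀ hM hM' μ hcard hcyc ζ₀ L).hom m) f
      = (f m).val • zetaAt L₀ μ ζ₀ L := rfl

lemma inv_towerOf_φ_apply {k : Type} [CommRing k] (N : Rep.{0} k GQ) (hN : TrivialOn N L₀)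
    {L L' : (levelTower L₀).ι} (h : L ≤ L') (y : N.V) :
    (inv ((towerOf N L₀ hN).φ h)).hom y = y := by
  apply (towerOf N L₀ hN).φ_injective h
  rw [TowerModule.φ_inv_φ]
  rfl

/-- The morphism of tower modules `M → Hom(M^*(1), μ)`. -/
def dualTwistHom : (towerOf M L₀ hM).Hom (homTwistTower p M L₀ hM' μ) where
  f L := dualTwistHomAt p M L₀ hM hM' μ hcard hcyc ζ₀ L
  comm {L L'} h := by
    refine towerHom_comm_of_apply _ h (fun (m : M.V) => ?_)
    change (_ : HomV p M L₀ hM' μ L') = _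
    refine DFunLike.ext _ _ (fun f => ?_)
    change (f m).val • zetaAt L₀ μ ζ₀ L'
      = (μ.φ h).hom (((show Module.Dual (ZMod p) M.V from
          (inv ((towerOf (M.dualTwist (cycloChar p)) L₀ hM').φ h)).hom f) m).val
            • zetaAt L₀ μ ζ₀ L)
    rw [inv_towerOf_φ_apply, map_nsmul, φ_zetaAt]

include hcard in
lemma dualTwistHomAt_bijective (h0 : ζ₀ ≠ 0) (L : (levelTower L₀).ι) :
    Function.Bijective (dualTwistHomAt p M L₀ hM hM' μ hcard hcyc ζ₀ L).hom := by
  have hζ := nsmul_eq_zero_of_card p L₀ μ hcard L (zetaAt L₀ μ ζ₀ L)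
  have hne := zetaAt_ne_zero L₀ μ h0 L
  constructor
  · exact @dualPair_injective p _ M.V _ _ _ (μ.C L).V _ (μ.C L).hV2
      ((towerOf (M.dualTwist (cycloChar p)) L₀ hM').C L).hV2 (zetaAt L₀ μ ζ₀ L) hζ hne
  · exact @dualPair_surjective p _ M.V _ _ _ (μ.C L).V _ (μ.C L).hV2
      ((towerOf (M.dualTwist (cycloChar p)) L₀ hM').C L).hV2 (zetaAt L₀ μ ζ₀ L) hζ hne (hcard L)

include hcard in
lemma dualTwistHom_isIso (h0 : ζ₀ ≠ 0) (L : (levelTower L₀).ι) :
    IsIso ((dualTwistHom p M L₀ hM hM' μ hcard hcyc ζ₀).f L) :=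
  repIsIso_of_bijective _ (dualTwistHomAt_bijective p M L₀ hM hM' μ hcard hcyc ζ₀ h0 L)

/-- `Ш^n_S` of the tower module of `M` agrees with `Ш^n_S` of `Hom(M^*(1), μ)`. -/
def shaCohDualTwistEquiv (h0 : ζ₀ ≠ 0) (S : Finset Nat.Primes) (h₀ : L₀.IsS S) (n : ℕ) :
    shaCohOf M L₀ hM S h₀ (n := n)
      ≃ ShaCoh (isSPred S L₀) (isSPred_nonempty h₀) (isSPred_directed S L₀)
          (homTwistTower p M L₀ hM' μ) n (fun q : ↥S => decompFamily q.1 L₀) :=
  haveI : ∀ L, IsIso ((dualTwistHom p M L₀ hM hM' μ hcard hcyc ζ₀).f L) :=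
    dualTwistHom_isIso p M L₀ hM hM' μ hcard hcyc ζ₀ h0
  shaCohCongr (dualTwistHom p M L₀ hM hM' μ hcard hcyc ζ₀) (isSPred S L₀) (isSPred_nonempty h₀)
    (isSPred_directed S L₀) (fun q : ↥S => decompFamily q.1 L₀) n

end hom

end

end Fermat.Agent.CFT.Duality
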