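import Fermat.Agent.Lib.CFT.Duality.ExtNat

/-!
# P4 / Layer D : the adjunction isomorphism on `Ext` for a pair of exact adjoint functors
-/

set_option autoImplicit false
set_option linter.unusedSectionVars false

universe w w' v v' u u'

open CategoryTheory Abelian Limits

namespace Fermat.Agent.CFT.Duality

variable {C : Type u} [Category.{v} C] [Abelian C] {D : Type u'} [Category.{v'} D] [Abelian D]
  [HasExt.{w} C] [HasExt.{w'} D]

section Basic

variable (F : C ⥤ D) [F.Additive] [PreservesFiniteLimits F] [PreservesFiniteColimits F]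

/-- `mapExactFunctor` for the identity functor. -/
theorem mapExactFunctor_id [EnoughProjectives C] {X Y : C} {n : ℕ} (ξ : Ext.{w} X Y n) :
    ξ.mapExactFunctor (𝟭 C) = ξ := by
  induction n generalizing X with
  | zero =>
    obtain ⟨f, rfl⟩ := (Ext.mk₀_bijective X Y).2 ξ
    simp [Ext.mapExactFunctor_mk₀]
  | succ n hn =>
    let P : ProjectivePresentation X := Classical.arbitrary _
    let S := ShortComplex.mk _ _ (kernel.condition P.f)
    have hS : S.ShortExact := { exact := ShortComplex.exact_kernel P.f }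
    have : Projective S.X₂ := P.projective
    obtain ⟨ζ, rfl⟩ := Ext.contravariant_sequence_exact₃ hS Y ξ
      (Ext.eq_zero_of_projective _) (add_comm 1 n)
    rw [Ext.mapExactFunctor_comp, Ext.mapExactFunctor_extClass, hn ζ]
    rfl

variable {E : Type*} [Category E] [Abelian E] [HasExt.{w} E]
  (G : D ⥤ E) [G.Additive] [PreservesFiniteLimits G] [PreservesFiniteColimits G]

/-- `mapExactFunctor` for a composition of functors. -/
theorem mapExactFunctor_comp_functor [EnoughProjectives C] {X Y : C} {n : ℕ} (ξ : Ext.{w} X Y n) :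
    ξ.mapExactFunctor (F ⋙ G) = (ξ.mapExactFunctor F).mapExactFunctor G := by
  induction n generalizing X with
  | zero =>
    obtain ⟨f, rfl⟩ := (Ext.mk₀_bijective X Y).2 ξ
    simp [Ext.mapExactFunctor_mk₀]
  | succ n hn =>
    let P : ProjectivePresentation X := Classical.arbitrary _
    let S := ShortComplex.mk _ _ (kernel.condition P.f)
    have hS : S.ShortExact := { exact := ShortComplex.exact_kernel P.f }
    have : Projective S.X₂ := P.projective
    obtain ⟨ζ, rfl⟩ := Ext.contravariant_sequence_exact₃ hS Y ξ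
      (Ext.eq_zero_of_projective _) (add_comm 1 n)
    rw [Ext.mapExactFunctor_comp, Ext.mapExactFunctor_extClass, hn ζ, Ext.mapExactFunctor_comp,
      Ext.mapExactFunctor_comp, Ext.mapExactFunctor_extClass]
    have e1 : (hS.map_of_exact F).extClass.mapExactFunctor G
        = ((hS.map_of_exact F).map_of_exact G).extClass := Ext.mapExactFunctor_extClass G _
    erw [e1]
    rfl

end Basic

section Adjunction

variable {F : C ⥤ D} {G : D ⥤ C} [F.Additive] [PreservesFiniteLimits F] [PreservesFiniteColimits F]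
  [G.Additive] [PreservesFiniteLimits G] [PreservesFiniteColimits G] (adj : F ⊣ G)
  [EnoughProjectives C] [EnoughProjectives D]

/-- `Ext^n(F X, Y) → Ext^n(X, G Y)`, `ξ ↦ G(ξ) ∘ η_X`. -/
noncomputable def extAdjTo (X : C) (Y : D) (n : ℕ) (ξ : Ext.{w'} (F.obj X) Y n) :
    Ext.{w} X (G.obj Y) n :=
  (Ext.mk₀ (adj.unit.app X)).comp (ξ.mapExactFunctor G) (zero_add n)

/-- `Ext^n(X, G Y) → Ext^n(F X, Y)`, `ζ ↦ ε_Y ∘ F(ζ)`. -/
noncomputable def extAdjInv (X : C) (Y : D) (n : ℕ) (ζ : Ext.{w} X (G.obj Y) n) :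
    Ext.{w'} (F.obj X) Y n :=
  (ζ.mapExactFunctor F).comp (Ext.mk₀ (adj.counit.app Y)) (add_zero n)

theorem extAdjInv_extAdjTo (X : C) (Y : D) (n : ℕ) (ξ : Ext.{w'} (F.obj X) Y n) :
    extAdjInv adj X Y n (extAdjTo adj X Y n ξ) = ξ := by
  unfold extAdjInv extAdjTo
  rw [Ext.mapExactFunctor_comp, Ext.mapExactFunctor_mk₀, ← mapExactFunctor_comp_functor,
    Ext.comp_assoc_of_third_deg_zero]
  have h := mapExactFunctor_natTrans (G ⋙ F) (𝟭 D) adj.counit ξ
  rw [mapExactFunctor_id] at h
  erw [h]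
  rw [← Ext.comp_assoc_of_second_deg_zero, Ext.mk₀_comp_mk₀]
  have := adj.left_triangle_components X
  dsimp at this ⊢
  rw [this, Ext.mk₀_id_comp]

theorem extAdjTo_extAdjInv (X : C) (Y : D) (n : ℕ) (ζ : Ext.{w} X (G.obj Y) n) :
    extAdjTo adj X Y n (extAdjInv adj X Y n ζ) = ζ := by
  unfold extAdjInv extAdjTo
  rw [Ext.mapExactFunctor_comp, Ext.mapExactFunctor_mk₀, ← mapExactFunctor_comp_functor,
    ← Ext.comp_assoc_of_third_deg_zero]
  have h := mapExactFunctor_natTrans (𝟭 C) (F ⋙ G) adj.unit ζ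
  rw [mapExactFunctor_id] at h
  erw [← h]
  rw [Ext.comp_assoc_of_third_deg_zero, Ext.mk₀_comp_mk₀]
  have := adj.right_triangle_components Y
  dsimp at this ⊢
  rw [this, Ext.comp_mk₀_id]

/-- **The adjunction isomorphism on `Ext`** for an adjunction `F ⊣ G` of exact functors. -/
noncomputable def extAdjEquiv (X : C) (Y : D) (n : ℕ) :
    Ext.{w'} (F.obj X) Y n ≃+ Ext.{w} X (G.obj Y) n where
  toFun := extAdjTo adj X Y n
  invFun := extAdjInv adj X Y n
  left_inv := extAdjInv_extAdjTo adj X Y n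
  right_inv := extAdjTo_extAdjInv adj X Y n
  map_add' ξ ξ' := by
    unfold extAdjTo
    rw [Ext.mapExactFunctor_add, Ext.comp_add]

@[simp] theorem extAdjEquiv_apply (X : C) (Y : D) (n : ℕ) (ξ : Ext.{w'} (F.obj X) Y n) :
    extAdjEquiv adj X Y n ξ = (Ext.mk₀ (adj.unit.app X)).comp (ξ.mapExactFunctor G) (zero_add n) :=
  rfl

@[simp] theorem extAdjEquiv_symm_apply (X : C) (Y : D) (n : ℕ) (ζ : Ext.{w} X (G.obj Y) n) :
    (extAdjEquiv adj X Y n).symm ζ =
      (ζ.mapExactFunctor F).comp (Ext.mk₀ (adj.counit.app Y)) (add_zero n) :=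
  rfl

/-- Naturality of `extAdjEquiv` in the second variable, w.r.t. `Ext` classes. -/
theorem extAdjEquiv_comp (X : C) {Y Y' : D} {n m l : ℕ} (ξ : Ext.{w'} (F.obj X) Y n)
    (β : Ext.{w'} Y Y' m) (h : n + m = l) :
    extAdjEquiv adj X Y' l (ξ.comp β h) =
      (extAdjEquiv adj X Y n ξ).comp (β.mapExactFunctor G) h := by
  simp only [extAdjEquiv_apply, Ext.mapExactFunctor_comp]
  exact (Ext.comp_assoc _ _ _ _ _ (by omega)).symm

/-- Naturality of `extAdjEquiv` in the first variable, w.r.t. `Ext` classes. -/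
theorem extAdjEquiv_comp_left {X X' : C} (Y : D) {n m l : ℕ} (α : Ext.{w} X' X m)
    (ξ : Ext.{w'} (F.obj X) Y n) (h : m + n = l) :
    extAdjEquiv adj X' Y l ((α.mapExactFunctor F).comp ξ h) =
      α.comp (extAdjEquiv adj X Y n ξ) h := by
  simp only [extAdjEquiv_apply, Ext.mapExactFunctor_comp, ← mapExactFunctor_comp_functor]
  have h1 := mapExactFunctor_natTrans (𝟭 C) (F ⋙ G) adj.unit α
  rw [mapExactFunctor_id] at h1
  rw [← Ext.comp_assoc _ _ _ (zero_add m) h (by omega)]
  erw [← h1]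
  exact Ext.comp_assoc _ _ _ _ _ (by omega)

end Adjunction

end Fermat.Agent.CFT.Duality
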