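import Fermat.Agent.Lib.CFT.Duality.ExtPull

/-!
# P4 / Layer D, D-REP (complement) : the induction functor for a subgroup of finite index

The main file is `ExtShapiro.lean` (coinduction).  Here, for `S ≤ G` of finite index:

* exactness instances for `Rep.indFunctor k S.subtype`, so that `Ext.mapExactFunctor` and
  `extAdjEquiv` apply to `ind ⊣ res` and `res ⊣ ind`;
* `shapiroIndL S X Y n : Ext_G(ind X, Y) ≃+ Ext_S(X, res Y)`,
  `shapiroIndR S Z X n : Ext_S(res Z, X) ≃+ Ext_G(Z, ind X)`;
* `indRes_counit_mk`, `counit_unit_hom`, `unit_comp_counit` : `X ⟶ ind res X ⟶ X` is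
  multiplication by the index.
-/

set_option autoImplicit false
set_option linter.unusedSectionVars false

open CategoryTheory Abelian Limits Rep Representation

namespace Fermat.Agent.CFT.Duality

noncomputable section

variable {k G : Type} [CommRing k] [Group G] (S : Subgroup G) [S.FiniteIndex]

instance indFunctor_additive : (Rep.indFunctor k S.subtype : Rep.{0} k S ⥤ Rep.{0} k G).Additive :=
  (Rep.indResAdjunction k S.subtype).left_adjoint_additive

instance indFunctor_preservesFiniteColimits :
    PreservesFiniteColimits (Rep.indFunctor k S.subtype : Rep.{0} k S ⥤ Rep.{0} k G) := by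
  infer_instance

instance indFunctor_preservesFiniteLimits :
    PreservesFiniteLimits (Rep.indFunctor k S.subtype : Rep.{0} k S ⥤ Rep.{0} k G) := by
  infer_instance

theorem indRes_counit_mk (Y : Rep k G) (g : G) (y : Y) :
    ((Rep.indResAdjunction k S.subtype).counit.app Y).hom
      (IndV.mk S.subtype ((Rep.resFunctor S.subtype).obj Y).ρ g y) = Y.ρ g⁻¹ y := by
  simp [Rep.indResAdjunction, Rep.indResHomEquiv]

attribute [local instance] Subgroup.fintypeQuotientOfFiniteIndex

theorem card_quotient_rightRel :
    Fintype.card (Quotient (QuotientGroup.rightRel S)) = S.index := by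
  rw [Subgroup.index, ← Nat.card_eq_fintype_card]
  exact Nat.card_congr (QuotientGroup.quotientRightRelEquivQuotientLeftRel S)

open scoped Classical in
theorem counit_unit_hom (X : Rep k G) (x : X) :
    ((Rep.indResAdjunction k S.subtype).counit.app X).hom
      (((Rep.resIndAdjunction k S).unit.app X).hom x) = S.index • x := by
  rw [Rep.resIndAdjunction_unit_app]
  show ((Rep.indResAdjunction k S.subtype).counit.app X).hom
    (Rep.coindToInd (Rep.res S.subtype X)
      (((Rep.resCoindAdjunction k S.subtype).unit.app X).hom x)) = _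
  rw [Rep.coindToInd_apply, map_sum, Finset.sum_congr rfl (g := fun _ => x)]
  · rw [Finset.sum_const, Finset.card_univ, card_quotient_rightRel]
  · intro q _
    induction q using Quotient.inductionOn with
    | h g =>
      rw [Quotient.liftOn_mk]
      have h1 := indRes_counit_mk S X g
        ((((Rep.resCoindAdjunction k S.subtype).unit.app X).hom x).1 g)
      refine h1.trans ?_
      have h2 : (((Rep.resCoindAdjunction k S.subtype).unit.app X).hom x).1 g = X.ρ g x := by
        simp [Rep.resCoindAdjunction, Rep.resCoindHomEquiv]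
      rw [h2]
      simp

open scoped Classical in
/-- `X ⟶ ind res X ⟶ X` is multiplication by the index. -/
theorem unit_comp_counit (X : Rep k G) :
    (Rep.resIndAdjunction k S).unit.app X ≫ (Rep.indResAdjunction k S.subtype).counit.app X =
      S.index • 𝟙 X := by
  ext x
  exact counit_unit_hom S X x

/-- Shapiro's isomorphism for induction, first variable: `Ext_G(ind X, Y) ≃ Ext_S(X, res Y)`. -/
def shapiroIndL (X : Rep k S) (Y : Rep k G) (n : ℕ) :
    Ext ((Rep.indFunctor k S.subtype).obj X) Y n ≃+ Ext X (Rep.res S.subtype Y) n :=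
  extAdjEquiv (Rep.indResAdjunction k S.subtype) X Y n

theorem shapiroIndL_apply (X : Rep k S) (Y : Rep k G) (n : ℕ)
    (ξ : Ext ((Rep.indFunctor k S.subtype).obj X) Y n) :
    shapiroIndL S X Y n ξ = (Ext.mk₀ ((Rep.indResAdjunction k S.subtype).unit.app X)).comp
      (ξ.mapExactFunctor (Rep.resFunctor S.subtype)) (zero_add n) := rfl

theorem shapiroIndL_symm_apply (X : Rep k S) (Y : Rep k G) (n : ℕ)
    (ζ : Ext X (Rep.res S.subtype Y) n) :
    (shapiroIndL S X Y n).symm ζ = (ζ.mapExactFunctor (Rep.indFunctor k S.subtype)).comp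
      (Ext.mk₀ ((Rep.indResAdjunction k S.subtype).counit.app Y)) (add_zero n) := rfl

open scoped Classical in
/-- Shapiro's isomorphism for induction, second variable: `Ext_S(res Z, X) ≃ Ext_G(Z, ind X)`. -/
def shapiroIndR (Z : Rep k G) (X : Rep k S) (n : ℕ) :
    Ext (Rep.res S.subtype Z) X n ≃+ Ext Z ((Rep.indFunctor k S.subtype).obj X) n :=
  extAdjEquiv (Rep.resIndAdjunction k S) Z X n

open scoped Classical in
theorem shapiroIndR_apply (Z : Rep k G) (X : Rep k S) (n : ℕ)
    (z : Ext (Rep.res S.subtype Z) X n) :
    shapiroIndR S Z X n z = (Ext.mk₀ ((Rep.resIndAdjunction k S).unit.app Z)).comp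
      (z.mapExactFunctor (Rep.indFunctor k S.subtype)) (zero_add n) := rfl

open scoped Classical in
theorem shapiroIndR_symm_apply (Z : Rep k G) (X : Rep k S) (n : ℕ)
    (x : Ext Z ((Rep.indFunctor k S.subtype).obj X) n) :
    (shapiroIndR S Z X n).symm x = (x.mapExactFunctor (Rep.resFunctor S.subtype)).comp
      (Ext.mk₀ ((Rep.resIndAdjunction k S).counit.app X)) (add_zero n) := rfl

end

end Fermat.Agent.CFT.Duality
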