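import Fermat.Agent.Lib.CFT.Duality.ExtLim

/-!
# P4 / Layer D : maps between the `ExtLim` groups, exactness in the limit
-/

set_option autoImplicit false
set_option linter.unusedSectionVars false

open CategoryTheory Abelian

namespace Fermat.Agent.CFT.Duality

noncomputable section

namespace TowerModule

variable {k : Type} [CommRing k] {T : Tower}

section Lift

variable (A B : TowerModule k T) [A.IsCartesian] (r : ℕ)

@[elab_as_elim]
lemma ExtLim.induction_on {motive : ExtLim A B r → Prop} (x : ExtLim A B r)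
    (h : ∀ j ξ, motive (ExtLim.of A B r j ξ)) : motive x := by
  obtain ⟨j, ξ, rfl⟩ := ExtLim.exists_of A B r x
  exact h j ξ

/-- The universal property of `ExtLim`. -/
def ExtLim.lift {P : Type*} [AddCommGroup P] (g : ∀ j, Ext (A.C j) (B.C j) r →+ P)
    (hg : ∀ {i j : T.ι} (h : i ≤ j) (ξ : Ext (A.C i) (B.C i) r),
      g j (extTrans A B r h ξ) = g i ξ) : ExtLim A B r →+ P where
  toFun := DirectLimit.lift (F := fun j : T.ι => Ext (A.C j) (B.C j) r)
    (fun _ _ h => extTrans A B r h) (fun j ξ => g j ξ) (fun _ _ h ξ => (hg h ξ).symm)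
  map_zero' := DirectLimit.lift_zero (G := fun j : T.ι => Ext (A.C j) (B.C j) r)
    (f := fun _ _ h => extTrans A B r h) g _
  map_add' := DirectLimit.lift_add (G := fun j : T.ι => Ext (A.C j) (B.C j) r)
    (f := fun _ _ h => extTrans A B r h) g _

@[simp] lemma ExtLim.lift_of {P : Type*} [AddCommGroup P] (g : ∀ j, Ext (A.C j) (B.C j) r →+ P)
    (hg : ∀ {i j : T.ι} (h : i ≤ j) (ξ : Ext (A.C i) (B.C i) r),
      g j (extTrans A B r h ξ) = g i ξ) (j : T.ι) (ξ : Ext (A.C j) (B.C j) r) :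
    ExtLim.lift A B r g hg (ExtLim.of A B r j ξ) = g j ξ := rfl

variable (A' B' : TowerModule k T) [A'.IsCartesian] (r' : ℕ)

lemma ExtLim.map_aux (g : ∀ j, Ext (A.C j) (B.C j) r →+ Ext (A'.C j) (B'.C j) r')
    (hg : ∀ {i j : T.ι} (h : i ≤ j) (ξ : Ext (A.C i) (B.C i) r),
      g j (extTrans A B r h ξ) = extTrans A' B' r' h (g i ξ)) {i j : T.ι} (h : i ≤ j)
    (ξ : Ext (A.C i) (B.C i) r) :
    ((ExtLim.of A' B' r' j).comp (g j)) (extTrans A B r h ξ)
      = ((ExtLim.of A' B' r' i).comp (g i)) ξ := by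
  simp only [AddMonoidHom.comp_apply]
  rw [hg h ξ, ExtLim.of_trans]

/-- A levelwise compatible family of maps induces a map on the colimits. -/
def ExtLim.map (g : ∀ j, Ext (A.C j) (B.C j) r →+ Ext (A'.C j) (B'.C j) r')
    (hg : ∀ {i j : T.ι} (h : i ≤ j) (ξ : Ext (A.C i) (B.C i) r),
      g j (extTrans A B r h ξ) = extTrans A' B' r' h (g i ξ)) : ExtLim A B r →+ ExtLim A' B' r' :=
  ExtLim.lift A B r (fun j => (ExtLim.of A' B' r' j).comp (g j))
    (fun h ξ => ExtLim.map_aux A B r A' B' r' g hg h ξ)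

@[simp] lemma ExtLim.map_of (g : ∀ j, Ext (A.C j) (B.C j) r →+ Ext (A'.C j) (B'.C j) r')
    (hg : ∀ {i j : T.ι} (h : i ≤ j) (ξ : Ext (A.C i) (B.C i) r),
      g j (extTrans A B r h ξ) = extTrans A' B' r' h (g i ξ)) (j : T.ι)
    (ξ : Ext (A.C j) (B.C j) r) :
    ExtLim.map A B r A' B' r' g hg (ExtLim.of A B r j ξ) = ExtLim.of A' B' r' j (g j ξ) := by
  unfold ExtLim.map
  exact ExtLim.lift_of A B r (fun j => (ExtLim.of A' B' r' j).comp (g j))
    (fun h ξ => ExtLim.map_aux A B r A' B' r' g hg h ξ) j ξ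

variable {A B r A' B' r'}

/-- Exactness passes to the colimit. -/
lemma ExtLim.exact_of_levelwise {A'' B'' : TowerModule k T} [A''.IsCartesian] {r'' : ℕ}
    (u : ∀ j, Ext (A.C j) (B.C j) r →+ Ext (A'.C j) (B'.C j) r')
    (hu : ∀ {i j : T.ι} (h : i ≤ j) (ξ : Ext (A.C i) (B.C i) r),
      u j (extTrans A B r h ξ) = extTrans A' B' r' h (u i ξ))
    (v : ∀ j, Ext (A'.C j) (B'.C j) r' →+ Ext (A''.C j) (B''.C j) r'')
    (hv : ∀ {i j : T.ι} (h : i ≤ j) (ξ : Ext (A'.C i) (B'.C i) r'),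
      v j (extTrans A' B' r' h ξ) = extTrans A'' B'' r'' h (v i ξ))
    (hex : ∀ j (y : Ext (A'.C j) (B'.C j) r'), v j y = 0 → ∃ x, u j x = y)
    (y : ExtLim A' B' r') (hy : ExtLim.map A' B' r' A'' B'' r'' v hv y = 0) :
    ∃ x, ExtLim.map A B r A' B' r' u hu x = y := by
  induction y using ExtLim.induction_on with
  | h j η =>
    rw [ExtLim.map_of] at hy
    obtain ⟨l, hjl, hl⟩ := ExtLim.of_eq_zero A'' B'' r'' hy
    rw [← hv hjl η] at hl
    obtain ⟨x, hx⟩ := hex l _ hl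
    refine ⟨ExtLim.of A B r l x, ?_⟩
    rw [ExtLim.map_of, hx, ExtLim.of_trans]

/-- Exactness passes to the colimit (version for arbitrary maps given by levelwise formulas). -/
lemma ExtLim.exact_of_levelwise' {A'' B'' : TowerModule k T} [A''.IsCartesian] {r'' : ℕ}
    (U : ExtLim A B r → ExtLim A' B' r') (V : ExtLim A' B' r' → ExtLim A'' B'' r'')
    (u : ∀ j, Ext (A.C j) (B.C j) r → Ext (A'.C j) (B'.C j) r')
    (v : ∀ j, Ext (A'.C j) (B'.C j) r' → Ext (A''.C j) (B''.C j) r'')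
    (hU : ∀ j ξ, U (ExtLim.of A B r j ξ) = ExtLim.of A' B' r' j (u j ξ))
    (hV : ∀ j ξ, V (ExtLim.of A' B' r' j ξ) = ExtLim.of A'' B'' r'' j (v j ξ))
    (hv : ∀ {i j : T.ι} (h : i ≤ j) (ξ : Ext (A'.C i) (B'.C i) r'),
      extTrans A'' B'' r'' h (v i ξ) = v j (extTrans A' B' r' h ξ))
    (hex : ∀ j (y : Ext (A'.C j) (B'.C j) r'), v j y = 0 → ∃ x, u j x = y)
    (y : ExtLim A' B' r') (hy : V y = 0) : ∃ x, U x = y := by
  induction y using ExtLim.induction_on with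
  | h j η =>
    rw [hV] at hy
    obtain ⟨l, hjl, hl⟩ := ExtLim.of_eq_zero A'' B'' r'' hy
    rw [hv hjl η] at hl
    obtain ⟨x, hx⟩ := hex l _ hl
    refine ⟨ExtLim.of A B r l x, ?_⟩
    rw [hU, hx, ExtLim.of_trans]

end Lift

end TowerModule

end

end Fermat.Agent.CFT.Duality
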