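import Mathlib

/-!
# P4 / Layer D : natural transformations of exact functors act on `Ext`
-/

set_option autoImplicit false

universe w w' v v' u u'

open CategoryTheory Abelian Limits

namespace Fermat.Agent.CFT.Duality

variable {C : Type u} [Category.{v} C] [Abelian C] {D : Type u'} [Category.{v'} D] [Abelian D]
  [HasExt.{w} C] [HasExt.{w'} D]

variable (F F' : C ⥤ D) [F.Additive] [PreservesFiniteLimits F] [PreservesFiniteColimits F]
  [F'.Additive] [PreservesFiniteLimits F'] [PreservesFiniteColimits F'] (τ : F ⟶ F')

/-- A natural transformation between exact functors commutes with the action on `Ext` classes. -/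
theorem mapExactFunctor_natTrans [EnoughProjectives C] {X Y : C} {n : ℕ} (ξ : Ext.{w} X Y n) :
    (ξ.mapExactFunctor F).comp (Ext.mk₀ (τ.app Y)) (add_zero n) =
      (Ext.mk₀ (τ.app X)).comp (ξ.mapExactFunctor F') (zero_add n) := by
  induction n generalizing X with
  | zero =>
    obtain ⟨f, rfl⟩ := (Ext.mk₀_bijective X Y).2 ξ
    simp only [Ext.mapExactFunctor_mk₀, Ext.mk₀_comp_mk₀]
    rw [τ.naturality]
  | succ n hn =>
    let P : ProjectivePresentation X := Classical.arbitrary _
    let S := ShortComplex.mk _ _ (kernel.condition P.f)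
    have hS : S.ShortExact := { exact := ShortComplex.exact_kernel P.f }
    have : Projective S.X₂ := P.projective
    obtain ⟨ζ, rfl⟩ := Ext.contravariant_sequence_exact₃ hS Y ξ
      (Ext.eq_zero_of_projective _) (add_comm 1 n)
    rw [Ext.mapExactFunctor_comp, Ext.mapExactFunctor_comp, Ext.mapExactFunctor_extClass,
      Ext.mapExactFunctor_extClass]
    have hnat := ShortComplex.ShortExact.extClass_naturality (hS.map_of_exact F)
      (hS.map_of_exact F') (S.mapNatTrans τ)
    simp only [ShortComplex.mapNatTrans_τ₁, ShortComplex.mapNatTrans_τ₃] at hnat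
    rw [Ext.comp_assoc_of_third_deg_zero, hn ζ, ← Ext.comp_assoc_of_second_deg_zero]
    erw [hnat]
    exact Ext.comp_assoc _ _ _ _ _ (by omega)

end Fermat.Agent.CFT.Duality
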