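import Fermat.Agent.Lib.CFT.Bridge.LowDegree

/-!
# P4 / Layer D (D-BR3): group cohomology in degrees 1 and 2 does not depend on the coefficient ring

For `A : Rep k G` we define the underlying `ℤ`-representation `intRep A : Rep ℤ G` and additive
isomorphisms `H¹(G, A) ≃+ H¹(G, intRep A)`, `H²(G, A) ≃+ H²(G, intRep A)`, natural with respect to
`groupCohomology.map`.
-/

set_option autoImplicit false

open groupCohomology CategoryTheory

namespace Fermat.Agent.CFT.Duality

noncomputable section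

variable {k G H : Type} [CommRing k] [Group G] [Group H]

/-- The underlying `ℤ`-linear representation. -/
def intRho {V : Type} [AddCommGroup V] [Module k V] (ρ : Representation k G V) :
    Representation ℤ G V where
  toFun g := (ρ g).toAddMonoidHom.toIntLinearMap
  map_one' := by ext v; simp
  map_mul' g h := by ext v; simp

@[simp] lemma intRho_apply {V : Type} [AddCommGroup V] [Module k V] (ρ : Representation k G V)
    (g : G) (v : V) : intRho ρ g v = ρ g v := rfl

/-- The underlying `ℤ`-representation of a representation. -/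
def intRep (A : Rep k G) : Rep ℤ G := Rep.of (intRho A.ρ)

@[simp] lemma intRep_ρ_apply (A : Rep k G) (g : G) (v : A.V) : (intRep A).ρ g v = A.ρ g v := rfl

/-- Functoriality of `intRep`. -/
def intHom {A B : Rep k G} (φ : A ⟶ B) : intRep A ⟶ intRep B :=
  Rep.ofHom ⟨φ.hom.toLinearMap.toAddMonoidHom.toIntLinearMap, fun g => by
    ext v
    exact Rep.hom_comm_apply φ g v⟩

@[simp] lemma intHom_apply {A B : Rep k G} (φ : A ⟶ B) (v : A.V) :
    (intHom φ).hom v = φ.hom v := rfl

lemma intRep_res (f : H →* G) (A : Rep k G) : intRep (Rep.res f A) = Rep.res f (intRep A) := rfl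

/-! ## Additive lifts from cocycles -/

section lifts

variable (A : Rep k G) {X : Type*} [AddCommGroup X]

/-- An additive map on 1-cocycles that kills coboundaries descends to `H¹`. -/
def H1liftAdd (f : cocycles₁ A →+ X)
    (hf : ∀ z : cocycles₁ A, (z : G → A) ∈ coboundaries₁ A → f z = 0) : H1 A →+ X :=
  (QuotientAddGroup.lift (AddMonoidHom.ker (H1π A).hom.toAddMonoidHom) f (fun z hz =>
      hf z ((H1π_eq_zero_iff z).mp hz))).comp
    (QuotientAddGroup.quotientKerEquivOfSurjective (H1π A).hom.toAddMonoidHom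
      (Bridge.H1π_surjective A)).symm.toAddMonoidHom

@[simp] lemma H1liftAdd_H1π (f : cocycles₁ A →+ X)
    (hf : ∀ z : cocycles₁ A, (z : G → A) ∈ coboundaries₁ A → f z = 0) (z : cocycles₁ A) :
    H1liftAdd A f hf ((H1π A).hom z) = f z := by
  unfold H1liftAdd
  rw [AddMonoidHom.comp_apply]
  have : (QuotientAddGroup.quotientKerEquivOfSurjective (H1π A).hom.toAddMonoidHom
      (Bridge.H1π_surjective A)).symm.toAddMonoidHom ((H1π A).hom z)
      = QuotientAddGroup.mk z := by
    change (QuotientAddGroup.quotientKerEquivOfSurjective (H1π A).hom.toAddMonoidHom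
      (Bridge.H1π_surjective A)).symm ((H1π A).hom z) = QuotientAddGroup.mk z
    rw [AddEquiv.symm_apply_eq]
    rfl
  rw [this]
  rfl

/-- An additive map on 2-cocycles that kills coboundaries descends to `H²`. -/
def H2liftAdd (f : cocycles₂ A →+ X)
    (hf : ∀ z : cocycles₂ A, (z : G × G → A) ∈ coboundaries₂ A → f z = 0) : H2 A →+ X :=
  (QuotientAddGroup.lift (AddMonoidHom.ker (H2π A).hom.toAddMonoidHom) f (fun z hz =>
      hf z ((H2π_eq_zero_iff z).mp hz))).comp
    (QuotientAddGroup.quotientKerEquivOfSurjective (H2π A).hom.toAddMonoidHom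
      (Bridge.H2π_surjective A)).symm.toAddMonoidHom

@[simp] lemma H2liftAdd_H2π (f : cocycles₂ A →+ X)
    (hf : ∀ z : cocycles₂ A, (z : G × G → A) ∈ coboundaries₂ A → f z = 0) (z : cocycles₂ A) :
    H2liftAdd A f hf ((H2π A).hom z) = f z := by
  unfold H2liftAdd
  rw [AddMonoidHom.comp_apply]
  have : (QuotientAddGroup.quotientKerEquivOfSurjective (H2π A).hom.toAddMonoidHom
      (Bridge.H2π_surjective A)).symm.toAddMonoidHom ((H2π A).hom z)
      = QuotientAddGroup.mk z := by
    change (QuotientAddGroup.quotientKerEquivOfSurjective (H2π A).hom.toAddMonoidHom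
      (Bridge.H2π_surjective A)).symm ((H2π A).hom z) = QuotientAddGroup.mk z
    rw [AddEquiv.symm_apply_eq]
    rfl
  rw [this]
  rfl

end lifts

/-! ## Degree 1 -/

lemma mem_cocycles₁_intRep_iff (A : Rep k G) (f : G → A.V) :
    (show G → (intRep A).V from f) ∈ cocycles₁ (intRep A) ↔ f ∈ cocycles₁ A := by
  constructor
  · intro h
    exact (mem_cocycles₁_iff (A := A) f).mpr
      (fun g g' => (mem_cocycles₁_iff (A := intRep A) f).mp h g g')
  · intro h
    exact (mem_cocycles₁_iff (A := intRep A) f).mpr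
      (fun g g' => (mem_cocycles₁_iff (A := A) f).mp h g g')

lemma mem_coboundaries₁_intRep_iff (A : Rep k G) (f : G → A.V) :
    (show G → (intRep A).V from f) ∈ coboundaries₁ (intRep A) ↔ f ∈ coboundaries₁ A := by
  constructor
  · rintro ⟨x, hx⟩
    exact ⟨x, hx⟩
  · rintro ⟨x, hx⟩
    exact ⟨x, hx⟩

/-- The identity on 1-cocycles, `k`-coefficients to `ℤ`-coefficients. -/
def cocycles₁ToInt (A : Rep k G) : cocycles₁ A →+ cocycles₁ (intRep A) where
  toFun z := ⟨(z : G → A.V), (mem_cocycles₁_intRep_iff A _).mpr z.2⟩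
  map_zero' := rfl
  map_add' _ _ := rfl

/-- The identity on 1-cocycles, `ℤ`-coefficients to `k`-coefficients. -/
def cocycles₁OfInt (A : Rep k G) : cocycles₁ (intRep A) →+ cocycles₁ A where
  toFun z := ⟨(z : G → A.V), (mem_cocycles₁_intRep_iff A _).mp z.2⟩
  map_zero' := rfl
  map_add' _ _ := rfl

/-- `H¹(G, A) → H¹(G, intRep A)`. -/
def h1ToInt (A : Rep k G) : H1 A →+ H1 (intRep A) :=
  H1liftAdd A ((H1π (intRep A)).hom.toAddMonoidHom.comp (cocycles₁ToInt A)) (fun z hz => by
    change (H1π (intRep A)).hom (cocycles₁ToInt A z) = 0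
    rw [H1π_eq_zero_iff]
    exact (mem_coboundaries₁_intRep_iff A _).mpr hz)

/-- `H¹(G, intRep A) → H¹(G, A)`. -/
def h1OfInt (A : Rep k G) : H1 (intRep A) →+ H1 A :=
  H1liftAdd (intRep A) ((H1π A).hom.toAddMonoidHom.comp (cocycles₁OfInt A)) (fun z hz => by
    change (H1π A).hom (cocycles₁OfInt A z) = 0
    rw [H1π_eq_zero_iff]
    exact (mem_coboundaries₁_intRep_iff A _).mp hz)

@[simp] lemma h1ToInt_H1π (A : Rep k G) (z : cocycles₁ A) :
    h1ToInt A ((H1π A).hom z) = (H1π (intRep A)).hom (cocycles₁ToInt A z) := by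
  unfold h1ToInt
  rw [H1liftAdd_H1π]
  rfl

@[simp] lemma h1OfInt_H1π (A : Rep k G) (z : cocycles₁ (intRep A)) :
    h1OfInt A ((H1π (intRep A)).hom z) = (H1π A).hom (cocycles₁OfInt A z) := by
  unfold h1OfInt
  rw [H1liftAdd_H1π]
  rfl

/-- **D-BR3, degree 1.** -/
def h1Int (A : Rep k G) : H1 A ≃+ H1 (intRep A) where
  toFun := h1ToInt A
  invFun := h1OfInt A
  left_inv x := by
    obtain ⟨z, rfl⟩ := Bridge.H1π_surjective A x
    rw [h1ToInt_H1π, h1OfInt_H1π]
    rfl
  right_inv x := by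
    obtain ⟨z, rfl⟩ := Bridge.H1π_surjective (intRep A) x
    rw [h1OfInt_H1π, h1ToInt_H1π]
    rfl
  map_add' := map_add _

/-! ## Degree 2 -/

lemma mem_cocycles₂_intRep_iff (A : Rep k G) (f : G × G → A.V) :
    (show G × G → (intRep A).V from f) ∈ cocycles₂ (intRep A) ↔ f ∈ cocycles₂ A := by
  constructor
  · intro h
    exact (mem_cocycles₂_iff (A := A) f).mpr
      (fun g g' g'' => (mem_cocycles₂_iff (A := intRep A) f).mp h g g' g'')
  · intro h
    exact (mem_cocycles₂_iff (A := intRep A) f).mpr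
      (fun g g' g'' => (mem_cocycles₂_iff (A := A) f).mp h g g' g'')

lemma mem_coboundaries₂_intRep_iff (A : Rep k G) (f : G × G → A.V) :
    (show G × G → (intRep A).V from f) ∈ coboundaries₂ (intRep A) ↔ f ∈ coboundaries₂ A := by
  constructor
  · rintro ⟨x, hx⟩
    exact ⟨x, hx⟩
  · rintro ⟨x, hx⟩
    exact ⟨x, hx⟩

/-- The identity on 2-cocycles, `k`-coefficients to `ℤ`-coefficients. -/
def cocycles₂ToInt (A : Rep k G) : cocycles₂ A →+ cocycles₂ (intRep A) where
  toFun z := ⟨(z : G × G → A.V), (mem_cocycles₂_intRep_iff A _).mpr z.2⟩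
  map_zero' := rfl
  map_add' _ _ := rfl

/-- The identity on 2-cocycles, `ℤ`-coefficients to `k`-coefficients. -/
def cocycles₂OfInt (A : Rep k G) : cocycles₂ (intRep A) →+ cocycles₂ A where
  toFun z := ⟨(z : G × G → A.V), (mem_cocycles₂_intRep_iff A _).mp z.2⟩
  map_zero' := rfl
  map_add' _ _ := rfl

/-- `H²(G, A) → H²(G, intRep A)`. -/
def h2ToInt (A : Rep k G) : H2 A →+ H2 (intRep A) :=
  H2liftAdd A ((H2π (intRep A)).hom.toAddMonoidHom.comp (cocycles₂ToInt A)) (fun z hz => by
    change (H2π (intRep A)).hom (cocycles₂ToInt A z) = 0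
    rw [H2π_eq_zero_iff]
    exact (mem_coboundaries₂_intRep_iff A _).mpr hz)

/-- `H²(G, intRep A) → H²(G, A)`. -/
def h2OfInt (A : Rep k G) : H2 (intRep A) →+ H2 A :=
  H2liftAdd (intRep A) ((H2π A).hom.toAddMonoidHom.comp (cocycles₂OfInt A)) (fun z hz => by
    change (H2π A).hom (cocycles₂OfInt A z) = 0
    rw [H2π_eq_zero_iff]
    exact (mem_coboundaries₂_intRep_iff A _).mp hz)

@[simp] lemma h2ToInt_H2π (A : Rep k G) (z : cocycles₂ A) :
    h2ToInt A ((H2π A).hom z) = (H2π (intRep A)).hom (cocycles₂ToInt A z) := by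
  unfold h2ToInt
  rw [H2liftAdd_H2π]
  rfl

@[simp] lemma h2OfInt_H2π (A : Rep k G) (z : cocycles₂ (intRep A)) :
    h2OfInt A ((H2π (intRep A)).hom z) = (H2π A).hom (cocycles₂OfInt A z) := by
  unfold h2OfInt
  rw [H2liftAdd_H2π]
  rfl

/-- **D-BR3, degree 2.** -/
def h2Int (A : Rep k G) : H2 A ≃+ H2 (intRep A) where
  toFun := h2ToInt A
  invFun := h2OfInt A
  left_inv x := by
    obtain ⟨z, rfl⟩ := Bridge.H2π_surjective A x
    rw [h2ToInt_H2π, h2OfInt_H2π]
    rfl
  right_inv x := by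
    obtain ⟨z, rfl⟩ := Bridge.H2π_surjective (intRep A) x
    rw [h2OfInt_H2π, h2ToInt_H2π]
    rfl
  map_add' := map_add _

/-! ## Naturality -/

/-- Functoriality of `intRep` for morphisms along a group homomorphism. -/
def intHomRes (f : H →* G) {A : Rep.{0} k G} {B : Rep.{0} k H} (φ : Rep.res f A ⟶ B) :
    Rep.res f (intRep A) ⟶ intRep B :=
  Rep.ofHom ⟨φ.hom.toLinearMap.toAddMonoidHom.toIntLinearMap, fun g => by
    ext v
    exact Rep.hom_comm_apply φ g v⟩

@[simp] lemma intHomRes_apply (f : H →* G) {A : Rep.{0} k G} {B : Rep.{0} k H}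
    (φ : Rep.res f A ⟶ B) (v : A.V) : (intHomRes f φ).hom v = φ.hom v := rfl

/-- **D-BR3, naturality in degree 1.** -/
theorem h1Int_map (f : H →* G) (A : Rep.{0} k G) (B : Rep.{0} k H) (φ : Rep.res f A ⟶ B)
    (x : H1 A) :
    h1Int B ((groupCohomology.map f φ 1).hom x)
      = (groupCohomology.map f (intHomRes f φ) 1).hom (h1Int A x) := by
  obtain ⟨z, rfl⟩ := Bridge.H1π_surjective A x
  have e1 := H1π_comp_map_apply f φ z
  have e2 := H1π_comp_map_apply f (intHomRes f φ) (cocycles₁ToInt A z)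
  have e4 : h1Int A ((H1π A).hom z) = (H1π (intRep A)).hom (cocycles₁ToInt A z) :=
    h1ToInt_H1π A z
  have e3 : h1Int B ((H1π B).hom ((mapCocycles₁ f φ).hom z))
      = (H1π (intRep B)).hom (cocycles₁ToInt B ((mapCocycles₁ f φ).hom z)) :=
    h1ToInt_H1π B _
  have hsub : cocycles₁ToInt B ((mapCocycles₁ f φ).hom z)
      = (mapCocycles₁ f (intHomRes f φ)).hom (cocycles₁ToInt A z) := Subtype.ext rfl
  rw [e1, e3, hsub, e4, e2]

/-- **D-BR3, naturality in degree 2.** -/
theorem h2Int_map (f : H →* G) (A : Rep.{0} k G) (B : Rep.{0} k H) (φ : Rep.res f A ⟶ B)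
    (x : H2 A) :
    h2Int B ((groupCohomology.map f φ 2).hom x)
      = (groupCohomology.map f (intHomRes f φ) 2).hom (h2Int A x) := by
  obtain ⟨z, rfl⟩ := Bridge.H2π_surjective A x
  have e1 := H2π_comp_map_apply f φ z
  have e2 := H2π_comp_map_apply f (intHomRes f φ) (cocycles₂ToInt A z)
  have e4 : h2Int A ((H2π A).hom z) = (H2π (intRep A)).hom (cocycles₂ToInt A z) :=
    h2ToInt_H2π A z
  have e3 : h2Int B ((H2π B).hom ((mapCocycles₂ f φ).hom z))
      = (H2π (intRep B)).hom (cocycles₂ToInt B ((mapCocycles₂ f φ).hom z)) :=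
    h2ToInt_H2π B _
  have hsub : cocycles₂ToInt B ((mapCocycles₂ f φ).hom z)
      = (mapCocycles₂ f (intHomRes f φ)).hom (cocycles₂ToInt A z) := Subtype.ext rfl
  rw [e1, e3, hsub, e4, e2]

end

end Fermat.Agent.CFT.Duality
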