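import Fermat.Agent.Lib.CFT.Duality.Rebase
import Fermat.Agent.Lib.CFT.Duality.HLimCoh
import Fermat.Agent.Lib.CFT.Duality.ShapiroLim
import Fermat.Agent.Lib.CFT.Duality.LimZero

/-!
# P4 / Layer D, D-JSH : Shapiro's lemma in elementary form, at a finite level

`S ≤ G` of finite index, `Y : Rep k G`, `X : Rep k S` and `β : Y|_S → X` such that
`y ↦ (g ↦ β (g y))` is a bijection `Y → coind_S^G X` (stated elementwise).  Then
`β_* ∘ res : Ext^n_G(Z, Y) → Ext^n_S(Z|_S, X)` is bijective (`extPull_subtype_bijective`).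
-/

set_option autoImplicit false
set_option linter.unusedSectionVars false

open CategoryTheory Abelian Rep Representation

namespace Fermat.Agent.CFT.Duality

noncomputable section

section Level

variable {k G : Type} [CommRing k] [Group G] (S : Subgroup G)

/-- the adjoint `Y → coind_S^G X`, `y ↦ (g ↦ β (g y))`, of `β : Y|_S → X` -/
def coindAdjR {Y : Rep.{0} k G} {X : Rep.{0} k S} (β : Rep.res S.subtype Y ⟶ X) :
    Y ⟶ (Rep.coindFunctor k S.subtype).obj X :=
  (Rep.resCoindAdjunction k S.subtype).unit.app Y ≫ (Rep.coindFunctor k S.subtype).map β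

theorem coindAdjR_apply {Y : Rep.{0} k G} {X : Rep.{0} k S} (β : Rep.res S.subtype Y ⟶ X) (y : Y)
    (g : G) : ((coindAdjR S β).hom y).1 g = β.hom (Y.ρ g y) := rfl

theorem res_coindAdjR_comp_counit {Y : Rep.{0} k G} {X : Rep.{0} k S}
    (β : Rep.res S.subtype Y ⟶ X) :
    (Rep.resFunctor S.subtype).map (coindAdjR S β) ≫
      (Rep.resCoindAdjunction k S.subtype).counit.app X = β := by
  ext y
  change ((coindAdjR S β).hom y).1 1 = β.hom y
  rw [coindAdjR_apply, map_one]
  rfl

theorem coindAdjR_bijective {Y : Rep.{0} k G} {X : Rep.{0} k S} (β : Rep.res S.subtype Y ⟶ X)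
    (hinj : ∀ y : Y, (∀ g : G, β.hom (Y.ρ g y) = 0) → y = 0)
    (hsurj : ∀ f : G → X, (∀ (s : S) (g : G), f ((s : G) * g) = X.ρ s (f g)) →
      ∃ y : Y, ∀ g : G, β.hom (Y.ρ g y) = f g) :
    Function.Bijective (coindAdjR S β).hom := by
  constructor
  · rw [injective_iff_map_eq_zero]
    intro y hy
    refine hinj y (fun g => ?_)
    have := congrArg (fun F => F.1 g) hy
    exact this
  · intro F
    obtain ⟨y, hy⟩ := hsurj F.1 (fun s g => F.2 s g)
    refine ⟨y, ?_⟩
    apply Subtype.ext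
    funext g
    exact hy g

/-- `extPull` and composition with a morphism in the second variable -/
theorem extPull_comp_mk₀ {H : Type} [Group H] (f : H →* G) {A B B₁ : Rep.{0} k G}
    {A' B' : Rep.{0} k H} (a : A' ⟶ Rep.res f A) (b : Rep.res f B₁ ⟶ B') (e : B ⟶ B₁) (r : ℕ)
    (ξ : Ext A B r) :
    extPull f a b r (ξ.comp (Ext.mk₀ e) (add_zero r)) =
      extPull f a ((Rep.resFunctor f).map e ≫ b) r ξ := by
  simp only [extPull_apply, Ext.mapExactFunctor_comp, Ext.mapExactFunctor_mk₀,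
    ← Ext.mk₀_comp_mk₀]
  simp only [Ext.comp_assoc_of_third_deg_zero]

/-- `extPull` followed by composition with a morphism in the second variable -/
theorem extPull_postcomp_mk₀ {H : Type} [Group H] (f : H →* G) {A B : Rep.{0} k G}
    {A' B' B₁' : Rep.{0} k H} (a : A' ⟶ Rep.res f A) (b : Rep.res f B ⟶ B') (e : B' ⟶ B₁') (r : ℕ)
    (ξ : Ext A B r) :
    (extPull f a b r ξ).comp (Ext.mk₀ e) (add_zero r) = extPull f a (b ≫ e) r ξ := by
  simp only [extPull_apply, ← Ext.mk₀_comp_mk₀]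
  simp only [Ext.comp_assoc_of_third_deg_zero]

/-- composition with an isomorphism in the second variable is bijective -/
theorem ext_comp_mk₀_bijective {C : Type*} [Category C] [Abelian C] [HasExt C] {X Y Y' : C}
    (e : Y ⟶ Y') [IsIso e] (n : ℕ) :
    Function.Bijective (fun ξ : Ext X Y n => ξ.comp (Ext.mk₀ e) (add_zero n)) := by
  constructor
  · intro ξ η h
    have h1 := congrArg (fun ζ : Ext X Y' n => ζ.comp (Ext.mk₀ (inv e)) (add_zero n)) h
    simp only [Ext.comp_assoc_of_third_deg_zero, Ext.mk₀_comp_mk₀, IsIso.hom_inv_id,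
      Ext.comp_mk₀_id] at h1
    exact h1
  · intro ζ
    refine ⟨ζ.comp (Ext.mk₀ (inv e)) (add_zero n), ?_⟩
    simp only [Ext.comp_assoc_of_third_deg_zero, Ext.mk₀_comp_mk₀, IsIso.inv_hom_id,
      Ext.comp_mk₀_id]

variable [S.FiniteIndex]

/-- **Shapiro, elementary form**: if `β : Y|_S → X` identifies `Y` with `coind_S^G X`, then
`pr_* ∘ res : Ext^n_G(Z, Y) → Ext^n_S(Z|_S, X)` is bijective. -/
theorem extPull_subtype_bijective {Z Y : Rep.{0} k G} {X : Rep.{0} k S}
    (β : Rep.res S.subtype Y ⟶ X)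
    (hinj : ∀ y : Y, (∀ g : G, β.hom (Y.ρ g y) = 0) → y = 0)
    (hsurj : ∀ f : G → X, (∀ (s : S) (g : G), f ((s : G) * g) = X.ρ s (f g)) →
      ∃ y : Y, ∀ g : G, β.hom (Y.ρ g y) = f g) (n : ℕ) :
    Function.Bijective (extPull S.subtype (𝟙 (Rep.res S.subtype Z)) β n) := by
  have hiso : IsIso (coindAdjR S β) := rep_isIso_of_bij _ (coindAdjR_bijective S β hinj hsurj)
  have h1 : ∀ ξ : Ext Z Y n, extPull S.subtype (𝟙 (Rep.res S.subtype Z)) β n ξ =
      (shapiroR S Z X n).symm (ξ.comp (Ext.mk₀ (coindAdjR S β)) (add_zero n)) := by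
    intro ξ
    rw [shapiroR_symm_eq_extPull, extPull_comp_mk₀, res_coindAdjR_comp_counit]
  have h2 : (extPull S.subtype (𝟙 (Rep.res S.subtype Z)) β n : Ext Z Y n → _) =
      (shapiroR S Z X n).symm ∘
        (fun ξ : Ext Z Y n => ξ.comp (Ext.mk₀ (coindAdjR S β)) (add_zero n)) := funext h1
  rw [h2]
  exact (shapiroR S Z X n).symm.bijective.comp (ext_comp_mk₀_bijective (coindAdjR S β) n)

end Level

end

end Fermat.Agent.CFT.Duality
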