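import Fermat.Agent.Lib.CFT.Duality.ThetaNat
import Fermat.Agent.Lib.CFT.Duality.TowerMorLoc
import Fermat.Agent.Lib.CFT.Duality.PTData

/-!
# P4 / Layer D (D-STEPD): Step D of abstract Poitou–Tate

For `d : PTData`, a finite `p`-torsion cartesian `A` over `levelTower L₀` and `q ∈ S`:
the Kummer comparison `θ² : ExtLim A_S E 2 ≃ HLim (A_S.homTo E) 2` is compatible with the
localisation maps: the map `ExtLim A_S E 2 → ExtLim A_q Lq 2` induced by `E → J_q → L_q` corresponds
to the localisation `locLimAt` on `HLim ((A.homTo μ).filter P) 2`.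
-/

set_option autoImplicit false
set_option linter.unusedSectionVars false

open CategoryTheory Abelian

namespace Fermat.Agent.CFT.Duality

noncomputable section

open TowerModule

/-- A finite representation is a finite module (stated for a generic ring to avoid the `ℤ`-module
diamond). -/
lemma rep_moduleFinite_of_finite {k G : Type} [CommRing k] [Group G] (X : Rep.{0} k G)
    [Finite X.V] : Module.Finite k X.V := Module.Finite.of_finite

section Generic

variable {k : Type} [CommRing k] {T : Tower} (P : T.ι → Prop) (hne : ∃ i, P i)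
  (hdir : ∀ i j, P i → P j → ∃ l, P l ∧ i ≤ l ∧ j ≤ l) (D : T.SubgroupFamily)
  (A μ : TowerModule k T) [A.IsCartesian] (E : TowerModule k (T.filter P hne hdir))
  (Lq : TowerModule k (T.subTower D)) (κ : (μ.filter P hne hdir).Hom E)
  (κloc : (μ.resSub D).Hom Lq) (eL : HomAlong (TowerMor.filterSub T P hne hdir D) E Lq)
  (hcompat : ∀ (i : (T.filter P hne hdir).ι) (m : μ.C i.1),
    (eL.f i).hom ((κ.f i).hom m) = (κloc.f (show (T.subTower D).ι from i.1)).hom m)
  (Kq : ((A.homTo μ).resSub D).Hom ((A.resSub D).homTo Lq))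
  (hKq : ∀ (i : T.ι) (v : (A.C i).V →ₗ[k] (μ.C i).V) (x : (A.C i).V),
    (show (A.C i).V →ₗ[k] (Lq.C (show (T.subTower D).ι from i)).V from
      (Kq.f (show (T.subTower D).ι from i)).hom v) x =
      (κloc.f (show (T.subTower D).ι from i)).hom (v x))

include hcompat hKq in
/-- **Compatibility of the two Kummer maps with localisation** (on `HLim` of the `Hom` modules). -/
theorem pull_homA_mapRight_kappa (n : ℕ) (w : HLim ((A.homTo μ).filter P hne hdir) n) :
    ExtLim.pull (CoHomAlong.triv (TowerMor.filterSub T P hne hdir D))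
        (homA (CoHomAlong.filterSub P hne hdir D A) eL) n
        (ExtLim.mapRight (triv k (T.filter P hne hdir)) (homToMap (A.filter P hne hdir) κ) n w) =
      ExtLim.mapRight (triv k (T.subTower D)) Kq n (locLimAt P hne hdir D (A.homTo μ) n w) := by
  rw [locLimAt_eq_pull, ExtLim.mapRight_pull]
  refine (ExtLim.pull_mapRight (CoHomAlong.triv (TowerMor.filterSub T P hne hdir D))
    (homToMap (A.filter P hne hdir) κ) (homA (CoHomAlong.filterSub P hne hdir D A) eL) n w).trans ?_
  refine ExtLim.pull_congr _ _ _ _ (fun i x => rfl) (fun i v => ?_) n w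
  apply LinearMap.ext
  intro x
  exact (hcompat i _).trans (hKq i.1 v x).symm

variable [IsDomain k] [IsPrincipalIdealRing k] (p : ℕ)
  (hfin : ∀ j, Module.Finite k (A.C j).V) (hA : ∀ j (x : A.C j), p • x = 0)
  (hE : E.IsPDiv p) (hL : Lq.IsPDiv p)
  (hK : Function.Bijective (ExtLim.mapRight (triv k (T.filter P hne hdir))
    (homToMap (A.filter P hne hdir) κ) 2))
  (hKqinj : Function.Injective (ExtLim.mapRight (triv k (T.subTower D)) Kq 2))

/-- The Kummer comparison `ExtLim A_S E 2 ≃ HLim ((A.homTo μ).filter P) 2`: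
`θ²` followed by the inverse of `κ_*`. -/
def kummerTheta : ExtLim (A.filter P hne hdir) E 2 ≃+ HLim ((A.homTo μ).filter P hne hdir) 2 :=
  (theta2Lim (A.filter P hne hdir) E p (fun j => hfin j.1) (fun j x => hA j.1 x) hE).trans
    (AddEquiv.ofBijective _ hK).symm

lemma mapRight_kappa_kummerTheta (z : ExtLim (A.filter P hne hdir) E 2) :
    ExtLim.mapRight (triv k (T.filter P hne hdir)) (homToMap (A.filter P hne hdir) κ) 2
        (kummerTheta P hne hdir A μ E κ p hfin hA hE hK z) =
      theta2Lim (A.filter P hne hdir) E p (fun j => hfin j.1) (fun j x => hA j.1 x) hE z :=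
  (AddEquiv.ofBijective _ hK).apply_symm_apply _

include hcompat hKq hL hKqinj in
/-- **Step D**: under the Kummer comparison, the map `ExtLim A_S E 2 → ExtLim A_q L_q 2` induced by
`E → L_q` corresponds to the localisation map of `Hom(A, μ)`. -/
theorem pull_eq_zero_iff_locLimAt_kummerTheta (z : ExtLim (A.filter P hne hdir) E 2) :
    ExtLim.pull (CoHomAlong.filterSub P hne hdir D A) eL 2 z = 0 ↔
      locLimAt P hne hdir D (A.homTo μ) 2
        (kummerTheta P hne hdir A μ E κ p hfin hA hE hK z) = 0 := by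
  have h1 := theta2Lim_pull (CoHomAlong.filterSub P hne hdir D A) eL p (fun j => hfin j.1)
    (fun j x => hA j.1 x) (fun j => hfin j) (fun j x => hA j x) hE hL z
  rw [← mapRight_kappa_kummerTheta P hne hdir A μ E κ p hfin hA hE hK z,
    pull_homA_mapRight_kappa P hne hdir D A μ E Lq κ κloc eL hcompat Kq hKq] at h1
  rw [← (theta2Lim (A.resSub D) Lq p (fun j => hfin j) (fun j x => hA j x) hL).map_eq_zero_iff,
    h1, ← map_zero (ExtLim.mapRight (triv k (T.subTower D)) Kq 2)]
  exact hKqinj.eq_iff

end Generic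

variable {p : ℕ} [hp : Fact p.Prime] {S : Finset Nat.Primes} {L₀ : Level} {h₀ : L₀.IsS S}
  (d : PTData p S L₀ h₀)

namespace PTData

/-- The morphism of towers `towerS ⇢ towerLoc q`. -/
abbrev Mq (_d : PTData p S L₀ h₀) (q : ↥S) : TowerMor (towerS S L₀ h₀) (towerLoc q.1 L₀) :=
  TowerMor.filterSub (levelTower L₀) (isSPred S L₀) (isSPred_nonempty h₀) (isSPred_directed S L₀)
    (decompFamily q.1 L₀)

/-- `E → J_q → L_q` along `towerS ⇢ towerLoc q`. -/
def eL (q : ↥S) : HomAlong (d.Mq q) d.E (d.Lq q) where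
  f L := (show Rep.res (decomp q.1 L.1.1).subtype (d.E.C L) ⟶ (d.Lq q).C L.1 from
    (Rep.resFunctor (decomp q.1 L.1.1).subtype).map ((d.eJ q).f L) ≫ d.pr q L)
  comm {L L'} h x := by
    have h1 := d.pr_comm q h (((d.eJ q).f L).hom x)
    have h2 := (d.eJ q).comm_apply h x
    exact (congrArg (fun y => (d.pr q L').hom y) h2).trans h1

lemma eL_apply (q : ↥S) (L : (towerS S L₀ h₀).ι) (x : d.E.C L) :
    ((d.eL q).f L).hom x = (d.pr q L).hom (((d.eJ q).f L).hom x) := rfl

/-- The two Kummer maps are compatible (the `hcompat` hypothesis of Step D). -/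
lemma eL_kappa (q : ↥S) (L : (towerS S L₀ h₀).ι) (m : d.μ.C L.1) :
    ((d.eL q).f L).hom ((d.κ.f L).hom m) =
      ((d.κloc q).f (show (towerLoc q.1 L₀).ι from L.1)).hom m :=
  d.κ_compat q L m

end PTData

end

end Fermat.Agent.CFT.Duality
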