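import Fermat.Agent.Lib.CFT.Duality.TowerMor
import Fermat.Agent.Lib.CFT.Duality.CoindT
import Fermat.Agent.Lib.CFT.Duality.HomToMap
import Fermat.Agent.Lib.CFT.Duality.ThetaLim

/-!
# P4 / Layer D (D-TH3): dimension shifting along a morphism of towers

For a morphism of tower modules `b : B → B'` along a morphism of towers `M` we construct
`b.coindA : coindT B → coindT B'` (`F ↦ b ∘ F ∘ ψ`), `b.upA : upT B → upT B'`, and, for a contravariant
`a : A' → A`, `homA a b : A.homTo B → A'.homTo B'` (`v ↦ b ∘ v ∘ a`), all along `M`.  They form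
morphisms of the short exact sequences `upSES` and of their images under `A.homTo`.
`θ⁰` is natural for `ExtLim.pull`.
-/

set_option autoImplicit false
set_option linter.unusedSectionVars false

open CategoryTheory Abelian

namespace Fermat.Agent.CFT.Duality

noncomputable section

namespace TowerModule

variable {k : Type} [CommRing k] {T₁ T₂ : Tower} {M : TowerMor T₁ T₂}

section Second

variable {B : TowerModule k T₁} {B' : TowerModule k T₂} (b : HomAlong M B B')

/-- `coindT B → coindT B'` along `M`: `F ↦ b ∘ F ∘ ψ`. -/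
def HomAlong.coindA : HomAlong M (coindT B) (coindT B') where
  f i := (show Rep.res (M.ψ i) (Coh.coindBot (B.C i)) ⟶ Coh.coindBot (B'.C (M.u i)) from
    coindBotComp (M.ψ i) (B.C i) ≫ coindBotMap (b.f i))
  comm {i j} h x := coindBot_ext _ fun g => by
    change (b.f j).hom ((B.φ h).hom ((show Coh.coindBot (B.C i) from x).1 (T₁.π h (M.ψ j g)))) =
      (B'.φ (M.mono h)).hom ((b.f i).hom
        ((show Coh.coindBot (B.C i) from x).1 (M.ψ i (T₂.π (M.mono h) g))))
    rw [b.comm h, M.comm h]

lemma HomAlong.coindA_apply (i : T₁.ι) (x : (coindT B).C i) (g : T₂.G (M.u i)) :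
    (show Coh.coindBot (B'.C (M.u i)) from (b.coindA.f i).hom x).1 g =
      (b.f i).hom ((show Coh.coindBot (B.C i) from x).1 (M.ψ i g)) := rfl

/-- `coindA` is compatible with the units. -/
lemma HomAlong.coindA_etaT (i : T₁.ι) (x : B.C i) :
    (b.coindA.f i).hom (((etaT B).f i).hom x) = ((etaT B').f (M.u i)).hom ((b.f i).hom x) :=
  coindBot_ext _ fun g => Rep.hom_comm_apply (b.f i) g x

/-- `upT B → upT B'` along `M`. -/
def HomAlong.upA : HomAlong M (upT B) (upT B') where
  f i := quotRepMap (M.ψ i) (b.coindA.f i) ((etaT B).range.W i) ((etaT B).range.stable_ρ i)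
    ((etaT B').range.W (M.u i)) ((etaT B').range.stable_ρ (M.u i)) (by
      rintro _ ⟨x, rfl⟩
      exact ⟨(b.f i).hom x, (b.coindA_etaT i x).symm⟩)
  comm {i j} h x := by
    induction x using Submodule.Quotient.induction_on with
    | H x =>
      exact congrArg (Submodule.Quotient.mk (p := (etaT B').range.W (M.u j))) (b.coindA.comm h x)

/-- `upA` is compatible with the projections. -/
lemma HomAlong.upA_upProj (i : T₁.ι) (x : (coindT B).C i) :
    (b.upA.f i).hom (((upProj B).f i).hom x) =
      ((upProj B').f (M.u i)).hom ((b.coindA.f i).hom x) := rfl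

end Second

section Homs

variable {A : TowerModule k T₁} [A.IsCartesian] {A' : TowerModule k T₂} [A'.IsCartesian]
  (a : CoHomAlong M A A') {B : TowerModule k T₁} {B' : TowerModule k T₂} (b : HomAlong M B B')

/-- `A.homTo B → A'.homTo B'` along `M`: `v ↦ b ∘ v ∘ a`. -/
def homA : HomAlong M (A.homTo B) (A'.homTo B') where
  f i := (show Rep.res (M.ψ i) (homRep (A.C i) (B.C i)) ⟶ homRep (A'.C (M.u i)) (B'.C (M.u i)) from
    homRepPull (M.ψ i) (a.f i) (b.f i))
  comm {i j} h (v : (A.C i).V →ₗ[k] (B.C i).V) := by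
    apply LinearMap.ext
    intro x
    change (b.f j).hom ((B.φ h).hom (v ((inv (A.φ h)).hom ((a.f j).hom x)))) =
      (B'.φ (M.mono h)).hom ((b.f i).hom (v ((a.f i).hom ((inv (A'.φ (M.mono h))).hom x))))
    rw [a.comm_inv h x, b.comm h]

lemma homA_apply (i : T₁.ι) (v : (A.C i).V →ₗ[k] (B.C i).V) (x : (A'.C (M.u i)).V) :
    (show (A'.C (M.u i)).V →ₗ[k] (B'.C (M.u i)).V from ((homA a b).f i).hom v) x =
      (b.f i).hom (v ((a.f i).hom x)) := rfl

/-- `θ⁰` is natural along morphisms of towers. -/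
theorem theta0Lim_pull (x : ExtLim A B 0) :
    theta0Lim A' B' (ExtLim.pull a b 0 x) =
      ExtLim.pull (CoHomAlong.triv M) (homA a b) 0 (theta0Lim A B x) := by
  induction x using ExtLim.induction_on with
  | h i ξ =>
    rw [ExtLim.pull_of, theta0Lim_of, theta0Lim_of]
    refine Eq.trans ?_ (ExtLim.pull_of (CoHomAlong.triv M) (homA a b) 0 i
      (theta0 (A.C i) (B.C i) ξ)).symm
    exact congrArg (ExtLim.of (triv k T₂) (A'.homTo B') 0 (M.u i))
      (theta0_extPull (M.ψ i) (a.f i) (b.f i) ξ)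

/-- Naturality of the connecting map of `upSES` along morphisms of towers. -/
theorem pull_compRight_upSES_δ (r t : ℕ) (hrs : r + 1 = t) (x : ExtLim A (upT B) r) :
    ExtLim.pull a b t (ExtLim.compRight A (upSES B).δ r t hrs x) =
      ExtLim.compRight A' (upSES B').δ r t hrs (ExtLim.pull a b.upA r x) :=
  ExtLim.pull_compRight_δ a (upSES B) (upSES B') b b.coindA b.upA
    (fun i x => b.coindA_etaT i x) (fun i x => b.upA_upProj i x) r t hrs x

/-- Naturality of the connecting map of `A.homTo (upSES B)` along morphisms of towers. -/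
theorem pull_compRight_homTo_upSES_δ
    (hs : ∀ j, ∃ s : ((upT B).C j).V →ₗ[k] ((coindT B).C j).V,
      ∀ y, ((upSES B).g.f j).hom (s y) = y)
    (hs' : ∀ j, ∃ s : ((upT B').C j).V →ₗ[k] ((coindT B').C j).V,
      ∀ y, ((upSES B').g.f j).hom (s y) = y)
    (r t : ℕ) (hrs : r + 1 = t) (y : HLim (A.homTo (upT B)) r) :
    ExtLim.pull (CoHomAlong.triv M) (homA a b) t
        (ExtLim.compRight (triv k T₁) (homToShortExact A (upSES B) hs).δ r t hrs y) =
      ExtLim.compRight (triv k T₂) (homToShortExact A' (upSES B') hs').δ r t hrs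
        (ExtLim.pull (CoHomAlong.triv M) (homA a b.upA) r y) := by
  refine ExtLim.pull_compRight_δ (CoHomAlong.triv M) (homToShortExact A (upSES B) hs)
    (homToShortExact A' (upSES B') hs') (homA a b) (homA a b.coindA) (homA a b.upA)
    (fun i (v : (A.C i).V →ₗ[k] (B.C i).V) => ?_)
    (fun i (v : (A.C i).V →ₗ[k] ((coindT B).C i).V) => ?_) r t hrs y
  · apply LinearMap.ext
    intro x
    exact b.coindA_etaT i (v ((a.f i).hom x))
  · apply LinearMap.ext
    intro x
    rfl

end Homs

section Naturality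

variable [IsDomain k] [IsPrincipalIdealRing k]
  {A : TowerModule k T₁} [A.IsCartesian] {A' : TowerModule k T₂} [A'.IsCartesian]
  (a : CoHomAlong M A A') {B : TowerModule k T₁} {B' : TowerModule k T₂} (b : HomAlong M B B')
  (p : ℕ) (hfin : ∀ j, Module.Finite k (A.C j).V) (hA : ∀ j (x : A.C j), p • x = 0)
  (hfin' : ∀ j, Module.Finite k (A'.C j).V) (hA' : ∀ j (x : A'.C j), p • x = 0)
  (hB : B.IsPDiv p) (hB' : B'.IsPDiv p)

/-- **`θ¹` is natural along morphisms of towers.** -/
theorem theta1Lim_pull (x : ExtLim A B 1) :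
    theta1Lim A' B' p hfin' hA' hB' (ExtLim.pull a b 1 x) =
      ExtLim.pull (CoHomAlong.triv M) (homA a b) 1 (theta1Lim A B p hfin hA hB x) := by
  obtain ⟨z, rfl⟩ := exists_compRight_δ_eq_one A B p hfin hA hB x
  rw [pull_compRight_upSES_δ a b 0 1 rfl z, theta1Lim_δ, theta1Lim_δ, theta0Lim_pull]
  exact (pull_compRight_homTo_upSES_δ a b _ _ 0 1 rfl (theta0Lim A (upT B) z)).symm

/-- **`θ²` is natural along morphisms of towers.** -/
theorem theta2Lim_pull (x : ExtLim A B 2) :
    theta2Lim A' B' p hfin' hA' hB' (ExtLim.pull a b 2 x) =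
      ExtLim.pull (CoHomAlong.triv M) (homA a b) 2 (theta2Lim A B p hfin hA hB x) := by
  obtain ⟨z, rfl⟩ := exists_compRight_δ_eq_two A B p hfin hA hB x
  rw [pull_compRight_upSES_δ a b 1 2 rfl z, theta2Lim_δ, theta2Lim_δ,
    theta1Lim_pull a b.upA p hfin hA hfin' hA' hB.upT hB'.upT]
  exact (pull_compRight_homTo_upSES_δ a b _ _ 1 2 rfl
    (theta1Lim A (upT B) p hfin hA hB.upT z)).symm

end Naturality

end TowerModule

end

end Fermat.Agent.CFT.Duality
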