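import Fermat.Agent.Lib.CFT.Duality.ExtLimAlong
import Fermat.Agent.Lib.CFT.Duality.ExtLimSeq
import Fermat.Agent.Lib.CFT.Duality.TowerQuot

/-!
# P4 / Layer D (D-TM): morphisms of towers and the induced maps on `ExtLim`

A morphism of towers `M : TowerMor T₁ T₂` is a monotone map of level sets `u : T₁.ι → T₂.ι`
together with group homomorphisms `ψ i : T₂.G (u i) →* T₁.G i` compatible with the transition maps
(think: `T₂` is the tower of a closed subgroup of the profinite group of `T₁`, described on a possibly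
larger set of levels).  Module maps along `M` (covariant `HomAlong`, contravariant `CoHomAlong`)
induce `ExtLim.pull M a b r : ExtLim A B r →+ ExtLim A' B' r`, levelwise `extPull (ψ i) (a i) (b i)`.
Connecting maps of short exact sequences are natural for `pull`.
-/

set_option autoImplicit false
set_option linter.unusedSectionVars false

open CategoryTheory Abelian

namespace Fermat.Agent.CFT.Duality

noncomputable section

/-- A morphism of towers. -/
structure TowerMor (T₁ T₂ : Tower) where
  /-- the map of level sets -/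
  u : T₁.ι → T₂.ι
  mono : Monotone u
  /-- the group homomorphisms -/
  ψ : ∀ i, T₂.G (u i) →* T₁.G i
  comm : ∀ {i j : T₁.ι} (h : i ≤ j) (g : T₂.G (u j)), ψ i (T₂.π (mono h) g) = T₁.π h (ψ j g)

namespace TowerMor

/-- The identity morphism. -/
def id (T : Tower) : TowerMor T T where
  u := _root_.id
  mono := monotone_id
  ψ i := MonoidHom.id (T.G i)
  comm _ _ := rfl

variable {T₁ T₂ : Tower} (M : TowerMor T₁ T₂)

lemma comm' {i j : T₁.ι} (h : i ≤ j) :
    (T₁.π h).comp (M.ψ j) = (M.ψ i).comp (T₂.π (M.mono h)) :=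
  MonoidHom.ext fun g => (M.comm h g).symm

/-- Composition of morphisms of towers. -/
def comp {T₃ : Tower} (N : TowerMor T₂ T₃) : TowerMor T₁ T₃ where
  u := N.u ∘ M.u
  mono := N.mono.comp M.mono
  ψ i := (M.ψ i).comp (N.ψ (M.u i))
  comm {i j} h g := by
    change M.ψ i (N.ψ (M.u i) (T₃.π (N.mono (M.mono h)) g)) = T₁.π h (M.ψ j (N.ψ (M.u j) g))
    rw [N.comm (M.mono h) g, M.comm h]

end TowerMor

namespace TowerModule

variable {k : Type} [CommRing k] {T₁ T₂ : Tower} (M : TowerMor T₁ T₂)

/-- A (covariant) morphism of tower modules along a morphism of towers. -/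
structure HomAlong (B : TowerModule k T₁) (B' : TowerModule k T₂) where
  /-- the morphism at each level -/
  f : ∀ i, Rep.res (M.ψ i) (B.C i) ⟶ B'.C (M.u i)
  comm : ∀ {i j : T₁.ι} (h : i ≤ j) (x : B.C i),
    (f j).hom ((B.φ h).hom x) = (B'.φ (M.mono h)).hom ((f i).hom x)

/-- A contravariant morphism of tower modules along a morphism of towers (for the first variable
of `ExtLim`). -/
structure CoHomAlong (A : TowerModule k T₁) (A' : TowerModule k T₂) where
  /-- the morphism at each level -/
  f : ∀ i, A'.C (M.u i) ⟶ Rep.res (M.ψ i) (A.C i)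
  comm : ∀ {i j : T₁.ι} (h : i ≤ j) (x : A'.C (M.u i)),
    (f j).hom ((A'.φ (M.mono h)).hom x) = (A.φ h).hom ((f i).hom x)

variable {M}

lemma CoHomAlong.comm_inv {A : TowerModule k T₁} {A' : TowerModule k T₂} [A.IsCartesian]
    [A'.IsCartesian] (a : CoHomAlong M A A') {i j : T₁.ι} (h : i ≤ j) (x : A'.C (M.u j)) :
    (inv (A.φ h)).hom ((a.f j).hom x) = (a.f i).hom ((inv (A'.φ (M.mono h))).hom x) := by
  have h1 := a.comm h ((inv (A'.φ (M.mono h))).hom x)
  rw [A'.φ_inv_φ] at h1
  rw [h1, A.inv_φ_φ]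

section Pull

variable {A B : TowerModule k T₁} [A.IsCartesian] {A' B' : TowerModule k T₂} [A'.IsCartesian]
  (a : CoHomAlong M A A') (b : HomAlong M B B') (r : ℕ)

lemma extPull_extTrans_along {i j : T₁.ι} (h : i ≤ j) (ξ : Ext (A.C i) (B.C i) r) :
    extPull (M.ψ j) (a.f j) (b.f j) r (extTrans A B r h ξ) =
      extTrans A' B' r (M.mono h) (extPull (M.ψ i) (a.f i) (b.f i) r ξ) := by
  unfold extTrans
  rw [extPull_comp, extPull_comp]
  refine extPull_congr (M.comm' h) _ _ _ _ (fun x => ?_) (fun x => ?_) r ξ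
  · exact a.comm_inv h x
  · exact b.comm h x

/-- The map on `ExtLim` induced by module maps along a morphism of towers. -/
def ExtLim.pull : ExtLim A B r →+ ExtLim A' B' r :=
  ExtLim.mapAlong A B r A' B' r M.u M.mono (fun i => extPull (M.ψ i) (a.f i) (b.f i) r)
    (fun h ξ => extPull_extTrans_along a b r h ξ)

@[simp] lemma ExtLim.pull_of (i : T₁.ι) (ξ : Ext (A.C i) (B.C i) r) :
    ExtLim.pull a b r (ExtLim.of A B r i ξ) =
      ExtLim.of A' B' r (M.u i) (extPull (M.ψ i) (a.f i) (b.f i) r ξ) :=
  ExtLim.mapAlong_of A B r A' B' r M.u M.mono _ _ i ξ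

end Pull

section Families

variable {A : TowerModule k T₁} [A.IsCartesian] {A' : TowerModule k T₂} [A'.IsCartesian]
  (a : CoHomAlong M A A') {B₁ B₃ : TowerModule k T₁} {B₁' B₃' : TowerModule k T₂}
  (b₁ : HomAlong M B₁ B₁') (b₃ : HomAlong M B₃ B₃')

/-- `pull` commutes with composition with compatible families of `Ext` classes which correspond to
each other along the morphism of towers. -/
theorem ExtLim.pull_compRight {s : ℕ} (c : ExtFamily B₃ B₁ s) (c' : ExtFamily B₃' B₁' s)
    (hc : ∀ i, ((c.c i).mapExactFunctor (Rep.resFunctor (M.ψ i))).comp (Ext.mk₀ (b₁.f i))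
        (add_zero s) = (Ext.mk₀ (b₃.f i)).comp (c'.c (M.u i)) (zero_add s))
    (r t : ℕ) (hrs : r + s = t) (x : ExtLim A B₃ r) :
    ExtLim.pull a b₁ t (ExtLim.compRight A c r t hrs x) =
      ExtLim.compRight A' c' r t hrs (ExtLim.pull a b₃ r x) := by
  induction x using ExtLim.induction_on with
  | h i ξ =>
    rw [ExtLim.compRight_of, ExtLim.pull_of, ExtLim.pull_of, ExtLim.compRight_of]
    congr 1
    subst hrs
    simp only [extPull_apply, Ext.mapExactFunctor_comp]
    rw [Ext.comp_assoc _ _ _ rfl (add_zero s) (by omega), hc i,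
      Ext.comp_assoc _ _ _ (zero_add r) rfl (by omega),
      Ext.comp_assoc _ _ _ (add_zero r) (zero_add s) (by omega)]

end Families

section Delta

variable {A : TowerModule k T₁} [A.IsCartesian] {A' : TowerModule k T₂} [A'.IsCartesian]
  (a : CoHomAlong M A A') {B₁ B₂ B₃ : TowerModule k T₁} {B₁' B₂' B₃' : TowerModule k T₂}
  (S : ShortExact B₁ B₂ B₃) (S' : ShortExact B₁' B₂' B₃')
  (b₁ : HomAlong M B₁ B₁') (b₂ : HomAlong M B₂ B₂') (b₃ : HomAlong M B₃ B₃')

/-- **Naturality of the connecting maps** along a morphism of towers. -/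
theorem ExtLim.pull_compRight_δ
    (hf : ∀ i (x : B₁.C i), (b₂.f i).hom ((S.f.f i).hom x) = (S'.f.f (M.u i)).hom ((b₁.f i).hom x))
    (hg : ∀ i (x : B₂.C i), (b₃.f i).hom ((S.g.f i).hom x) = (S'.g.f (M.u i)).hom ((b₂.f i).hom x))
    (r t : ℕ) (hrs : r + 1 = t) (x : ExtLim A B₃ r) :
    ExtLim.pull a b₁ t (ExtLim.compRight A S.δ r t hrs x) =
      ExtLim.compRight A' S'.δ r t hrs (ExtLim.pull a b₃ r x) := by
  refine ExtLim.pull_compRight a b₁ b₃ S.δ S'.δ (fun i => ?_) r t hrs x
  change (((S.exact i).extClass).mapExactFunctor (Rep.resFunctor (M.ψ i))).comp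
    (Ext.mk₀ (b₁.f i)) (add_zero 1) = (Ext.mk₀ (b₃.f i)).comp (S'.exact (M.u i)).extClass
      (zero_add 1)
  rw [Ext.mapExactFunctor_extClass]
  let m : (S.sc i).map (Rep.resFunctor (M.ψ i)) ⟶ S'.sc (M.u i) :=
    { τ₁ := b₁.f i
      τ₂ := b₂.f i
      τ₃ := b₃.f i
      comm₁₂ := by
        ext x
        exact (hf i x).symm
      comm₂₃ := by
        ext x
        exact (hg i x).symm }
  exact ShortComplex.ShortExact.extClass_naturality
    ((S.exact i).map_of_exact (Rep.resFunctor (M.ψ i))) (S'.exact (M.u i)) m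

end Delta

/-! ### Composition -/

section Comp

variable {T₃ : Tower} {N : TowerMor T₂ T₃}

/-- Composition of covariant morphisms along morphisms of towers. -/
def HomAlong.comp {B : TowerModule k T₁} {B' : TowerModule k T₂} {B'' : TowerModule k T₃}
    (b : HomAlong M B B') (b' : HomAlong N B' B'') : HomAlong (M.comp N) B B'' where
  f i := (Rep.resFunctor (N.ψ (M.u i))).map (b.f i) ≫ b'.f (M.u i)
  comm {i j} h x := by
    change (b'.f (M.u j)).hom ((b.f j).hom ((B.φ h).hom x)) =
      (B''.φ (N.mono (M.mono h))).hom ((b'.f (M.u i)).hom ((b.f i).hom x))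
    rw [b.comm h x, b'.comm (M.mono h)]

/-- Composition of contravariant morphisms along morphisms of towers. -/
def CoHomAlong.comp {A : TowerModule k T₁} {A' : TowerModule k T₂} {A'' : TowerModule k T₃}
    (a : CoHomAlong M A A') (a' : CoHomAlong N A' A'') : CoHomAlong (M.comp N) A A'' where
  f i := a'.f (M.u i) ≫ (Rep.resFunctor (N.ψ (M.u i))).map (a.f i)
  comm {i j} h x := by
    change (a.f j).hom ((a'.f (M.u j)).hom ((A''.φ (N.mono (M.mono h))).hom x)) =
      (A.φ h).hom ((a.f i).hom ((a'.f (M.u i)).hom x))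
    rw [a'.comm (M.mono h) x, a.comm h]

theorem ExtLim.pull_comp {A B : TowerModule k T₁} [A.IsCartesian] {A' B' : TowerModule k T₂}
    [A'.IsCartesian] {A'' B'' : TowerModule k T₃} [A''.IsCartesian] (a : CoHomAlong M A A')
    (b : HomAlong M B B') (a' : CoHomAlong N A' A'') (b' : HomAlong N B' B'') (r : ℕ)
    (x : ExtLim A B r) :
    ExtLim.pull a' b' r (ExtLim.pull a b r x) = ExtLim.pull (a.comp a') (b.comp b') r x := by
  induction x using ExtLim.induction_on with
  | h i ξ =>
    rw [ExtLim.pull_of, ExtLim.pull_of, ExtLim.pull_of, extPull_comp]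
    rfl

end Comp

/-! ### Special cases -/

/-- The trivial module, contravariantly along any morphism of towers. -/
def CoHomAlong.triv (M : TowerMor T₁ T₂) : CoHomAlong M (triv k T₁) (triv k T₂) where
  f i := 𝟙 (Rep.trivial k (T₂.G (M.u i)) k)
  comm _ _ := rfl

/-- The identity, contravariantly along the identity of a tower. -/
def CoHomAlong.id {T : Tower} (A : TowerModule k T) : CoHomAlong (TowerMor.id T) A A where
  f i := 𝟙 (A.C i)
  comm _ _ := rfl

/-- A morphism of tower modules as a morphism along the identity. -/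
def HomAlong.ofHom {T : Tower} {B B' : TowerModule k T} (f : B.Hom B') :
    HomAlong (TowerMor.id T) B B' where
  f i := f.f i
  comm h x := f.comm_apply h x

/-- `mapRight` is a `pull` along the identity. -/
theorem ExtLim.pull_id_ofHom {T : Tower} (A : TowerModule k T) [A.IsCartesian]
    {B B' : TowerModule k T} (f : B.Hom B') (r : ℕ) (x : ExtLim A B r) :
    ExtLim.pull (CoHomAlong.id A) (HomAlong.ofHom f) r x = ExtLim.mapRight A f r x := by
  induction x using ExtLim.induction_on with
  | h i ξ =>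
    rw [ExtLim.pull_of, ExtLim.mapRight_of]
    congr 1
    change extPull (MonoidHom.id _) (𝟙 (A.C i)) (f.f i) r ξ = _
    rw [extPull_apply, mapExactFunctor_res_id]
    exact Ext.mk₀_id_comp _

/-! ### Congruence, composition with morphisms over a fixed tower -/

section Congr

variable {A B : TowerModule k T₁} [A.IsCartesian] {A' B' : TowerModule k T₂} [A'.IsCartesian]

/-- `pull` only depends on the underlying functions. -/
theorem ExtLim.pull_congr (a a' : CoHomAlong M A A') (b b' : HomAlong M B B')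
    (ha : ∀ i x, (a.f i).hom x = (a'.f i).hom x) (hb : ∀ i x, (b.f i).hom x = (b'.f i).hom x)
    (r : ℕ) (x : ExtLim A B r) : ExtLim.pull a b r x = ExtLim.pull a' b' r x := by
  induction x using ExtLim.induction_on with
  | h i ξ =>
    rw [ExtLim.pull_of, ExtLim.pull_of]
    exact congrArg _ (extPull_congr rfl _ _ _ _ (ha i) (hb i) r ξ)

/-- Precomposition of a morphism along `M` with a morphism over `T₁`. -/
def HomAlong.precomp {B₀ : TowerModule k T₁} (f : B₀.Hom B) (b : HomAlong M B B') :
    HomAlong M B₀ B' where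
  f i := (Rep.resFunctor (M.ψ i)).map (f.f i) ≫ b.f i
  comm {i j} h x := by
    change (b.f j).hom ((f.f j).hom ((B₀.φ h).hom x)) =
      (B'.φ (M.mono h)).hom ((b.f i).hom ((f.f i).hom x))
    rw [f.comm_apply h x, b.comm h]

/-- Postcomposition of a morphism along `M` with a morphism over `T₂`. -/
def HomAlong.postcomp {B'' : TowerModule k T₂} (b : HomAlong M B B') (f : B'.Hom B'') :
    HomAlong M B B'' where
  f i := b.f i ≫ f.f (M.u i)
  comm {i j} h x := by
    change (f.f (M.u j)).hom ((b.f j).hom ((B.φ h).hom x)) =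
      (B''.φ (M.mono h)).hom ((f.f (M.u i)).hom ((b.f i).hom x))
    rw [b.comm h x, f.comm_apply (M.mono h)]

theorem ExtLim.pull_mapRight {B₀ : TowerModule k T₁} (a : CoHomAlong M A A') (f : B₀.Hom B)
    (b : HomAlong M B B') (r : ℕ) (x : ExtLim A B₀ r) :
    ExtLim.pull a b r (ExtLim.mapRight A f r x) = ExtLim.pull a (b.precomp f) r x := by
  induction x using ExtLim.induction_on with
  | h i ξ =>
    rw [ExtLim.mapRight_of, ExtLim.pull_of, ExtLim.pull_of]
    congr 1
    simp only [extPull_apply, Ext.mapExactFunctor_comp, Ext.mapExactFunctor_mk₀]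
    rw [Ext.comp_assoc_of_third_deg_zero, Ext.mk₀_comp_mk₀]
    rfl

theorem ExtLim.mapRight_pull {B'' : TowerModule k T₂} (a : CoHomAlong M A A')
    (b : HomAlong M B B') (f : B'.Hom B'') (r : ℕ) (x : ExtLim A B r) :
    ExtLim.mapRight A' f r (ExtLim.pull a b r x) = ExtLim.pull a (b.postcomp f) r x := by
  induction x using ExtLim.induction_on with
  | h i ξ =>
    rw [ExtLim.pull_of, ExtLim.mapRight_of, ExtLim.pull_of]
    congr 1
    simp only [extPull_apply]
    rw [Ext.comp_assoc_of_third_deg_zero, Ext.comp_assoc_of_third_deg_zero, Ext.mk₀_comp_mk₀]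
    rfl

end Congr

end TowerModule

end

end Fermat.Agent.CFT.Duality
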