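import Fermat.Agent.Lib.CFT.Duality.CohLim
import Fermat.Agent.Lib.CFT.Duality.IntCoeff
import Fermat.Agent.Lib.CFT.Duality.Cofinal
import Fermat.Agent.Lib.CFT.Duality.ExtLim

/-!
# P4 / Layer D (D-FINAL, part 1): the tower module of a Galois representation

For `M : Rep k G_ℚ` trivial on `Gal(ℚ̄/L₀)`:

* `towerOf M L₀ hM : TowerModule ℤ (levelTower L₀)`, with levels `intRep (atLevel M L)`; it is
  cartesian;
* `cohLimGlobEquiv` : `colim_{S-levels ≥ L₀} H^n(G_L, M) ≃+ HS M S n`;
* `cohLimLocEquiv` : `colim_{levels ≥ L₀} H^n(D_q(L), M) ≃+ Hloc M q n`;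
* compatibility with the localisation maps, and `ShaCoh ≃ ShaInt`   (for `n = 1, 2`).
-/

set_option autoImplicit false

open CategoryTheory groupCohomology

namespace Fermat.Agent.CFT.Duality

noncomputable section

variable {k : Type} [CommRing k]

/-- A natural identification of `H^n` with `k` and with `ℤ` coefficients. -/
structure IntIso (k : Type) [CommRing k] (n : ℕ) where
  /-- the isomorphism -/
  e : ∀ {G : Type} [Group G] (A : Rep.{0} k G), groupCohomology A n ≃+ groupCohomology (intRep A) n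
  nat : ∀ {G H : Type} [Group G] [Group H] (f : H →* G) (A : Rep.{0} k G) (B : Rep.{0} k H)
    (φ : Rep.res f A ⟶ B) (x : groupCohomology A n),
    e B ((groupCohomology.map f φ n).hom x)
      = (groupCohomology.map f (intHomRes f φ) n).hom (e A x)

/-- Degree 1. -/
def intIso₁ : IntIso k 1 := ⟨fun A => h1Int A, fun f A B φ x => h1Int_map f A B φ x⟩

/-- Degree 2. -/
def intIso₂ : IntIso k 2 := ⟨fun A => h2Int A, fun f A B φ x => h2Int_map f A B φ x⟩

variable (M : Rep.{0} k GQ) (L₀ : Level) (hM : TrivialOn M L₀)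

/-- The tower module of `M` over the levels above `L₀`. -/
def towerOf : TowerModule ℤ (levelTower L₀) where
  C := fun (L : {L : Level // L₀ ≤ L}) => intRep (atLevel M L.1 (hM.mono L.2))
  φ := fun {L L' : {L : Level // L₀ ≤ L}} h =>
    intHomRes (Level.map h) (inflHom M h (hM.mono L.2) (hM.mono L'.2))
  φ_refl _ _ := rfl
  φ_comp _ _ _ := rfl

@[simp] lemma towerOf_φ_apply {L L' : (levelTower L₀).ι} (h : L ≤ L') (x : M.V) :
    ((towerOf M L₀ hM).φ h).hom x = x := rfl

/-- The inverse of the transition map of `towerOf`. -/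
def towerOfInv {L L' : (levelTower L₀).ι} (h : L ≤ L') :
    (towerOf M L₀ hM).C L' ⟶ Rep.res ((levelTower L₀).π h) ((towerOf M L₀ hM).C L) :=
  Rep.ofHom ⟨LinearMap.id, fun g => by
    obtain ⟨g, rfl⟩ := L'.1.proj_surjective g
    rfl⟩

instance : (towerOf M L₀ hM).IsCartesian where
  isIso {L L'} h := ⟨towerOfInv M L₀ hM h, by ext x; rfl, by ext x; rfl⟩

/-! ## The global comparison -/

section glob

variable (S : Finset Nat.Primes) (h₀ : L₀.IsS S) {n : ℕ} (I : IntIso k n)

/-- The `S`-levels above `L₀`, as levels on which `M` is defined. -/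
def globIdx (a : (towerS S L₀ h₀).ι) : LevelS M S := ⟨a.1.1, a.2, hM.mono a.1.2⟩

lemma globIdx_mono : Monotone (globIdx M L₀ hM S h₀) := fun _ _ h => h

lemma globIdx_cofinal (L : LevelS M S) : ∃ a, L ≤ globIdx M L₀ hM S h₀ a :=
  ⟨⟨⟨L.1 ⊔ L₀, le_sup_right⟩, Level.IsS.sup L.2.1 h₀⟩, le_sup_left (a := L.1)⟩

/-- The tower module of `M` over the `S`-levels. -/
abbrev towerOfS : TowerModule ℤ (towerS S L₀ h₀) :=
  (towerOf M L₀ hM).filter (isSPred S L₀) (isSPred_nonempty h₀) (isSPred_directed S L₀)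

lemma intIso_symm_nat {G H : Type} [Group G] [Group H] (f : H →* G) (A : Rep.{0} k G)
    (B : Rep.{0} k H) (φ : Rep.res f A ⟶ B) (x : groupCohomology (intRep A) n) :
    (I.e B).symm ((groupCohomology.map f (intHomRes f φ) n).hom x)
      = (groupCohomology.map f φ n).hom ((I.e A).symm x) := by
  rw [AddEquiv.symm_apply_eq, I.nat, AddEquiv.apply_symm_apply]

open Classical in
/-- `colim_{S-levels ≥ L₀} H^n(G_L, M) ≃+ HS M S n`. -/
def cohLimGlobEquiv : (towerOfS M L₀ hM S h₀).CohLim n ≃+ HS M S n :=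
  mixedCofinalEquiv (R := k) (R' := ℤ) (globSys M S n) (globSysMap M S n)
    ((towerOfS M L₀ hM S h₀).cohSys n) ((towerOfS M L₀ hM S h₀).cohSysMap n)
    (globIdx M L₀ hM S h₀) (globIdx_mono M L₀ hM S h₀) (globIdx_cofinal M L₀ hM S h₀)
    (fun a => (I.e (atLevel M a.1.1 (hM.mono a.1.2))).symm)
    (fun a b h x => intIso_symm_nat I (Level.map h) _ _
      (inflHom M h (hM.mono a.1.2) (hM.mono b.1.2)) x)

open Classical in
lemma cohLimGlobEquiv_of (a : (towerS S L₀ h₀).ι) (x : (towerOfS M L₀ hM S h₀).cohSys n a) :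
    cohLimGlobEquiv M L₀ hM S h₀ I (TowerModule.CohLim.of (towerOfS M L₀ hM S h₀) n a x)
      = HS.of M S n (globIdx M L₀ hM S h₀ a) ((I.e (atLevel M a.1.1 (hM.mono a.1.2))).symm x) :=
  mixedCofinalEquiv_of _ _ _ _ _ _ _ _ _ a x

end glob

/-! ## The local comparison -/

section locSystem

variable (q : Nat.Primes) (n : ℕ)

lemma decompMap_refl (L : Level) : decompMap q (le_refl L) = MonoidHom.id (decomp q L) := by
  ext g
  have := Level.map_refl L
  exact congrArg (fun f => f g.1) this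

lemma decompMap_comp {L L' L'' : Level} (h : L ≤ L') (h' : L' ≤ L'') :
    (decompMap q h).comp (decompMap q h') = decompMap q (h.trans h') := by
  ext g
  have := Level.map_comp h h'
  exact congrArg (fun f => f g.1) this

lemma inflLoc_refl (L : Level) (hL : TrivialOn M L) :
    inflLoc M q n (le_refl L) hL hL = LinearMap.id := by
  have h := groupCohomology.map_id (B := atDecomp M q L hL) (n := n)
  have h2 : groupCohomology.map (decompMap q (le_refl L)) (inflLocHom M q (le_refl L) hL hL) n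
      = groupCohomology.map (MonoidHom.id (decomp q L)) (𝟙 (atDecomp M q L hL)) n :=
    groupCohomology.map_congr (decompMap_refl q L) rfl n
  unfold inflLoc
  rw [h2, h]
  rfl

lemma inflLoc_comp {L L' L'' : Level} (h : L ≤ L') (h' : L' ≤ L'') (hL : TrivialOn M L)
    (hL' : TrivialOn M L') (hL'' : TrivialOn M L'') :
    (inflLoc M q n h' hL' hL'').comp (inflLoc M q n h hL hL')
      = inflLoc M q n (h.trans h') hL hL'' := by
  have h1 := groupCohomology.map_comp (decompMap q h) (decompMap q h') (inflLocHom M q h hL hL')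
    (inflLocHom M q h' hL' hL'') n
  have h2 : groupCohomology.map ((decompMap q h).comp (decompMap q h'))
      ((Rep.resFunctor (decompMap q h')).map (inflLocHom M q h hL hL')
        ≫ inflLocHom M q h' hL' hL'') n
      = groupCohomology.map (decompMap q (h.trans h')) (inflLocHom M q (h.trans h') hL hL'') n :=
    groupCohomology.map_congr (decompMap_comp q h h') rfl n
  unfold inflLoc
  rw [← h2, h1]
  rfl

instance : DirectedSystem (locSys M q n) (fun L L' h => locSysMap M q n L L' h) where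
  map_self L x := by
    change inflLoc M q n (le_refl L.1) L.2 L.2 x = x
    rw [inflLoc_refl]; rfl
  map_map L'' L' L h h' x := by
    change inflLoc M q n h' L'.2 L''.2 (inflLoc M q n h L.2 L'.2 x)
      = inflLoc M q n (h.trans h') L.2 L''.2 x
    rw [← inflLoc_comp M q n h h' L.2 L'.2 L''.2]; rfl

end locSystem

section loc

variable (q : Nat.Primes) {n : ℕ} (I : IntIso k n)

/-- The levels above `L₀`, as levels on which `M` is defined. -/
def locIdx (a : (towerLoc q L₀).ι) : LevelA M := ⟨a.1, hM.mono a.2⟩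

lemma locIdx_mono : Monotone (locIdx M L₀ hM q) := fun _ _ h => h

lemma locIdx_cofinal (L : LevelA M) : ∃ a, L ≤ locIdx M L₀ hM q a :=
  ⟨⟨L.1 ⊔ L₀, le_sup_right⟩, le_sup_left (a := L.1)⟩

/-- The tower module of `M` over the local tower at `q`. -/
abbrev towerOfLoc : TowerModule ℤ (towerLoc q L₀) :=
  (towerOf M L₀ hM).resSub (decompFamily q L₀)

open Classical in
/-- `colim_{levels ≥ L₀} H^n(D_q(L), M) ≃+ Hloc M q n`. -/
def cohLimLocEquiv : (towerOfLoc M L₀ hM q).CohLim n ≃+ Hloc M q n :=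
  mixedCofinalEquiv (R := k) (R' := ℤ) (locSys M q n) (locSysMap M q n)
    ((towerOfLoc M L₀ hM q).cohSys n) ((towerOfLoc M L₀ hM q).cohSysMap n)
    (locIdx M L₀ hM q) (locIdx_mono M L₀ hM q) (locIdx_cofinal M L₀ hM q)
    (fun a => (I.e (atDecomp M q a.1 (hM.mono a.2))).symm)
    (fun a b h x => intIso_symm_nat I (decompMap q h) _ _
      (inflLocHom M q h (hM.mono a.2) (hM.mono b.2)) x)

open Classical in
lemma cohLimLocEquiv_of (a : (towerLoc q L₀).ι) (x : (towerOfLoc M L₀ hM q).cohSys n a) :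
    cohLimLocEquiv M L₀ hM q I (TowerModule.CohLim.of (towerOfLoc M L₀ hM q) n a x)
      = Hloc.of M q n (locIdx M L₀ hM q a) ((I.e (atDecomp M q a.1 (hM.mono a.2))).symm x) :=
  mixedCofinalEquiv_of _ _ _ _ _ _ _ _ _ a x

end loc

/-! ## Localisation and Tate–Shafarevich groups -/

section sha

variable (S : Finset Nat.Primes) (h₀ : L₀.IsS S) {n : ℕ} (I : IntIso k n)

open Classical in
lemma locMap_HS_of (q : Nat.Primes) (L : LevelS M S) (x : globSys M S n L) :
    locMap M S q n (HS.of M S n L x) = Hloc.of M q n L.toA (resDecomp M q n L.1 L.2.2 x) :=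
  Module.DirectLimit.lift_of (R := k) (ι := LevelS M S) (G := globSys M S n)
    (f := globSysMap M S n) _ _ x

/-- The localisation maps correspond under the two comparison isomorphisms. -/
theorem cohLimLocEquiv_cohLoc (q : Nat.Primes) (x : (towerOfS M L₀ hM S h₀).CohLim n) :
    cohLimLocEquiv M L₀ hM q I
        (cohLoc (isSPred S L₀) (isSPred_nonempty h₀) (isSPred_directed S L₀)
          (decompFamily q L₀) (towerOf M L₀ hM) n x)
      = locMap M S q n (cohLimGlobEquiv M L₀ hM S h₀ I x) := by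
  obtain ⟨a, y, rfl⟩ := TowerModule.CohLim.exists_of _ _ x
  rw [cohLoc_of, cohLimLocEquiv_of, cohLimGlobEquiv_of, locMap_HS_of]
  have h1 := intIso_symm_nat I (decomp q a.1.1).subtype (atLevel M a.1.1 (hM.mono a.1.2))
    (atDecomp M q a.1.1 (hM.mono a.1.2)) (𝟙 (atDecomp M q a.1.1 (hM.mono a.1.2))) y
  exact congrArg (Hloc.of M q n (locIdx M L₀ hM q a.1)) h1

/-- The abstract Tate–Shafarevich group of the tower module of `M`. -/
abbrev shaCohOf :=
  ShaCoh (isSPred S L₀) (isSPred_nonempty h₀) (isSPred_directed S L₀) (towerOf M L₀ hM) n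
    (fun q : ↥S => decompFamily q.1 L₀)

lemma mem_ShaInt_iff (x : HS M S n) :
    x ∈ ShaInt M S n ↔ ∀ q : ↥S, locMap M S q.1 n x = 0 := by
  unfold ShaInt locTotalInt
  rw [LinearMap.mem_ker]
  constructor
  · intro h q
    exact congrFun h q
  · intro h
    funext q
    exact h q

lemma mem_shaCohOf_iff (x : (towerOfS M L₀ hM S h₀).CohLim n) :
    x ∈ shaCohOf M L₀ hM S h₀ (n := n) ↔ cohLimGlobEquiv M L₀ hM S h₀ I x ∈ ShaInt M S n := by
  rw [mem_ShaCoh_iff, mem_ShaInt_iff]
  constructor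
  · intro h q
    rw [← cohLimLocEquiv_cohLoc M L₀ hM S h₀ I q.1 x, h q, map_zero]
  · intro h q
    have hq := h q
    rw [← cohLimLocEquiv_cohLoc M L₀ hM S h₀ I q.1 x] at hq
    exact (cohLimLocEquiv M L₀ hM q.1 I).injective (hq.trans (map_zero _).symm)

/-- `ShaCoh ≃ ShaInt`. -/
def shaCohEquiv : shaCohOf M L₀ hM S h₀ (n := n) ≃ ShaInt M S n :=
  (cohLimGlobEquiv M L₀ hM S h₀ I).toEquiv.subtypeEquiv (mem_shaCohOf_iff M L₀ hM S h₀ I)

end sha

end

end Fermat.Agent.CFT.Duality
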